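import Fermat.Agent.RT.Frobenius
import Fermat.Agent.Local.Place

/-!
# Places of `ℚ̄` over a prime: conjugacy, and Frobenius elements
-/

set_option autoImplicit false

open scoped Pointwise

namespace FermatAgent.TW

open FermatAgent.RT FermatAgent.Local

noncomputable section

local notation "Qb" => AlgebraicClosure ℚ
local notation "GQ" => AlgebraicClosure ℚ ≃ₐ[ℚ] AlgebraicClosure ℚ
local notation "ZB" => integralClosure ℤ (AlgebraicClosure ℚ)

attribute [local instance] isGalois_algClosureRat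

theorem continuousSMul_intClosure : letI : TopologicalSpace ZB := ⊥; ContinuousSMul GQ ZB := by
  let : TopologicalSpace ZB := ⊥
  have : DiscreteTopology ZB := ⟨rfl⟩
  rw [continuousSMul_iff_stabilizer_isOpen]
  intro b
  have : FiniteDimensional ℚ (IntermediateField.adjoin ℚ {(b : Qb)}) :=
    IntermediateField.adjoin.finiteDimensional (isGalois_algClosureRat.to_normal.isIntegral _)
  refine Subgroup.isOpen_mono ?_
    (IntermediateField.fixingSubgroup_isOpen (IntermediateField.adjoin ℚ {(b : Qb)}))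
  intro g hg
  exact Subtype.ext (hg ⟨b, IntermediateField.mem_adjoin_simple_self ℚ (b : Qb)⟩)

theorem mem_inertia_iff {A : ValuationSubring Qb} {σ : GQ} :
    σ ∈ A.inertiaSubgroupIn ℚ ↔
      σ ∈ A.decompositionSubgroup ℚ ∧ ∀ z ∈ A, A.valuation (σ z - z) < 1 := by
  refine ⟨fun h => ⟨mem_decomposition_of_inertia h, fun z hz => inertia_val_sub_lt_one h hz⟩, ?_⟩
  rintro ⟨hd, h⟩
  refine ⟨⟨σ, hd⟩, ?_, rfl⟩
  rw [SetLike.mem_coe, ValuationSubring.inertiaSubgroup, MonoidHom.mem_ker]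
  refine RingEquiv.ext fun x => ?_
  obtain ⟨⟨x, hx⟩, rfl⟩ := IsLocalRing.residue_surjective x
  show (⟨σ, hd⟩ : A.decompositionSubgroup ℚ) • IsLocalRing.residue A ⟨x, hx⟩ = _
  rw [← IsLocalRing.ResidueField.residue_smul, RingAut.one_apply, ← sub_eq_zero, ← map_sub,
    IsLocalRing.residue_eq_zero_iff]
  exact (A.valuation_lt_one_iff _).2 (h x hx)

theorem mem_smul_iff {A : ValuationSubring Qb} {g : GQ} {x : Qb} :
    x ∈ g • A ↔ g⁻¹ x ∈ A :=
  ValuationSubring.mem_pointwise_smul_iff_inv_smul_mem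

theorem val_lt_one_iff_mem {A : ValuationSubring Qb} {x : Qb} :
    A.valuation x < 1 ↔ x = 0 ∨ x⁻¹ ∉ A := by
  rcases eq_or_ne x 0 with rfl | hx
  · simp
  · simp only [hx, false_or]
    rw [← A.valuation_le_one_iff, map_inv₀, not_le,
      one_lt_inv₀ (zero_lt_iff.2 ((map_ne_zero _).2 hx))]

theorem smul_liesOverPrime {A : ValuationSubring Qb} {ℓ : ℕ} (hA : A.LiesOverPrime ℓ) (g : GQ) :
    (g • A).LiesOverPrime ℓ := by
  have h : A.valuation (ℓ : Qb) < 1 := hA
  show (g • A).valuation (ℓ : Qb) < 1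
  rw [val_lt_one_iff_mem, mem_smul_iff] at *
  simpa using h

theorem mem_centre_smul {A : ValuationSubring Qb} {g : GQ} {b : ZB} :
    b ∈ centre (g • A) ↔ g⁻¹ • b ∈ centre A := by
  rw [mem_centre_iff, mem_centre_iff]
  show (g • A).valuation (b : Qb) < 1 ↔ A.valuation (g⁻¹ (b : Qb)) < 1
  rw [val_lt_one_iff_mem, val_lt_one_iff_mem, mem_smul_iff]
  simp

/-- A place over a prime is determined by its centre. -/
theorem le_of_centre_eq {A B : ValuationSubring Qb} {ℓ : ℕ} (hℓ : ℓ.Prime)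
    (hA : A.LiesOverPrime ℓ) (h : centre A = centre B) : A ≤ B := by
  intro x hx
  obtain ⟨a, s, hs, e⟩ := exists_mul_eq_of_mem hℓ hA hx
  have hsB : IsUnit (intClosureToPlace B s) := by
    by_contra hn
    exact hs (h ▸ hn)
  obtain ⟨v, hv⟩ := hsB.exists_right_inv
  have hv' : (s : Qb) * (v : Qb) = 1 := congrArg Subtype.val hv
  have : x = (a : Qb) * (v : Qb) := by rw [← e, mul_assoc, hv', mul_one]
  rw [this]
  exact mul_mem (mem_of_isIntegral_int B a.2) v.2

theorem eq_of_centre_eq {A B : ValuationSubring Qb} {ℓ : ℕ} (hℓ : ℓ.Prime)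
    (hA : A.LiesOverPrime ℓ) (hB : B.LiesOverPrime ℓ) (h : centre A = centre B) : A = B :=
  le_antisymm (le_of_centre_eq hℓ hA h) (le_of_centre_eq hℓ hB h.symm)

/-- The places over a prime are conjugate. -/
theorem exists_smul_eq {A B : ValuationSubring Qb} {ℓ : ℕ} (hℓ : ℓ.Prime)
    (hA : A.LiesOverPrime ℓ) (hB : B.LiesOverPrime ℓ) : ∃ g : GQ, g • A = B := by
  let : TopologicalSpace ZB := ⊥
  have : DiscreteTopology ZB := ⟨rfl⟩
  have : ContinuousSMul GQ ZB := continuousSMul_intClosure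
  obtain ⟨g, hg⟩ := Algebra.IsInvariant.exists_smul_of_under_eq_of_profinite (A := ℤ) (G := GQ)
    (centre A) (centre B) (by
      ext m
      show algebraMap ℤ ZB m ∈ centre A ↔ algebraMap ℤ ZB m ∈ centre B
      rw [eq_intCast, intCast_mem_centre_iff hℓ hA, intCast_mem_centre_iff hℓ hB])
  refine ⟨g, eq_of_centre_eq hℓ (smul_liesOverPrime hA g) hB ?_⟩
  ext b
  rw [mem_centre_smul, hg, Ideal.mem_pointwise_smul_iff_inv_smul_mem]

theorem conj_mem_decomposition {A : ValuationSubring Qb} {g σ : GQ}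
    (h : σ ∈ A.decompositionSubgroup ℚ) :
    g * σ * g⁻¹ ∈ (g • A).decompositionSubgroup ℚ := by
  rw [MulAction.mem_stabilizer_iff, mul_smul, mul_smul, inv_smul_smul,
    show σ • A = A from h]

theorem conj_mem_inertia {A : ValuationSubring Qb} {g σ : GQ} (h : σ ∈ A.inertiaSubgroupIn ℚ) :
    g * σ * g⁻¹ ∈ (g • A).inertiaSubgroupIn ℚ := by
  rw [mem_inertia_iff] at h ⊢
  refine ⟨conj_mem_decomposition h.1, fun z hz => ?_⟩
  rw [mem_smul_iff] at hz
  have := h.2 _ hz
  rw [val_lt_one_iff_mem] at this ⊢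
  rw [mem_smul_iff]
  rcases this with h0 | h0
  · left
    have := congrArg g h0
    simpa [AlgEquiv.mul_apply] using this
  · right
    simpa [AlgEquiv.mul_apply, map_inv₀] using h0

theorem isFrobeniusAt_iff {A : ValuationSubring Qb} {σ : GQ} {ℓ : ℕ} :
    A.IsFrobeniusAt σ ℓ ↔
      σ ∈ A.decompositionSubgroup ℚ ∧ ∀ z ∈ A, A.valuation (σ z - z ^ ℓ) < 1 := by
  constructor
  · intro h
    refine ⟨h.mem_decompositionSubgroup, fun z hz => ?_⟩
    have e := h.smul_residue_eq (IsLocalRing.residue A ⟨z, hz⟩)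
    rw [← IsLocalRing.ResidueField.residue_smul, ← map_pow, ← sub_eq_zero, ← map_sub,
      IsLocalRing.residue_eq_zero_iff] at e
    exact (A.valuation_lt_one_iff _).1 e
  · rintro ⟨hd, h⟩
    refine ⟨hd, fun x => ?_⟩
    obtain ⟨⟨x, hx⟩, rfl⟩ := IsLocalRing.residue_surjective x
    rw [← IsLocalRing.ResidueField.residue_smul, ← map_pow, ← sub_eq_zero, ← map_sub,
      IsLocalRing.residue_eq_zero_iff]
    exact (A.valuation_lt_one_iff _).2 (h x hx)

theorem conj_isFrobeniusAt {A : ValuationSubring Qb} {g σ : GQ} {ℓ : ℕ}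
    (h : A.IsFrobeniusAt σ ℓ) : (g • A).IsFrobeniusAt (g * σ * g⁻¹) ℓ := by
  rw [isFrobeniusAt_iff] at h ⊢
  refine ⟨conj_mem_decomposition h.1, fun z hz => ?_⟩
  rw [mem_smul_iff] at hz
  have := h.2 _ hz
  rw [val_lt_one_iff_mem] at this ⊢
  rw [mem_smul_iff]
  rcases this with h0 | h0
  · left
    have := congrArg g h0
    simpa [AlgEquiv.mul_apply, map_pow] using this
  · right
    simpa [AlgEquiv.mul_apply, map_inv₀, map_pow] using h0

/-- Two Frobenius elements at the same place differ by inertia. -/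
theorem inv_mul_mem_inertia {A : ValuationSubring Qb} {σ τ : GQ} {ℓ : ℕ}
    (hσ : A.IsFrobeniusAt σ ℓ) (hτ : A.IsFrobeniusAt τ ℓ) :
    σ⁻¹ * τ ∈ A.inertiaSubgroupIn ℚ := by
  rw [isFrobeniusAt_iff] at hσ hτ
  have hd := mul_mem (inv_mem hσ.1) hτ.1
  refine mem_inertia_iff.2 ⟨hd, fun z hz => ?_⟩
  rw [← val_galois_eq hσ.1, map_sub, AlgEquiv.mul_apply, show σ (σ⁻¹ (τ z)) = τ z from
    by rw [← AlgEquiv.mul_apply, mul_inv_cancel, AlgEquiv.one_apply]]
  rw [show τ z - σ z = (τ z - z ^ ℓ) + -(σ z - z ^ ℓ) by ring]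
  exact A.valuation.map_add_lt (hτ.2 z hz) (by rw [Valuation.map_neg]; exact hσ.2 z hz)

/-- For a homomorphism trivial on the inertia groups over `ℓ`, the images of all Frobenius
elements over `ℓ` are conjugate. -/
theorem exists_conj_map_frobenius {G : Type*} [Group G] (f : GQ →* G) {ℓ : ℕ} (hℓ : ℓ.Prime)
    (hur : ∀ B : ValuationSubring Qb, B.LiesOverPrime ℓ → ∀ i ∈ B.inertiaSubgroupIn ℚ, f i = 1)
    {A B : ValuationSubring Qb} (hA : A.LiesOverPrime ℓ) (hB : B.LiesOverPrime ℓ) {σ τ : GQ}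
    (hσ : A.IsFrobeniusAt σ ℓ) (hτ : B.IsFrobeniusAt τ ℓ) :
    ∃ g : GQ, f τ = f g * f σ * (f g)⁻¹ := by
  obtain ⟨g, rfl⟩ := exists_smul_eq hℓ hA hB
  refine ⟨g, ?_⟩
  have := hur _ hB _ (inv_mul_mem_inertia (conj_isFrobeniusAt (g := g) hσ) hτ)
  rw [map_mul, map_inv, inv_mul_eq_one] at this
  rw [← this, map_mul, map_mul, map_inv]

end

end FermatAgent.TW
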