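import Fermat.Agent.TW.Places

/-!
# The value group of a finite extension inside `ℚ̄` is cyclic
-/

set_option autoImplicit false

open scoped Pointwise

namespace FermatAgent.TW

open FermatAgent.RT FermatAgent.Local

noncomputable section

local notation "Qb" => AlgebraicClosure ℚ

theorem exists_val_intCast_eq {A : ValuationSubring Qb} {ℓ : ℕ} (hℓ : ℓ.Prime)
    (hA : A.LiesOverPrime ℓ) {m : ℤ} (hm : m ≠ 0) :
    ∃ k : ℕ, A.valuation (m : Qb) = A.valuation (ℓ : Qb) ^ k := by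
  obtain ⟨e, a, hndvd, hma⟩ := Nat.exists_eq_pow_mul_and_not_dvd
    (Int.natAbs_ne_zero.mpr hm) ℓ hℓ.ne_one
  have hv : A.valuation (m : Qb) = A.valuation (m.natAbs : Qb) := by
    rcases Int.natAbs_eq m with h | h
    · conv_lhs => rw [h, Int.cast_natCast]
    · conv_lhs => rw [h, Int.cast_neg, Int.cast_natCast, Valuation.map_neg]
  refine ⟨e, ?_⟩
  rw [hv, hma, Nat.cast_mul, Nat.cast_pow, map_mul, map_pow,
    val_natCast_eq_one hℓ hA hndvd, mul_one]

theorem natCast_val_ne_zero (A : ValuationSubring Qb) {ℓ : ℕ} (hℓ : ℓ.Prime) :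
    A.valuation (ℓ : Qb) ≠ 0 :=
  (map_ne_zero _).2 (Nat.cast_ne_zero.mpr hℓ.ne_zero)

theorem exists_val_ratCast_eq {A : ValuationSubring Qb} {ℓ : ℕ} (hℓ : ℓ.Prime)
    (hA : A.LiesOverPrime ℓ) {q : ℚ} (hq : q ≠ 0) :
    ∃ k : ℤ, A.valuation (q : Qb) = A.valuation (ℓ : Qb) ^ k := by
  obtain ⟨a, ha⟩ := exists_val_intCast_eq hℓ hA (Rat.num_ne_zero.mpr hq)
  obtain ⟨b, hb⟩ := exists_val_intCast_eq hℓ hA (m := (q.den : ℤ))
    (Int.natCast_ne_zero.mpr q.den_ne_zero)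
  refine ⟨(a : ℤ) - b, ?_⟩
  rw [Rat.cast_def, map_div₀, ha, zpow_sub₀ (natCast_val_ne_zero A hℓ), zpow_natCast, zpow_natCast]
  rw [Int.cast_natCast] at hb
  rw [hb]

/-- A power of every valuation of an element of `L` is the valuation of a power of `ℓ`. -/
theorem exists_val_pow_eq {A : ValuationSubring Qb} {ℓ : ℕ} (hℓ : ℓ.Prime)
    (hA : A.LiesOverPrime ℓ) (L : IntermediateField ℚ Qb) [FiniteDimensional ℚ L]
    {x : Qb} (hx : x ∈ L) (hx0 : x ≠ 0) :
    ∃ k : ℤ, A.valuation x ^ (Module.finrank ℚ L).factorial = A.valuation (ℓ : Qb) ^ k := by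
  classical
  set f := minpoly ℚ (⟨x, hx⟩ : L) with hf
  have hint : IsIntegral ℚ (⟨x, hx⟩ : L) := IsIntegral.of_finite ℚ _
  have hdeg : f.natDegree ≤ Module.finrank ℚ L := minpoly.natDegree_le _
  have h0 : ∑ i ∈ f.support, (f.coeff i : Qb) * x ^ i = 0 := by
    have h := congrArg (algebraMap L Qb) (minpoly.aeval ℚ (⟨x, hx⟩ : L))
    rw [map_zero, ← Polynomial.aeval_algebraMap_apply, Polynomial.aeval_def,
      Polynomial.eval₂_eq_sum, Polynomial.sum] at h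
    simp only [eq_ratCast] at h
    exact h
  have hne : f.support.Nonempty :=
    Polynomial.support_nonempty.mpr (minpoly.ne_zero hint)
  obtain ⟨i, hi, hmax⟩ := f.support.exists_max_image
    (fun i => A.valuation ((f.coeff i : Qb) * x ^ i)) hne
  have hci : ∀ j ∈ f.support, (f.coeff j : ℚ) ≠ 0 := fun j hj => Polynomial.mem_support_iff.mp hj
  have hTne : ∀ j ∈ f.support, (f.coeff j : Qb) * x ^ j ≠ 0 := fun j hj =>
    mul_ne_zero (Rat.cast_ne_zero.mpr (hci j hj)) (pow_ne_zero _ hx0)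
  obtain ⟨j, hj, hji, heq⟩ : ∃ j ∈ f.support, j ≠ i ∧
      A.valuation ((f.coeff j : Qb) * x ^ j) = A.valuation ((f.coeff i : Qb) * x ^ i) := by
    by_contra! hall
    have hlt : A.valuation (∑ j ∈ f.support.erase i, (f.coeff j : Qb) * x ^ j) <
        A.valuation ((f.coeff i : Qb) * x ^ i) := by
      refine A.valuation.map_sum_lt ((map_ne_zero _).2 (hTne i hi)) fun j hj => ?_
      obtain ⟨hji, hj⟩ := Finset.mem_erase.mp hj
      exact lt_of_le_of_ne (hmax j hj) (hall j hj hji)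
    rw [← Finset.add_sum_erase _ _ hi, add_eq_zero_iff_eq_neg] at h0
    rw [h0, Valuation.map_neg] at hlt
    exact lt_irrefl _ hlt
  have hile : ∀ j ∈ f.support, j ≤ Module.finrank ℚ L := fun j hj =>
    (Polynomial.le_natDegree_of_mem_supp j hj).trans hdeg
  have hℓ0 := natCast_val_ne_zero A hℓ
  have hv0 : A.valuation x ≠ 0 := (map_ne_zero _).2 hx0
  obtain ⟨a, ha⟩ := exists_val_ratCast_eq hℓ hA (hci i hi)
  obtain ⟨b, hb⟩ := exists_val_ratCast_eq hℓ hA (hci j hj)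
  rw [map_mul, map_mul, map_pow, map_pow, ha, hb] at heq
  have hz : A.valuation x ^ ((j : ℤ) - i) = A.valuation (ℓ : Qb) ^ (a - b) := by
    rw [zpow_sub₀ hv0, zpow_sub₀ hℓ0, zpow_natCast, zpow_natCast,
      div_eq_div_iff (pow_ne_zero _ hv0) (zpow_ne_zero _ hℓ0)]
    rw [mul_comm (A.valuation x ^ j)]
    exact heq
  have hdvd : ((j : ℤ) - i) ∣ ((Module.finrank ℚ L).factorial : ℤ) := by
    rw [← Int.natAbs_dvd_natAbs, Int.natAbs_natCast]
    have hjL := hile j hj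
    have hiL := hile i hi
    exact Nat.dvd_factorial (by omega) (by omega)
  obtain ⟨c, hc⟩ := hdvd
  refine ⟨(a - b) * c, ?_⟩
  rw [← zpow_natCast, hc, zpow_mul, hz, ← zpow_mul]

theorem zpow_inj_of_lt_one {Γ : Type*} [LinearOrderedCommGroupWithZero Γ] {u : Γ} (h0 : u ≠ 0)
    (h1 : u < 1) {m n : ℤ} (h : u ^ m = u ^ n) : m = n := by
  by_contra hmn
  have h' : u ^ (m - n) = 1 := by rw [zpow_sub₀ h0, h, div_self (zpow_ne_zero _ h0)]
  obtain ⟨k, hk⟩ := Int.eq_nat_or_neg (m - n)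
  have hk0 : k ≠ 0 := by rintro rfl; simp at hk; omega
  have hlt : u ^ k < 1 := pow_lt_one₀ zero_le h1 hk0
  rcases hk with hk | hk
  · rw [hk, zpow_natCast] at h'
    exact hlt.ne h'
  · rw [hk, zpow_neg, zpow_natCast, inv_eq_one] at h'
    exact hlt.ne h'

theorem eq_one_of_pow_eq_one {Γ : Type*} [LinearOrderedCommGroupWithZero Γ] {u : Γ} {n : ℕ}
    (hn : n ≠ 0) (h : u ^ n = 1) : u = 1 := by
  rcases lt_trichotomy u 1 with h1 | h1 | h1
  · exact absurd h (pow_lt_one₀ zero_le h1 hn).ne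
  · exact h1
  · exact absurd h (one_lt_pow₀ h1 hn).ne'

/-- A uniformiser of `L` at the place `A`. -/
theorem exists_uniformiser {A : ValuationSubring Qb} {ℓ : ℕ} (hℓ : ℓ.Prime)
    (hA : A.LiesOverPrime ℓ) (L : IntermediateField ℚ Qb) [FiniteDimensional ℚ L] :
    ∃ π ∈ L, π ≠ 0 ∧ A.valuation π < 1 ∧
      ∀ x ∈ L, x ≠ 0 → ∃ k : ℤ, A.valuation x = A.valuation π ^ k := by
  classical
  have hℓ0 := natCast_val_ne_zero A hℓ
  have hℓ1 : A.valuation (ℓ : Qb) < 1 := hA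
  set d := (Module.finrank ℚ L).factorial with hd
  have hd0 : d ≠ 0 := Nat.factorial_ne_zero _
  let P : ℕ → Prop := fun k => 0 < k ∧ ∃ x ∈ L, x ≠ 0 ∧
    A.valuation x ^ d = A.valuation (ℓ : Qb) ^ k
  have hP : ∃ k, P k :=
    ⟨d, Nat.pos_of_ne_zero hd0, (ℓ : Qb), by simp,
      Nat.cast_ne_zero.mpr hℓ.ne_zero, rfl⟩
  obtain ⟨hg0, π, hπL, hπ0, hπ⟩ := Nat.find_spec hP
  set g := Nat.find hP
  refine ⟨π, hπL, hπ0, ?_, fun x hxL hx0 => ?_⟩
  · by_contra hge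
    exact ((one_le_pow₀ (not_lt.mp hge)).trans_eq hπ).not_gt (pow_lt_one₀ zero_le hℓ1 hg0.ne')
  obtain ⟨k, hk⟩ := exists_val_pow_eq hℓ hA L hxL hx0
  refine ⟨k / g, ?_⟩
  have hπv : A.valuation π ≠ 0 := (map_ne_zero _).2 hπ0
  set y := x / π ^ (k / (g : ℤ)) with hy
  have hyL : y ∈ L := div_mem hxL (zpow_mem hπL _)
  have hy0 : y ≠ 0 := div_ne_zero hx0 (zpow_ne_zero _ hπ0)
  have hyv : A.valuation y ^ d = A.valuation (ℓ : Qb) ^ (k % g) := by
    rw [hy, map_div₀, map_zpow₀, div_pow, hk, ← zpow_natCast (A.valuation π ^ _), ← zpow_mul,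
      mul_comm (k / (g : ℤ)), zpow_mul, zpow_natCast, hπ, ← zpow_natCast _ g, ← zpow_mul,
      ← zpow_sub₀ hℓ0, Int.emod_def]
  have hr0 : k % (g : ℤ) = 0 := by
    by_contra hne
    have hnonneg : 0 ≤ k % (g : ℤ) := Int.emod_nonneg _ (by exact_mod_cast hg0.ne')
    have hlt : k % (g : ℤ) < g := Int.emod_lt_of_pos _ (by exact_mod_cast hg0)
    obtain ⟨r, hr⟩ := Int.eq_ofNat_of_zero_le hnonneg
    have : P r := ⟨by omega, y, hyL, hy0, by rw [hyv, hr, zpow_natCast]⟩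
    have := Nat.find_min' hP this
    omega
  rw [hr0, zpow_zero] at hyv
  have := eq_one_of_pow_eq_one hd0 hyv
  rwa [hy, map_div₀, map_zpow₀, div_eq_one_iff_eq (zpow_ne_zero _ hπv)] at this

end

end FermatAgent.TW
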