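import Fermat.Agent.TW.ValueGroup

/-!
# Tame inertia: a `p`-group image of the inertia group at `ℓ ≠ p` is cyclic and Frobenius raises it
to the `ℓ`-th power
-/

set_option autoImplicit false

open scoped Pointwise

namespace FermatAgent.TW

open FermatAgent.RT FermatAgent.Local

noncomputable section

local notation "Qb" => AlgebraicClosure ℚ
local notation "GQ" => AlgebraicClosure ℚ ≃ₐ[ℚ] AlgebraicClosure ℚ

variable {A : ValuationSubring Qb}

theorem inertia_apply_mem {σ : GQ} (hσ : σ ∈ A.inertiaSubgroupIn ℚ) {z : Qb} (hz : z ∈ A) :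
    σ z ∈ A :=
  (decomposition_mem_iff (mem_decomposition_of_inertia hσ) z).2 hz

theorem val_ratio_eq_one {σ : GQ} (hσ : σ ∈ A.decompositionSubgroup ℚ) {x : Qb} (hx : x ≠ 0) :
    A.valuation (σ x / x) = 1 := by
  rw [map_div₀, val_galois_eq hσ, div_self ((map_ne_zero _).2 hx)]

open Classical in
/-- the tame character attached to `x` -/
def tameVal (A : ValuationSubring Qb) (x : Qb) (σ : GQ) : IsLocalRing.ResidueField A :=
  if h : σ x / x ∈ A then IsLocalRing.residue A ⟨σ x / x, h⟩ else 0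

theorem tameVal_eq {x : Qb} {σ : GQ} (h : σ x / x ∈ A) :
    tameVal A x σ = IsLocalRing.residue A ⟨σ x / x, h⟩ := dif_pos h

theorem residue_eq_iff {a b : A} :
    IsLocalRing.residue A a = IsLocalRing.residue A b ↔ A.valuation ((a : Qb) - b) < 1 := by
  rw [← sub_eq_zero, ← map_sub, IsLocalRing.residue_eq_zero_iff]
  exact A.valuation_lt_one_iff (a - b)

theorem ratio_mem {σ : GQ} (hσ : σ ∈ A.decompositionSubgroup ℚ) {x : Qb} (hx : x ≠ 0) :
    σ x / x ∈ A :=
  (A.valuation_le_one_iff _).1 (val_ratio_eq_one hσ hx).le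

theorem tameVal_mul {x : Qb} (hx : x ≠ 0) {σ τ : GQ} (hσ : σ ∈ A.inertiaSubgroupIn ℚ)
    (hτ : τ ∈ A.inertiaSubgroupIn ℚ) :
    tameVal A x (σ * τ) = tameVal A x σ * tameVal A x τ := by
  have hσ' := mem_decomposition_of_inertia hσ
  have hτ' := mem_decomposition_of_inertia hτ
  rw [tameVal_eq (ratio_mem (mul_mem hσ' hτ') hx), tameVal_eq (ratio_mem hσ' hx),
    tameVal_eq (ratio_mem hτ' hx), ← map_mul, residue_eq_iff]
  show A.valuation (σ (τ x) / x - σ x / x * (τ x / x)) < 1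
  have : σ (τ x) / x - σ x / x * (τ x / x) = σ x / x * (σ (τ x / x) - τ x / x) := by
    have : σ x ≠ 0 := by simpa using hx
    rw [map_div₀]
    field_simp
  rw [this, map_mul, val_ratio_eq_one hσ' hx, one_mul]
  exact inertia_val_sub_lt_one hσ (ratio_mem hτ' hx)

theorem tameVal_one {x : Qb} (hx : x ≠ 0) : tameVal A x 1 = 1 := by
  rw [tameVal_eq (ratio_mem (one_mem _) hx), ← map_one (IsLocalRing.residue A), residue_eq_iff]
  simp [div_self hx]

theorem tameVal_ne_zero {x : Qb} (hx : x ≠ 0) {σ : GQ} (hσ : σ ∈ A.decompositionSubgroup ℚ) :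
    tameVal A x σ ≠ 0 := by
  rw [tameVal_eq (ratio_mem hσ hx), ← map_zero (IsLocalRing.residue A), Ne, residue_eq_iff]
  simp [val_ratio_eq_one hσ hx]

/-- elements of the same valuation have the same tame character -/
theorem tameVal_eq_of_val_eq {x y : Qb} (hx : x ≠ 0) (hv : A.valuation y = A.valuation x)
    {σ : GQ} (hσ : σ ∈ A.inertiaSubgroupIn ℚ) : tameVal A y σ = tameVal A x σ := by
  have hσ' := mem_decomposition_of_inertia hσ
  have hy : y ≠ 0 := fun h => (map_ne_zero A.valuation).2 hx (by rw [← hv, h, map_zero])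
  rw [tameVal_eq (ratio_mem hσ' hy), tameVal_eq (ratio_mem hσ' hx), residue_eq_iff]
  show A.valuation (σ y / y - σ x / x) < 1
  have hu : y / x ∈ A := by
    rw [← A.valuation_le_one_iff, map_div₀, hv, div_self ((map_ne_zero _).2 hx)]
  have hu1 : A.valuation (y / x) = 1 := by rw [map_div₀, hv, div_self ((map_ne_zero _).2 hx)]
  have hid : σ y / y - σ x / x = σ x / x * ((σ (y / x) - y / x) / (y / x)) := by
    have : σ x ≠ 0 := by simpa using hx
    rw [map_div₀]
    field_simp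
  rw [hid, map_mul, val_ratio_eq_one hσ' hx, one_mul, map_div₀, hu1, div_one]
  exact inertia_val_sub_lt_one hσ hu

/-- the tame character as a homomorphism -/
def tameHom (A : ValuationSubring Qb) {x : Qb} (hx : x ≠ 0) :
    A.inertiaSubgroupIn ℚ →* (IsLocalRing.ResidueField A)ˣ where
  toFun σ := Units.mk0 (tameVal A x σ) (tameVal_ne_zero hx (mem_decomposition_of_inertia σ.2))
  map_one' := Units.ext (tameVal_one hx)
  map_mul' σ τ := Units.ext (tameVal_mul hx σ.2 τ.2)

/-- The wild inertia acting on `L` is an `ℓ`-group. -/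
theorem exists_pow_fix_of_tame {ℓ : ℕ} (hℓ : ℓ.Prime) (hA : A.LiesOverPrime ℓ)
    (L : IntermediateField ℚ Qb) [FiniteDimensional ℚ L] [Normal ℚ L] {σ : GQ}
    (hσ : σ ∈ A.inertiaSubgroupIn ℚ)
    (hw : ∀ x ∈ L, x ≠ 0 → A.valuation (σ x - x) < A.valuation x) :
    ∃ a : ℕ, ∀ x ∈ L, (σ ^ ℓ ^ a) x = x := by
  have hfin : IsOfFinOrder (AlgEquiv.restrictNormalHom L σ) := isOfFinOrder_of_finite _
  obtain ⟨a, m, hm, hord⟩ := Nat.exists_eq_pow_mul_and_not_dvd hfin.orderOf_pos.ne' ℓ hℓ.ne_one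
  refine ⟨a, fun y hy => ?_⟩
  have hres : ∀ τ : GQ, ∀ x : Qb, ∀ hx : x ∈ L,
      τ x = ((AlgEquiv.restrictNormalHom L τ) ⟨x, hx⟩ : Qb) := fun τ x hx =>
    (AlgEquiv.restrictNormal_commutes τ L ⟨x, hx⟩).symm
  have hstab : ∀ τ : GQ, ∀ x ∈ L, τ x ∈ L := fun τ x hx => by
    rw [hres τ x hx]; exact SetLike.coe_mem _
  set j := σ ^ ℓ ^ a with hj
  have hjm : ∀ x ∈ L, (j ^ m) x = x := fun x hx => by
    rw [hres _ x hx, hj, ← pow_mul, map_pow, ← hord, pow_orderOf_eq_one]
    rfl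
  -- `j` is again tame-trivial on `L`
  have hpow : ∀ k : ℕ, ∀ x ∈ L, x ≠ 0 → A.valuation ((σ ^ k) x - x) < A.valuation x := by
    intro k
    induction k with
    | zero => intro x _ hx; simpa using (A.valuation.pos_iff.2 hx)
    | succ k ih =>
      intro x hx hx0
      have hσ' := mem_decomposition_of_inertia hσ
      rw [pow_succ', AlgEquiv.mul_apply,
        show σ ((σ ^ k) x) - x = (σ ((σ ^ k) x - x)) + (σ x - x) by rw [map_sub]; ring]
      refine A.valuation.map_add_lt ?_ (hw x hx hx0)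
      rw [val_galois_eq hσ']
      exact ih x hx hx0
  by_contra hne
  set z := j y - y with hz
  have hz0 : z ≠ 0 := sub_ne_zero.2 hne
  have hzL : z ∈ L := sub_mem (hstab j y hy) hy
  have htel : ∑ i ∈ Finset.range m, (j ^ i) z = 0 := by
    have : ∀ i : ℕ, (j ^ i) z = (j ^ (i + 1)) y - (j ^ i) y := fun i => by
      rw [hz, map_sub, pow_succ, AlgEquiv.mul_apply]
    simp only [this]
    rw [Finset.sum_range_sub (fun i => (j ^ i) y), hjm y hy, pow_zero, AlgEquiv.one_apply, sub_self]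
  have hlt : A.valuation (∑ i ∈ Finset.range m, ((j ^ i) z - z)) < A.valuation z :=
    A.valuation.map_sum_lt ((map_ne_zero _).2 hz0) fun i _ => by
      rw [hj, ← pow_mul]
      exact hpow _ z hzL hz0
  rw [Finset.sum_sub_distrib, htel, zero_sub, Valuation.map_neg, Finset.sum_const,
    Finset.card_range, nsmul_eq_mul, map_mul, val_natCast_eq_one hℓ hA hm, one_mul] at hlt
  exact lt_irrefl _ hlt

/-- A homomorphism which is tame at `A`: its kernel contains the elements fixing a finite level,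
and inertia has `p`-power order. -/
theorem map_eq_one_of_tameVal {G : Type*} [Group G] {ℓ p : ℕ} (hℓ : ℓ.Prime) (hp : p.Prime)
    (hne : p ≠ ℓ) (hA : A.LiesOverPrime ℓ) (L : IntermediateField ℚ Qb) [FiniteDimensional ℚ L]
    [Normal ℚ L] (f : A.inertiaSubgroupIn ℚ →* G)
    (hL : ∀ σ : A.inertiaSubgroupIn ℚ, (∀ x ∈ L, (σ : GQ) x = x) → f σ = 1)
    (hord : ∀ σ, ∃ n, f σ ^ p ^ n = 1)
    {π : Qb} (hπ0 : π ≠ 0) (hπ : ∀ x ∈ L, x ≠ 0 → ∃ k : ℤ, A.valuation x = A.valuation π ^ k)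
    (σ : A.inertiaSubgroupIn ℚ) (h : tameVal A π σ = 1) : f σ = 1 := by
  obtain ⟨a, ha⟩ := exists_pow_fix_of_tame hℓ hA L σ.2 (fun x hxL hx0 => by
    obtain ⟨k, hk⟩ := hπ x hxL hx0
    have hd := mem_decomposition_of_inertia σ.2
    have hπk : π ^ k ≠ 0 := zpow_ne_zero _ hπ0
    have h1 : tameVal A x σ = 1 := by
      rw [tameVal_eq_of_val_eq hπk (by rw [hk, map_zpow₀]) σ.2, tameVal_eq (ratio_mem hd hπk)]
      rw [tameVal_eq (ratio_mem hd hπ0)] at h
      have e : ∀ hmem : ((σ : GQ) π / π) ^ k ∈ A,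
          IsLocalRing.residue A ⟨((σ : GQ) π / π) ^ k, hmem⟩ = 1 := by
        intro hmem
        have hu : IsUnit (⟨(σ : GQ) π / π, ratio_mem hd hπ0⟩ : A) := by
          rw [← IsLocalRing.residue_ne_zero_iff_isUnit, h]; exact one_ne_zero
        obtain ⟨u, hu⟩ := hu
        have : (⟨((σ : GQ) π / π) ^ k, hmem⟩ : A) = ((u ^ k : Aˣ) : A) := by
          apply Subtype.ext
          show _ = A.subtype ((u ^ k : Aˣ) : A)
          show _ = ((Units.map (A.subtype : A →* Qb) (u ^ k) : Qbˣ) : Qb)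
          rw [map_zpow, Units.val_zpow_eq_zpow_val]
          show _ = (A.subtype (u : A)) ^ k
          rw [show A.subtype (u : A) = (σ : GQ) π / π from congrArg Subtype.val hu]
        rw [this]
        show ((Units.map (IsLocalRing.residue A : A →* _) (u ^ k) :
          (IsLocalRing.ResidueField A)ˣ) : IsLocalRing.ResidueField A) = 1
        rw [map_zpow]
        have hu1 : Units.map (IsLocalRing.residue A : A →* _) u = 1 := Units.ext (by
          show IsLocalRing.residue A (u : A) = 1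
          rw [hu, h])
        rw [hu1, one_zpow, Units.val_one]
      have hcongr : (σ : GQ) (π ^ k) / π ^ k = ((σ : GQ) π / π) ^ k := by
        rw [map_zpow₀, div_zpow]
      simp only [hcongr]
      exact e _
    rw [tameVal_eq (ratio_mem hd hx0), ← map_one (IsLocalRing.residue A), residue_eq_iff] at h1
    have : (σ : GQ) x - x = x * ((σ : GQ) x / x - 1) := by field_simp
    rw [this, map_mul]
    exact mul_lt_of_lt_one_right (A.valuation.pos_iff.2 hx0) h1)
  have h1 : f σ ^ ℓ ^ a = 1 := by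
    rw [← map_pow]
    exact hL _ fun x hx => by rw [SubgroupClass.coe_pow]; exact ha x hx
  obtain ⟨n, hn⟩ := hord σ
  have hco : Nat.Coprime (p ^ n) (ℓ ^ a) :=
    Nat.Coprime.pow n a ((Nat.coprime_primes hp hℓ).2 hne)
  have := pow_gcd_eq_one.2 ⟨hn, h1⟩
  rwa [hco.gcd_eq_one, pow_one] at this

/-- Tame structure: cyclic image and the Frobenius relation. -/
theorem tame_inertia {G : Type*} [Group G] {ℓ p : ℕ} (hℓ : ℓ.Prime) (hp : p.Prime) (hne : p ≠ ℓ)
    (hA : A.LiesOverPrime ℓ) (L : IntermediateField ℚ Qb) [FiniteDimensional ℚ L] [Normal ℚ L]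
    (f : A.inertiaSubgroupIn ℚ →* G) (hL : ∀ σ : A.inertiaSubgroupIn ℚ, (∀ x ∈ L, (σ : GQ) x = x) → f σ = 1)
    (hord : ∀ σ, ∃ n, f σ ^ p ^ n = 1) :
    (∃ τ, ∀ σ, f σ ∈ Subgroup.zpowers (f τ)) ∧
    ∀ F : GQ, A.IsFrobeniusAt F ℓ → ∀ σ σ' : A.inertiaSubgroupIn ℚ,
      (σ' : GQ) = F * (σ : GQ) * F⁻¹ → f σ' = f σ ^ ℓ := by
  obtain ⟨π, hπL, hπ0, -, hπ⟩ := exists_uniformiser hℓ hA L
  have hker : ∀ σ, tameHom A hπ0 σ = 1 → f σ = 1 := fun σ h =>
    map_eq_one_of_tameVal hℓ hp hne hA L f hL hord hπ0 hπ σ (congrArg Units.val h)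
  classical
  refine ⟨?_, fun F hF σ σ' hσ' => ?_⟩
  · have hfin : (Set.range (tameHom A hπ0)).Finite := by
      have : Finite (L ≃ₐ[ℚ] L) := inferInstance
      refine ((Set.finite_range fun g : L ≃ₐ[ℚ] L => (g ⟨π, hπL⟩ : Qb) / π).image
        (fun z : Qb => if h : z ∈ A then IsLocalRing.residue A ⟨z, h⟩ else 0)).preimage
        (Units.val_injective.injOn) |>.subset ?_
      rintro _ ⟨σ, rfl⟩
      refine ⟨_, ⟨AlgEquiv.restrictNormalHom L (σ : GQ), rfl⟩, ?_⟩
      show (if h : _ then _ else _) = tameVal A π σ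
      simp only [show ((AlgEquiv.restrictNormalHom L (σ : GQ)) ⟨π, hπL⟩ : Qb) = (σ : GQ) π from
        AlgEquiv.restrictNormal_commutes (σ : GQ) L ⟨π, hπL⟩]
      rfl
    have : Finite (tameHom A hπ0).range := hfin.to_subtype
    obtain ⟨⟨_, τ, rfl⟩, hτ⟩ := IsCyclic.exists_generator (α := (tameHom A hπ0).range)
    refine ⟨τ, fun σ => ?_⟩
    obtain ⟨k, hk⟩ := Subgroup.mem_zpowers_iff.1 (hτ ⟨_, σ, rfl⟩)
    have hk' : tameHom A hπ0 τ ^ k = tameHom A hπ0 σ := congrArg Subtype.val hk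
    refine Subgroup.mem_zpowers_iff.2 ⟨k, ?_⟩
    have := hker (τ ^ k * σ⁻¹) (by rw [map_mul, map_zpow, hk', map_inv, mul_inv_cancel])
    rwa [map_mul, map_zpow, map_inv, mul_inv_eq_one] at this
  · have hFd := (isFrobeniusAt_iff.1 hF).1
    have hσ'd := mem_decomposition_of_inertia σ'.2
    have hσd := mem_decomposition_of_inertia σ.2
    set y := F⁻¹ π with hy
    have hy0 : y ≠ 0 := by simpa [hy] using hπ0
    have hFy : F y = π := by rw [hy, ← AlgEquiv.mul_apply, mul_inv_cancel, AlgEquiv.one_apply]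
    have hyv : A.valuation y = A.valuation π := by rw [← val_galois_eq hFd y, hFy]
    have key : tameHom A hπ0 σ' = tameHom A hπ0 σ ^ ℓ := by
      refine Units.ext ?_
      show tameVal A π σ' = (tameHom A hπ0 σ ^ ℓ : _)
      rw [Units.val_pow_eq_pow_val]
      show tameVal A π σ' = tameVal A π σ ^ ℓ
      rw [← tameVal_eq_of_val_eq hπ0 hyv σ.2, tameVal_eq (ratio_mem hσ'd hπ0),
        tameVal_eq (ratio_mem hσd hy0), ← map_pow, residue_eq_iff]
      show A.valuation ((σ' : GQ) π / π - ((σ : GQ) y / y) ^ ℓ) < 1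
      have : (σ' : GQ) π / π = F ((σ : GQ) y / y) := by
        rw [hσ', map_div₀, hFy]
        rfl
      rw [this]
      exact (isFrobeniusAt_iff.1 hF).2 _ (ratio_mem hσd hy0)
    have := hker (σ' * (σ ^ ℓ)⁻¹) (by rw [map_mul, map_inv, map_pow, key, mul_inv_cancel])
    rwa [map_mul, map_inv, map_pow, mul_inv_eq_one] at this

end

end FermatAgent.TW
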