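import Fermat.Agent.TW.Places

/-!
# The decomposition group modulo a finite level is generated by inertia and a Frobenius element
-/

set_option autoImplicit false

open scoped Pointwise

namespace FermatAgent.TW

open FermatAgent.RT FermatAgent.Local

noncomputable section

local notation "Qb" => AlgebraicClosure ℚ
local notation "GQ" => AlgebraicClosure ℚ ≃ₐ[ℚ] AlgebraicClosure ℚ
local notation "ZB" => integralClosure ℤ (AlgebraicClosure ℚ)

attribute [local instance] isGalois_algClosureRat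

variable {A : ValuationSubring Qb} {ℓ : ℕ}

theorem smul_centre_eq {σ : GQ} (hσ : σ ∈ A.decompositionSubgroup ℚ) :
    σ • centre A = centre A := by
  ext b
  rw [Ideal.mem_pointwise_smul_iff_inv_smul_mem]
  conv_rhs => rw [← (MulAction.mem_stabilizer_iff.1 hσ : σ • A = A)]
  rw [mem_centre_smul]

/-- an element of the decomposition group which is trivial modulo the centre is inertial -/
theorem mem_inertia_of_forall_centre (hℓ : ℓ.Prime) (hA : A.LiesOverPrime ℓ) {σ : GQ}
    (hσ : σ ∈ A.decompositionSubgroup ℚ) (h : ∀ b : ZB, σ • b - b ∈ centre A) :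
    σ ∈ A.inertiaSubgroupIn ℚ := by
  refine mem_inertia_iff.2 ⟨hσ, fun z hz => ?_⟩
  obtain ⟨a, s, hs, e⟩ := exists_mul_eq_of_mem hℓ hA hz
  have hσs : A.valuation (σ (s : Qb)) = 1 := by
    rw [val_galois_eq hσ]
    refine le_antisymm ((A.valuation_le_one_iff _).2 (mem_of_isIntegral_int A s.2))
      (not_lt.1 fun hlt => hs ((mem_centre_iff).2 hlt))
  have ha : A.valuation (σ (a : Qb) - a) < 1 := mem_centre_iff.1 (h a)
  have hss : A.valuation (σ (s : Qb) - s) < 1 := mem_centre_iff.1 (h s)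
  have key : A.valuation ((σ z - z) * σ (s : Qb)) < 1 := by
    rw [show (σ z - z) * σ (s : Qb) = (σ (a : Qb) - a) + -(z * (σ (s : Qb) - s)) by
      rw [← e, map_mul]; ring]
    refine A.valuation.map_add_lt ha ?_
    rw [Valuation.map_neg, map_mul]
    exact lt_of_le_of_lt (mul_le_of_le_one_left' ((A.valuation_le_one_iff _).2 hz)) hss
  rwa [map_mul, hσs, mul_one] at key

theorem exists_frobenius_pow_aux (hℓ : ℓ.Prime) (hA : A.LiesOverPrime ℓ) (L : IntermediateField ℚ Qb)
    [FiniteDimensional ℚ L] [Normal ℚ L] {σ : GQ} (hσ : σ ∈ A.decompositionSubgroup ℚ) :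
    ∃ m : ℕ, ∀ b : ZB, (b : Qb) ∈ L → σ • b - b ^ ℓ ^ m ∈ centre A := by
  classical
  have hL : ∀ τ : GQ, ∀ x ∈ L, τ x ∈ L := fun τ x hx => by
    rw [show τ x = ((AlgEquiv.restrictNormalHom L τ) ⟨x, hx⟩ : Qb) from
      (AlgEquiv.restrictNormal_commutes τ L ⟨x, hx⟩).symm]
    exact SetLike.coe_mem _
  let B : Subalgebra ℤ ZB := (L.toSubalgebra.restrictScalars ℤ).comap (integralClosure ℤ Qb).val
  have hB : ∀ b : ZB, b ∈ B ↔ (b : Qb) ∈ L := fun b => Iff.rfl
  let F := ZB ⧸ centre A
  have : Fact ℓ.Prime := ⟨hℓ⟩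
  have : CharP F ℓ := ⟨fun m => by
    rw [← map_natCast (Ideal.Quotient.mk (centre A)), Ideal.Quotient.eq_zero_iff_mem]
    simpa [Int.natCast_dvd_natCast] using intCast_mem_centre_iff hℓ hA (m : ℤ)⟩
  let φ : B →+* F := (Ideal.Quotient.mk (centre A)).comp B.subtype
  let K : Subring F := φ.range
  let : Algebra (ZMod ℓ) F := ZMod.algebra F ℓ
  have hKfin : Finite K := by
    have : NumberField L := { to_charZero := inferInstance, to_finiteDimensional := inferInstance }
    -- generators of the ring of integers of `L`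
    obtain ⟨s, hs⟩ := (Module.Finite.fg_top (R := ℤ) (M := NumberField.RingOfIntegers L))
    let ι : NumberField.RingOfIntegers L →+* F :=
      (Ideal.Quotient.mk (centre A)).comp
        (((algebraMap L Qb).comp (algebraMap (NumberField.RingOfIntegers L) L)).codRestrict
          (integralClosure ℤ Qb).toSubring
          fun x => (NumberField.RingOfIntegers.isIntegral_coe x).map
            (algebraMap L Qb).toIntAlgHom)
    have hmem : ∀ x : K, (x : F) ∈ Submodule.span (ZMod ℓ) (ι '' (s : Set _))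
        := by
      intro ⟨x, b, hb⟩
      let y : NumberField.RingOfIntegers L := ⟨⟨((b : ZB) : Qb), b.2⟩, by
        rw [mem_integralClosure_iff, ← isIntegral_algHom_iff (algebraMap L Qb).toIntAlgHom
          (algebraMap L Qb).injective]
        exact (b : ZB).2⟩
      have hxy : x = ι y := hb.symm.trans rfl
      show x ∈ _
      rw [hxy]
      clear_value y
      clear hxy
      have hy : y ∈ Submodule.span ℤ (s : Set _) := hs ▸ Submodule.mem_top
      induction hy using Submodule.span_induction with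
      | mem z hz => exact Submodule.subset_span ⟨z, hz, rfl⟩
      | zero => rw [map_zero]; exact zero_mem _
      | add z w _ _ h1 h2 => rw [map_add]; exact add_mem h1 h2
      | smul n z _ h1 => rw [map_zsmul]; exact zsmul_mem h1 n
    have hfg : (Submodule.span (ZMod ℓ) (ι '' (s : Set _))).FG :=
      Submodule.fg_span (s.finite_toSet.image _)
    have : Module.Finite (ZMod ℓ) (Submodule.span (ZMod ℓ) (ι '' (s : Set _))) :=
      Module.Finite.iff_fg.mpr hfg
    have : Finite (Submodule.span (ZMod ℓ) (ι '' (s : Set _))) :=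
      Module.finite_of_finite (ZMod ℓ)
    exact Finite.of_injective (fun x : K => (⟨(x : F), hmem x⟩ : Submodule.span (ZMod ℓ) _))
      fun x y h => Subtype.ext (congrArg (fun z : Submodule.span (ZMod ℓ) _ => (z : F)) h)
  have : CharP K ℓ := CharP.subring F ℓ K
  have hdom : IsDomain K := inferInstance
  let : Field K := (Finite.isField_of_domain K).toField
  have : Fintype K := Fintype.ofFinite K
  let : Algebra (ZMod ℓ) K := ZMod.algebra K ℓ
  -- `σ` acts on `K`
  let g : F →+* F := Ideal.quotientMap (centre A) (MulSemiringAction.toRingHom GQ ZB σ)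
    (by
      intro b hb
      rw [Ideal.mem_comap]
      show σ • b ∈ centre A
      rw [← smul_centre_eq hσ]
      exact Ideal.smul_mem_pointwise_smul σ b _ hb)
  let gK : K →+* K := (g.comp K.subtype).codRestrict K (by
    rintro ⟨_, b, rfl⟩
    exact ⟨⟨σ • (b : ZB), hL σ _ b.2⟩, rfl⟩)
  have hgK : Function.Bijective gK := Finite.injective_iff_bijective.1 (RingHom.injective gK)
  let gA : K ≃ₐ[ZMod ℓ] K := AlgEquiv.ofRingEquiv (f := RingEquiv.ofBijective gK hgK) (fun c => by
    obtain ⟨n, rfl⟩ := ZMod.natCast_zmod_surjective c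
    rw [map_natCast]
    exact map_natCast gK n)
  obtain ⟨m, hm⟩ := (FiniteField.bijective_frobeniusAlgEquivOfAlgebraic_pow (ZMod ℓ) K).2 gA
  refine ⟨m.1, fun b hb => ?_⟩
  have hk := DFunLike.congr_fun hm (⟨φ ⟨b, hb⟩, ⟨b, hb⟩, rfl⟩ : K)
  rw [AlgEquiv.coe_pow, FiniteField.coe_frobeniusAlgEquivOfAlgebraic_iterate,
    ZMod.card] at hk
  have hk' : Ideal.Quotient.mk (centre A) b ^ ℓ ^ (m : ℕ) = Ideal.Quotient.mk (centre A) (σ • b) :=
    congrArg Subtype.val hk
  rw [← map_pow, eq_comm, Ideal.Quotient.eq] at hk'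
  exact hk'

theorem frobenius_pow_congr {F : GQ} (hF : A.IsFrobeniusAt F ℓ) (m : ℕ) (b : ZB) :
    (F ^ m) • b - b ^ ℓ ^ m ∈ centre A := by
  have h1 : ∀ c : ZB, F • c - c ^ ℓ ∈ centre A := fun c =>
    mem_centre_iff.2 (((isFrobeniusAt_iff.1 hF).2 _ (mem_of_isIntegral_int A c.2)))
  induction m generalizing b with
  | zero => simp
  | succ m ih =>
    rw [pow_succ' F, mul_smul, pow_succ ℓ, pow_mul]
    have h2 := Ideal.smul_mem_pointwise_smul F _ _ (ih b)
    rw [smul_centre_eq (isFrobeniusAt_iff.1 hF).1, smul_sub] at h2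
    have h3 := add_mem h2 (h1 (b ^ ℓ ^ m))
    simpa using h3

/-- Every element of the decomposition group agrees on `L` with an element `Fᵐ * i`. -/
theorem exists_frobenius_pow_mul (hℓ : ℓ.Prime) (hA : A.LiesOverPrime ℓ)
    (L : IntermediateField ℚ Qb) [FiniteDimensional ℚ L] [Normal ℚ L] {F : GQ}
    (hF : A.IsFrobeniusAt F ℓ) {σ : GQ} (hσ : σ ∈ A.decompositionSubgroup ℚ) :
    ∃ m : ℕ, ∃ i ∈ A.inertiaSubgroupIn ℚ, ∀ x ∈ L, σ x = (F ^ m * i) x := by
  obtain ⟨m, hm⟩ := exists_frobenius_pow_aux hℓ hA L hσ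
  have hFd := (isFrobeniusAt_iff.1 hF).1
  refine ⟨m, ?_⟩
  set τ := (F ^ m)⁻¹ * σ with hτdef
  have hτd : τ ∈ A.decompositionSubgroup ℚ := mul_mem (inv_mem (pow_mem hFd m)) hσ
  have hτ : ∀ b : ZB, (b : Qb) ∈ L → τ • b - b ∈ centre A := by
    intro b hb
    have h1 := sub_mem (hm b hb) (frobenius_pow_congr hF m b)
    rw [sub_sub_sub_cancel_right] at h1
    have h2 := Ideal.smul_mem_pointwise_smul (F ^ m)⁻¹ _ _ h1
    rw [smul_centre_eq (inv_mem (pow_mem hFd m)), smul_sub, inv_smul_smul, ← mul_smul] at h2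
    exact h2
  -- correct `τ` by an element fixing `L`
  let H : Subgroup GQ := L.fixingSubgroup
  have : CompactSpace H :=
    isCompact_iff_compactSpace.mp (IntermediateField.fixingSubgroup_isClosed _).isCompact
  let : TopologicalSpace ZB := ⊥
  have : DiscreteTopology ZB := ⟨rfl⟩
  have : ContinuousSMul GQ ZB := continuousSMul_intClosure
  have : ContinuousSMul H ZB := by
    rw [continuousSMul_iff_stabilizer_isOpen]
    intro b
    exact (stabilizer_isOpen GQ b).preimage continuous_subtype_val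
  let R := FixedPoints.subalgebra ℤ ZB H
  have : SMulCommClass H R ZB := ⟨fun g a b => by
    show g • ((a : ZB) * b) = (a : ZB) * g • b
    rw [smul_mul', show g • (a : ZB) = a from a.2 g]⟩
  have : Algebra.IsInvariant R ZB H := ⟨fun b hb => ⟨⟨b, hb⟩, rfl⟩⟩
  have hR : ∀ a : R, ((a : ZB) : Qb) ∈ L := by
    intro a
    rw [← InfiniteGalois.fixedField_fixingSubgroup (K := Qb) L]
    intro g
    exact congrArg Subtype.val (a.2 g)
  let P : Ideal R := (centre A).under R
  let e : (ZB ⧸ centre A) ≃ₐ[R ⧸ P] (ZB ⧸ centre A) :=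
    AlgEquiv.ofRingEquiv (f := Ideal.quotientEquiv (centre A) (centre A)
        (MulSemiringAction.toRingEquiv GQ ZB τ) (by exact (smul_centre_eq hτd).symm))
      (by
        intro a
        obtain ⟨a, rfl⟩ := Ideal.Quotient.mk_surjective a
        show Ideal.Quotient.mk (centre A) (τ • (a : ZB)) = Ideal.Quotient.mk (centre A) (a : ZB)
        rw [Ideal.Quotient.eq]
        exact hτ _ (hR a))
  obtain ⟨⟨h, hh⟩, hhe⟩ :=
    Ideal.Quotient.stabilizerHom_surjective_of_profinite (G := H) P (centre A) e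
  have hh' : (h : GQ) • centre A = centre A := hh
  have hhd : (h : GQ) ∈ A.decompositionSubgroup ℚ :=
    mem_decompositionSubgroup_of_smul_centre hℓ hA hh'
  refine ⟨τ * (h : GQ)⁻¹, ?_, fun x hx => ?_⟩
  · refine mem_inertia_of_forall_centre hℓ hA (mul_mem hτd (inv_mem hhd)) fun b => ?_
    have h1 : Ideal.Quotient.mk (centre A) ((h : GQ) • ((h : GQ)⁻¹ • b)) =
        Ideal.Quotient.mk (centre A) (τ • ((h : GQ)⁻¹ • b)) :=
      DFunLike.congr_fun hhe (Ideal.Quotient.mk (centre A) ((h : GQ)⁻¹ • b))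
    rw [smul_inv_smul, Ideal.Quotient.eq] at h1
    rw [mul_smul]
    simpa using neg_mem h1
  · have hx' : (h : GQ)⁻¹ x = x := (IntermediateField.mem_fixingSubgroup_iff _ _).mp
      (H.inv_mem h.2) x hx
    rw [hτdef, AlgEquiv.mul_apply, AlgEquiv.mul_apply, hx', AlgEquiv.mul_apply,
      ← AlgEquiv.mul_apply (F ^ m), mul_inv_cancel, AlgEquiv.one_apply]

end

end FermatAgent.TW
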