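import Fermat.Agent.TW.Adjoint
import Fermat.Agent.TW.Places
import Mathlib.RingTheory.Polynomial.Cyclotomic.Roots

/-!
# The mod `p` cyclotomic character
-/

set_option autoImplicit false

namespace FermatAgent.TW

open FermatAgent.RT

noncomputable section

local notation "Qb" => AlgebraicClosure ℚ
local notation "GQ" => AlgebraicClosure ℚ ≃ₐ[ℚ] AlgebraicClosure ℚ

attribute [local instance] FermatAgent.RT.isGalois_algClosureRat

variable {p : ℕ} [Fact p.Prime]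

theorem exists_primitiveRoot_qbar (n : ℕ) [NeZero n] : ∃ ζ : Qb, IsPrimitiveRoot ζ n :=
  HasEnoughRootsOfUnity.exists_primitiveRoot Qb n

theorem apply_root_eq_pow {ζ : Qb} (hζ : IsPrimitiveRoot ζ p) (σ : GQ) :
    σ ζ = ζ ^ ((ExtCitation.cycloChar p σ : ZMod p).val) := by
  have : NeZero p := ⟨(Fact.out : p.Prime).ne_zero⟩
  have h := modularCyclotomicCharacter.spec Qb (ExtCitation.card_rootsOfUnity_eq_self p)
    (σ : Qb ≃+* Qb) (t := (hζ.isUnit (NeZero.ne p)).unit)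
    (by rw [mem_rootsOfUnity]; exact Units.ext (by simpa using hζ.pow_eq_one))
  simpa [ExtCitation.cycloChar] using h

theorem cycloChar_eq_of_apply {ζ : Qb} (hζ : IsPrimitiveRoot ζ p) {σ : GQ} {a : ℕ}
    (h : σ ζ = ζ ^ a) : (ExtCitation.cycloChar p σ : ZMod p) = a := by
  have : NeZero p := ⟨(Fact.out : p.Prime).ne_zero⟩
  rw [apply_root_eq_pow hζ σ] at h
  rw [pow_eq_pow_mod a hζ.pow_eq_one] at h
  have h' := hζ.pow_inj (ZMod.val_lt _) (Nat.mod_lt _ (NeZero.pos p)) h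
  rw [← ZMod.natCast_zmod_val (ExtCitation.cycloChar p σ : ZMod p), h', ZMod.natCast_mod]

theorem cycloChar_eq_one_of_apply {ζ : Qb} (hζ : IsPrimitiveRoot ζ p) {σ : GQ} (h : σ ζ = ζ) :
    ExtCitation.cycloChar p σ = 1 :=
  Units.ext (by simpa using cycloChar_eq_of_apply hζ (a := 1) (by simpa using h))

/-- The cyclotomic character is surjective. -/
theorem cycloChar_surjective : Function.Surjective (ExtCitation.cycloChar p) := by
  intro u
  have : NeZero p := ⟨(Fact.out : p.Prime).ne_zero⟩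
  obtain ⟨ζ, hζ⟩ := exists_primitiveRoot_qbar p
  have hζ' : IsPrimitiveRoot (ζ ^ (u : ZMod p).val) p :=
    hζ.pow_of_coprime _ (ZMod.val_coe_unit_coprime u)
  have hmin : minpoly ℚ ζ = minpoly ℚ (ζ ^ (u : ZMod p).val) := by
    rw [← Polynomial.cyclotomic_eq_minpoly_rat hζ (NeZero.pos p),
      ← Polynomial.cyclotomic_eq_minpoly_rat hζ' (NeZero.pos p)]
  have : Normal ℚ Qb := isGalois_algClosureRat.to_normal
  obtain ⟨σ, hσ⟩ := (Normal.minpoly_eq_iff_mem_orbit (F := ℚ) (E := Qb)).1 hmin.symm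
  exact ⟨σ, Units.ext (by simpa using cycloChar_eq_of_apply hζ (a := (u : ZMod p).val) hσ)⟩

/-- The automorphisms fixing the `p ^ N`-th roots of unity. -/
def fixMu (p N : ℕ) : Subgroup GQ where
  carrier := {σ | ∀ z : Qb, z ^ p ^ N = 1 → σ z = z}
  mul_mem' := fun {a b} ha hb z hz => by rw [AlgEquiv.mul_apply, hb z hz, ha z hz]
  one_mem' := fun z _ => rfl
  inv_mem' := fun {a} ha z hz => by
    conv_lhs => rw [← ha z hz]
    exact a.symm_apply_apply z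

omit [Fact p.Prime] in
theorem apply_mem_rootsOf {N : ℕ} (σ : GQ) {z : Qb} (hz : z ^ p ^ N = 1) : (σ z) ^ p ^ N = 1 := by
  rw [← map_pow, hz, map_one]

theorem commutator_mem_fixMu (N : ℕ) (g h : GQ) : g * h * g⁻¹ * h⁻¹ ∈ fixMu p N := by
  intro z hz
  have : NeZero (p ^ N) := ⟨pow_ne_zero _ (Fact.out : p.Prime).ne_zero⟩
  obtain ⟨ζ, hζ⟩ := exists_primitiveRoot_qbar (p ^ N)
  have hpow : ∀ σ : GQ, ∃ a : ℕ, σ ζ = ζ ^ a := fun σ => by
    obtain ⟨a, -, ha⟩ := hζ.eq_pow_of_pow_eq_one (apply_mem_rootsOf σ hζ.pow_eq_one)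
    exact ⟨a, ha.symm⟩
  obtain ⟨i, -, rfl⟩ := hζ.eq_pow_of_pow_eq_one hz
  have hc : ∀ σ τ : GQ, σ (τ ζ) = τ (σ ζ) := fun σ τ => by
    obtain ⟨a, ha⟩ := hpow σ
    obtain ⟨b, hb⟩ := hpow τ
    rw [hb, map_pow, ha, map_pow, hb, ← pow_mul, ← pow_mul, mul_comm]
  rw [map_pow]
  congr 1
  simp only [AlgEquiv.mul_apply]
  rw [hc g⁻¹ h⁻¹]
  simp

theorem conj_mem_fixMu {N : ℕ} (g : GQ) {σ : GQ} (hσ : σ ∈ fixMu p N) :
    g * σ * g⁻¹ ∈ fixMu p N := by
  have := mul_mem (commutator_mem_fixMu (p := p) N g σ) hσ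
  simpa [mul_assoc] using this

theorem cycloChar_of_mem_fixMu {N : ℕ} {σ : GQ} (hσ : σ ∈ fixMu p (N + 1)) :
    ExtCitation.cycloChar p σ = 1 := by
  have : NeZero p := ⟨(Fact.out : p.Prime).ne_zero⟩
  obtain ⟨ζ, hζ⟩ := exists_primitiveRoot_qbar p
  exact cycloChar_eq_one_of_apply hζ (hσ ζ (by rw [pow_succ', pow_mul, hζ.pow_eq_one, one_pow]))

/-- `fixMu` is the fixing subgroup of a number field. -/
theorem exists_field_le_fixMu (p N : ℕ) [Fact p.Prime] :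
    ∃ F : IntermediateField ℚ Qb, FiniteDimensional ℚ F ∧ F.fixingSubgroup ≤ fixMu p N := by
  have : NeZero (p ^ N) := ⟨pow_ne_zero _ (Fact.out : p.Prime).ne_zero⟩
  obtain ⟨ζ, hζ⟩ := exists_primitiveRoot_qbar (p ^ N)
  refine ⟨IntermediateField.adjoin ℚ {ζ}, IntermediateField.adjoin.finiteDimensional
    ((AlgebraicClosure.isAlgebraic ℚ).isAlgebraic ζ).isIntegral, fun σ hσ z hz => ?_⟩
  obtain ⟨i, -, rfl⟩ := hζ.eq_pow_of_pow_eq_one hz
  rw [map_pow]
  congr 1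
  exact hσ ⟨ζ, IntermediateField.mem_adjoin_simple_self ℚ ζ⟩

end

end FermatAgent.TW
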