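import Fermat.Prelude.Def_GroupCohomology_ContinuousUnramified
import Fermat.Prelude.Def_ExtCitation_KummerBridge
import Fermat.Agent.Duality.Instance.Selmer
import Fermat.Agent.TW.Cyclo

/-!
The two facts from arithmetic duality used in the construction of Taylor–Wiles primes (S56),
derived from `Fermat.Agent.Duality`.

`finite_continuousH1S` : finiteness of `H¹(G_T, M)`.
`greenbergWilesBound` : the Greenberg–Wiles formula in the special form where the dual Selmer
group vanishes because the classes unramified outside `T` of the twisted dual are detected at a set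
`Q` of places where the local condition is everything.  Stated without reference to local pairings.
-/

set_option autoImplicit false

open CategoryTheory Module groupCohomology ExtCitation

namespace FermatAgent.TW

noncomputable section

local notation "Qb" => AlgebraicClosure ℚ
local notation "GQ" => AlgebraicClosure ℚ ≃ₐ[ℚ] AlgebraicClosure ℚ

variable {p : ℕ} [Fact p.Prime]

/-- Finiteness of the first cohomology of the maximal extension unramified outside `T`. -/
def FiniteH1S (p : ℕ) [Fact p.Prime] : Prop :=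
  ∀ (T : Finset Nat.Primes) (M : Rep (ZMod p) GQ) [FiniteDimensional (ZMod p) M],
    (∀ m : M, ∃ F : IntermediateField ℚ Qb, FiniteDimensional ℚ F ∧
      ∀ s ∈ F.fixingSubgroup, M.ρ s m = m) →
    FiniteDimensional (ZMod p) (continuousH1S T M)

/-- The Selmer classes for the local conditions `L`, among classes unramified outside `T`. -/
abbrev selmerS {T : Finset Nat.Primes} (Pl : T → ValuationSubring Qb) (M : Rep (ZMod p) GQ)
    (L : ∀ v : T, Submodule (ZMod p)
      (H1 (Rep.res ((Pl v).decompositionSubgroup ℚ).subtype M))) :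
    Submodule (ZMod p) (H1 M) :=
  selmerAdm (fun v : T => ((Pl v).decompositionSubgroup ℚ).subtype) M L (continuousH1S T M)

/-- The Greenberg–Wiles bound when the dual Selmer group vanishes. -/
def GreenbergWilesBound (p : ℕ) [Fact p.Prime] : Prop :=
  p ≠ 2 → ∀ (T : Finset Nat.Primes), pPrime p ∈ T →
  ∀ (M : Rep (ZMod p) GQ) [FiniteDimensional (ZMod p) M],
    (∀ m : M, ∃ F : IntermediateField ℚ Qb, FiniteDimensional ℚ F ∧
      ∀ s ∈ F.fixingSubgroup, M.ρ s m = m) →
    (∀ q : Nat.Primes, q ∉ T → ∀ A : ValuationSubring Qb, A.LiesOverPrime (q : ℕ) →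
      ∀ g ∈ A.inertiaSubgroupIn ℚ, M.ρ g = 1) →
  ∀ (c : GQ), c = complexConjugation →
  ∀ (Pl : T → ValuationSubring Qb), (∀ v, (Pl v).LiesOverPrime (v.1 : ℕ)) →
  ∀ (L : ∀ v : T, Submodule (ZMod p)
      (H1 (Rep.res ((Pl v).decompositionSubgroup ℚ).subtype M))),
    (∀ v : T, L v ≤ continuousH1 ((Pl v).decompositionSubgroup ℚ).subtype
      (Rep.res ((Pl v).decompositionSubgroup ℚ).subtype M)) →
  ∀ (Q : Set T),
    (∀ v ∈ Q, L v = continuousH1 ((Pl v).decompositionSubgroup ℚ).subtype
      (Rep.res ((Pl v).decompositionSubgroup ℚ).subtype M)) →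
    (∀ y ∈ continuousH1S T (M.dualTwist (cycloChar p)),
      (∀ v ∈ Q, (locRes (fun v : T => ((Pl v).decompositionSubgroup ℚ).subtype)
        (M.dualTwist (cycloChar p)) v).hom y = 0) → y = 0) →
    finrank (ZMod p) (selmerS Pl M L)
        + finrank (ZMod p) (M.dualTwist (cycloChar p)).ρ.invariants
        + ∑ v : T, finrank (ZMod p)
            (Rep.res ((Pl v).decompositionSubgroup ℚ).subtype M).ρ.invariants
        + finrank (ZMod p) (LinearMap.ker (M.ρ c - 1))
      ≤ finrank (ZMod p) M.ρ.invariants + ∑ v : T, finrank (ZMod p) (L v)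

theorem finite_continuousH1S (p : ℕ) [Fact p.Prime] : FiniteH1S p := fun T M _ hsm =>
  have := Duality.finite_H1c_sLevels M.ρ hsm T
  Module.Finite.equiv (Duality.continuousH1SEquiv M T)

/-- Inertia prime to `p` acts trivially on the `p`-th roots of unity. -/
lemma cycloChar_eq_one_of_mem_inertia {q : Nat.Primes} (hqp : (q : ℕ) ≠ p)
    {A : ValuationSubring Qb} (hA : A.LiesOverPrime (q : ℕ)) {σ : GQ}
    (hσ : σ ∈ A.inertiaSubgroupIn ℚ) : cycloChar p σ = 1 := by
  have hp := (Fact.out : p.Prime)
  have : NeZero p := ⟨hp.ne_zero⟩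
  obtain ⟨ζ, hζ⟩ := exists_primitiveRoot_qbar p
  have hζA : ζ ∈ A := (A.valuation_le_one_iff ζ).mp
    (Duality.Global.val_eq_one_of_pow_eq_one (A := A) hp.ne_zero hζ.pow_eq_one).le
  refine cycloChar_eq_one_of_apply hζ (Duality.Global.eq_of_val_sub_lt q.2 hA
    (fun h => hqp ((Nat.prime_dvd_prime_iff_eq q.2 hp).mp h)) hp.ne_zero
    (by rw [← map_pow, hζ.pow_eq_one, map_one]) hζ.pow_eq_one ?_)
  exact FermatAgent.Local.inertia_val_sub_lt_one hσ hζA

theorem greenbergWilesBound (p : ℕ) [Fact p.Prime] : GreenbergWilesBound p := by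
  intro hp T hpT M _ hsm hunr c hc Pl hPl L hL Q hQ hdual
  subst hc
  classical
  have hcho : ∀ q : Nat.Primes, ∃ A : ValuationSubring Qb, A.LiesOverPrime (q : ℕ) :=
    fun q => RT.exists_liesOverPrime q.2
  obtain ⟨A, hA, hAPl⟩ : ∃ A : Nat.Primes → ValuationSubring Qb,
      (∀ q, (A q).LiesOverPrime (q : ℕ)) ∧ ∀ v : T, A v.1 = Pl v := by
    refine ⟨fun q => if h : q ∈ T then Pl ⟨q, h⟩ else (hcho q).choose, fun q => ?_, fun v => ?_⟩
    · show ValuationSubring.LiesOverPrime (dite _ _ _) _
      split_ifs with h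
      · exact hPl ⟨q, h⟩
      · exact (hcho q).choose_spec
    · exact dif_pos v.2
  obtain rfl : Pl = fun v : T => A v.1 := funext fun v => (hAPl v).symm
  obtain ⟨L₀, hL₀, hn₀, hμ₀, htr₀⟩ := Duality.exists_splittingField p M.ρ hsm
  let H : Subgroup GQ := M.ρ.ker ⊓ (cycloChar p).ker
  obtain ⟨F, -, hFfd, hF⟩ := Duality.exists_field_of_fixingSubgroup_le (F := L₀) (H := H)
    fun g hg => ⟨LinearMap.ext fun m => htr₀ g hg m, hμ₀ g hg⟩
  have hHn : H.Normal := inferInstance
  have hFn : F.fixingSubgroup.Normal := by rw [hF]; exact hHn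
  have hFμ : Duality.ContainsMuP p F := fun g hg => by rw [hF] at hg; exact hg.2
  have hFT : F.IsUnramifiedOutside T := ⟨hFfd, fun q hq B hB i hi => by
    rw [hF]
    exact ⟨hunr q hq B hB i hi, cycloChar_eq_one_of_mem_inertia
      (fun h => hq (by rw [show q = pPrime p from Subtype.ext h]; exact hpT)) hB hi⟩⟩
  have hρ : Duality.TrivialOn F.fixingSubgroup M.ρ := fun g hg m => by
    rw [hF] at hg
    exact LinearMap.congr_fun hg.1 m
  obtain ⟨S₁, hTS₁, hS₁⟩ := Duality.exists_bigFor p F hFT
  obtain ⟨S₂, -, hS₂⟩ := Duality.Euler.exists_bigEnough (p := p) F hFT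
  let C : Duality.RatCtx p :=
    { S := S₁ ∪ S₂, L := F, A := A, liesOver := hA, hp := hp, hL := hFμ
      big := hS₁ _ Finset.subset_union_left, enough := hS₂ _ Finset.subset_union_right }
  let cond : ∀ q : Nat.Primes,
      Submodule (ZMod p) (Duality.H1c (Duality.decLevels (C.A q)) (C.resAt M.ρ q)) := fun q =>
    if h : q ∈ T then (L ⟨q, h⟩).comap
      (Duality.toH1 (Duality.decLevels (A q))
        (Rep.res ((A q).decompositionSubgroup ℚ).subtype M)) else ⊤
  have hcond : ∀ v : T, cond v.1 = (L v).comap (Duality.toH1 (Duality.decLevels (A v.1))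
      (Rep.res ((A v.1).decompositionSubgroup ℚ).subtype M)) := fun v => dif_pos v.2
  have hcont : ∀ v : T, continuousH1 ((A v.1).decompositionSubgroup ℚ).subtype
      (Rep.res ((A v.1).decompositionSubgroup ℚ).subtype M) =
      LinearMap.range (Duality.toH1 (Duality.decLevels (A v.1))
        (Rep.res ((A v.1).decompositionSubgroup ℚ).subtype M)) :=
    fun v => (Duality.range_toH1_comap _ _).symm
  have hloc : ∀ (N : Rep (ZMod p) GQ) (v : T) (x : Duality.H1c (Duality.sLevels T) N.ρ),
      (locRes (fun v : T => ((A v.1).decompositionSubgroup ℚ).subtype) N v).hom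
          (Duality.toH1 (Duality.sLevels T) N x) =
        Duality.toH1 (Duality.decLevels (A v.1))
          (Rep.res ((A v.1).decompositionSubgroup ℚ).subtype N)
          (Duality.decRes1 T N.ρ (A v.1) x) := fun N v x =>
    Duality.map_toH1 (N := Rep.res ((A v.1).decompositionSubgroup ℚ).subtype N) _ _
      (fun _ _ => rfl) x
  let Q' : Set Nat.Primes := {q | ∃ h : q ∈ T, (⟨q, h⟩ : T) ∈ Q}
  obtain ⟨hfinSel, hbound⟩ := C.selmer_bound M.ρ T cond hρ
    (hTS₁.trans Finset.subset_union_left) hFT hpT Q' (fun q hq => hq.1)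
    (fun q ⟨h, hq⟩ => by
      rw [hcond ⟨q, h⟩, hQ _ hq, hcont ⟨q, h⟩]
      exact Submodule.eq_top_iff'.mpr fun x => ⟨x, rfl⟩)
    (fun y hy => by
      refine Duality.toH1_injective (Duality.sLevels T) (M.dualTwist (cycloChar p)) ?_
      refine (hdual _ ?_ fun v hv => ?_).trans (map_zero _).symm
      · rw [← Duality.range_toH1_sLevels]
        exact ⟨y, rfl⟩
      · exact ((hloc (M.dualTwist (cycloChar p)) v y).trans
          ((congrArg _ (hy v.1 ⟨v.2, hv⟩)).trans (map_zero _))))
  -- the Selmer classes come from classes of `G_T`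
  have hsel : selmerS (fun v : T => A v.1) M L ≤
      (C.selmerT M.ρ T cond).map (Duality.toH1 (Duality.sLevels T) M) := by
    intro x hx
    obtain ⟨hx1, hx2⟩ := (mem_selmerAdm_iff _ _ _ _ _).1 hx
    rw [← Duality.range_toH1_sLevels] at hx2
    obtain ⟨y, rfl⟩ := hx2
    refine ⟨y, Submodule.mem_iInf _ |>.mpr fun v => ?_, rfl⟩
    show Duality.decRes1 T M.ρ (A v.1) y ∈ cond v.1
    rw [hcond v]
    show _ ∈ L v
    rw [← hloc M v y]
    exact hx1 v
  have h1 := Submodule.finrank_mono hsel
  have h2 := Submodule.finrank_map_le (Duality.toH1 (Duality.sLevels T) M)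
    (C.selmerT M.ρ T cond)
  have h3 : ∀ v : T, finrank (ZMod p) (cond v.1) ≤ finrank (ZMod p) (L v) := fun v => by
    have hfin : FiniteDimensional (ZMod p)
        (Duality.H1c (Duality.decLevels (A v.1)) (C.resAt M.ρ v.1)) := C.finite_H1_at M.ρ hρ v.1
    rw [hcond v]
    have : FiniteDimensional (ZMod p) (L v) := Submodule.finiteDimensional_of_le
      (le_of_le_of_eq (hL v) (hcont v))
    exact LinearMap.finrank_le_finrank_of_injective
      (f := (Duality.toH1 (Duality.decLevels (A v.1))
        (Rep.res ((A v.1).decompositionSubgroup ℚ).subtype M)).restrict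
          (p := (L v).comap _) (q := L v) fun _ hx => hx)
      fun a b hab => Subtype.ext (Duality.toH1_injective _ _ (congrArg Subtype.val hab))
  have h4 : ∑ q ∈ T, finrank (ZMod p) (cond q) ≤ ∑ v : T, finrank (ZMod p) (L v) := by
    rw [← Finset.sum_coe_sort T]
    exact Finset.sum_le_sum fun v _ => h3 v
  have h5 : ∑ v : T, finrank (ZMod p)
      (Rep.res ((A v.1).decompositionSubgroup ℚ).subtype M).ρ.invariants =
      ∑ q ∈ T, finrank (ZMod p) (Representation.invariants (C.resAt M.ρ q)) :=
    Finset.sum_coe_sort T fun q => finrank (ZMod p) (Representation.invariants (C.resAt M.ρ q))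
  rw [h5]
  change finrank (ZMod p) (selmerS (fun v : T => A v.1) M L)
        + finrank (ZMod p) (C.dualRep M.ρ).invariants + _ + _ ≤ _
  omega

end

end FermatAgent.TW
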