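import Fermat.Agent.TW.Detect
import Fermat.Agent.TW.ValueGroup
import Fermat.Agent.GalRep.Density.Frobenius

/-!
# A Taylor–Wiles prime detecting a given dual class
-/

set_option autoImplicit false

open Matrix Module groupCohomology

namespace FermatAgent.TW

open FermatAgent.RT FermatAgent.Local

noncomputable section

local notation "Qb" => AlgebraicClosure ℚ
local notation "GQ" => AlgebraicClosure ℚ ≃ₐ[ℚ] AlgebraicClosure ℚ

theorem natCast_prime_pow_ne {A : ValuationSubring Qb} {q p : ℕ} (hq : q.Prime) (hp : p.Prime)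
    (hA : A.LiesOverPrime q) (hqp : q ≠ p) {N : ℕ} {η : Qb} (hη : η ^ p ^ N = 1)
    (h1 : A.valuation (η - 1) < 1) : η = 1 := by
  induction N with
  | zero => simpa using hη
  | succ N ih =>
    refine ih ?_
    set ω := η ^ p ^ N with hω
    by_contra hne
    have hωp : ω ^ p = 1 := by rw [hω, ← pow_mul, ← pow_succ]; exact hη
    have hv1 : ∀ m : ℕ, A.valuation (η ^ m - 1) < 1 := by
      intro m
      induction m with
      | zero => simp
      | succ m ihm =>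
        rw [show η ^ (m + 1) - 1 = η * (η ^ m - 1) + (η - 1) by ring]
        have hηv : A.valuation η = 1 :=
          eq_one_of_pow_eq_one (pow_ne_zero (N + 1) hp.ne_zero) (by rw [← map_pow, hη, map_one])
        refine A.valuation.map_add_lt ?_ h1
        rw [map_mul, hηv, one_mul]; exact ihm
    have hsum : ∑ i ∈ Finset.range p, ω ^ i = 0 := by
      rw [geom_sum_eq hne, hωp, sub_self, zero_div]
    have hlt : A.valuation ((p : ℕ) : Qb) < 1 := by
      have e : ((p : ℕ) : Qb) = -∑ i ∈ Finset.range p, (ω ^ i - 1) := by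
        rw [Finset.sum_sub_distrib, hsum]; simp
      rw [e, Valuation.map_neg]
      refine A.valuation.map_sum_lt one_ne_zero fun i _ => ?_
      rw [hω, ← pow_mul]; exact hv1 _
    exact hlt.ne (val_natCast_eq_one hq hA fun h => hqp ((Nat.prime_dvd_prime_iff_eq hq hp).1 h))

theorem dvd_sub_one_of_frobenius_fixMu {A : ValuationSubring Qb} {q p : ℕ} [Fact p.Prime]
    (hq : q.Prime) (hA : A.LiesOverPrime q) (hqp : q ≠ p) {N : ℕ} {τ : GQ}
    (hτ : A.IsFrobeniusAt τ q) (hfix : τ ∈ fixMu p N) : p ^ N ∣ q - 1 := by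
  have hp : p.Prime := Fact.out
  have : NeZero (p ^ N) := ⟨pow_ne_zero _ hp.ne_zero⟩
  obtain ⟨ζ, hζ⟩ := exists_primitiveRoot_qbar (p ^ N)
  have hz : ζ ∈ A := (A.valuation_le_one_iff ζ).1
    (eq_one_of_pow_eq_one (NeZero.ne (p ^ N)) (by rw [← map_pow, hζ.pow_eq_one, map_one])).le
  have h := ((isFrobeniusAt_iff).1 hτ).2 ζ hz
  rw [hfix ζ hζ.pow_eq_one] at h
  have hq1 : q = q - 1 + 1 := by have := hq.pos; omega
  have hζ1 : A.valuation ζ = 1 :=
    eq_one_of_pow_eq_one (NeZero.ne (p ^ N)) (by rw [← map_pow, hζ.pow_eq_one, map_one])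
  rw [show ζ - ζ ^ q = -(ζ * (ζ ^ (q - 1) - 1)) by
    conv_lhs => rw [hq1]
    ring, Valuation.map_neg, map_mul, hζ1, one_mul] at h
  exact hζ.dvd_of_pow_eq_one _ (natCast_prime_pow_ne (N := N) hq hp hA hqp
    (by rw [← pow_mul, mul_comm, pow_mul, hζ.pow_eq_one, one_pow]) h)

variable {k : Type} [Field k] [Finite k] {p : ℕ} [Fact p.Prime] [Algebra (ZMod p) k]
  {ρ : GQ →* GL (Fin 2) k}

/-- A prime detecting a nonzero dual class. -/
theorem exists_good_prime (hρ : TWHyp p ρ) (T : Finset Nat.Primes)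
    (hpT : ExtCitation.pPrime p ∈ T)
    (hunr : ∀ q : Nat.Primes, q ∉ T → ∀ A : ValuationSubring Qb, A.LiesOverPrime (q : ℕ) →
      ∀ g ∈ A.inertiaSubgroupIn ℚ, ρ g = 1)
    (N : ℕ) (avoid : Finset Nat.Primes) {y : GQ → Matrix (Fin 2) (Fin 2) k}
    (hy : IsDualCocycle ρ y) (hlev : IsLevelConstant₁ (MonoidHom.id GQ) y)
    (hne : ¬ ∃ b : Matrix (Fin 2) (Fin 2) k, Matrix.trace b = 0 ∧
      ∀ σ, y σ = twAd (ρ σ) b - b) :
    ∃ q : Nat.Primes, q ∉ avoid ∧ q ∉ T ∧ p ^ (N + 1) ∣ (q : ℕ) - 1 ∧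
      (∀ A : ValuationSubring Qb, A.LiesOverPrime (q : ℕ) → ∀ φ : GQ,
        A.IsFrobeniusAt φ (q : ℕ) → ∃ α β : k, α ≠ β ∧
          (ρ φ : Matrix (Fin 2) (Fin 2) k).charpoly =
            (Polynomial.X - Polynomial.C α) * (Polynomial.X - Polynomial.C β)) ∧
      ∃ A : ValuationSubring Qb, A.LiesOverPrime (q : ℕ) ∧ ¬ DiesAt ρ y A := by
  classical
  have h2 := two_ne_zero_of (k := k) hρ.ne_two
  obtain ⟨σ, hσ, hd, hyσ⟩ := exists_detecting_element hρ N hy hne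
  obtain ⟨L, hL, hρL⟩ := hρ.finiteLevel
  obtain ⟨F, hF, hFμ⟩ := exists_field_le_fixMu p (N + 1)
  obtain ⟨E, hE, hyE⟩ := hlev
  let K := L ⊔ F ⊔ E
  have hLF : FiniteDimensional ℚ ↥(L ⊔ F) := IntermediateField.finiteDimensional_sup L F
  have hK : FiniteDimensional ℚ K := IntermediateField.finiteDimensional_sup (L ⊔ F) E
  have hKU : ∀ u ∈ K.fixingSubgroup, ρ u = 1 ∧ u ∈ fixMu p (N + 1) ∧ y u = 0 := fun u hu => by
    refine ⟨hρL u (IntermediateField.fixingSubgroup_antitone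
        (le_sup_left.trans le_sup_left) hu),
      hFμ (IntermediateField.fixingSubgroup_antitone (le_sup_right.trans le_sup_left) hu), ?_⟩
    have := hyE 1 u (IntermediateField.fixingSubgroup_antitone le_sup_right hu)
    rwa [one_mul, hy.one] at this
  let S : Finset ℕ := (avoid ∪ T).image fun q : Nat.Primes => (q : ℕ)
  obtain ⟨q, hq, hqS, A, hA, τ, hτ, m, n, hm, hn⟩ :=
    FermatAgent.GalRep.exists_isFrobeniusAt_pow_eq K σ (S := (S : Set ℕ)) S.finite_toSet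
  have hu1 : σ⁻¹ * τ ^ m ∈ K.fixingSubgroup := fun x => by
    show σ⁻¹ ((τ ^ m) (x : Qb)) = x
    rw [hm _ x.2, ← AlgEquiv.mul_apply, inv_mul_cancel, AlgEquiv.one_apply]
  have hu2 : τ⁻¹ * σ ^ n ∈ K.fixingSubgroup := fun x => by
    show τ⁻¹ ((σ ^ n) (x : Qb)) = x
    rw [hn _ x.2, ← AlgEquiv.mul_apply, inv_mul_cancel, AlgEquiv.one_apply]
  obtain ⟨hu1ρ, -, hu1y⟩ := hKU _ hu1
  obtain ⟨hu2ρ, hu2μ, -⟩ := hKU _ hu2
  have hτμ : τ ∈ fixMu p (N + 1) := by
    rw [show τ = σ ^ n * (τ⁻¹ * σ ^ n)⁻¹ by group]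
    exact mul_mem (pow_mem hσ n) (inv_mem hu2μ)
  have hρm : ρ (τ ^ m) = ρ σ := by
    rw [show τ ^ m = σ * (σ⁻¹ * τ ^ m) by group, map_mul, hu1ρ, mul_one]
  have hdτ : disc (ρ τ) ≠ 0 := fun h => hd (by
    rw [← hρm, map_pow]; exact disc_pow_of_disc_eq_zero _ h2 h m)
  have hqT : (⟨q, hq⟩ : Nat.Primes) ∉ avoid ∪ T := fun h =>
    hqS (Finset.mem_coe.2 (Finset.mem_image_of_mem (fun q : Nat.Primes => (q : ℕ)) h))
  replace hqT : (⟨q, hq⟩ : Nat.Primes) ∉ avoid ∧ (⟨q, hq⟩ : Nat.Primes) ∉ T :=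
    ⟨fun h => hqT (Finset.mem_union_left _ h), fun h => hqT (Finset.mem_union_right _ h)⟩
  have hqp : q ≠ p := fun h => hqT.2 (by
    have : (⟨q, hq⟩ : Nat.Primes) = ExtCitation.pPrime p := Subtype.ext h
    rw [this]; exact hpT)
  refine ⟨⟨q, hq⟩, hqT.1, hqT.2, dvd_sub_one_of_frobenius_fixMu hq hA hqp hτ hτμ,
    fun B hB φ hφ => ?_, A, hA, ?_⟩
  · obtain ⟨g, hg⟩ := exists_conj_map_frobenius ρ hq (hunr ⟨q, hq⟩ hqT.2) hA hB hτ hφ
    obtain ⟨α, β, hne', hchar⟩ := exists_eigen_charpoly hρ hdτ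
    refine ⟨α, β, hne', ?_⟩
    rw [hg, Units.val_mul, Units.val_mul, Matrix.coe_units_inv, Matrix.charpoly_units_conj, hchar]
  · rintro ⟨b, -, hb⟩
    have hτm := hy.pow_eq (hb τ ((isFrobeniusAt_iff).1 hτ).1) m
    refine hyσ ⟨b, ?_⟩
    rw [show τ ^ m = σ * (σ⁻¹ * τ ^ m) by group, hy.2, hu1y, map_mul, hu1ρ, mul_one] at hτm
    simpa [twAd] using hτm

end

end FermatAgent.TW
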