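import Fermat.Agent.TW.LocalCommon
import Fermat.Agent.TW.GoodPrime

/-!
# Local bounds away from `p`: Taylor–Wiles places and unipotent inertia
-/

set_option autoImplicit false
set_option linter.unusedSectionVars false

open scoped Pointwise
open Matrix Module groupCohomology

namespace FermatAgent.TW

open FermatAgent.RT FermatAgent.Local

noncomputable section

local notation "Qb" => AlgebraicClosure ℚ
local notation "GQ" => AlgebraicClosure ℚ ≃ₐ[ℚ] AlgebraicClosure ℚ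

variable {k : Type} [Field k] {ρ : GQ →* GL (Fin 2) k} {A : ValuationSubring Qb}

local notation "D" => ValuationSubring.decompositionSubgroup ℚ A

/-- The inclusion of inertia in the decomposition group. -/
def inclInertia (A : ValuationSubring Qb) :
    A.inertiaSubgroupIn ℚ →* A.decompositionSubgroup ℚ :=
  Subgroup.inclusion fun _ h => mem_decomposition_of_inertia h

@[simp] theorem coe_inclInertia (σ : A.inertiaSubgroupIn ℚ) :
    ((inclInertia A σ : A.decompositionSubgroup ℚ) : GQ) = σ := rfl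

/-- `(1 + ε c(σ)) ρ(σ)` over the dual numbers. -/
def dualLift (ρ : GQ →* GL (Fin 2) k) (c : A.decompositionSubgroup ℚ → Matrix (Fin 2) (Fin 2) k)
    (hc : c ∈ adCocycles ρ (A.decompositionSubgroup ℚ)) :
    A.inertiaSubgroupIn ℚ →* (DualNumber (Matrix (Fin 2) (Fin 2) k))ˣ :=
  MonoidHom.toHomUnits
  { toFun := fun σ => TrivSqZeroExt.inl (ρ σ : Matrix (Fin 2) (Fin 2) k) +
      TrivSqZeroExt.inr (c (inclInertia A σ) * (ρ σ : Matrix (Fin 2) (Fin 2) k))
    map_one' := by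
      simp [isAdCocycle_one ρ hc]
    map_mul' := fun σ τ => by
      refine TrivSqZeroExt.ext ?_ ?_
      · simp
      · simp only [map_mul, hc.2.1, coe_inclInertia, TrivSqZeroExt.snd_add, TrivSqZeroExt.snd_inl,
          TrivSqZeroExt.snd_inr, zero_add, Subgroup.coe_mul, Units.val_mul, TrivSqZeroExt.snd_mul,
          TrivSqZeroExt.fst_add, TrivSqZeroExt.fst_inl, TrivSqZeroExt.fst_inr, add_zero,
          smul_eq_mul, op_smul_eq_mul]
        simp [conjAct, Matrix.add_mul, mul_assoc]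
        abel }

theorem snd_dualLift {c : A.decompositionSubgroup ℚ → Matrix (Fin 2) (Fin 2) k}
    (hc : c ∈ adCocycles ρ (A.decompositionSubgroup ℚ)) (σ : A.inertiaSubgroupIn ℚ) :
    ((dualLift ρ c hc σ : (DualNumber (Matrix (Fin 2) (Fin 2) k))ˣ) :
        DualNumber (Matrix (Fin 2) (Fin 2) k)).snd =
      c (inclInertia A σ) * (ρ σ : Matrix (Fin 2) (Fin 2) k) := by
  simp [dualLift]

/-- Main structure lemma: for finitely many cocycles, a common level, a tame generator of the image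
of inertia, and the vanishing principle. -/
theorem exists_tame_data {p : ℕ} (hp : p.Prime) [CharP k p] {q : ℕ} (hq : q.Prime) (hne : p ≠ q)
    (hA : A.LiesOverPrime q)
    (hρL : ∃ L : IntermediateField ℚ Qb, FiniteDimensional ℚ L ∧
      ∀ σ ∈ L.fixingSubgroup, ρ σ = 1)
    (hpow : ∀ σ ∈ A.inertiaSubgroupIn ℚ, ∃ n, ρ σ ^ p ^ n = 1)
    {φ : GQ} (hφ : A.IsFrobeniusAt φ q)
    (s : Finset (adCocycles ρ (A.decompositionSubgroup ℚ))) :
    ∃ τ : A.inertiaSubgroupIn ℚ,
      (∀ σ : A.inertiaSubgroupIn ℚ, ∃ n : ℤ,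
        ρ σ = ρ (τ : GQ) ^ n ∧ ∀ c ∈ s, c.1 (inclInertia A σ) = c.1 (inclInertia A (τ ^ n))) ∧
      (ρ (τ : GQ) = 1 → ∀ σ σ' : A.inertiaSubgroupIn ℚ, (σ' : GQ) = φ * (σ : GQ) * φ⁻¹ →
        ∀ c ∈ s, c.1 (inclInertia A σ') = q • c.1 (inclInertia A σ)) ∧
      ∀ c ∈ Submodule.span k ((fun z : adCocycles ρ (A.decompositionSubgroup ℚ) => z.1) '' (s : Set _)),
        c ⟨φ, (isFrobeniusAt_iff.1 hφ).1⟩ = 0 →
        (∀ σ : A.inertiaSubgroupIn ℚ, c (inclInertia A σ) = 0) → c = 0 := by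
  classical
  obtain ⟨L, hL, hLn, hρ1, hs⟩ := exists_common_level (ρ := ρ)
    (s.image fun z : adCocycles ρ (A.decompositionSubgroup ℚ) => z.1)
    (fun c hc => by obtain ⟨z, -, rfl⟩ := Finset.mem_image.1 hc; exact z.2.2.2) hρL
  let f : A.inertiaSubgroupIn ℚ →*
      GL (Fin 2) k × ({z : adCocycles ρ (A.decompositionSubgroup ℚ) // z ∈ s} → (DualNumber (Matrix (Fin 2) (Fin 2) k))ˣ) :=
    (ρ.comp (A.inertiaSubgroupIn ℚ).subtype).prod (MonoidHom.pi fun c : {z : adCocycles ρ (A.decompositionSubgroup ℚ) // z ∈ s} => dualLift ρ c.1.1 c.1.2)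
  have hfL : ∀ σ : A.inertiaSubgroupIn ℚ, (∀ x ∈ L, (σ : GQ) x = x) → f σ = 1 := by
    intro σ hσ
    have hmem : (σ : GQ) ∈ L.fixingSubgroup := fun x => hσ x x.2
    refine Prod.ext (hρ1 _ hmem) (funext fun c => Units.ext ?_)
    have h0 := hs c.1.1 (Finset.mem_image_of_mem _ c.2) 1 (inclInertia A σ) hmem
    rw [one_mul, isAdCocycle_one ρ c.1.2] at h0
    show TrivSqZeroExt.inl (ρ σ : Matrix (Fin 2) (Fin 2) k) +
      TrivSqZeroExt.inr (c.1.1 (inclInertia A σ) * (ρ σ : Matrix (Fin 2) (Fin 2) k)) = 1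
    simp [h0, hρ1 _ hmem]
  have hford : ∀ σ, ∃ n, f σ ^ p ^ n = 1 := by
    intro σ
    obtain ⟨n, hn⟩ := hpow _ σ.2
    refine ⟨n + 1, Prod.ext ?_ (funext fun c => Units.ext ?_)⟩
    · show ρ σ ^ p ^ (n + 1) = 1
      rw [pow_succ, pow_mul, hn, one_pow]
    · show ((dualLift ρ c.1.1 c.1.2 σ : (DualNumber (Matrix (Fin 2) (Fin 2) k))ˣ) :
        DualNumber (Matrix (Fin 2) (Fin 2) k)) ^ p ^ (n + 1) = 1
      rw [pow_succ, pow_mul]
      set x := ((dualLift ρ c.1.1 c.1.2 σ : (DualNumber (Matrix (Fin 2) (Fin 2) k))ˣ) :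
        DualNumber (Matrix (Fin 2) (Fin 2) k))
      have hfst : (x ^ p ^ n).fst = 1 := by
        rw [TrivSqZeroExt.fst_pow]
        have : x.fst = (ρ σ : Matrix (Fin 2) (Fin 2) k) := by simp [x, dualLift]
        rw [this, ← Units.val_pow_eq_pow_val, hn, Units.val_one]
      have key : ∀ y : DualNumber (Matrix (Fin 2) (Fin 2) k), y.fst = 1 → ∀ m : ℕ,
          y ^ m = TrivSqZeroExt.inl 1 + TrivSqZeroExt.inr ((m : k) • y.snd) := by
        intro y hy m
        induction m with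
        | zero => simp
        | succ m ih =>
          rw [pow_succ, ih]
          refine TrivSqZeroExt.ext ?_ ?_
          · simp [hy]
          · simp [hy, add_smul]
            abel
      rw [key _ hfst p, CharP.cast_eq_zero k p]
      simp
  obtain ⟨⟨τ, hτ⟩, hFrob⟩ := tame_inertia hq hp hne hA L f hfL hford
  have hcmp : ∀ σ σ' : A.inertiaSubgroupIn ℚ, f σ = f σ' →
      ρ σ = ρ (σ' : GQ) ∧ ∀ c ∈ s, c.1 (inclInertia A σ) = c.1 (inclInertia A σ') := by
    intro σ σ' h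
    have h1 : ρ σ = ρ (σ' : GQ) := congrArg Prod.fst h
    refine ⟨h1, fun c hc => ?_⟩
    have h2 := congrArg (fun u : (DualNumber (Matrix (Fin 2) (Fin 2) k))ˣ =>
      (u : DualNumber (Matrix (Fin 2) (Fin 2) k)).snd) (congrFun (congrArg Prod.snd h) ⟨c, hc⟩)
    change ((dualLift ρ c.1 c.2 σ : (DualNumber (Matrix (Fin 2) (Fin 2) k))ˣ) :
        DualNumber (Matrix (Fin 2) (Fin 2) k)).snd =
      ((dualLift ρ c.1 c.2 σ' : (DualNumber (Matrix (Fin 2) (Fin 2) k))ˣ) :
        DualNumber (Matrix (Fin 2) (Fin 2) k)).snd at h2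
    rw [snd_dualLift, snd_dualLift, h1] at h2
    exact (ρ (σ' : GQ)).isUnit.mul_right_cancel h2
  refine ⟨τ, fun σ => ?_, fun hτ1 σ σ' hσ' c hc => ?_, fun c hc hφ0 hI0 => ?_⟩
  · obtain ⟨n, hn⟩ := Subgroup.mem_zpowers_iff.1 (hτ σ)
    rw [← map_zpow] at hn
    obtain ⟨h1, h2⟩ := hcmp σ (τ ^ n) hn.symm
    exact ⟨n, by rw [h1, SubgroupClass.coe_zpow, map_zpow], h2⟩
  · have htriv : ∀ u : A.inertiaSubgroupIn ℚ, ρ (u : GQ) = 1 := fun u => by
      obtain ⟨n, hn⟩ := Subgroup.mem_zpowers_iff.1 (hτ u)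
      rw [← map_zpow] at hn
      rw [← (hcmp (τ ^ n) u hn).1, SubgroupClass.coe_zpow, map_zpow, hτ1, _root_.one_zpow]
    obtain ⟨h1, h2⟩ := hcmp σ' (σ ^ q) (by rw [map_pow]; exact hFrob φ hφ σ σ' hσ')
    rw [h2 c hc]
    have : ∀ m : ℕ, c.1 (inclInertia A (σ ^ m)) = m • c.1 (inclInertia A σ) := by
      intro m
      induction m with
      | zero => simp [isAdCocycle_one ρ c.2]
      | succ m ih =>
        rw [pow_succ, map_mul, c.2.2.1, ih, coe_inclInertia, htriv, conjAct_one, succ_nsmul]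
    exact this q
  · have hspan : ∀ g u : A.decompositionSubgroup ℚ, (u : GQ) ∈ L.fixingSubgroup →
        c (g * u) = c g := by
      intro g u hu
      refine Submodule.span_induction (p := fun x _ => x (g * u) = x g) ?_ rfl
        (fun x y _ _ hx hy => by simp [hx, hy]) (fun r x _ hx => by simp [hx]) hc
      rintro _ ⟨z, hz, rfl⟩
      exact hs z.1 (Finset.mem_image_of_mem _ hz) g u hu
    have hcoc : c ∈ adCocycles ρ (A.decompositionSubgroup ℚ) := by
      refine (Submodule.span_le.2 ?_) hc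
      rintro _ ⟨z, -, rfl⟩
      exact z.2
    funext g
    obtain ⟨m, i, hi, hgi⟩ := exists_frobenius_pow_mul hq hA L hφ g.2
    let φ' : A.decompositionSubgroup ℚ := ⟨φ, (isFrobeniusAt_iff.1 hφ).1⟩
    let i' := inclInertia A ⟨i, hi⟩
    have hφ0' : c φ' = 0 := hφ0
    have hu : (((φ' ^ m * i')⁻¹ * g : A.decompositionSubgroup ℚ) : GQ) ∈ L.fixingSubgroup := by
      intro x
      show ((φ ^ m * i)⁻¹ * (g : GQ)) (x : Qb) = x
      rw [AlgEquiv.mul_apply, hgi x x.2, ← AlgEquiv.mul_apply, inv_mul_cancel, AlgEquiv.one_apply]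
    have hg : c g = c (φ' ^ m * i') := by
      conv_lhs => rw [show g = (φ' ^ m * i') * ((φ' ^ m * i')⁻¹ * g) by group]
      exact hspan _ _ hu
    have hpow' : ∀ m : ℕ, c (φ' ^ m) = 0 := by
      intro m
      induction m with
      | zero => exact isAdCocycle_one ρ hcoc
      | succ m ih => rw [pow_succ, hcoc.2.1, ih, hφ0']; simp [conjAct]
    show c g = 0
    rw [hg, hcoc.2.1, hpow', hI0]
    simp [conjAct]

variable {p : ℕ} [Fact p.Prime] [CharP k p]

theorem zpow_value_zero {c : A.decompositionSubgroup ℚ → Matrix (Fin 2) (Fin 2) k}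
    (hc : c ∈ adCocycles ρ (A.decompositionSubgroup ℚ)) {g : A.decompositionSubgroup ℚ}
    (hg : c g = 0) (n : ℤ) : c (g ^ n) = 0 := by
  let S : Subgroup (A.decompositionSubgroup ℚ) :=
    { carrier := {x | c x = 0}
      one_mem' := isAdCocycle_one ρ hc
      mul_mem' := fun {a b} (ha : c a = 0) (hb : c b = 0) => by
        show c (a * b) = 0
        rw [hc.2.1, ha, hb]; simp [conjAct]
      inv_mem' := fun {a} (ha : c a = 0) => by
        show c a⁻¹ = 0
        have h := hc.2.1 a a⁻¹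
        rw [mul_inv_cancel, isAdCocycle_one ρ hc, ha, zero_add] at h
        have h' := congrArg (conjAct (ρ (a : GQ))⁻¹) h.symm
        rw [← conjAct_mul, inv_mul_cancel, conjAct_one] at h'
        simpa [conjAct] using h' }
  exact S.zpow_mem (show g ∈ S from hg) n

/-- At a Taylor–Wiles place all classes: `dim L - h⁰ ≤ 1`. -/
theorem rankLE_twPlace [Finite k] (h2 : (2 : k) ≠ 0)
    (hρL : ∃ L : IntermediateField ℚ Qb, FiniteDimensional ℚ L ∧
      ∀ σ ∈ L.fixingSubgroup, ρ σ = 1)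
    {q : ℕ} (hq : q.Prime) (hne : p ≠ q) (hA : A.LiesOverPrime q) (hq1 : (q : k) = 1)
    (hur : ∀ σ ∈ A.inertiaSubgroupIn ℚ, ρ σ = 1)
    {φ : GQ} (hφ : A.IsFrobeniusAt φ q) (hd : disc (ρ φ) ≠ 0) :
    RankLE (adCocycles ρ (A.decompositionSubgroup ℚ) ⊔
      adCoboundaries ρ (A.decompositionSubgroup ℚ)) 4 := by
  classical
  rw [sup_eq_left.2 (adCoboundaries_le hρL _)]
  set φ' : A.decompositionSubgroup ℚ := ⟨φ, (isFrobeniusAt_iff.1 hφ).1⟩
  set H := trFree (ρ φ) with hH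
  have hH0 : H ≠ 0 := fun h => by
    have h4 : (4 : k) ≠ 0 := by
      rw [show (4 : k) = 2 * 2 by norm_num]; exact mul_ne_zero h2 h2
    have := det_trFree h2 (ρ φ)
    rw [← hH, h] at this
    exact hd (by simpa [h4, det_fin_two] using this.symm)
  obtain ⟨i, j, hij⟩ : ∃ i j, H i j ≠ 0 := by
    by_contra! h; exact hH0 (by ext i j; exact h i j)
  refine rankLE_of_families _ 4 fun s => ?_
  obtain ⟨τ, hgen, hconj, hvan⟩ := exists_tame_data (Fact.out : p.Prime) hq hne hA hρL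
    (fun σ hσ => ⟨0, by rw [hur σ hσ, one_pow]⟩) hφ s
  let Ψ : ((A.decompositionSubgroup ℚ) → Matrix (Fin 2) (Fin 2) k) →ₗ[k] (Fin 4 → k) :=
    LinearMap.pi ![(Matrix.entryLinearMap k k 0 0).comp (LinearMap.proj φ'),
      (Matrix.entryLinearMap k k 0 1).comp (LinearMap.proj φ'),
      (Matrix.entryLinearMap k k 1 0).comp (LinearMap.proj φ'),
      (Matrix.entryLinearMap k k i j).comp (LinearMap.proj (inclInertia A τ))]
  refine ⟨Ψ, fun c hc h0 => ?_⟩
  have hcoc : c ∈ adCocycles ρ (A.decompositionSubgroup ℚ) :=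
    (Submodule.span_le.2 (by rintro _ ⟨z, -, rfl⟩; exact z.2)) hc
  have e : ∀ a : Fin 4, Ψ c a = 0 := fun a => congrFun h0 a
  have hcφ : c φ' = 0 := ext_of_trace_zero (hcoc.1 _) (by simp)
    (e 0) (e 1) (e 2)
  -- the value on the generator commutes with `ρ φ`
  have hφinv : φ * (τ : GQ) * φ⁻¹ ∈ A.inertiaSubgroupIn ℚ := by
    have := conj_mem_inertia (g := φ) τ.2
    rwa [show φ • A = A from (isFrobeniusAt_iff.1 hφ).1] at this
  have hval : c (inclInertia A ⟨φ * (τ : GQ) * φ⁻¹, hφinv⟩) = c (inclInertia A τ) := by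
    refine Submodule.span_induction (p := fun x _ =>
      x (inclInertia A ⟨φ * (τ : GQ) * φ⁻¹, hφinv⟩) = x (inclInertia A τ)) ?_ rfl
      (fun x y _ _ hx hy => by simp [hx, hy]) (fun r x _ hx => by simp [hx]) hc
    rintro _ ⟨z, hz, rfl⟩
    show z.1 _ = z.1 _
    rw [hconj (hur _ τ.2) τ ⟨_, hφinv⟩ rfl z hz, ← Nat.cast_smul_eq_nsmul k, hq1, one_smul]
  have hcomm : conjAct (ρ φ) (c (inclInertia A τ)) = c (inclInertia A τ) := by
    conv_rhs => rw [← hval]
    have e1 : φ' * inclInertia A τ =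
        inclInertia A ⟨φ * (τ : GQ) * φ⁻¹, hφinv⟩ * φ' := by
      refine Subtype.ext ?_
      show φ * (τ : GQ) = φ * (τ : GQ) * φ⁻¹ * φ
      rw [inv_mul_cancel_right]
    have h1 := hcoc.2.1 φ' (inclInertia A τ)
    rw [e1, hcoc.2.1, hcφ] at h1
    simp [conjAct] at h1
    simpa [conjAct, φ'] using h1.symm
  have hcH : c (inclInertia A τ) * H = H * c (inclInertia A τ) := by
    rw [hH, trFree, Matrix.mul_sub, Matrix.sub_mul, mul_eq_mul_of_conjAct_eq hcomm]
    simp
  obtain ⟨r, hr⟩ := exists_smul_of_commute h2 (trace_trFree h2 _) (hcoc.1 _) hH0 hcH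
  have hr0 : r = 0 := by
    have h3 : c (inclInertia A τ) i j = 0 := e 3
    rw [hr, Matrix.smul_apply, smul_eq_mul] at h3
    exact (mul_eq_zero.1 h3).resolve_right hij
  have hτ0 : c (inclInertia A τ) = 0 := by rw [hr, hr0, zero_smul]
  refine hvan c hc hcφ fun σ => ?_
  obtain ⟨n, -, hn⟩ := hgen σ
  have : c (inclInertia A σ) = c (inclInertia A (τ ^ n)) := by
    refine Submodule.span_induction (p := fun x _ =>
      x (inclInertia A σ) = x (inclInertia A (τ ^ n))) ?_ rfl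
      (fun x y _ _ hx hy => by simp [hx, hy]) (fun r x _ hx => by simp [hx]) hc
    rintro _ ⟨z, hz, rfl⟩
    exact hn z hz
  rw [this, map_zpow]
  exact zpow_value_zero hcoc hτ0 n

theorem det_eq_one_of_inertia [Algebra (ZMod p) k] (hdet : DetCyclo p ρ) {q : ℕ} (hq : q.Prime)
    (hne : p ≠ q) (hA : A.LiesOverPrime q) {σ : GQ} (hσ : σ ∈ A.inertiaSubgroupIn ℚ) :
    (ρ σ : Matrix (Fin 2) (Fin 2) k).det = 1 := by
  have : NeZero p := ⟨(Fact.out : p.Prime).ne_zero⟩
  obtain ⟨ζ, hζ⟩ := exists_primitiveRoot_qbar p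
  have hv : A.valuation ζ = 1 := eq_one_of_pow_eq_one (NeZero.ne p)
    (by rw [← map_pow, hζ.pow_eq_one, map_one])
  have hfix : σ ζ = ζ := by
    have h1 : A.valuation (σ ζ - ζ) < 1 :=
      inertia_val_sub_lt_one hσ ((A.valuation_le_one_iff ζ).1 hv.le)
    have hη : (σ ζ / ζ) ^ p ^ 1 = 1 := by
      rw [pow_one, div_pow, ← map_pow, hζ.pow_eq_one, map_one, div_one]
    have := natCast_prime_pow_ne (N := 1) hq Fact.out hA hne.symm hη (by
      rw [show σ ζ / ζ - 1 = (σ ζ - ζ) / ζ by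
        field_simp [hζ.ne_zero (NeZero.ne p)], map_div₀, hv, div_one]
      exact h1)
    exact eq_of_div_eq_one this
  rw [hdet σ, cycloChar_eq_one_of_apply hζ hfix, Units.val_one, map_one]

/-- A unipotent matrix has order dividing `p`. -/
theorem pow_prime_of_unipotent {g : GL (Fin 2) k}
    (ht : Matrix.trace (g : Matrix (Fin 2) (Fin 2) k) = 2)
    (hd : (g : Matrix (Fin 2) (Fin 2) k).det = 1) : g ^ p = 1 := by
  refine Units.ext ?_
  rw [Units.val_pow_eq_pow_val, Units.val_one]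
  set M := (g : Matrix (Fin 2) (Fin 2) k)
  have hN : (M - 1) * (M - 1) = 0 := by
    ext i j
    rw [trace_fin_two] at ht
    rw [det_fin_two] at hd
    fin_cases i <;> fin_cases j <;> simp [Matrix.mul_apply, Fin.sum_univ_two]
    · linear_combination (M 0 0) * ht - hd
    · linear_combination (M 0 1) * ht
    · linear_combination (M 1 0) * ht
    · linear_combination (M 1 1) * ht - hd
  have key : ∀ m : ℕ, M ^ m = 1 + (m : k) • (M - 1) := by
    intro m
    induction m with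
    | zero => simp
    | succ m ih =>
      rw [pow_succ, ih]
      have : M = 1 + (M - 1) := by abel
      conv_lhs => arg 2; rw [this]
      rw [add_mul, mul_add, one_mul, mul_add, smul_mul_assoc, smul_mul_assoc, mul_one, one_mul, hN,
        smul_zero, add_zero, Nat.cast_succ, add_smul, one_smul]
      abel
  rw [key, CharP.cast_eq_zero k p]
  simp

theorem adCoboundaries_le_unipotentConds
    (hρL : ∃ L : IntermediateField ℚ Qb, FiniteDimensional ℚ L ∧
      ∀ σ ∈ L.fixingSubgroup, ρ σ = 1) (A : ValuationSubring Qb) :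
    adCoboundaries ρ (A.decompositionSubgroup ℚ) ≤ unipotentConds ρ A := by
  rintro _ ⟨a, rfl⟩
  refine ⟨adDelta_mem hρL _ a, fun τ _ => ?_⟩
  show Matrix.trace ((conjAct (ρ τ) (a : Matrix (Fin 2) (Fin 2) k) -
    (a : Matrix (Fin 2) (Fin 2) k)) * (ρ τ : Matrix (Fin 2) (Fin 2) k)) = 0
  rw [Matrix.sub_mul, conjAct, mul_assoc _ _ (ρ τ : Matrix (Fin 2) (Fin 2) k),
    Units.inv_mul, mul_one, Matrix.trace_sub, Matrix.trace_mul_comm, sub_self]

/-- Unipotent and ramified inertia: `dim L - h⁰ ≤ 0`. -/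
theorem rankLE_unipotent_of [Finite k] [Algebra (ZMod p) k] (hdet : DetCyclo p ρ)
    (h2 : (2 : k) ≠ 0)
    (hρL : ∃ L : IntermediateField ℚ Qb, FiniteDimensional ℚ L ∧
      ∀ σ ∈ L.fixingSubgroup, ρ σ = 1)
    {q : ℕ} (hq : q.Prime) (hne : p ≠ q) (hA : A.LiesOverPrime q)
    (huni : ∀ τ ∈ A.inertiaSubgroupIn ℚ, Matrix.trace (ρ τ : Matrix (Fin 2) (Fin 2) k) = 2)
    (hram : ∃ τ ∈ A.inertiaSubgroupIn ℚ, ρ τ ≠ 1) :
    RankLE (unipotentConds ρ A ⊔ adCoboundaries ρ (A.decompositionSubgroup ℚ)) 3 := by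
  classical
  rw [sup_eq_left.2 (adCoboundaries_le_unipotentConds hρL A)]
  obtain ⟨φ, hφ⟩ := exists_isFrobeniusAt hq hA
  set φ' : A.decompositionSubgroup ℚ := ⟨φ, (isFrobeniusAt_iff.1 hφ).1⟩
  refine rankLE_of_families _ 3 fun s => ?_
  let inc : unipotentConds ρ A → adCocycles ρ (A.decompositionSubgroup ℚ) := fun z => ⟨z.1, z.2.1⟩
  obtain ⟨τ, hgen, -, hvan⟩ := exists_tame_data (Fact.out : p.Prime) hq hne hA hρL
    (fun σ hσ => ⟨1, by
      rw [pow_one]
      exact pow_prime_of_unipotent (huni σ hσ) (det_eq_one_of_inertia hdet hq hne hA hσ)⟩)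
    hφ (s.image inc)
  set N : Matrix (Fin 2) (Fin 2) k := (ρ (τ : GQ) : Matrix (Fin 2) (Fin 2) k) - 1 with hN
  have htrN : Matrix.trace N = 0 := by
    rw [hN, Matrix.trace_sub, huni _ τ.2, Matrix.trace_one]; simp
  have hτ1 : ρ (τ : GQ) ≠ 1 := by
    intro h
    obtain ⟨σ, hσ, hσ1⟩ := hram
    obtain ⟨n, hn, -⟩ := hgen ⟨σ, hσ⟩
    rw [h, _root_.one_zpow] at hn
    exact hσ1 hn
  have hN0 : N ≠ 0 := fun h => hτ1 (Units.ext (sub_eq_zero.1 h))
  -- coordinates: `(i₁, j₁)` detects the orthogonal of `N` with `(0,0)`, `(i, j)` detects `k N`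
  obtain ⟨i₁, j₁, i, j, hij, hcoord⟩ : ∃ (i₁ j₁ i j : Fin 2), N i j ≠ 0 ∧
      ∀ a : Matrix (Fin 2) (Fin 2) k, Matrix.trace a = 0 → Matrix.trace (a * N) = 0 →
        a 0 0 = 0 → a i₁ j₁ = 0 → a = 0 := by
    have hd := det_eq_one_of_inertia hdet hq hne hA τ.2
    have hd0 : N.det = 0 := by
      have ht := huni _ τ.2
      rw [trace_fin_two] at ht
      rw [det_fin_two] at hd
      rw [hN, det_fin_two]
      simp
      linear_combination hd - ht
    rw [det_fin_two, apply_one_one_of_trace htrN] at hd0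
    by_cases hy : N 0 1 = 0
    · have hx : N 0 0 = 0 := by
        have : N 0 0 * N 0 0 = 0 := by rw [hy] at hd0; linear_combination -hd0
        simpa using this
      have hz : N 1 0 ≠ 0 := fun hz => hN0 (ext_of_trace_zero htrN (by simp) (by simpa using hx)
        (by simpa using hy) (by simpa using hz))
      refine ⟨1, 0, 1, 0, hz, fun a ha ho h0 h1 => ?_⟩
      rw [trace_mul_fin_two, apply_one_one_of_trace ha, apply_one_one_of_trace htrN, hx, hy] at ho
      have : a 0 1 = 0 := by simpa [h0, hz] using ho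
      exact ext_of_trace_zero ha (by simp) (by simpa using h0) (by simpa using this)
        (by simpa using h1)
    · refine ⟨0, 1, 0, 1, hy, fun a ha ho h0 h1 => ?_⟩
      rw [trace_mul_fin_two, apply_one_one_of_trace ha, apply_one_one_of_trace htrN] at ho
      have : a 1 0 = 0 := by simpa [h0, h1, hy] using ho
      exact ext_of_trace_zero ha (by simp) (by simpa using h0) (by simpa using h1)
        (by simpa using this)
  let Ψ : ((A.decompositionSubgroup ℚ) → Matrix (Fin 2) (Fin 2) k) →ₗ[k] (Fin 3 → k) :=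
    LinearMap.pi ![(Matrix.entryLinearMap k k 0 0).comp (LinearMap.proj (inclInertia A τ)),
      (Matrix.entryLinearMap k k i₁ j₁).comp (LinearMap.proj (inclInertia A τ)),
      (Matrix.entryLinearMap k k i j).comp (LinearMap.proj φ')]
  refine ⟨Ψ, fun c hc h0 => ?_⟩
  have hc' : c ∈ unipotentConds ρ A :=
    (Submodule.span_le.2 (by rintro _ ⟨z, -, rfl⟩; exact z.2)) hc
  have hcoc := hc'.1
  have e : ∀ a : Fin 3, Ψ c a = 0 := fun a => congrFun h0 a
  have hspan : c ∈ Submodule.span k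
      ((fun z : adCocycles ρ (A.decompositionSubgroup ℚ) => z.1) ''
        ((s.image inc : Finset _) : Set _)) := by
    refine Submodule.span_mono ?_ hc
    rintro _ ⟨z, hz, rfl⟩
    exact ⟨inc z, Finset.mem_coe.2 (Finset.mem_image_of_mem inc hz), rfl⟩
  have hτ0 : c (inclInertia A τ) = 0 := by
    have h := hc'.2 (inclInertia A τ) τ.2
    have : Matrix.trace (c (inclInertia A τ) * N) = 0 := by
      rw [hN, Matrix.mul_sub, Matrix.trace_sub, mul_one, hcoc.1, sub_zero]
      exact h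
    exact hcoord _ (hcoc.1 _) this (e 0) (e 1)
  have hI0 : ∀ σ : A.inertiaSubgroupIn ℚ, c (inclInertia A σ) = 0 := fun σ => by
    obtain ⟨n, -, hn⟩ := hgen σ
    have : c (inclInertia A σ) = c (inclInertia A (τ ^ n)) := by
      refine Submodule.span_induction (p := fun x _ =>
        x (inclInertia A σ) = x (inclInertia A (τ ^ n))) ?_ rfl
        (fun x y _ _ hx hy => by simp [hx, hy]) (fun r x _ hx => by simp [hx]) hspan
      rintro _ ⟨z, hz, rfl⟩
      exact hn z (Finset.mem_coe.1 hz)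
    rw [this, map_zpow]
    exact zpow_value_zero hcoc hτ0 n
  -- the value at Frobenius is fixed by inertia
  have hτ' : φ⁻¹ * (τ : GQ) * φ ∈ A.inertiaSubgroupIn ℚ := by
    have hd := (isFrobeniusAt_iff.1 hφ).1
    have := conj_mem_inertia (g := φ⁻¹) τ.2
    rwa [show φ⁻¹ • A = A from inv_mem hd, inv_inv] at this
  have hfix : conjAct (ρ (τ : GQ)) (c φ') = c φ' := by
    have e1 : φ' * inclInertia A ⟨φ⁻¹ * (τ : GQ) * φ, hτ'⟩ = inclInertia A τ * φ' := by
      refine Subtype.ext ?_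
      show φ * (φ⁻¹ * (τ : GQ) * φ) = (τ : GQ) * φ
      group
    have h1 := hcoc.2.1 φ' (inclInertia A ⟨φ⁻¹ * (τ : GQ) * φ, hτ'⟩)
    rw [e1, hcoc.2.1, hI0, hI0] at h1
    simpa [conjAct] using h1
  obtain ⟨r, hr⟩ := exists_smul_of_commute h2 htrN (hcoc.1 φ') hN0 (by
    rw [hN, Matrix.mul_sub, Matrix.sub_mul, mul_eq_mul_of_conjAct_eq hfix, mul_one, one_mul])
  refine hvan c hspan ?_ hI0
  have h3 : c φ' i j = 0 := e 2
  rw [hr, Matrix.smul_apply, smul_eq_mul] at h3
  show c φ' = 0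
  rw [hr, (mul_eq_zero.1 h3).resolve_right hij, zero_smul]

end

end FermatAgent.TW
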