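import Fermat.Agent.TW.GoodElement

/-!
# Detection of a dual class by a good element
-/

set_option autoImplicit false
set_option linter.unusedSectionVars false

open Matrix Module OnePoint groupCohomology

namespace FermatAgent.TW

noncomputable section

local notation "GQ" => AlgebraicClosure ℚ ≃ₐ[ℚ] AlgebraicClosure ℚ

variable {k : Type} [Field k] {ρ : GQ →* GL (Fin 2) k} {y : GQ → Matrix (Fin 2) (Fin 2) k}

theorem IsDualCocycle.one (hy : IsDualCocycle ρ y) : y 1 = 0 := by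
  simpa using hy.2 1 1

theorem IsDualCocycle.conj (hy : IsDualCocycle ρ y) (g : GQ) {u : GQ} (hu : ρ u = 1) :
    y (g * u * g⁻¹) = twAd (ρ g) (y u) := by
  rw [hy.2, hy.2 g u, map_mul, hu, mul_one]
  have : y g + twAd (ρ g) (y g⁻¹) = 0 := by rw [← hy.2, mul_inv_cancel, hy.one]
  rw [add_assoc, add_comm (twAd (ρ g) (y u)), ← add_assoc, this, zero_add]

theorem IsDualCocycle.pow_eq (hy : IsDualCocycle ρ y) {σ : GQ} {b : Matrix (Fin 2) (Fin 2) k}
    (h : y σ = twAd (ρ σ) b - b) : ∀ m : ℕ, y (σ ^ m) = twAd (ρ (σ ^ m)) b - b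
  | 0 => by simp [hy.one]
  | m + 1 => by
    rw [pow_succ', hy.2, hy.pow_eq h m, h, map_mul, twAd_mul, twAd_sub]
    abel

theorem disc_pow_of_disc_eq_zero (g : GL (Fin 2) k) (h2 : (2 : k) ≠ 0) (h : disc g = 0) (m : ℕ) :
    disc (g ^ m) = 0 := by
  set M : Matrix (Fin 2) (Fin 2) k := (g : Matrix (Fin 2) (Fin 2) k) with hM
  set l := Matrix.trace M / 2 with hl
  have hd : M.det = l ^ 2 := by
    rw [disc, ← hM] at h
    rw [hl]; field_simp; linear_combination -h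
  have key : ∀ m : ℕ, Matrix.trace (M ^ m) = 2 * l ^ m ∧ Matrix.trace (M ^ (m + 1)) = 2 * l ^ (m + 1) := by
    intro m
    induction m with
    | zero => exact ⟨by simp, by rw [zero_add, pow_one, pow_one, hl]; field_simp⟩
    | succ m ih =>
      refine ⟨ih.2, ?_⟩
      have hrec : M ^ (m + 1 + 1) = Matrix.trace M • M ^ (m + 1) - M.det • M ^ m := by
        have hCH : M * M = Matrix.trace M • M - M.det • (1 : Matrix (Fin 2) (Fin 2) k) := by
          ext i j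
          fin_cases i <;> fin_cases j <;>
            simp [trace_fin_two, det_fin_two, Matrix.mul_apply, Fin.sum_univ_two] <;> ring
        rw [pow_succ', pow_succ', ← mul_assoc, hCH, Matrix.sub_mul, Matrix.smul_mul,
          Matrix.smul_mul, one_mul, ← pow_succ']
      rw [hrec, Matrix.trace_sub, Matrix.trace_smul, Matrix.trace_smul, ih.1, ih.2, hd,
        smul_eq_mul, smul_eq_mul]
      rw [show Matrix.trace M = 2 * l from by rw [hl]; field_simp]
      ring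
  rw [disc, Units.val_pow_eq_pow_val, ← hM, (key m).1, Matrix.det_pow, hd]
  ring

variable [Finite k] {p : ℕ} [Fact p.Prime] [Algebra (ZMod p) k]

theorem exists_fixed_onePoint [DecidableEq k] (hρ : TWHyp p ρ) (σ : GQ) :
    ∃ x : OnePoint k, ρ σ • x = x := by
  obtain ⟨v, hv, r, hr⟩ := hρ.splitEigen σ
  set g : Matrix (Fin 2) (Fin 2) k := (ρ σ : Matrix (Fin 2) (Fin 2) k)
  have e0 := congrFun hr 0
  have e1 := congrFun hr 1
  simp [Matrix.mulVec, dotProduct, Fin.sum_univ_two] at e0 e1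
  rcases eq_or_ne (v 1) 0 with h | h
  · refine ⟨∞, smul_infty_eq_self_iff.2 ?_⟩
    have hv0 : v 0 ≠ 0 := fun h0 => hv (funext fun i => by fin_cases i <;> simp [h, h0])
    simpa [h, hv0] using e1
  · refine ⟨↑(v 0 / v 1), ?_⟩
    have hr0 : r ≠ 0 := by
      rintro rfl
      apply (ρ σ).det_ne_zero
      exact (Matrix.exists_mulVec_eq_zero_iff).1 ⟨v, hv, by simpa using hr⟩
    have hden : g 1 0 * (v 0 / v 1) + g 1 1 = r := by field_simp; linear_combination e1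
    rw [smul_some_eq_ite, if_neg (by rw [hden]; exact hr0), coe_eq_coe, hden]
    field_simp
    linear_combination e0

theorem exists_moved_onePoint [DecidableEq k] (hρ : TWHyp p ρ) (x : OnePoint k) :
    ∃ σ, ρ σ • x ≠ x := by
  cases x with
  | infty =>
    obtain ⟨σ, hσ⟩ := hρ.noFixedPoint ![1, 0] (fun h => one_ne_zero (congrFun h 0))
    refine ⟨σ, fun h => hσ ((ρ σ : Matrix (Fin 2) (Fin 2) k) 0 0) ?_⟩
    have h10 := smul_infty_eq_self_iff.1 h
    funext i; fin_cases i <;> simp [Matrix.mulVec, dotProduct, Fin.sum_univ_two, h10]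
  | coe x =>
    obtain ⟨σ, hσ⟩ := hρ.noFixedPoint ![x, 1] (fun h => one_ne_zero (congrFun h 1))
    refine ⟨σ, fun h => ?_⟩
    set g : Matrix (Fin 2) (Fin 2) k := (ρ σ : Matrix (Fin 2) (Fin 2) k)
    rw [smul_some_eq_ite] at h
    split_ifs at h with h0
    · exact OnePoint.infty_ne_coe x h
    · rw [coe_eq_coe, div_eq_iff h0] at h
      refine hσ (g 1 0 * x + g 1 1) (funext fun i => ?_)
      fin_cases i
      · simp [Matrix.mulVec, dotProduct, Fin.sum_univ_two]; linear_combination h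
      · simp [Matrix.mulVec, dotProduct, Fin.sum_univ_two]

/-- A vector fixed by all twisted adjoint actions vanishes. -/
theorem eq_zero_of_twAd_fixed (hρ : TWHyp p ρ) {a : Matrix (Fin 2) (Fin 2) k}
    (ha : Matrix.trace a = 0) (h : ∀ σ, twAd (ρ σ) a = a) : a = 0 := by
  by_contra h0
  obtain ⟨σ, hσ⟩ := hρ.noStableLine a h0 ha
  refine hσ ((ρ σ : Matrix (Fin 2) (Fin 2) k).det)⁻¹ ?_
  have hd : (ρ σ : Matrix (Fin 2) (Fin 2) k).det ≠ 0 := (ρ σ).det_ne_zero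
  conv_rhs => rw [← h σ, twAd_eq_smul, smul_smul, inv_mul_cancel₀ hd, one_smul]

theorem exists_det_generator (hρ : TWHyp p ρ) :
    ∃ σ, orderOf (ρ σ : Matrix (Fin 2) (Fin 2) k).det = p - 1 := by
  obtain ⟨g, hg⟩ := IsCyclic.exists_generator (α := (ZMod p)ˣ)
  obtain ⟨σ, rfl⟩ := cycloChar_surjective g
  refine ⟨σ, ?_⟩
  rw [hρ.detCyclo σ]
  have h1 : orderOf (algebraMap (ZMod p) k ((ExtCitation.cycloChar p σ : (ZMod p)ˣ) : ZMod p)) =
      orderOf ((ExtCitation.cycloChar p σ : (ZMod p)ˣ) : ZMod p) :=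
    orderOf_injective (algebraMap (ZMod p) k).toMonoidHom (algebraMap (ZMod p) k).injective _
  rw [h1, orderOf_units, orderOf_eq_card_of_forall_mem_zpowers hg, Nat.card_eq_fintype_card,
    ZMod.card_units]

/-- A nontrivial dual class is nonzero on `ker ρ ∩ G_ℚ(μ_{p^N})`. -/
theorem exists_kernel_value (hρ : TWHyp p ρ) (N : ℕ) (hy : IsDualCocycle ρ y)
    (hne : ¬ ∃ b : Matrix (Fin 2) (Fin 2) k, Matrix.trace b = 0 ∧
      ∀ σ, y σ = twAd (ρ σ) b - b) :
    ∃ u ∈ fixMu p N, ρ u = 1 ∧ y u ≠ 0 := by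
  classical
  by_contra! h
  apply hne
  have hk : ∀ u, ρ u = 1 → y u = 0 := by
    intro u hu
    refine eq_zero_of_twAd_fixed hρ (hy.1 u) fun g => ?_
    rw [← hy.conj g hu]
    have hc : g * u * g⁻¹ * u⁻¹ ∈ fixMu p N := commutator_mem_fixMu N g u
    have h0 := h _ hc (by simp [hu])
    have e := hy.2 (g * u * g⁻¹ * u⁻¹) u
    rw [inv_mul_cancel_right, h0, zero_add, show ρ (g * u * g⁻¹ * u⁻¹) = 1 by simp [hu],
      twAd_one] at e
    exact e
  have hwd : ∀ a b, ρ a = ρ b → y a = y b := fun a b hab => by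
    have := hy.2 b (b⁻¹ * a)
    rw [mul_inv_cancel_left, hk (b⁻¹ * a) (by simp [hab])] at this
    simpa [twAd] using this
  have : CharP k p := charP_of_injective_algebraMap (algebraMap (ZMod p) k).injective p
  set Δ := ρ.range
  let c : Δ → Matrix (Fin 2) (Fin 2) k := fun d => y (Classical.choose d.2)
  have hc : ∀ σ, c ⟨ρ σ, σ, rfl⟩ = y σ := fun σ =>
    hwd _ _ (Classical.choose_spec (show ρ σ ∈ Δ from ⟨σ, rfl⟩))
  have hcc : IsTwCocycle Δ c := by
    refine ⟨fun d => hy.1 _, ?_⟩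
    rintro ⟨_, a, rfl⟩ ⟨_, b, rfl⟩
    rw [show ((⟨ρ a, a, rfl⟩ : Δ) * ⟨ρ b, b, rfl⟩) = ⟨ρ (a * b), a * b, rfl⟩ from
      Subtype.ext (map_mul ρ a b).symm, hc, hc, hc, hy.2]
  obtain ⟨b, hb, hbeq⟩ := isTwCoboundary_of_irreducible (p := p) hρ.ne_two (Δ := Δ)
    (by rintro _ ⟨σ, rfl⟩; exact exists_fixed_onePoint hρ σ)
    (fun x => by obtain ⟨σ, hσ⟩ := exists_moved_onePoint hρ x; exact ⟨_, ⟨σ, rfl⟩, hσ⟩)
    (by obtain ⟨σ, hσ⟩ := exists_det_generator hρ; exact ⟨_, ⟨σ, rfl⟩, hσ⟩) hcc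
  exact ⟨b, hb, fun σ => by rw [← hc σ]; exact hbeq _⟩

/-- The good element. -/
theorem exists_detecting_element (hρ : TWHyp p ρ) (N : ℕ) (hy : IsDualCocycle ρ y)
    (hne : ¬ ∃ b : Matrix (Fin 2) (Fin 2) k, Matrix.trace b = 0 ∧
      ∀ σ, y σ = twAd (ρ σ) b - b) :
    ∃ σ ∈ fixMu p (N + 1), disc (ρ σ) ≠ 0 ∧
      ¬ ∃ b : Matrix (Fin 2) (Fin 2) k, y σ = twAd (ρ σ) b - b := by
  have h2 := two_ne_zero_of (k := k) hρ.ne_two
  obtain ⟨σ, hσ, hd⟩ := exists_disc_ne_zero hρ N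
  set H := trFree (ρ σ) with hH
  have hH0 : H ≠ 0 := fun h => hd (by
    have h4 : (4 : k) ≠ 0 := by
      rw [show (4 : k) = 2 * 2 by norm_num]; exact mul_ne_zero h2 h2
    have := det_trFree h2 (ρ σ)
    rw [← hH, h] at this
    simpa [h4, det_fin_two] using this.symm)
  have horth : ∀ τ : GQ, ρ τ = ρ σ → (∃ b, y τ = twAd (ρ τ) b - b) →
      Matrix.trace (H * y τ) = 0 := by
    rintro τ hτ ⟨b, hb⟩
    rw [hb, hτ, twAd_eq_smul, det_of_mem_fixMu hρ hσ, one_smul, Matrix.mul_sub, Matrix.trace_sub,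
      ← Matrix.trace_mul_comm, trace_conjAct_mul]
    have : conjAct (ρ σ)⁻¹ H = H := by
      conv_lhs => rw [hH, ← trFree_commute (ρ σ)]
      rw [← conjAct_mul, inv_mul_cancel, conjAct_one]
    rw [this, Matrix.trace_mul_comm, sub_self]
  by_contra! hall
  have key : ∀ u ∈ fixMu p (N + 1), ρ u = 1 → Matrix.trace (H * y u) = 0 := by
    intro u hu hu1
    have hρus : ρ (u * σ) = ρ σ := by rw [map_mul, hu1, one_mul]
    have h1 := horth _ hρus (hall _ (mul_mem hu hσ) (by rw [hρus]; exact hd))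
    have h0 := horth σ rfl (hall σ hσ hd)
    rw [hy.2, hu1, twAd_one, Matrix.mul_add, Matrix.trace_add, h0, add_zero] at h1
    exact h1
  obtain ⟨u₁, hu₁, hu₁1, hy₁⟩ := exists_kernel_value hρ (N + 1) hy hne
  by_cases hline : ∀ u ∈ fixMu p (N + 1), ρ u = 1 → ∃ r : k, y u = r • y u₁
  · obtain ⟨g, hg⟩ := hρ.noStableLine _ hy₁ (hy.1 u₁)
    have hgu : ρ (g * u₁ * g⁻¹) = 1 := by simp [hu₁1]
    obtain ⟨r, hr⟩ := hline _ (conj_mem_fixMu g hu₁) hgu
    rw [hy.conj g hu₁1, twAd_eq_smul] at hr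
    refine hg ((ρ g : Matrix (Fin 2) (Fin 2) k).det⁻¹ * r) ?_
    rw [mul_smul, ← hr, smul_smul, inv_mul_cancel₀ (ρ g).det_ne_zero, one_smul]
  · push Not at hline
    obtain ⟨u₂, hu₂, hu₂1, hy₂⟩ := hline
    obtain ⟨g, hg⟩ := hρ.noStableLine _ hH0 (trace_trFree h2 _)
    have hgH : ∀ u ∈ fixMu p (N + 1), ρ u = 1 → Matrix.trace (conjAct (ρ g) H * y u) = 0 := by
      intro u hu hu1
      have hu' : ρ (g⁻¹ * u * g⁻¹⁻¹) = 1 := by simp [hu1]
      have h1 := key _ (conj_mem_fixMu g⁻¹ hu) hu'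
      rw [hy.conj g⁻¹ hu1, twAd_eq_smul, Matrix.mul_smul, Matrix.trace_smul, smul_eq_mul,
        mul_eq_zero] at h1
      rw [trace_conjAct_mul, ← map_inv]
      exact h1.resolve_left (ρ g⁻¹).det_ne_zero
    obtain ⟨r, hr⟩ := exists_smul_of_orthogonal h2 (hy.1 u₁) (hy.1 u₂) (trace_trFree h2 _)
      (by rw [trace_conjAct]; exact trace_trFree h2 _) hH0 hy₁ hy₂
      (key u₁ hu₁ hu₁1) (key u₂ hu₂ hu₂1) (hgH u₁ hu₁ hu₁1) (hgH u₂ hu₂ hu₂1)
    exact hg r hr

end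

end FermatAgent.TW
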