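import Fermat.Agent.TW.Defs

/-!
# Linear algebra of trace zero `2 × 2` matrices under conjugation
-/

set_option autoImplicit false

open Matrix Module

namespace FermatAgent.TW

noncomputable section

variable {k : Type} [Field k]

local notation "M2" => Matrix (Fin 2) (Fin 2) k

theorem apply_one_one_of_trace {a : M2} (ha : Matrix.trace a = 0) : a 1 1 = - a 0 0 := by
  rw [trace_fin_two] at ha; linear_combination ha

theorem trace_mul_fin_two (a b : M2) : Matrix.trace (a * b) =
    a 0 0 * b 0 0 + a 0 1 * b 1 0 + a 1 0 * b 0 1 + a 1 1 * b 1 1 := by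
  simp [trace_fin_two, Matrix.mul_apply, Fin.sum_univ_two]; ring

theorem ext_of_trace_zero {a b : M2} (ha : Matrix.trace a = 0) (hb : Matrix.trace b = 0)
    (h0 : a 0 0 = b 0 0) (h1 : a 0 1 = b 0 1) (h2 : a 1 0 = b 1 0) : a = b := by
  ext i j
  fin_cases i <;> fin_cases j <;>
    simp [h0, h1, h2, apply_one_one_of_trace ha, apply_one_one_of_trace hb]

/-- Two orthogonal nilpotent trace zero matrices are proportional. -/
theorem exists_smul_of_nilpotent (_h2 : (2 : k) ≠ 0) {a b : M2} (ha : Matrix.trace a = 0)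
    (hb : Matrix.trace b = 0) (ha0 : a ≠ 0) (hna : a.det = 0) (hnb : b.det = 0)
    (horth : Matrix.trace (a * b) = 0) : ∃ r : k, b = r • a := by
  rw [det_fin_two, apply_one_one_of_trace ha] at hna
  rw [det_fin_two, apply_one_one_of_trace hb] at hnb
  rw [trace_mul_fin_two, apply_one_one_of_trace ha, apply_one_one_of_trace hb] at horth
  have hra : ∀ r : k, Matrix.trace (r • a) = 0 := fun r => by simp [Matrix.trace_smul, ha]
  rcases eq_or_ne (a 0 1) 0 with hy | hy
  · rw [hy, zero_mul, sub_zero] at hna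
    have hx : a 0 0 = 0 := by
      have : a 0 0 * a 0 0 = 0 := by linear_combination -hna
      simpa using this
    have hz : a 1 0 ≠ 0 := fun hz => ha0 (ext_of_trace_zero ha (by simp) (by simpa using hx)
      (by simpa using hy) (by simpa using hz))
    have hy' : b 0 1 = 0 := by simpa [hx, hy, hz] using horth
    rw [hy', zero_mul, sub_zero] at hnb
    have hx' : b 0 0 = 0 := by
      have : b 0 0 * b 0 0 = 0 := by linear_combination -hnb
      simpa using this
    refine ⟨b 1 0 / a 1 0, ext_of_trace_zero hb (hra _) ?_ ?_ ?_⟩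
    · simp [hx, hx']
    · simp [hy, hy']
    · simp [div_mul_cancel₀ _ hz]
  · have hsq : b 0 0 * a 0 1 - a 0 0 * b 0 1 = 0 := by
      have : (b 0 0 * a 0 1 - a 0 0 * b 0 1) ^ 2 = 0 := by
        linear_combination -(a 0 1 * b 0 1) * horth - b 0 1 ^ 2 * hna - a 0 1 ^ 2 * hnb
      simpa using this
    refine ⟨b 0 1 / a 0 1, ext_of_trace_zero hb (hra _) ?_ ?_ ?_⟩
    · simp only [Matrix.smul_apply, smul_eq_mul]
      field_simp
      linear_combination hsq
    · simp [div_mul_cancel₀ _ hy]
    · simp only [Matrix.smul_apply, smul_eq_mul]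
      field_simp
      have : (b 1 0 * a 0 1 - b 0 1 * a 1 0) * a 0 1 = 0 := by
        linear_combination a 0 1 * horth + (2 : k) * b 0 1 * hna
          - 2 * a 0 0 * hsq
      rcases mul_eq_zero.1 this with h | h
      · linear_combination h
      · exact absurd h hy

/-- The orthogonal complement of two independent trace zero matrices is at most a line. -/
theorem exists_smul_of_orthogonal (h2 : (2 : k) ≠ 0) {c₁ c₂ a b : M2}
    (hc₁ : Matrix.trace c₁ = 0) (hc₂ : Matrix.trace c₂ = 0) (ha : Matrix.trace a = 0)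
    (hb : Matrix.trace b = 0) (ha0 : a ≠ 0) (hc0 : c₁ ≠ 0) (hind : ∀ r : k, c₂ ≠ r • c₁)
    (ha1 : Matrix.trace (a * c₁) = 0) (ha2 : Matrix.trace (a * c₂) = 0)
    (hb1 : Matrix.trace (b * c₁) = 0) (hb2 : Matrix.trace (b * c₂) = 0) :
    ∃ r : k, b = r • a := by
  classical
  let e : sl2 k ≃ₗ[k] (Fin 3 → k) := LinearEquiv.ofBijective
    (LinearMap.pi (fun i : Fin 3 =>
      ((![(Matrix.entryLinearMap k k (0 : Fin 2) (0 : Fin 2)), Matrix.entryLinearMap k k 0 1,
          Matrix.entryLinearMap k k 1 0] : Fin 3 → (M2 →ₗ[k] k)) i).comp (sl2 k).subtype))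
    ⟨fun x y h => Subtype.ext (ext_of_trace_zero (mem_sl2.1 x.2) (mem_sl2.1 y.2)
        (congrFun h 0) (congrFun h 1) (congrFun h 2)),
      fun f => ⟨⟨!![f 0, f 1; f 2, -f 0], mem_sl2.2 (by simp [trace_fin_two])⟩, by
        funext i; fin_cases i <;> rfl⟩⟩
  have hdim : finrank k (sl2 k) = 3 := by rw [e.finrank_eq]; simp
  let L : sl2 k →ₗ[k] k × k :=
    ((Matrix.traceLinearMap (Fin 2) k k).comp
        ((LinearMap.mulRight k c₁).comp (sl2 k).subtype)).prod
      ((Matrix.traceLinearMap (Fin 2) k k).comp ((LinearMap.mulRight k c₂).comp (sl2 k).subtype))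
  have hL : LinearMap.range L = ⊤ := by
    by_contra hne
    obtain ⟨φ, hφ, hker⟩ := Submodule.exists_le_ker_of_lt_top _ (lt_top_iff_ne_top.2 hne)
    set s := φ (1, 0)
    set t := φ (0, 1)
    have hform : ∀ q : k × k, φ q = q.1 * s + q.2 * t := fun q => by
      conv_lhs => rw [show q = q.1 • ((1 : k), (0 : k)) + q.2 • ((0 : k), (1 : k)) by
        ext <;> simp]
      rw [map_add, map_smul, map_smul, smul_eq_mul, smul_eq_mul]
    have hz : s • c₁ + t • c₂ = 0 := by
      refine eq_zero_of_forall_trace_mul h2 (by simp [Matrix.trace_add, hc₁, hc₂]) fun x hx => ?_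
      have : φ (L ⟨x, mem_sl2.2 hx⟩) = 0 := hker ⟨_, rfl⟩
      rw [hform] at this
      simp [L] at this
      rw [Matrix.trace_mul_comm, Matrix.mul_add, Matrix.mul_smul, Matrix.mul_smul,
        Matrix.trace_add, Matrix.trace_smul, Matrix.trace_smul, smul_eq_mul, smul_eq_mul]
      linear_combination this
    have ht : t = 0 := by
      by_contra ht
      apply hind (-(t⁻¹ * s))
      have := congrArg (fun m : M2 => t⁻¹ • m) hz
      simp only [smul_add, smul_smul, inv_mul_cancel₀ ht, one_smul, smul_zero] at this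
      rw [neg_smul, eq_neg_iff_add_eq_zero, add_comm]; exact this
    have hs : s = 0 := by simpa [ht, hc0] using hz
    exact hφ (LinearMap.ext fun q => by rw [hform, hs, ht]; simp)
  have hker : finrank k (LinearMap.ker L) = 1 := by
    have := L.finrank_range_add_finrank_ker
    rw [hL, finrank_top, hdim, Module.finrank_prod, Module.finrank_self] at this
    omega
  have hamem : (⟨a, mem_sl2.2 ha⟩ : sl2 k) ∈ LinearMap.ker L := by simp [L, ha1, ha2]
  have hbmem : (⟨b, mem_sl2.2 hb⟩ : sl2 k) ∈ LinearMap.ker L := by simp [L, hb1, hb2]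
  obtain ⟨r, hr⟩ := exists_smul_eq_of_finrank_eq_one hker
    (x := (⟨_, hamem⟩ : LinearMap.ker L)) (fun h => ha0 (by
      simpa using congrArg (fun z : LinearMap.ker L => ((z : sl2 k) : M2)) h)) ⟨_, hbmem⟩
  exact ⟨r, by simpa using (congrArg (fun z : LinearMap.ker L => ((z : sl2 k) : M2)) hr).symm⟩

end

end FermatAgent.TW
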