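import Fermat.Agent.TW.Defs
import Fermat.Agent.TW.Lines
import Fermat.Agent.TW.Decomposition
import Fermat.Agent.TW.Tame
import Fermat.Agent.TW.Cyclo

/-!
# Common lemmas for local dimension bounds
-/

set_option autoImplicit false

open Matrix Module groupCohomology

namespace FermatAgent.TW

noncomputable section

local notation "Qb" => AlgebraicClosure ℚ
local notation "GQ" => AlgebraicClosure ℚ ≃ₐ[ℚ] AlgebraicClosure ℚ

attribute [local instance] FermatAgent.RT.isGalois_algClosureRat

variable {k : Type} [Field k] {ρ : GQ →* GL (Fin 2) k}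

/-- A dimension bound from injective evaluations on finite families. -/
theorem rankLE_of_families {X : Type} [AddCommGroup X] [Module k X] (Z : Submodule k X) (n : ℕ)
    (h : ∀ s : Finset Z, ∃ Ψ : X →ₗ[k] (Fin n → k),
      ∀ c ∈ Submodule.span k ((fun z : Z => (z : X)) '' (s : Set Z)), Ψ c = 0 → c = 0) :
    RankLE Z n := by
  have hr : Module.rank k Z ≤ n := by
    refine rank_le fun s hs => ?_
    obtain ⟨Ψ, hΨ⟩ := h s
    have hs' : LinearIndependent k (fun i : (s : Finset Z) => ((i : Z) : X)) :=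
      hs.map' Z.subtype (Submodule.ker_subtype _)
    have hdis : Disjoint (Submodule.span k (Set.range fun i : (s : Finset Z) => ((i : Z) : X)))
        (LinearMap.ker Ψ) := by
      rw [Submodule.disjoint_def]
      intro x hx hker
      refine hΨ x ?_ hker
      have e : (Set.range fun i : (s : Finset Z) => ((i : Z) : X)) =
          (fun z : Z => (z : X)) '' (s : Set Z) := by
        ext y; simp
      rwa [e] at hx
    simpa using (hs'.map hdis).fintype_card_le_finrank
  have hfin : Module.Finite k Z := Module.rank_lt_aleph0_iff.1 (hr.trans_lt Cardinal.natCast_lt_aleph0)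
  refine ⟨hfin, ?_⟩
  rw [← Nat.cast_le (α := Cardinal), finrank_eq_rank]
  exact hr

/-- A trace zero matrix commuting with a nonzero one is a multiple of it. -/
theorem exists_smul_of_commute {H a : Matrix (Fin 2) (Fin 2) k} (h2 : (2 : k) ≠ 0)
    (hH : Matrix.trace H = 0) (ha : Matrix.trace a = 0) (hH0 : H ≠ 0) (hc : a * H = H * a) :
    ∃ r : k, a = r • H := by
  have h11 := apply_one_one_of_trace hH
  have a11 := apply_one_one_of_trace ha
  have e00 := congrFun (congrFun hc 0) 0
  have e01 := congrFun (congrFun hc 0) 1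
  have e10 := congrFun (congrFun hc 1) 0
  simp [Matrix.mul_apply, Fin.sum_univ_two, h11, a11] at e00 e01 e10
  have f1 : a 0 1 * H 1 0 - a 1 0 * H 0 1 = 0 := by linear_combination e00
  have f2 : a 0 0 * H 0 1 - a 0 1 * H 0 0 = 0 := by
    have : (2 : k) * (a 0 0 * H 0 1 - a 0 1 * H 0 0) = 0 := by linear_combination e01
    simpa [h2] using this
  have f3 : a 1 0 * H 0 0 - a 0 0 * H 1 0 = 0 := by
    have : (2 : k) * (a 1 0 * H 0 0 - a 0 0 * H 1 0) = 0 := by linear_combination e10
    simpa [h2] using this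
  have hr : ∀ r : k, Matrix.trace (r • H) = 0 := fun r => by simp [Matrix.trace_smul, hH]
  by_cases hx : H 0 0 = 0
  · by_cases hy : H 0 1 = 0
    · have hz : H 1 0 ≠ 0 := fun hz => hH0 (ext_of_trace_zero hH (by simp) (by simpa using hx)
        (by simpa using hy) (by simpa using hz))
      simp [hx, hy, hz] at f1 f2 f3
      refine ⟨a 1 0 / H 1 0, ext_of_trace_zero ha (hr _) ?_ ?_ ?_⟩
      · simp [hx, f3]
      · simp [hy, f1]
      · simp [div_mul_cancel₀ _ hz]
    · refine ⟨a 0 1 / H 0 1, ext_of_trace_zero ha (hr _) ?_ ?_ ?_⟩ <;>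
        simp only [Matrix.smul_apply, smul_eq_mul] <;> field_simp
      · linear_combination f2
      · linear_combination -f1
  · refine ⟨a 0 0 / H 0 0, ext_of_trace_zero ha (hr _) ?_ ?_ ?_⟩ <;>
      simp only [Matrix.smul_apply, smul_eq_mul] <;> field_simp
    · linear_combination -f2
    · linear_combination f3

theorem mul_eq_mul_of_conjAct_eq {g : GL (Fin 2) k} {a : Matrix (Fin 2) (Fin 2) k}
    (h : conjAct g a = a) :
    a * (g : Matrix (Fin 2) (Fin 2) k) = (g : Matrix (Fin 2) (Fin 2) k) * a := by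
  conv_lhs => rw [← h]
  simp [conjAct, mul_assoc]

/-- Finitely many level constant functions and `ρ` factor through one normal level. -/
theorem exists_common_level {D : Subgroup GQ} {X : Type} (s : Finset (D → X))
    (hs : ∀ c ∈ s, IsLevelConstant₁ D.subtype c)
    (hρ : ∃ L : IntermediateField ℚ Qb, FiniteDimensional ℚ L ∧
      ∀ σ ∈ L.fixingSubgroup, ρ σ = 1) :
    ∃ L : IntermediateField ℚ Qb, FiniteDimensional ℚ L ∧ Normal ℚ L ∧
      (∀ σ ∈ L.fixingSubgroup, ρ σ = 1) ∧
      ∀ c ∈ s, ∀ g u : D, (u : GQ) ∈ L.fixingSubgroup → c (g * u) = c g := by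
  classical
  obtain ⟨L₀, hL₀, hρL⟩ := hρ
  have key : ∀ s : Finset (D → X), (∀ c ∈ s, IsLevelConstant₁ D.subtype c) →
      ∃ L : IntermediateField ℚ Qb, FiniteDimensional ℚ L ∧ L₀ ≤ L ∧
        ∀ c ∈ s, ∀ g u : D, (u : GQ) ∈ L.fixingSubgroup → c (g * u) = c g := by
    intro s
    induction s using Finset.induction_on with
    | empty => exact fun _ => ⟨L₀, hL₀, le_rfl, fun c hc => absurd hc (Finset.notMem_empty c)⟩
    | insert c s hcs ih =>
      intro h
      obtain ⟨L, hL, hle, hL'⟩ := ih fun d hd => h d (Finset.mem_insert_of_mem hd)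
      obtain ⟨F, hF, hF'⟩ := h c (Finset.mem_insert_self _ _)
      refine ⟨L ⊔ F, IntermediateField.finiteDimensional_sup L F, hle.trans le_sup_left,
        fun d hd g u hu => ?_⟩
      rcases Finset.mem_insert.1 hd with rfl | hd
      · exact hF' g u (IntermediateField.fixingSubgroup_antitone le_sup_right hu)
      · exact hL' d hd g u (IntermediateField.fixingSubgroup_antitone le_sup_left hu)
  obtain ⟨L, hL, hle, hL'⟩ := key s hs
  have hle' : L ≤ IntermediateField.normalClosure ℚ L Qb := IntermediateField.le_normalClosure L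
  refine ⟨IntermediateField.normalClosure ℚ L Qb, normalClosure.is_finiteDimensional ℚ L Qb,
    normalClosure.normal ℚ L Qb, fun σ hσ => hρL σ
      (IntermediateField.fixingSubgroup_antitone (hle.trans hle') hσ),
    fun c hc g u hu => hL' c hc g u (IntermediateField.fixingSubgroup_antitone hle' hu)⟩

variable (ρ) in
theorem isAdCocycle_one {D : Subgroup GQ} {c : D → Matrix (Fin 2) (Fin 2) k}
    (hc : c ∈ adCocycles ρ D) : c 1 = 0 := by
  have := hc.2.1 1 1
  simpa using this

theorem adDelta_mem (hρ : ∃ L : IntermediateField ℚ Qb, FiniteDimensional ℚ L ∧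
      ∀ σ ∈ L.fixingSubgroup, ρ σ = 1) (D : Subgroup GQ) (a : sl2 k) :
    adDelta ρ D a ∈ adCocycles ρ D := by
  obtain ⟨L, hL, hρL⟩ := hρ
  refine ⟨fun σ => ?_, fun σ τ => ?_, L, hL, fun g u hu => ?_⟩
  · show Matrix.trace (conjAct (ρ σ) (a : Matrix (Fin 2) (Fin 2) k) - (a : Matrix (Fin 2) (Fin 2) k)) = 0
    rw [Matrix.trace_sub, trace_conjAct, sub_self]
  · show conjAct (ρ (σ * τ : D)) (a : Matrix (Fin 2) (Fin 2) k) - (a : Matrix (Fin 2) (Fin 2) k) =
      (conjAct (ρ σ) (a : Matrix (Fin 2) (Fin 2) k) - (a : Matrix (Fin 2) (Fin 2) k)) +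
      conjAct (ρ σ) (conjAct (ρ τ) (a : Matrix (Fin 2) (Fin 2) k) - (a : Matrix (Fin 2) (Fin 2) k))
    rw [Subgroup.coe_mul, map_mul, conjAct_mul]
    simp [conjAct, Matrix.mul_sub, Matrix.sub_mul]
  · show conjAct (ρ (g * u : D)) (a : Matrix (Fin 2) (Fin 2) k) - a = conjAct (ρ g) a - a
    rw [Subgroup.coe_mul, map_mul, hρL (u : GQ) hu, mul_one]

theorem adCoboundaries_le (hρ : ∃ L : IntermediateField ℚ Qb, FiniteDimensional ℚ L ∧
      ∀ σ ∈ L.fixingSubgroup, ρ σ = 1) (D : Subgroup GQ) :
    adCoboundaries ρ D ≤ adCocycles ρ D := by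
  rintro _ ⟨a, rfl⟩
  exact adDelta_mem hρ D a

theorem finrank_sl2 : finrank k (sl2 k) = 3 := by
  have hsurj : Function.Surjective (Matrix.traceLinearMap (Fin 2) k k) := fun x =>
    ⟨!![x, 0; 0, 0], by simp [trace_fin_two]⟩
  have h := (Matrix.traceLinearMap (Fin 2) k k).finrank_range_add_finrank_ker
  rw [LinearMap.range_eq_top.2 hsurj, finrank_top, Module.finrank_self,
    Module.finrank_matrix, Module.finrank_self] at h
  rw [Fintype.card_fin] at h
  have h' : 1 + finrank k (sl2 k) = 2 * 2 * 1 := h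
  omega

theorem rankLE_zero_of (A : ValuationSubring Qb) :
    RankLE ((⊥ : Submodule k (A.decompositionSubgroup ℚ → Matrix (Fin 2) (Fin 2) k))
        ⊔ adCoboundaries ρ (A.decompositionSubgroup ℚ))
      (3 - finrank k (LinearMap.ker (adDelta ρ (A.decompositionSubgroup ℚ)))) := by
  rw [bot_sup_eq]
  refine ⟨Module.Finite.range _, le_of_eq ?_⟩
  have := (adDelta ρ (A.decompositionSubgroup ℚ)).finrank_range_add_finrank_ker
  rw [finrank_sl2] at this
  exact Nat.eq_sub_of_add_eq this

end

end FermatAgent.TW
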