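import Fermat.Agent.TW.DualModule
import Fermat.Agent.TW.LocalCommon
import Fermat.Agent.TW.Detect
import Fermat.Prelude.Def_GaloisRep_ComplexConjugation

/-!
# Local and global classes of `Ad⁰ ρ`: dimensions over `𝔽_p`
-/

set_option autoImplicit false

open Matrix Module CategoryTheory groupCohomology

namespace FermatAgent.TW

noncomputable section

local notation "Qb" => AlgebraicClosure ℚ
local notation "GQ" => AlgebraicClosure ℚ ≃ₐ[ℚ] AlgebraicClosure ℚ

variable {k : Type} [Field k] {p : ℕ} [Fact p.Prime] [Algebra (ZMod p) k]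
  {ρ : GQ →* GL (Fin 2) k}

theorem finrank_restrict [Finite k] {V : Type} [AddCommGroup V] [Module k V] [Module (ZMod p) V]
    [IsScalarTower (ZMod p) k V] :
    finrank (ZMod p) V = finrank (ZMod p) k * finrank k V :=
  (Module.finrank_mul_finrank (ZMod p) k V).symm

theorem finrank_restrictScalars_submodule [Finite k] {V : Type} [AddCommGroup V] [Module k V]
    [Module (ZMod p) V] [IsScalarTower (ZMod p) k V] (W : Submodule k V) :
    finrank (ZMod p) ↥(W.restrictScalars (ZMod p)) = finrank (ZMod p) k * finrank k W :=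
  ((finrank_restrict (p := p) (k := k) (V := W)) :)

/-- The matrix valued function of a local cocycle. -/
def locMat {D : Subgroup GQ} (c : cocycles₁ (Rep.res D.subtype (adM p ρ))) :
    D → Matrix (Fin 2) (Fin 2) k :=
  fun σ => ((c.1 σ : sl2 k) : Matrix (Fin 2) (Fin 2) k)

/-- The local cocycle of a member of `adCocycles`. -/
def toLocCocycle {D : Subgroup GQ} (f : adCocycles ρ D) :
    cocycles₁ (Rep.res D.subtype (adM p ρ)) :=
  ⟨fun σ => (⟨f.1 σ, mem_sl2.2 (f.2.1 σ)⟩ : sl2 k),
    (mem_cocycles₁_iff (A := Rep.res D.subtype (adM p ρ)) _).2 fun σ τ => by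
      show (⟨f.1 (σ * τ), _⟩ : sl2 k) = adRep p ρ σ ⟨f.1 τ, _⟩ + ⟨f.1 σ, _⟩
      exact Subtype.ext (by
        rw [Submodule.coe_add, coe_adRep]
        show f.1 (σ * τ) = conjAct (ρ σ) (f.1 τ) + f.1 σ
        rw [f.2.2.1, add_comm])⟩

/-- The class map on a space of local cocycles. -/
def locClass {D : Subgroup GQ} (S : Submodule k (D → Matrix (Fin 2) (Fin 2) k))
    (hS : S ≤ adCocycles ρ D) :
    S →ₗ[ZMod p] H1 (Rep.res D.subtype (adM p ρ)) :=
  (H1π (Rep.res D.subtype (adM p ρ))).hom ∘ₗ
    { toFun := fun f => toLocCocycle ⟨f.1, hS f.2⟩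
      map_add' := fun _ _ => Subtype.ext (funext fun _ => Subtype.ext rfl)
      map_smul' := fun _ _ => Subtype.ext (funext fun _ => Subtype.ext rfl) }

theorem locClass_range_le {D : Subgroup GQ} (S : Submodule k (D → Matrix (Fin 2) (Fin 2) k))
    (hS : S ≤ adCocycles ρ D) :
    LinearMap.range (locClass (p := p) S hS) ≤
      continuousH1 D.subtype (Rep.res D.subtype (adM p ρ)) := by
  rintro _ ⟨f, rfl⟩
  refine H1π_mem_continuousH1 _ _ ?_
  obtain ⟨F, hF, hl⟩ := (hS f.2).2.2
  exact ⟨F, hF, fun g s hs => Subtype.ext (hl g s hs)⟩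

theorem locClass_eq_of_delta {D : Subgroup GQ} (S : Submodule k (D → Matrix (Fin 2) (Fin 2) k))
    (hS : S ≤ adCocycles ρ D) (f : S) (a : sl2 k) (h : f.1 = adDelta ρ D a) :
    locClass (p := p) S hS f = 0 := by
  show (H1π _).hom (toLocCocycle ⟨f.1, hS f.2⟩) = 0
  rw [show (H1π _).hom (toLocCocycle ⟨f.1, hS f.2⟩) = 0 ↔ _ from H1π_eq_zero_iff _]
  refine LinearMap.mem_range.2 ⟨a, funext fun σ => ?_⟩
  show adRep p ρ σ a - a = (⟨f.1 σ, _⟩ : sl2 k)
  exact Subtype.ext (by rw [AddSubgroupClass.coe_sub, coe_adRep]; exact (congrFun h σ).symm)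

theorem invariants_eq_ker (D : Subgroup GQ) :
    (Rep.res D.subtype (adM p ρ)).ρ.invariants =
      (LinearMap.ker (adDelta ρ D)).restrictScalars (ZMod p) := by
  ext (a : sl2 k)
  rw [Submodule.restrictScalars_mem, LinearMap.mem_ker, Representation.mem_invariants]
  refine ⟨fun h => funext fun σ => ?_, fun h σ => ?_⟩
  · have := congrArg (fun x : sl2 k => (x : Matrix (Fin 2) (Fin 2) k)) (h σ)
    show conjAct (ρ σ) (a : Matrix (Fin 2) (Fin 2) k) - (a : Matrix (Fin 2) (Fin 2) k) = 0
    exact sub_eq_zero.2 this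
  · exact Subtype.ext (sub_eq_zero.1 (congrFun h σ))

/-- `dim L - h⁰` from `dim (Z + B)`. -/
theorem finrank_locClass_le [Finite k] {D : Subgroup GQ}
    (S : Submodule k (D → Matrix (Fin 2) (Fin 2) k)) (hS : S ≤ adCocycles ρ D)
    (hB : adCoboundaries ρ D ≤ S)
    (hfin : Module.Finite k ↥S) :
    finrank (ZMod p) (LinearMap.range (locClass (p := p) _ hS)) + 3 * finrank (ZMod p) k ≤
      finrank (ZMod p) (Rep.res D.subtype (adM p ρ)).ρ.invariants +
        finrank (ZMod p) k * finrank k ↥S := by
  have hfk : Module.Finite (ZMod p) k := Module.Finite.of_finite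
  have hfp : Module.Finite (ZMod p) ↥S := Module.Finite.trans k _
  let b : sl2 k →ₗ[k] ↥S :=
    (adDelta ρ D).codRestrict _ fun a => hB ⟨a, rfl⟩
  have hker : (LinearMap.range b).restrictScalars (ZMod p) ≤
      LinearMap.ker (locClass (p := p) _ hS) := by
    rintro _ ⟨a, rfl⟩
    exact locClass_eq_of_delta _ hS _ a rfl
  have h1 := (locClass (p := p) _ hS).finrank_range_add_finrank_ker
  have h2 := Submodule.finrank_mono hker
  have h3 : finrank (ZMod p) ↥((LinearMap.range b).restrictScalars (ZMod p)) =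
      finrank (ZMod p) k * finrank k (LinearMap.range b) :=
    finrank_restrictScalars_submodule _
  have h4 := b.finrank_range_add_finrank_ker
  have h5 : LinearMap.ker b = LinearMap.ker (adDelta ρ D) := LinearMap.ker_codRestrict _ _ _
  have h6 : finrank (ZMod p) (Rep.res D.subtype (adM p ρ)).ρ.invariants =
      finrank (ZMod p) k * finrank k (LinearMap.ker (adDelta ρ D)) := by
    rw [invariants_eq_ker]
    exact finrank_restrictScalars_submodule _
  rw [h5, finrank_sl2] at h4
  rw [h3] at h2
  rw [finrank_restrict (p := p) (k := k) (V := ↥S)] at h1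
  rw [h6]
  calc _ ≤ finrank (ZMod p) (LinearMap.range (locClass (p := p) _ hS)) +
        finrank (ZMod p) k * (finrank k (LinearMap.range b) +
          finrank k (LinearMap.ker (adDelta ρ D))) := by rw [h4, mul_comm]
    _ ≤ _ := by rw [mul_add]; omega

/-- The `-1`-part contributes at `∞`. -/
theorem finrank_le_ker_conj [Finite k] (hρ : TWHyp p ρ) :
    finrank (ZMod p) k ≤
      finrank (ZMod p) (LinearMap.ker ((adM p ρ).ρ complexConjugation - 1)) := by
  have hfk : Module.Finite (ZMod p) k := Module.Finite.of_finite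
  have : NeZero p := ⟨(Fact.out : p.Prime).ne_zero⟩
  set g : GL (Fin 2) k := ρ complexConjugation with hg
  set M : Matrix (Fin 2) (Fin 2) k := (g : Matrix (Fin 2) (Fin 2) k) with hM
  obtain ⟨ζ, hζ⟩ := exists_primitiveRoot_qbar p
  have hcζ : complexConjugation ζ = ζ ^ (p - 1) := by
    apply complexEmbedding.toRingHom.injective
    show complexEmbedding _ = complexEmbedding _
    rw [complexEmbedding_complexConjugation, map_pow]
    have hz : (complexEmbedding ζ) ^ p = 1 := by rw [← map_pow, hζ.pow_eq_one, map_one]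
    have hn : ‖complexEmbedding ζ‖ = 1 := Complex.norm_eq_one_of_pow_eq_one hz (NeZero.ne p)
    rw [← Complex.inv_eq_conj hn]
    refine (eq_inv_of_mul_eq_one_left ?_).symm
    rw [← pow_succ, Nat.sub_add_cancel (NeZero.pos p), hz]
  have hdet : M.det = -1 := by
    rw [hM, hg, hρ.detCyclo, cycloChar_eq_of_apply hζ hcζ, map_natCast,
      Nat.cast_sub (NeZero.pos p)]
    have : CharP k p := charP_of_injective_algebraMap (algebraMap (ZMod p) k).injective p
    simp
  have hsq : M * M = 1 := by
    rw [hM, ← Units.val_mul, hg, ← map_mul, complexConjugation_mul_self, map_one, Units.val_one]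
  have htr : Matrix.trace M = 0 := by
    have h01 := congrFun (congrFun hsq 0) 1
    have h10 := congrFun (congrFun hsq 1) 0
    have h00 := congrFun (congrFun hsq 0) 0
    have h11 := congrFun (congrFun hsq 1) 1
    simp [Matrix.mul_apply, Fin.sum_univ_two] at h00 h01 h10 h11
    rw [det_fin_two] at hdet
    rw [trace_fin_two]
    have : (M 0 0 + M 1 1) ^ 2 = 0 := by linear_combination h00 + h11 + 2 * hdet
    exact pow_eq_zero_iff two_ne_zero |>.1 this
  let Φ : k →ₗ[ZMod p] LinearMap.ker ((adM p ρ).ρ complexConjugation - 1) :=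
    LinearMap.codRestrict _
      { toFun := fun r => (⟨r • M, mem_sl2.2 (by simp [Matrix.trace_smul, htr])⟩ : sl2 k)
        map_add' := fun a b => Subtype.ext (add_smul a b M)
        map_smul' := fun a b => Subtype.ext (smul_assoc a b M) }
      (fun r => by
        rw [LinearMap.mem_ker, LinearMap.sub_apply, sub_eq_zero]
        show adRep p ρ complexConjugation _ = _
        exact Subtype.ext (by
          rw [coe_adRep]
          show conjAct g (r • M) = r • M
          simp [conjAct, hM, mul_assoc]))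
  refine LinearMap.finrank_le_finrank_of_injective (f := Φ) fun a b h => ?_
  have h' : a • M = b • M := congrArg (fun x : sl2 k => (x : Matrix (Fin 2) (Fin 2) k))
    (congrArg Subtype.val h)
  by_contra hab
  rw [← sub_eq_zero, ← sub_smul, smul_eq_zero] at h'
  refine g.det_ne_zero ?_
  rw [← hM, h'.resolve_left (sub_ne_zero.2 hab)]
  simp

end

end FermatAgent.TW
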