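import Fermat.Agent.TW.Surjection
import Fermat.Agent.TW.LocalCommon
import Fermat.Agent.DefRing.MatrixRep

/-!
# Cocycles of tangent functionals
-/

set_option autoImplicit false
set_option linter.unusedSectionVars false

open IsLocalRing Matrix Module groupCohomology

namespace FermatAgent.TW

noncomputable section

local notation "Qb" => AlgebraicClosure ℚ
local notation "GQ" => AlgebraicClosure ℚ ≃ₐ[ℚ] AlgebraicClosure ℚ

attribute [local instance] FermatAgent.RT.isGalois_algClosureRat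

variable {O R k : Type} [CommRing O] [CommRing R] [Algebra O R] [Field k] [Algebra O k]
  {π : R →ₐ[O] k}

section Algebra

variable {f : R → k} (hf : f ∈ tanSpace O R k π)
include hf

theorem tan_zero : f 0 = 0 := by simpa using hf.2.2 0

theorem tan_one : f 1 = 0 := by simpa using hf.2.2 1

theorem tan_natCast (n : ℕ) : f (n : R) = 0 := by simpa using hf.2.2 n

theorem tan_neg (x : R) : f (-x) = -f x := by
  have h := hf.1 x (-x)
  rw [add_neg_cancel, tan_zero hf] at h
  exact (neg_eq_of_add_eq_zero_right h.symm).symm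

theorem tan_sub (x y : R) : f (x - y) = f x - f y := by
  rw [sub_eq_add_neg, hf.1, tan_neg hf, ← sub_eq_add_neg]

theorem tan_sum {α : Type*} (s : Finset α) (g : α → R) : f (∑ a ∈ s, g a) = ∑ a ∈ s, f (g a) := by
  classical
  induction s using Finset.induction_on with
  | empty => simpa using tan_zero hf
  | insert a s ha ih => rw [Finset.sum_insert ha, Finset.sum_insert ha, hf.1, ih]

theorem tan_map_mul (M N : Matrix (Fin 2) (Fin 2) R) :
    (M * N).map f = M.map f * N.map π + M.map π * N.map f := by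
  ext a b
  simp only [Matrix.map_apply, Matrix.mul_apply, Matrix.add_apply, tan_sum hf, hf.2.1,
    ← Finset.sum_add_distrib]
  exact Finset.sum_congr rfl fun c _ => by ring

theorem tan_map_one : (1 : Matrix (Fin 2) (Fin 2) R).map f = 0 := by
  ext a b
  by_cases h : a = b <;> simp [h, tan_one hf, tan_zero hf]

theorem tan_mulVec (M : Matrix (Fin 2) (Fin 2) R) (v : Fin 2 → R) :
    (fun i => f ((M *ᵥ v) i)) =
      M.map f *ᵥ (fun i => π (v i)) + M.map π *ᵥ (fun i => f (v i)) := by
  funext a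
  simp only [Matrix.mulVec, dotProduct, Fin.sum_univ_two, Pi.add_apply, Matrix.map_apply, hf.1,
    hf.2.1]
  ring

theorem tan_det (M : Matrix (Fin 2) (Fin 2) R) :
    f M.det = Matrix.trace (M.map f * (M.map π).adjugate) := by
  simp [Matrix.det_fin_two, Matrix.adjugate_fin_two, Matrix.trace_fin_two, Matrix.mul_apply,
    Fin.sum_univ_two, tan_sub hf, hf.2.1]
  ring

theorem tan_trace (M : Matrix (Fin 2) (Fin 2) R) :
    f (Matrix.trace M) = Matrix.trace (M.map f) := by
  simp [Matrix.trace_fin_two, hf.1]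

theorem tan_eq_zero_of_adjoin {s : Set R} (hs : Algebra.adjoin O s = ⊤) (h : ∀ x ∈ s, f x = 0) :
    f = 0 := by
  funext x
  have hx : x ∈ Algebra.adjoin O s := hs ▸ Algebra.mem_top
  show f x = 0
  induction hx using Algebra.adjoin_induction with
  | mem x hx => exact h x hx
  | algebraMap o => exact hf.2.2 o
  | add x y _ _ hx hy => rw [hf.1, hx, hy, add_zero]
  | mul x y _ _ hx hy => rw [hf.2.1, hx, hy, mul_zero, mul_zero, add_zero]

theorem tan_eq_zero_of_sq {x y : R} (hx : π x = 0) (hy : π y = 0) : f (x * y) = 0 := by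
  rw [hf.2.1, hx, hy, zero_mul, zero_mul, add_zero]

theorem tan_eq_zero_of_mem_span {e : O} (he : algebraMap O k e = 0) {x : R}
    (hx : x ∈ Ideal.span {algebraMap O R e}) : f x = 0 := by
  obtain ⟨y, rfl⟩ := Ideal.mem_span_singleton'.1 hx
  rw [hf.2.1, hf.2.2, π.commutes, he, mul_zero, zero_mul, add_zero]

/-- In a strictly ordinary deformation the diagonal does not move. -/
theorem tan_eq_zero_of_strict (h2 : (2 : k) ≠ 0) {x z : R} {d o e : O}
    (hd : algebraMap O k d ≠ 0) (he : algebraMap O k e = 0) (hxz : x * z - algebraMap O R d ∈ Ideal.span {algebraMap O R e})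
    (hx : x - algebraMap O R o * z ∈ Ideal.span {algebraMap O R e}) : f x = 0 ∧ f z = 0 := by
  have e1 : f x = algebraMap O k o * f z := by
    have h := tan_eq_zero_of_mem_span hf he hx
    rw [tan_sub hf, sub_eq_zero, hf.2.1, hf.2.2, π.commutes, mul_zero, add_zero] at h
    exact h
  have e2 : π x = algebraMap O k o * π z := by
    obtain ⟨y, hy⟩ := Ideal.mem_span_singleton'.1 hx
    have h := congrArg π hy
    rw [map_mul, π.commutes, he, mul_zero, map_sub, map_mul, π.commutes, eq_comm, sub_eq_zero] at h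
    exact h
  have e3 : π x * π z ≠ 0 := by
    obtain ⟨y, hy⟩ := Ideal.mem_span_singleton'.1 hxz
    have h := congrArg π hy
    rw [map_mul, π.commutes, he, mul_zero, map_sub, map_mul, π.commutes, eq_comm, sub_eq_zero] at h
    rw [h]
    exact hd
  have e4 : 2 * (π x * f z) = 0 := by
    have h := tan_eq_zero_of_mem_span hf he hxz
    rw [tan_sub hf, hf.2.1, hf.2.2, sub_zero, e1] at h
    rw [two_mul]
    calc π x * f z + π x * f z = π x * f z + algebraMap O k o * π z * f z := by rw [← e2]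
      _ = 0 := by linear_combination h
  have hz : f z = 0 :=
    ((mul_eq_zero.1 ((mul_eq_zero.1 e4).resolve_left h2)).resolve_left
      (left_ne_zero_of_mul e3))
  exact ⟨by rw [e1, hz, mul_zero], hz⟩

end Algebra

/-- The map to the dual numbers of a tangent functional. -/
def tanHom (f : tanSpace O R k π) : R →ₐ[O] DualNumber k where
  toFun x := TrivSqZeroExt.inl (π x) + TrivSqZeroExt.inr ((f : R → k) x)
  map_one' := by
    refine TrivSqZeroExt.ext ?_ ?_ <;> simp [tan_one f.2]
  map_mul' x y := by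
    refine TrivSqZeroExt.ext ?_ ?_
    · simp
    · simp [f.2.2.1, mul_comm]
  map_zero' := by
    refine TrivSqZeroExt.ext ?_ ?_ <;> simp [tan_zero f.2]
  map_add' x y := by
    refine TrivSqZeroExt.ext ?_ ?_ <;> simp [f.2.1]
  commutes' o := by
    refine TrivSqZeroExt.ext ?_ ?_ <;> simp [f.2.2.2 o, TrivSqZeroExt.algebraMap_eq_inl']

@[simp] theorem fst_tanHom (f : tanSpace O R k π) (x : R) :
    TrivSqZeroExt.fst (tanHom f x) = π x := by simp [tanHom]

@[simp] theorem snd_tanHom (f : tanSpace O R k π) (x : R) :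
    TrivSqZeroExt.snd (tanHom f x) = (f : R → k) x := by simp [tanHom]

section Cocycle

variable (rho : GQ →* Matrix (Fin 2) (Fin 2) R) (ρ : GQ →* GL (Fin 2) k)

/-- The cocycle of a tangent functional. -/
def tanCoc : tanSpace O R k π →ₗ[k] (GQ → Matrix (Fin 2) (Fin 2) k) where
  toFun f σ := (rho σ).map (f : R → k) * (((ρ σ)⁻¹ : GL (Fin 2) k) : Matrix (Fin 2) (Fin 2) k)
  map_add' f g := funext fun σ => by
    rw [Pi.add_apply, ← Matrix.add_mul]
    rfl
  map_smul' r f := funext fun σ => by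
    rw [Pi.smul_apply, RingHom.id_apply, ← Matrix.smul_mul]
    rfl

theorem tanCoc_apply (f : tanSpace O R k π) (σ : GQ) : tanCoc rho ρ f σ =
    (rho σ).map (f : R → k) * (((ρ σ)⁻¹ : GL (Fin 2) k) : Matrix (Fin 2) (Fin 2) k) := rfl

theorem tanCoc_mul (f : tanSpace O R k π) (σ : GQ) :
    tanCoc rho ρ f σ * (ρ σ : Matrix (Fin 2) (Fin 2) k) = (rho σ).map (f : R → k) := by
  rw [tanCoc_apply, mul_assoc, Units.inv_mul, mul_one]

variable {rho ρ} (hres : ∀ σ, (rho σ).map π = (ρ σ : Matrix (Fin 2) (Fin 2) k))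
include hres

theorem tanCoc_mul_apply (f : tanSpace O R k π) (σ τ : GQ) :
    tanCoc rho ρ f (σ * τ) = tanCoc rho ρ f σ + conjAct (ρ σ) (tanCoc rho ρ f τ) := by
  simp only [tanCoc_apply, conjAct]
  rw [map_mul rho, tan_map_mul f.2, hres, hres, map_mul ρ, _root_.mul_inv_rev, Units.val_mul,
    Matrix.add_mul]
  congr 1
  · rw [← mul_assoc, mul_assoc ((rho σ).map _), Units.mul_inv, mul_one]
  · simp only [mul_assoc]

theorem trace_tanCoc (f : tanSpace O R k π) {σ : GQ}
    (hd : (f : R → k) (rho σ).det = 0) : Matrix.trace (tanCoc rho ρ f σ) = 0 := by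
  have h := tan_det f.2 (rho σ)
  rw [hd, hres] at h
  rw [tanCoc_apply, Matrix.coe_units_inv, Matrix.inv_def, Matrix.mul_smul, Matrix.trace_smul, ← h,
    smul_zero]

theorem isAdCocycle_tanCoc
    (hdet : ∀ (u : tanSpace O R k π) (σ : GQ), (u : R → k) (rho σ).det = 0)
    (f : tanSpace O R k π) : IsAdCocycle ρ (tanCoc rho ρ f) :=
  ⟨fun σ => trace_tanCoc hres f (hdet f σ),
    tanCoc_mul_apply hres f⟩

theorem tan_eq_zero_of_coboundary {f : tanSpace O R k π} {a : Matrix (Fin 2) (Fin 2) k}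
    (h : ∀ σ, tanCoc rho ρ f σ = conjAct (ρ σ) a - a)
    (hgen : Algebra.adjoin O (Set.range fun σ => Matrix.trace (rho σ)) = ⊤) : f = 0 := by
  refine Subtype.ext (tan_eq_zero_of_adjoin f.2 hgen ?_)
  rintro _ ⟨σ, rfl⟩
  show (f : R → k) (Matrix.trace (rho σ)) = 0
  rw [tan_trace f.2, ← tanCoc_mul rho ρ f σ, h, Matrix.sub_mul, conjAct, Matrix.trace_sub,
    mul_assoc, Units.inv_mul, mul_one, Matrix.trace_mul_comm, sub_self]

/-- Unipotent on inertia. -/
theorem resTo_tanCoc_unipotent {A : ValuationSubring Qb} (f : tanSpace O R k π)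
    (hc : resTo (A.decompositionSubgroup ℚ) (tanCoc rho ρ f) ∈
      adCocycles ρ (A.decompositionSubgroup ℚ))
    (htr : ∀ τ ∈ A.inertiaSubgroupIn ℚ, Matrix.trace (rho τ) = 2) :
    resTo (A.decompositionSubgroup ℚ) (tanCoc rho ρ f) ∈ unipotentConds ρ A := by
  refine ⟨hc, fun τ hτ => ?_⟩
  show Matrix.trace (tanCoc rho ρ f τ * _) = 0
  rw [tanCoc_mul, ← tan_trace f.2, htr _ hτ, ← Nat.cast_ofNat, tan_natCast f.2]

/-- A stable line whose character does not move gives strictly ordinary classes. -/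
theorem resTo_tanCoc_strict {A : ValuationSubring Qb} (f : tanSpace O R k π)
    (hc : resTo (A.decompositionSubgroup ℚ) (tanCoc rho ρ f) ∈
      adCocycles ρ (A.decompositionSubgroup ℚ))
    (hlev : ∃ L : IntermediateField ℚ Qb, FiniteDimensional ℚ L ∧ ∀ σ ∈ L.fixingSubgroup, ρ σ = 1)
    {w : Fin 2 → R} (hv : (fun i => π (w i)) ≠ 0)
    (hline : ∀ g ∈ A.decompositionSubgroup ℚ, ∃ x : R, rho g *ᵥ w = x • w ∧ (f : R → k) x = 0) :
    resTo (A.decompositionSubgroup ℚ) (tanCoc rho ρ f) ∈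
      strictConds ρ A (fun i => π (w i)) ⊔ adCoboundaries ρ (A.decompositionSubgroup ℚ) := by
  set v : Fin 2 → k := fun i => π (w i)
  obtain ⟨j, hj⟩ : ∃ j, v j ≠ 0 := Function.ne_iff.1 hv
  -- a trace zero matrix sending `v` to the derivative of `w`
  let a₀ : Matrix (Fin 2) (Fin 2) k :=
    Matrix.of fun i l => if l = j then (f : R → k) (w i) / v j else 0
  have ha₀ : a₀ *ᵥ v = fun i => (f : R → k) (w i) := by
    funext i
    simp [a₀, Matrix.mulVec, dotProduct, div_mul_cancel₀ _ hj]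
  obtain ⟨b, hbv, hbt⟩ : ∃ b : Matrix (Fin 2) (Fin 2) k, b *ᵥ v = 0 ∧ Matrix.trace b = 1 := by
    by_cases h : v 1 = 0
    · have h0 : v 0 ≠ 0 := fun h0 => hv (funext fun i => by fin_cases i <;> simp [h0, h])
      exact ⟨!![0, 0; 0, 1], by funext i; fin_cases i <;> simp [Matrix.mulVec, dotProduct, h],
        by simp [trace_fin_two]⟩
    · exact ⟨!![1, -(v 0 / v 1); 0, 0], by
        funext i
        fin_cases i <;> simp [Matrix.mulVec, dotProduct, div_mul_cancel₀ _ h],
        by simp [trace_fin_two]⟩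
  let a : sl2 k := ⟨a₀ - Matrix.trace a₀ • b,
    mem_sl2.2 (by rw [Matrix.trace_sub, Matrix.trace_smul, hbt]; simp)⟩
  have hav : (a : Matrix (Fin 2) (Fin 2) k) *ᵥ v = fun i => (f : R → k) (w i) := by
    show (a₀ - Matrix.trace a₀ • b) *ᵥ v = _
    rw [Matrix.sub_mulVec, Matrix.smul_mulVec, hbv, smul_zero, sub_zero, ha₀]
  refine Submodule.mem_sup.2 ⟨resTo _ (tanCoc rho ρ f) + adDelta ρ _ a,
    ⟨add_mem hc (adDelta_mem hlev _ a), fun τ => ?_⟩, -adDelta ρ _ a, neg_mem ⟨a, rfl⟩, by abel⟩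
  obtain ⟨x, hx, hfx⟩ := hline τ τ.2
  set g : Matrix (Fin 2) (Fin 2) k := ((ρ (τ : GQ) : GL (Fin 2) k) : Matrix (Fin 2) (Fin 2) k)
  set gi : Matrix (Fin 2) (Fin 2) k :=
    (((ρ (τ : GQ))⁻¹ : GL (Fin 2) k) : Matrix (Fin 2) (Fin 2) k)
  have hgig : gi * g = 1 := Units.inv_mul _
  have hgv : g *ᵥ v = π x • v := by
    funext i
    have := congrArg π (congrFun hx i)
    rw [Pi.smul_apply, smul_eq_mul, map_mul] at this
    show (g *ᵥ v) i = π x * v i
    rw [← this, show g = (rho (τ : GQ)).map π from (hres _).symm]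
    exact (RingHom.map_mulVec π.toRingHom _ _ i).symm
  have hx0 : π x ≠ 0 := fun h0 => (ρ (τ : GQ)).det_ne_zero
    ((Matrix.exists_mulVec_eq_zero_iff).1 ⟨v, hv, by rw [← zero_smul k v, ← h0]; exact hgv⟩)
  have hF : (rho (τ : GQ)).map (f : R → k) *ᵥ v + g *ᵥ (fun i => (f : R → k) (w i)) =
      π x • fun i => (f : R → k) (w i) := by
    have h1 := tan_mulVec f.2 (rho (τ : GQ)) w
    rw [hx, hres] at h1
    rw [← h1]
    funext i
    simp [f.2.2.1, hfx]
  have key : (tanCoc rho ρ f τ + (conjAct (ρ τ) (a : Matrix (Fin 2) (Fin 2) k) -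
      (a : Matrix (Fin 2) (Fin 2) k))) *ᵥ (g *ᵥ v)
      = 0 := by
    rw [Matrix.add_mulVec, Matrix.sub_mulVec, Matrix.mulVec_mulVec, tanCoc_mul,
      Matrix.mulVec_mulVec, show conjAct (ρ (τ : GQ)) (a : Matrix (Fin 2) (Fin 2) k) * g =
        g * (a : Matrix (Fin 2) (Fin 2) k) by
          show g * (a : Matrix (Fin 2) (Fin 2) k) * gi * g = _
          rw [mul_assoc, hgig, mul_one],
      ← Matrix.mulVec_mulVec, hav, hgv, Matrix.mulVec_smul, hav, add_sub, hF, sub_self]
  rw [hgv, Matrix.mulVec_smul] at key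
  exact (smul_eq_zero.1 key).resolve_left hx0

end Cocycle

section Level

variable [IsLocalRing R] {rho : GQ →* Matrix (Fin 2) (Fin 2) R} {ρ : GQ →* GL (Fin 2) k}

theorem exists_level_tan (hπm : ∀ x ∈ maximalIdeal R, π x = 0) (hc : DefRing.IsCont rho)
    (f : tanSpace O R k π) :
    ∃ L : IntermediateField ℚ Qb, FiniteDimensional ℚ L ∧
      ∀ σ ∈ L.fixingSubgroup, (rho σ).map (tanHom f) = 1 := by
  obtain ⟨L, hL, h⟩ := hc 2
  refine ⟨L, hL, fun σ hσ => ?_⟩
  ext a b : 1
  have hm := h σ (fun x hx => hσ ⟨x, hx⟩) a b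
  have hz : tanHom f ((rho σ - 1) a b) = 0 := by
    rw [sq] at hm
    refine Submodule.mul_induction_on hm (fun x hx y hy => ?_) fun x y hx hy => by
      rw [map_add, hx, hy, add_zero]
    refine TrivSqZeroExt.ext ?_ ?_
    · simp [hπm x hx]
    · rw [snd_tanHom, TrivSqZeroExt.snd_zero]
      exact tan_eq_zero_of_sq f.2 (hπm x hx) (hπm y hy)
  rw [Matrix.sub_apply, map_sub, sub_eq_zero] at hz
  rw [Matrix.map_apply, hz, Matrix.one_apply, Matrix.one_apply, apply_ite (tanHom f), map_one,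
    map_zero]

/-- The cocycle is constant on a level unramified outside `S` if `rho` is unramified there. -/
theorem tanCoc_levelS (hres : ∀ σ, (rho σ).map π = (ρ σ : Matrix (Fin 2) (Fin 2) k))
    (hπm : ∀ x ∈ maximalIdeal R, π x = 0) (hc : DefRing.IsCont rho) (S : Finset Nat.Primes)
    (hunr : ∀ q : Nat.Primes, q ∉ S → ∀ A : ValuationSubring Qb, A.LiesOverPrime (q : ℕ) →
      ∀ g ∈ A.inertiaSubgroupIn ℚ, rho g = 1)
    (f : tanSpace O R k π) : IsLevelConstantS₁ S (tanCoc rho ρ f) := by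
  obtain ⟨L, hL, hLker⟩ := exists_level_tan hπm hc f
  let φ : GQ →* (Matrix (Fin 2) (Fin 2) (DualNumber k))ˣ :=
    ((tanHom f).toRingHom.mapMatrix.toMonoidHom.comp rho).toHomUnits
  have hker : ∀ σ, σ ∈ φ.ker ↔ (rho σ).map (tanHom f) = 1 := fun σ => by
    rw [MonoidHom.mem_ker, Units.ext_iff]
    rfl
  have hle : L.fixingSubgroup ≤ φ.ker := fun σ hσ => (hker σ).2 (hLker σ hσ)
  have hopen : IsOpen (φ.ker : Set GQ) :=
    Subgroup.isOpen_mono hle (IntermediateField.fixingSubgroup_isOpen L)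
  let Hc : ClosedSubgroup GQ := ⟨φ.ker, Subgroup.isClosed_of_isOpen _ hopen⟩
  have hfix : (IntermediateField.fixedField φ.ker).fixingSubgroup = φ.ker :=
    InfiniteGalois.fixingSubgroup_fixedField Hc
  have hFL : IntermediateField.fixedField φ.ker ≤ L := by
    refine le_trans (IntermediateField.fixedField_le hle) ?_
    rw [InfiniteGalois.fixedField_fixingSubgroup]
  refine ⟨IntermediateField.fixedField φ.ker, ⟨FiniteDimensional.of_injective
    (IntermediateField.inclusion hFL).toLinearMap (IntermediateField.inclusion_injective hFL),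
    fun q hq A hA g hg => ?_⟩, fun g s hs => ?_⟩
  · rw [hfix, hker, hunr q hq A hA g hg, Matrix.map_one _ (map_zero _) (map_one _)]
  · rw [hfix, hker] at hs
    rw [tanCoc_mul_apply hres, tanCoc_apply rho ρ f s]
    have h0 : (rho s).map (f : R → k) = 0 := by
      ext a b
      have := congrArg TrivSqZeroExt.snd (congrFun (congrFun hs a) b)
      rw [Matrix.map_apply, snd_tanHom, Matrix.one_apply] at this
      rw [Matrix.map_apply, Matrix.zero_apply, this]
      split <;> simp
    rw [h0, Matrix.zero_mul]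
    simp [conjAct]

end Level

end

end FermatAgent.TW
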