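import Fermat.Agent.TW.Tangent
import Fermat.Prelude.Def_GaloisRep_Flat

/-!
# Flatness under equivalence and surjective changes of coefficients
-/

set_option autoImplicit false
set_option linter.unusedSectionVars false

open IsLocalRing Matrix Module

namespace FermatAgent.TW

noncomputable section

local notation "Qb" => AlgebraicClosure ℚ
local notation "GQ" => AlgebraicClosure ℚ ≃ₐ[ℚ] AlgebraicClosure ℚ

variable {R B : Type} [CommRing R] [IsLocalRing R] [CommRing B] [IsLocalRing B]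

theorem isFlatAt_of_isEquiv {ρ₁ ρ₂ : GaloisRepAdic R} {p : ℕ} (he : ρ₁.IsEquiv ρ₂)
    (h : ρ₁.IsFlatAt p) : ρ₂.IsFlatAt p := by
  obtain ⟨e⟩ := he
  refine ⟨h.1, fun I hI => ?_⟩
  obtain ⟨H, i1, i2, hfin, hflat, hco, q, hadd, hact⟩ := h.2 I hI
  have hmap : (I • (⊤ : Submodule R ρ₁.V)).map (e.toLinearEquiv : ρ₁.V →ₗ[R] ρ₂.V) =
      I • (⊤ : Submodule R ρ₂.V) := by
    rw [Submodule.map_smul'', Submodule.map_top, LinearEquiv.range]
  let Φ := Submodule.Quotient.equiv (I • (⊤ : Submodule R ρ₁.V)) (I • (⊤ : Submodule R ρ₂.V))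
    e.toLinearEquiv hmap
  refine ⟨H, i1, i2, hfin, hflat, hco, q.trans Φ.toEquiv, fun f g => ?_, fun σ f g hfg => ?_⟩
  · show Φ (q (f * g)) = Φ (q f) + Φ (q g)
    rw [hadd, map_add]
  · show Φ (q g) = ρ₂.levelAction I σ (Φ (q f))
    rw [hact σ f g hfg]
    obtain ⟨x, hx⟩ := Submodule.Quotient.mk_surjective _ (q f)
    rw [← hx]
    show Submodule.Quotient.mk (e.toLinearEquiv (ρ₁.ρ σ x)) = _
    rw [e.map_apply]
    rfl

/-- Flatness passes to a quotient of the coefficients. -/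
theorem isFlatAt_mapRep {p : ℕ} (φ : R →+* B) (hφs : Function.Surjective φ)
    (r : GQ →* Matrix (Fin 2) (Fin 2) R) (hr : DefRing.IsCont r)
    (hr' : DefRing.IsCont (DefRing.mapRep φ r)) (h : (DefRing.toAdic r hr).IsFlatAt p) :
    (DefRing.toAdic (DefRing.mapRep φ r) hr').IsFlatAt p := by
  have hloc : IsLocalHom φ := IsLocalHom.of_surjective φ hφs
  refine ⟨?_, fun I hI => ?_⟩
  · have := h.1
    refine Finite.of_surjective (ResidueField.map φ) fun y => ?_
    obtain ⟨y, rfl⟩ := residue_surjective y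
    obtain ⟨x, rfl⟩ := hφs y
    exact ⟨residue R x, rfl⟩
  · set J : Ideal R := I.comap φ
    have : Finite (R ⧸ J) := Finite.of_injective (Ideal.quotientMap I φ le_rfl)
      Ideal.quotientMap_injective
    obtain ⟨H, i1, i2, hfin, hflat, hco, q, hadd, hact⟩ := h.2 J this
    let N₁ : Submodule R (Fin 2 → R) := J • ⊤
    let N₂ : Submodule B (Fin 2 → B) := I • ⊤
    let ψ : (Fin 2 → R) →+ (Fin 2 → B) ⧸ N₂ :=
      { toFun := fun v => Submodule.Quotient.mk (φ ∘ v)
        map_zero' := by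
          rw [show φ ∘ (0 : Fin 2 → R) = 0 from funext fun i => map_zero φ]; rfl
        map_add' := fun v w => by
          rw [show φ ∘ (v + w) = φ ∘ v + φ ∘ w from funext fun i => map_add φ _ _]; rfl }
    have hker : ∀ v, ψ v = 0 ↔ v ∈ N₁ := fun v => by
      show Submodule.Quotient.mk (φ ∘ v) = 0 ↔ _
      rw [Submodule.Quotient.mk_eq_zero, DefRing.pi_mem_smul_top_iff, DefRing.pi_mem_smul_top_iff]
      rfl
    let Φ : (Fin 2 → R) ⧸ N₁ →+ (Fin 2 → B) ⧸ N₂ :=
      QuotientAddGroup.lift N₁.toAddSubgroup ψ fun v hv => (hker v).2 hv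
    have hΦ : Function.Bijective Φ := by
      refine ⟨(injective_iff_map_eq_zero Φ).2 fun x hx => ?_, fun y => ?_⟩
      · obtain ⟨v, rfl⟩ := Submodule.Quotient.mk_surjective _ x
        exact (Submodule.Quotient.mk_eq_zero _).2 ((hker v).1 hx)
      · obtain ⟨w, rfl⟩ := Submodule.Quotient.mk_surjective _ y
        choose v hv using fun i => hφs (w i)
        exact ⟨Submodule.Quotient.mk v, congrArg Submodule.Quotient.mk (funext hv)⟩
    refine ⟨H, i1, i2, hfin, hflat, hco, q.trans (Equiv.ofBijective Φ hΦ), fun f g => ?_,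
      fun σ f g hfg => ?_⟩
    · show Φ (q (f * g)) = Φ (q f) + Φ (q g)
      rw [hadd]; exact map_add Φ _ _
    · show Φ (q g) = _
      rw [hact σ f g hfg]
      obtain ⟨x, hx⟩ := Submodule.Quotient.mk_surjective _ (q f)
      show _ = (DefRing.toAdic (DefRing.mapRep φ r) hr').levelAction I σ (Φ (q f))
      rw [← hx]
      show Submodule.Quotient.mk (φ ∘ (r σ *ᵥ x)) =
        Submodule.Quotient.mk ((r σ).map φ *ᵥ (φ ∘ x))
      congr 1
      funext i
      exact RingHom.map_mulVec φ _ _ i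

variable {O : Type} [CommRing O] {k : Type} [Field k] [Algebra O R] [Algebra O k] {π : R →ₐ[O] k}

/-- A flat deformation to the dual numbers gives a flat cocycle. -/
theorem isFlatCocycle_tanCoc {rho : GQ →* Matrix (Fin 2) (Fin 2) R} {ρ : GQ →* GL (Fin 2) k}
    (hres : ∀ σ, (rho σ).map π = (ρ σ : Matrix (Fin 2) (Fin 2) k)) {p : ℕ}
    (f : tanSpace O R k π) [Finite k]
    (hc : DefRing.IsCont (DefRing.mapRep (tanHom f : R →+* DualNumber k) rho))
    (h : (DefRing.toAdic (DefRing.mapRep (tanHom f : R →+* DualNumber k) rho) hc).IsFlatAt p) :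
    IsFlatCocycle ρ p (tanCoc rho ρ f) := by
  set r' := DefRing.mapRep (tanHom f : R →+* DualNumber k) rho
  have : Finite (DualNumber k) := Finite.of_equiv (k × k) (Equiv.refl _)
  obtain ⟨H, i1, i2, hfin, hflat, hco, q, hadd, hact⟩ :=
    h.2 ⊥ (Finite.of_surjective _ Ideal.Quotient.mk_surjective)
  let N : Submodule (DualNumber k) (Fin 2 → DualNumber k) := (⊥ : Ideal (DualNumber k)) • ⊤
  have hN : N = ⊥ := Submodule.bot_smul _
  let Φ : (Fin 2 → DualNumber k) ⧸ N → (Fin 2 → k) × (Fin 2 → k) := fun x =>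
    (fun i => TrivSqZeroExt.fst (Submodule.quotEquivOfEqBot N hN x i),
      fun i => TrivSqZeroExt.snd (Submodule.quotEquivOfEqBot N hN x i))
  have hΦ : Function.Bijective Φ := by
    refine ⟨fun x y hxy => (Submodule.quotEquivOfEqBot N hN).injective (funext fun i => ?_),
      fun y => ⟨(Submodule.quotEquivOfEqBot N hN).symm fun i =>
        TrivSqZeroExt.inl (y.1 i) + TrivSqZeroExt.inr (y.2 i), ?_⟩⟩
    · exact TrivSqZeroExt.ext (congrFun (congrArg Prod.fst hxy) i)
        (congrFun (congrArg Prod.snd hxy) i)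
    · refine Prod.ext (funext fun i => ?_) (funext fun i => ?_) <;> simp [Φ]
  refine ⟨H, i1, i2, hfin, hflat, hco, q.trans (Equiv.ofBijective Φ hΦ), fun f g => ?_,
    fun σ f' g hfg => ?_⟩
  · have hΦadd : ∀ a b : (Fin 2 → DualNumber k) ⧸ N, Φ (a + b) = Φ a + Φ b := fun a b => by
      refine Prod.ext (funext fun i => ?_) (funext fun i => ?_) <;> simp [Φ]
    show Φ (q (f * g)) = Φ (q f) + Φ (q g)
    rw [hadd]
    exact hΦadd _ _
  · show Φ (q g) = ((ρ σ : Matrix (Fin 2) (Fin 2) k) *ᵥ (Φ (q f')).1,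
      (ρ σ : Matrix (Fin 2) (Fin 2) k) *ᵥ (Φ (q f')).2 +
        (tanCoc rho ρ f σ * (ρ σ : Matrix (Fin 2) (Fin 2) k)) *ᵥ (Φ (q f')).1)
    rw [hact σ f' g hfg, tanCoc_mul]
    obtain ⟨x, hx⟩ := Submodule.Quotient.mk_surjective _ (q f')
    rw [← hx]
    have key : ∀ v : Fin 2 → DualNumber k, Φ (Submodule.Quotient.mk v) =
        (fun i => TrivSqZeroExt.fst (v i), fun i => TrivSqZeroExt.snd (v i)) := fun v => by
      simp [Φ]
    show Φ (Submodule.Quotient.mk (r' σ *ᵥ x)) = _
    erw [key, key]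
    rw [← hres]
    refine Prod.ext (funext fun i => ?_) (funext fun i => ?_)
    · fin_cases i <;> simp [r', Matrix.mulVec, dotProduct, Fin.sum_univ_two]
    · fin_cases i <;> simp [r', Matrix.mulVec, dotProduct, Fin.sum_univ_two] <;> ring

end

end FermatAgent.TW
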