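import Fermat.Agent.TW.Tangent
import Fermat.Agent.DefRing.Deform
import Fermat.Prelude.Def_GaloisRep_DeformationRingData
import Fermat.Prelude.Thm_IsLocalRing_isAdicComplete_of_module_finite

/-!
# Matrix model and tangent functionals of a universal deformation
-/

set_option autoImplicit false
set_option linter.unusedSectionVars false

open IsLocalRing Matrix Module

namespace FermatAgent.TW

noncomputable section

local notation "Qb" => AlgebraicClosure ℚ
local notation "GQ" => AlgebraicClosure ℚ ≃ₐ[ℚ] AlgebraicClosure ℚ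

variable {O : Type} [CommRing O] [IsDomain O] [IsDiscreteValuationRing O]
  [IsAdicComplete (maximalIdeal O) O] [Finite (ResidueField O)]

/-- A matrix representation in the class of a lift, reducing exactly to the given matrices. -/
theorem exists_matrix_model {R : Type} [CommRing R] [IsLocalRing R] [IsNoetherianRing R]
    [IsAdicComplete (maximalIdeal R) R] [Algebra O R] [IsLocalHom (algebraMap O R)]
    (hsurj : Function.Surjective (residue R ∘ algebraMap O R))
    (ρbar : ResidualGaloisRep (ResidueField O))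
    (b : Module.Basis (Fin 2) (ResidueField O) ρbar.V) (ρR : GaloisRepAdic R)
    (hequiv : ρR.residual.IsEquiv
      (ρbar.baseChangeAlong (ResidueField.map (algebraMap O R)))) :
    ∃ (π : R →ₐ[O] ResidueField O) (r : GQ →* Matrix (Fin 2) (Fin 2) R) (hc : DefRing.IsCont r),
      (∀ x, π x = 0 ↔ x ∈ maximalIdeal R) ∧ ρR.IsEquiv (DefRing.toAdic r hc) ∧
      ∀ σ, (r σ).map π = DefRing.rmat b ρbar.ρ σ := by
  obtain ⟨π, hπ⟩ := exists_residueAlgHom hsurj
  set ψ := ResidueField.map (algebraMap O R)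
  have hψ : ∀ x, ψ (π x) = residue R x := fun x => by
    obtain ⟨o, ho⟩ := residue_surjective (π x)
    have hm : x - algebraMap O R o ∈ maximalIdeal R := (hπ _).1 (by
      rw [map_sub, π.commutes, ← ho]; exact sub_self _)
    rw [← residue_eq_zero_iff, map_sub, sub_eq_zero] at hm
    rw [hm, ← ho]
    rfl
  obtain ⟨b₂, hb₂⟩ := DefRing.rmat_baseChangeAlong ψ ρbar b
  let b₁ := DefRing.stdBasis ρR
  set m₀ := DefRing.matrixOf b₁ ρR.ρ
  obtain ⟨Q, hQ, hconj⟩ := DefRing.exists_conj_rmat hequiv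
    (Algebra.TensorProduct.basis (ResidueField R) b₁) b₂
  have h1 : DefRing.rmat (Algebra.TensorProduct.basis (ResidueField R) b₁) ρR.residual.ρ =
      DefRing.mapRep (residue R) m₀ := DefRing.matrixOf_residual ρR b₁
  choose q hq using fun i j => residue_surjective (Q i j)
  let Qt : Matrix (Fin 2) (Fin 2) R := Matrix.of q
  have hQt : Qt.map (residue R) = Q := Matrix.ext fun i j => hq i j
  have hQtu : IsUnit Qt.det := by
    rw [← residue_ne_zero_iff_isUnit, RingHom.map_det, RingHom.mapMatrix_apply, hQt]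
    exact hQ.ne_zero
  let r : GQ →* Matrix (Fin 2) (Fin 2) R :=
    { toFun := fun σ => Qt * m₀ σ * Qt⁻¹
      map_one' := by rw [map_one, mul_one, Matrix.mul_nonsing_inv _ hQtu]
      map_mul' := fun σ τ => by
        rw [map_mul]
        simp only [mul_assoc, Matrix.nonsing_inv_mul_cancel_left _ _ hQtu] }
  have hm₀ := DefRing.isCont_matrixOf ρR b₁
  have hc : DefRing.IsCont r :=
    DefRing.isCont_conjRep hm₀ Qt⁻¹ Qt (Matrix.mul_nonsing_inv _ hQtu) r fun σ => rfl
  refine ⟨π, r, hc, hπ, ?_, fun σ => ?_⟩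
  · obtain ⟨e1⟩ := DefRing.isEquiv_toAdic_matrixOf ρR b₁ m₀ hm₀ rfl
    obtain ⟨e2⟩ := DefRing.isEquiv_toAdic_of_conj hm₀ hc Qt hQtu fun σ => by
      show Qt * m₀ σ = Qt * m₀ σ * Qt⁻¹ * Qt
      rw [mul_assoc (Qt * m₀ σ), Matrix.nonsing_inv_mul _ hQtu, mul_one]
    exact ⟨e1.trans e2⟩
  · have hc' := hconj σ
    erw [h1, hb₂] at hc'
    rw [DefRing.mapRep_apply, DefRing.mapRep_apply, ← hQt, ← Matrix.map_mul] at hc'
    have h2 : (r σ).map (residue R) = (DefRing.rmat b ρbar.ρ σ).map ψ := by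
      show (Qt * m₀ σ * Qt⁻¹).map (residue R) = _
      rw [Matrix.map_mul, hc', mul_assoc, ← Matrix.map_mul, Matrix.mul_nonsing_inv _ hQtu,
        Matrix.map_one _ (map_zero _) (map_one _), mul_one]
    ext i j
    apply ψ.injective
    rw [Matrix.map_apply, hψ]
    exact congrFun (congrFun h2 i) j

theorem isAdicComplete_DN :
    IsAdicComplete (maximalIdeal (DefRing.DN O)) (DefRing.DN O) := by
  have : Finite (DefRing.DN O) :=
    Finite.of_equiv (ResidueField O × ResidueField O) (Equiv.refl _)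
  have := (DefRing.isTestAlgebra_DN (𝒪 := O)).isLocalHom
  have : Module.Finite O (DefRing.DN O) := Module.Finite.of_finite
  exact IsLocalRing.isAdicComplete_of_module_finite (𝒪 := O)

/-- A nonzero tangent functional gives a surjection to the dual numbers. -/
theorem tanHom_surjective {R : Type} [CommRing R] [Algebra O R] {π : R →ₐ[O] ResidueField O}
    (f : tanSpace O R (ResidueField O) π) (hf : f ≠ 0) : Function.Surjective (tanHom f) := by
  obtain ⟨x, hx⟩ : ∃ x, (f : R → ResidueField O) x ≠ 0 := by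
    by_contra h
    push Not at h
    exact hf (Subtype.ext (funext h))
  obtain ⟨ox, hox⟩ := residue_surjective (π x)
  set x₀ := x - algebraMap O R ox
  have hx₀ : π x₀ = 0 := by rw [map_sub, π.commutes, ← hox]; exact sub_self _
  have hfx₀ : (f : R → ResidueField O) x₀ ≠ 0 := by
    rwa [tan_sub f.2, f.2.2.2, sub_zero]
  intro y
  obtain ⟨o, ho⟩ := residue_surjective (TrivSqZeroExt.fst y)
  obtain ⟨o', ho'⟩ := residue_surjective
    (TrivSqZeroExt.snd y / (f : R → ResidueField O) x₀)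
  refine ⟨algebraMap O R o + algebraMap O R o' * x₀, TrivSqZeroExt.ext ?_ ?_⟩
  · rw [fst_tanHom, map_add, map_mul, hx₀, mul_zero, add_zero, π.commutes, ← ho]
    rfl
  · rw [snd_tanHom, f.2.1, f.2.2.2, zero_add, f.2.2.1, f.2.2.2, mul_zero, add_zero, π.commutes]
    show residue O o' * _ = _
    rw [ho', div_mul_cancel₀ _ hfx₀]

variable {ρbar : ResidualGaloisRep (ResidueField O)}
  {𝒟 : ∀ ⦃A : Type⦄ [CommRing A] [IsLocalRing A] [Algebra O A], GaloisRepAdic A → Prop}
  (DQ : GaloisRep.DeformationRingData O ρbar 𝒟)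

/-- Universality: a tangent functional with a trivial cocycle is zero. -/
theorem tan_eq_zero_of_universal (b : Module.Basis (Fin 2) (ResidueField O) ρbar.V)
    {π : DQ.R →ₐ[O] ResidueField O} (hπ : ∀ x, π x = 0 ↔ x ∈ maximalIdeal DQ.R)
    {r : GQ →* Matrix (Fin 2) (Fin 2) DQ.R} (hc : DefRing.IsCont r)
    (he : DQ.ρ.IsEquiv (DefRing.toAdic r hc))
    {ρ : GQ →* GL (Fin 2) (ResidueField O)}
    (hρ : ∀ σ, (ρ σ : Matrix (Fin 2) (Fin 2) (ResidueField O)) = DefRing.rmat b ρbar.ρ σ)
    (hres : ∀ σ, (r σ).map π = DefRing.rmat b ρbar.ρ σ)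
    (f : tanSpace O DQ.R (ResidueField O) π)
    (hD : ∀ hc' : DefRing.IsCont (DefRing.mapRep (tanHom f : DQ.R →+* DefRing.DN O) r),
      Function.Surjective (tanHom f) → 𝒟 (DefRing.toAdic _ hc'))
    (a : Matrix (Fin 2) (Fin 2) (ResidueField O))
    (ha : ∀ σ, tanCoc r ρ f σ = conjAct (ρ σ) a - a) : f = 0 := by
  classical
  by_contra hf
  obtain ⟨x, hx⟩ : ∃ x, (f : DQ.R → ResidueField O) x ≠ 0 := by
    by_contra h
    push Not at h
    exact hf (Subtype.ext (funext h))
  have hsurj : Function.Surjective (tanHom f) := tanHom_surjective f hf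
  have hloc : ∀ g : tanSpace O DQ.R (ResidueField O) π,
      IsLocalHom (tanHom g : DQ.R →+* DefRing.DN O) := fun g => ⟨fun y hy => by
    rw [RingHom.coe_coe, TrivSqZeroExt.isUnit_iff_isUnit_fst, fst_tanHom] at hy
    by_contra hu
    exact hy.ne_zero ((hπ y).2 hu)⟩
  have hcg : ∀ g : tanSpace O DQ.R (ResidueField O) π,
      DefRing.IsCont (DefRing.mapRep (tanHom g : DQ.R →+* DefRing.DN O) r) := fun g =>
    DefRing.isCont_map _ (hloc g) hc
  set rf := DefRing.mapRep (tanHom f : DQ.R →+* DefRing.DN O) r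
  set r0 := DefRing.mapRep
    (tanHom (0 : tanSpace O DQ.R (ResidueField O) π) : DQ.R →+* DefRing.DN O) r
  let Qε : Matrix (Fin 2) (Fin 2) (DefRing.DN O) := Matrix.of fun i j =>
    TrivSqZeroExt.inl ((1 : Matrix (Fin 2) (Fin 2) (ResidueField O)) i j) +
      TrivSqZeroExt.inr (a i j)
  have hQdet : IsUnit Qε.det := by
    rw [TrivSqZeroExt.isUnit_iff_isUnit_fst]
    simp [Qε, Matrix.det_fin_two]
  have hconj : ∀ σ, Qε * rf σ = r0 σ * Qε := by
    intro σ
    have hF : (r σ).map (f : DQ.R → ResidueField O) + a * (r σ).map π = (r σ).map π * a := by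
      rw [← tanCoc_mul r ρ f σ, ha, hres, ← hρ, Matrix.sub_mul, sub_add_cancel, conjAct, mul_assoc,
        Units.inv_mul, mul_one]
    refine Matrix.ext fun i j => ?_
    have hFij := congrFun (congrFun hF i) j
    simp only [Matrix.add_apply, Matrix.mul_apply, Matrix.map_apply, Fin.sum_univ_two] at hFij
    refine TrivSqZeroExt.ext ?_ ?_
    · fin_cases i <;> fin_cases j <;>
        simp [Qε, rf, r0, Matrix.mul_apply, Fin.sum_univ_two]
    · fin_cases i <;> fin_cases j <;>
        simp [Qε, rf, r0, Matrix.mul_apply, Fin.sum_univ_two] at hFij ⊢ <;>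
        linear_combination hFij
  have := (DefRing.isTestAlgebra_DN (𝒪 := O)).isLocalHom
  obtain ⟨b₂, hb₂⟩ := DefRing.rmat_baseChangeAlong
    (ResidueField.map (algebraMap O (DefRing.DN O))) ρbar b
  obtain ⟨b₁, hb₁⟩ := DefRing.residual_toAdic_matrices rf (hcg f)
  have := isAdicComplete_DN (O := O)
  have : Finite (DefRing.DN O) :=
    Finite.of_equiv (ResidueField O × ResidueField O) (Equiv.refl _)
  have hresA : (DefRing.toAdic rf (hcg f)).residual.IsEquiv
      (ρbar.baseChangeAlong (ResidueField.map (algebraMap O (DefRing.DN O)))) := by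
    refine DefRing.isEquiv_of_rmat_eq _ _ b₁ b₂ 1 (by simp) fun σ => ?_
    have h1 : DefRing.rmat b₁ (DefRing.toAdic rf (hcg f)).residual.ρ =
        DefRing.mapRep (residue _) rf := hb₁
    rw [one_mul, mul_one, h1, hb₂]
    simp only [DefRing.mapRep_apply]
    rw [← hres]
    ext i j : 1
    obtain ⟨o, ho⟩ := residue_surjective (π (r σ i j))
    simp only [DefRing.mapRep_apply, Matrix.map_apply, rf]
    rw [← ho, ResidueField.map_residue, ← sub_eq_zero, ← map_sub, residue_eq_zero_iff]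
    show ¬ IsUnit _
    rw [TrivSqZeroExt.isUnit_iff_isUnit_fst, TrivSqZeroExt.fst_sub, RingHom.coe_coe, fst_tanHom,
      TrivSqZeroExt.algebraMap_eq_inl', TrivSqZeroExt.fst_inl, ← ho]
    show ¬ IsUnit (residue O o - residue O o)
    rw [sub_self]
    exact not_isUnit_zero
  obtain ⟨e⟩ := he
  obtain ⟨e1⟩ := DefRing.isEquiv_baseChangeAlong_toAdic _ (hloc f) r hc rf (hcg f) rfl
  obtain ⟨e2⟩ := DefRing.isEquiv_baseChangeAlong_toAdic _ (hloc 0) r hc r0 (hcg 0) rfl
  obtain ⟨e3⟩ := DefRing.isEquiv_toAdic_of_conj (hcg f) (hcg 0) Qε hQdet hconj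
  have huniv := DQ.universal (DefRing.DN O) (DefRing.isTestAlgebra_DN (𝒪 := O)).residue_surjective
    (DefRing.toAdic rf (hcg f)) (hD (hcg f) hsurj) hresA
  have heq := huniv.unique (y₁ := tanHom f) (y₂ := tanHom 0)
    ⟨hloc f, ⟨(e.baseChangeAlong _ (hloc f)).trans e1⟩⟩
    ⟨hloc 0, ⟨((e.baseChangeAlong _ (hloc 0)).trans e2).trans e3.symm⟩⟩
  have := congrArg (fun g => TrivSqZeroExt.snd (g x)) heq
  simp only [snd_tanHom] at this
  exact hx this

end

end FermatAgent.TW
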