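import Fermat.Agent.TW.LocalCommon
import Fermat.Agent.Duality.Local.Interface

/-!
# Finiteness of the local cocycles
-/

set_option autoImplicit false

open Matrix Module groupCohomology

namespace FermatAgent.TW

open FermatAgent.Duality

noncomputable section

local notation "Qb" => AlgebraicClosure ℚ
local notation "GQ" => AlgebraicClosure ℚ ≃ₐ[ℚ] AlgebraicClosure ℚ

attribute [local instance] FermatAgent.RT.isGalois_algClosureRat

variable {k : Type} [Field k] [Finite k] {p : ℕ} [Fact p.Prime] [Algebra (ZMod p) k]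
  {ρ : GQ →* GL (Fin 2) k}

theorem module_finite_adCocycles (hρ : TWHyp p ρ) {ℓ : ℕ} (hℓ : ℓ.Prime) {A : ValuationSubring Qb}
    (hA : A.LiesOverPrime ℓ) : Module.Finite k (adCocycles ρ (A.decompositionSubgroup ℚ)) := by
  classical
  have hfk : Module.Finite (ZMod p) k := Module.Finite.of_finite
  obtain ⟨L, hL, hρL⟩ := hρ.finiteLevel
  obtain ⟨F, hF, hFμ⟩ := exists_field_le_fixMu p 1
  have hK : FiniteDimensional ℚ ↥(L ⊔ F) := IntermediateField.finiteDimensional_sup L F
  have hμ : ContainsMuP p (L ⊔ F) := fun σ hσ =>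
    cycloChar_of_mem_fixMu (N := 0) (hFμ (IntermediateField.fixingSubgroup_antitone le_sup_right hσ))
  have hH1 := (localDualityAt p hℓ (L ⊔ F) hμ hA).finite_H1
  have : Finite (GQ ⧸ (L ⊔ F).fixingSubgroup) := by
    refine Nat.finite_of_card_ne_zero ?_
    show (L ⊔ F).fixingSubgroup.index ≠ 0
    rw [← IntermediateField.finrank_eq_fixingSubgroup_index]
    exact (Module.finrank_pos (R := ℚ) (M := ↥(L ⊔ F))).ne'
  set D := A.decompositionSubgroup ℚ
  set Z := adCocycles ρ D
  let rep : GQ ⧸ (L ⊔ F).fixingSubgroup → D := fun x =>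
    if h : ∃ σ : D, QuotientGroup.mk (σ : GQ) = x then h.choose else 1
  let inc : localGroup (L ⊔ F) A → D := fun x => ⟨(x : GQ), x.2.2⟩
  have hone : ∀ x : localGroup (L ⊔ F) A, ρ x = 1 := fun x =>
    hρL _ (IntermediateField.fixingSubgroup_antitone le_sup_left x.2.1)
  let b := Module.finBasis (ZMod p) k
  have hlev : ∀ (c : Z) i (a a' : Fin 2),
      (fun x => b.coord i (c.1 (inc x) a a')) ∈
        Z1 (localLevels (L ⊔ F) A) (triv (ZMod p) (localGroup (L ⊔ F) A)) := by
    intro c i a a'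
    obtain ⟨-, hcoc, F', hF', hl⟩ := c.2
    refine mem_Z1 _ _ |>.2 ⟨FermatAgent.Duality.Local.isLev₁_iff_exists_field.2 ⟨F', hF',
      fun g s hs => ?_⟩, fun g h => ?_⟩
    · show b.coord i (c.1 (inc (g * s)) a a') = b.coord i (c.1 (inc g) a a')
      rw [show inc (g * s) = inc g * inc s from rfl, hl (inc g) (inc s) hs]
    · show b.coord i (c.1 (inc (g * h)) a a') =
        b.coord i (c.1 (inc h) a a') + b.coord i (c.1 (inc g) a a')
      rw [show inc (g * h) = inc g * inc h from rfl, hcoc,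
        show ρ (inc g : GQ) = 1 from hone g, show conjAct (1 : GL (Fin 2) k) (c.1 (inc h)) =
          c.1 (inc h) from by simp [conjAct], Matrix.add_apply, map_add, add_comm]
  let cl := cl1 (localLevels (L ⊔ F) A) (triv (ZMod p) (localGroup (L ⊔ F) A))
  let Φ : Z →ₗ[ZMod p] ((GQ ⧸ (L ⊔ F).fixingSubgroup → Matrix (Fin 2) (Fin 2) k) ×
      (Fin (finrank (ZMod p) k) × Fin 2 × Fin 2 → localH1 p (L ⊔ F) A)) :=
    { toFun := fun c => (fun x => c.1 (rep x), fun j =>
        cl ⟨_, hlev c j.1 j.2.1 j.2.2⟩)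
      map_add' := fun c c' => Prod.ext (funext fun x => rfl) (funext fun j => by
        show cl _ = cl _ + cl _
        rw [← map_add]
        congr 1
        exact Subtype.ext (funext fun x => map_add (b.coord j.1) _ _))
      map_smul' := fun r c => Prod.ext (funext fun x => rfl) (funext fun j => by
        show cl _ = r • cl _
        rw [← map_smul]
        congr 1
        refine Subtype.ext (funext fun x => ?_)
        show b.coord j.1 ((r • (c : Z)).1 (inc x) j.2.1 j.2.2) = r • b.coord j.1 (c.1 (inc x) j.2.1 j.2.2)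
        rw [← map_smul]
        rfl) }
  have hΦ : Function.Injective Φ := by
    refine (injective_iff_map_eq_zero _).2 fun c hc => Subtype.ext (funext fun σ => ?_)
    have h1 : ∀ x, c.1 (rep x) = 0 := fun x => congrFun (congrArg Prod.fst hc) x
    have h2 : ∀ x, c.1 (inc x) = 0 := by
      intro x
      ext a a'
      refine b.ext_elem fun i => ?_
      rw [Matrix.zero_apply, map_zero]
      obtain ⟨m, hm⟩ := (cl1_eq_zero_iff (localLevels (L ⊔ F) A) (triv (ZMod p) (localGroup (L ⊔ F) A))
        ⟨_, hlev c i a a'⟩).1 (congrFun (congrArg Prod.snd hc) (i, a, a'))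
      have := congrFun hm x
      simp at this
      simpa [Module.Basis.coord_apply] using this.symm
    have hex : ∃ τ : D, (QuotientGroup.mk (τ : GQ) : GQ ⧸ (L ⊔ F).fixingSubgroup) =
        QuotientGroup.mk (σ : GQ) := ⟨σ, rfl⟩
    set r : D := rep (QuotientGroup.mk (σ : GQ)) with hr
    have hrσ : ((r⁻¹ * σ : D) : GQ) ∈ (L ⊔ F).fixingSubgroup := by
      have : (QuotientGroup.mk (r : GQ) : GQ ⧸ (L ⊔ F).fixingSubgroup) =
          QuotientGroup.mk (σ : GQ) := by
        rw [hr]; simp only [rep, dif_pos hex]; exact hex.choose_spec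
      exact QuotientGroup.eq.1 this
    have h3 := h2 ⟨((r⁻¹ * σ : D) : GQ), hrσ, (r⁻¹ * σ).2⟩
    calc c.1 σ = c.1 (r * (r⁻¹ * σ)) := by rw [mul_inv_cancel_left]
      _ = c.1 r + conjAct (ρ (r : GQ)) (c.1 (r⁻¹ * σ)) := c.2.2.1 r _
      _ = 0 := by rw [h1, show c.1 (r⁻¹ * σ) = 0 from h3]; simp [conjAct]
  have : Module.Finite (ZMod p) Z := Module.Finite.of_injective Φ hΦ
  exact Module.Finite.of_restrictScalars_finite (ZMod p) k Z

theorem exists_rankLE_adCocycles_of (hρ : TWHyp p ρ) {A : ValuationSubring Qb}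
    (hA : A.LiesOverPrime p) :
    ∃ n, RankLE (adCocycles ρ (A.decompositionSubgroup ℚ)) n :=
  ⟨_, module_finite_adCocycles hρ Fact.out hA, le_rfl⟩

end

end FermatAgent.TW
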