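import Fermat.Agent.TW.PowClasses

/-!
# Cocycles of the decomposition group at `p` with values in `𝔽_p(1)`: at most three dimensions
-/

set_option autoImplicit false

open Matrix Module

namespace FermatAgent.TW

open FermatAgent.RT FermatAgent.Local FermatAgent.Duality FermatAgent.Duality.Local

noncomputable section

local notation "Qb" => AlgebraicClosure ℚ
local notation "GQ" => AlgebraicClosure ℚ ≃ₐ[ℚ] AlgebraicClosure ℚ

variable {p : ℕ} [Fact p.Prime] {A : ValuationSubring (AlgebraicClosure ℚ)}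

/-- `σ ↦ log_ζ (σ r / r)` -/
def kumLog (ζ r : Qb) (σ : GQ) : ZMod p :=
  if h : ∃ i : ZMod p, zpw p ζ i = σ r / r then h.choose else 0

theorem zpw_kumLog {ζ r : Qb} (hζ : IsPrimitiveRoot ζ p) (hr : r ≠ 0) {σ : GQ}
    (h : σ (r ^ p) = r ^ p) : zpw p ζ (kumLog (p := p) ζ r σ) = σ r / r := by
  have hex : ∃ i : ZMod p, zpw p ζ i = σ r / r :=
    exists_zpw_eq hζ (by rw [div_pow, ← map_pow, h, div_self (pow_ne_zero _ hr)])
  rw [kumLog, dif_pos hex]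
  exact hex.choose_spec

theorem exists_generators_cyclo (hp2 : p ≠ 2) (hA : A.LiesOverPrime p) :
    ∃ f : Fin 3 → (A.decompositionSubgroup ℚ → ZMod p),
      ∀ e : A.decompositionSubgroup ℚ → ZMod p,
        (∀ σ τ : A.decompositionSubgroup ℚ,
          e (σ * τ) = e σ + (ExtCitation.cycloChar p (σ : GQ) : ZMod p) * e τ) →
        IsLev₁ (subLevels (A.decompositionSubgroup ℚ)) e →
        ∃ c : Fin 3 → ZMod p, ∀ σ, e σ = ∑ i, c i * f i σ := by
  have hp : p.Prime := Fact.out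
  have : NeZero p := ⟨hp.ne_zero⟩
  obtain ⟨ζ, hζ⟩ := exists_primitiveRoot_qbar p
  obtain ⟨r₁, hr₁⟩ := IsAlgClosed.exists_pow_nat_eq (p : Qb) hp.pos
  obtain ⟨r₂, hr₂⟩ := IsAlgClosed.exists_pow_nat_eq (1 + (p : Qb)) hp.pos
  have hpq : (p : Qb) ≠ 0 := by exact_mod_cast hp.ne_zero
  have h1pq : (1 + (p : Qb)) ≠ 0 := by
    rw [show (1 + (p : Qb)) = ((1 + p : ℕ) : Qb) by push_cast; rfl]
    exact_mod_cast (show 1 + p ≠ 0 by omega)
  have hr₁0 : r₁ ≠ 0 := fun h => hpq (by rw [← hr₁, h, zero_pow hp.ne_zero])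
  have hr₂0 : r₂ ≠ 0 := fun h => h1pq (by rw [← hr₂, h, zero_pow hp.ne_zero])
  refine ⟨![fun σ => kumLog ζ r₁ (σ : GQ), fun σ => kumLog ζ r₂ (σ : GQ),
    fun σ => (ExtCitation.cycloChar p (σ : GQ) : ZMod p) - 1], fun e he hlev => ?_⟩
  have hσζ : ∀ (σ : GQ) (i : ZMod p),
      σ (zpw p ζ i) = zpw p ζ ((ExtCitation.cycloChar p σ : ZMod p) * i) := by
    intro σ i
    have key : ∀ n : ℕ, zpw p ζ (n : ZMod p) = ζ ^ n := zpw_natCast hζ
    have e1 : ((ExtCitation.cycloChar p σ : ZMod p)) * i =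
        ((((ExtCitation.cycloChar p σ : ZMod p)).val * i.val : ℕ) : ZMod p) := by
      push_cast; rw [ZMod.natCast_zmod_val, ZMod.natCast_zmod_val]
    rw [e1, key, zpw, map_pow, apply_root_eq_pow hζ σ, ← pow_mul]
  obtain ⟨β, hβ0, hβ⟩ := exists_eq_div_of_mulCocycle (fun σ => zpw p ζ (e σ))
    (hlev.comp (zpw p ζ)) (fun σ => zpw_ne_zero hζ _) (fun σ τ => by
      rw [he, zpw_add hζ, hσζ])
  have hfix : ∀ σ ∈ A.decompositionSubgroup ℚ, σ (β ^ p) = β ^ p := fun σ hσ => by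
    have h := hβ ⟨σ, hσ⟩
    have h' : (σ β / β) ^ p = 1 := by rw [← h]; exact zpw_pow_eq_one hζ _
    rw [div_pow, div_eq_one_iff_eq (pow_ne_zero _ hβ0)] at h'
    rwa [map_pow]
  obtain ⟨i, j, w, hw0, hw, hx⟩ := pow_classes hp2 hA (pow_ne_zero p hβ0) hfix
  set d : Qb := β / (r₁ ^ i * r₂ ^ j * w) with hd
  have hden : r₁ ^ i * r₂ ^ j * w ≠ 0 :=
    mul_ne_zero (mul_ne_zero (zpow_ne_zero _ hr₁0) (pow_ne_zero _ hr₂0)) hw0
  have hdp : d ^ p = 1 := by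
    have e1 : (r₁ ^ i) ^ p = (p : Qb) ^ i := by
      rw [← zpow_natCast (r₁ ^ i), ← _root_.zpow_mul, mul_comm, _root_.zpow_mul, zpow_natCast, hr₁]
    have e2 : (r₂ ^ j) ^ p = (1 + (p : Qb)) ^ j := by rw [← pow_mul, mul_comm, pow_mul, hr₂]
    rw [hd, div_pow, mul_pow, mul_pow, e1, e2, ← hx, div_self (pow_ne_zero _ hβ0)]
  obtain ⟨m, hm⟩ := exists_zpw_eq hζ hdp
  refine ⟨![(i : ZMod p), (j : ZMod p), m], fun σ => zpw_injective hζ ?_⟩
  have hr₁σ : (σ : GQ) r₁ / r₁ = zpw p ζ (kumLog ζ r₁ (σ : GQ)) :=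
    (zpw_kumLog hζ hr₁0 (by rw [hr₁, map_natCast])).symm
  have hr₂σ : (σ : GQ) r₂ / r₂ = zpw p ζ (kumLog ζ r₂ (σ : GQ)) :=
    (zpw_kumLog hζ hr₂0 (by rw [hr₂, map_add, map_one, map_natCast])).symm
  have hz : ∀ (a : ZMod p) (n : ℕ), zpw p ζ a ^ n = zpw p ζ ((n : ZMod p) * a) := by
    intro a n
    induction n with
    | zero => simp [zpw_zero]
    | succ n ih => rw [pow_succ, ih, ← zpw_add hζ]; push_cast; ring_nf
  have hzz : ∀ (a : ZMod p) (n : ℤ), zpw p ζ a ^ n = zpw p ζ ((n : ZMod p) * a) := by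
    intro a n
    rcases Int.eq_nat_or_neg n with ⟨n', rfl | rfl⟩
    · simpa using hz a n'
    · rw [_root_.zpow_neg, zpow_natCast, hz]
      refine inv_eq_of_mul_eq_one_right ?_
      rw [← zpw_add hζ]
      simp [zpw_zero]
  have hdσ : (σ : GQ) d / d =
      zpw p ζ (((ExtCitation.cycloChar p (σ : GQ) : ZMod p) - 1) * m) := by
    rw [← hm, hσζ, div_eq_iff (zpw_ne_zero hζ _), ← zpw_add hζ]
    ring_nf
  have hβe : β = d * (r₁ ^ i * r₂ ^ j * w) := by rw [hd, div_mul_cancel₀ _ hden]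
  rw [hβ σ, hβe, map_mul, map_mul, map_mul, map_zpow₀, map_pow, hw σ σ.2]
  simp only [Fin.sum_univ_three, Matrix.cons_val_zero, Matrix.cons_val_one, Matrix.cons_val_two,
    Matrix.head_cons, Matrix.tail_cons]
  rw [zpw_add hζ, zpw_add hζ, ← hzz _ i, ← hz _ j, ← hr₁σ, ← hr₂σ,
    mul_comm (m : ZMod p), ← hdσ]
  have hd0 : d ≠ 0 := fun h => by simp [h, zero_pow hp.ne_zero] at hdp
  field_simp
  rw [div_zpow, div_pow]
  field_simp

end

end FermatAgent.TW
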