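import Fermat.Agent.TW.LocalCommon
import Fermat.Agent.TW.CycloClasses

/-!
# Strictly ordinary at `p`: `dim L - h⁰ ≤ 1`
-/

set_option autoImplicit false
set_option linter.unusedSectionVars false

open Matrix Module groupCohomology

namespace FermatAgent.TW

open FermatAgent.Duality

noncomputable section

local notation "Qb" => AlgebraicClosure ℚ
local notation "GQ" => AlgebraicClosure ℚ ≃ₐ[ℚ] AlgebraicClosure ℚ

variable {k : Type} [Field k]

/-- The functional vanishing on `k v`. -/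
def lineForm (v : Fin 2 → k) : (Fin 2 → k) →ₗ[k] k where
  toFun u := v 0 * u 1 - v 1 * u 0
  map_add' a b := by simp; ring
  map_smul' r a := by simp; ring

@[simp] theorem lineForm_apply (v u : Fin 2 → k) : lineForm v u = v 0 * u 1 - v 1 * u 0 := rfl

/-- The nilpotent endomorphism with image and kernel `k v`. -/
def lineNil (v : Fin 2 → k) : Matrix (Fin 2) (Fin 2) k :=
  !![-(v 0 * v 1), v 0 * v 0; -(v 1 * v 1), v 1 * v 0]

theorem lineNil_mulVec (v u : Fin 2 → k) : lineNil v *ᵥ u = lineForm v u • v := by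
  funext i
  fin_cases i <;> simp [lineNil, Matrix.mulVec, dotProduct, Fin.sum_univ_two] <;> ring

theorem trace_lineNil (v : Fin 2 → k) : Matrix.trace (lineNil v) = 0 := by
  simp [lineNil, trace_fin_two]; ring

theorem exists_lineForm_eq_one {v : Fin 2 → k} (hv : v ≠ 0) : ∃ w, lineForm v w = 1 := by
  by_cases h : v 0 = 0
  · have h1 : v 1 ≠ 0 := fun h1 => hv (funext fun i => by fin_cases i <;> simp [h, h1])
    exact ⟨![-(v 1)⁻¹, 0], by simp [h, mul_inv_cancel₀ h1]⟩
  · exact ⟨![0, (v 0)⁻¹], by simp [mul_inv_cancel₀ h]⟩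

theorem exists_eq_of_lineForm_eq_zero {v u : Fin 2 → k} (hv : v ≠ 0) (h : lineForm v u = 0) :
    ∃ t : k, u = t • v := by
  rw [lineForm_apply] at h
  by_cases h0 : v 0 = 0
  · have h1 : v 1 ≠ 0 := fun h1 => hv (funext fun i => by fin_cases i <;> simp [h0, h1])
    refine ⟨u 1 / v 1, funext fun i => ?_⟩
    fin_cases i
    · simp [h0]; simpa [h0, h1] using h
    · simp [div_mul_cancel₀ _ h1]
  · refine ⟨u 0 / v 0, funext fun i => ?_⟩
    fin_cases i
    · simp [div_mul_cancel₀ _ h0]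
    · simp; field_simp; linear_combination h

/-- A trace zero matrix killing `v` is a multiple of `lineNil v`. -/
theorem exists_eq_lineNil (h2 : (2 : k) ≠ 0) {v : Fin 2 → k} (hv : v ≠ 0)
    {a : Matrix (Fin 2) (Fin 2) k} (ha : Matrix.trace a = 0) (hav : a *ᵥ v = 0) :
    ∃ r : k, a = r • lineNil v := by
  have e0 := congrFun hav 0
  have e1 := congrFun hav 1
  simp [Matrix.mulVec, dotProduct, Fin.sum_univ_two] at e0 e1
  refine exists_smul_of_nilpotent h2 (trace_lineNil v) ha ?_ ?_ ?_ ?_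
  · intro h
    obtain ⟨w, hw⟩ := exists_lineForm_eq_one hv
    have := lineNil_mulVec v w
    rw [h, hw, one_smul, Matrix.zero_mulVec] at this
    exact hv this.symm
  · simp [lineNil, det_fin_two]; ring
  · exact (Matrix.exists_mulVec_eq_zero_iff).1 ⟨v, hv, hav⟩
  · rw [trace_mul_fin_two]
    simp [lineNil]
    rw [apply_one_one_of_trace ha] at e1 ⊢
    linear_combination (v 0) * e1 - v 1 * e0

variable [Finite k] {p : ℕ} [Fact p.Prime] [Algebra (ZMod p) k] {ρ : GQ →* GL (Fin 2) k}
  {A : ValuationSubring Qb} {v : Fin 2 → k}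

theorem conjAct_lineNil (hv : StrictLine ρ p A v) (h2 : (2 : k) ≠ 0) {σ : GQ}
    (hσ : σ ∈ A.decompositionSubgroup ℚ) :
    conjAct (ρ σ) (lineNil v) =
      algebraMap (ZMod p) k (ExtCitation.cycloChar p σ : ZMod p) • lineNil v := by
  set g : Matrix (Fin 2) (Fin 2) k := (ρ σ : Matrix (Fin 2) (Fin 2) k) with hg
  set gi : Matrix (Fin 2) (Fin 2) k := (((ρ σ)⁻¹ : GL (Fin 2) k) : Matrix (Fin 2) (Fin 2) k)
  have hgig : gi * g = 1 := by simp [gi, g]
  obtain ⟨x, hx⟩ := hv.stable σ hσ
  have hx0 : x ≠ 0 := by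
    rintro rfl
    exact (ρ σ).det_ne_zero
      ((Matrix.exists_mulVec_eq_zero_iff).1 ⟨v, hv.ne_zero, by rw [hx, zero_smul]⟩)
  have hgiv : gi *ᵥ v = x⁻¹ • v := by
    conv_lhs => rw [show v = x⁻¹ • (g *ᵥ v) by rw [hx, inv_smul_smul₀ hx0]]
    rw [Matrix.mulVec_smul, Matrix.mulVec_mulVec, hgig, Matrix.one_mulVec]
  have hkill : conjAct (ρ σ) (lineNil v) *ᵥ v = 0 := by
    show (g * lineNil v * gi) *ᵥ v = 0
    rw [← Matrix.mulVec_mulVec, hgiv, Matrix.mulVec_smul, ← Matrix.mulVec_mulVec, lineNil_mulVec,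
      show lineForm v v = 0 by simp; ring]
    simp
  obtain ⟨r, hr⟩ := exists_eq_lineNil h2 hv.ne_zero
    (by rw [trace_conjAct, trace_lineNil]) hkill
  obtain ⟨w, hw⟩ := exists_lineForm_eq_one hv.ne_zero
  set z := lineForm v (g *ᵥ w)
  have hquot : ∀ u : Fin 2 → k, ∃ t : k, g *ᵥ u - z • u = t • v := by
    intro u
    obtain ⟨t₁, ht₁⟩ := exists_eq_of_lineForm_eq_zero hv.ne_zero
      (u := u - lineForm v u • w) (by rw [map_sub, map_smul, hw]; simp)
    obtain ⟨t₂, ht₂⟩ := exists_eq_of_lineForm_eq_zero hv.ne_zero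
      (u := g *ᵥ w - z • w) (by rw [map_sub, map_smul, hw]; simp [z])
    refine ⟨t₁ * x - z * t₁ + lineForm v u * t₂, ?_⟩
    have hu : u = lineForm v u • w + t₁ • v := by rw [← ht₁]; abel
    conv_lhs => rw [hu]
    rw [Matrix.mulVec_add, Matrix.mulVec_smul, Matrix.mulVec_smul, hx,
      show g *ᵥ w = z • w + t₂ • v by rw [← ht₂]; abel]
    module
  have hratio := hv.ratio σ hσ x z hx hquot
  have h1 : r * z = x := by
    have e : conjAct (ρ σ) (lineNil v) *ᵥ (g *ᵥ w) = x • v := by
      show (g * lineNil v * gi) *ᵥ (g *ᵥ w) = x • v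
      rw [Matrix.mulVec_mulVec, mul_assoc, hgig, mul_one, ← Matrix.mulVec_mulVec, lineNil_mulVec,
        hw, one_smul, hx]
    rw [hr, Matrix.smul_mulVec, lineNil_mulVec, smul_smul] at e
    exact smul_left_injective k hv.ne_zero e
  have hz : z ≠ 0 := fun h => hx0 (by rw [← h1, h, mul_zero])
  rw [hr]
  congr 1
  exact mul_right_cancel₀ hz (h1.trans hratio)

theorem exists_span_strictConds (hp2 : p ≠ 2) (hA : A.LiesOverPrime p) (hv : StrictLine ρ p A v)
    (h2 : (2 : k) ≠ 0) :
    ∃ F : Fin 3 → (A.decompositionSubgroup ℚ → Matrix (Fin 2) (Fin 2) k),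
      strictConds ρ A v ≤ Submodule.span k (Set.range F) := by
  obtain ⟨f, hf⟩ := exists_generators_cyclo (p := p) hp2 hA
  refine ⟨fun i σ => algebraMap (ZMod p) k (f i σ) • lineNil v, fun c hc => ?_⟩
  obtain ⟨⟨htr, hcoc, hlev⟩, hkill⟩ := hc
  choose e he using fun σ => exists_eq_lineNil h2 hv.ne_zero (htr σ) (hkill σ)
  have hnil : lineNil v ≠ 0 := fun h => by
    obtain ⟨w, hw⟩ := exists_lineForm_eq_one hv.ne_zero
    have := lineNil_mulVec v w
    rw [h, hw, one_smul, Matrix.zero_mulVec] at this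
    exact hv.ne_zero this.symm
  have hinj : ∀ a b : k, a • lineNil v = b • lineNil v → a = b := fun a b h =>
    smul_left_injective k hnil h
  have hecoc : ∀ σ τ, e (σ * τ) =
      e σ + algebraMap (ZMod p) k (ExtCitation.cycloChar p (σ : GQ) : ZMod p) * e τ := fun σ τ => by
    refine hinj _ _ ?_
    rw [← he, hcoc, he σ, he τ, conjAct_smul, conjAct_lineNil hv h2 σ.2, add_smul, smul_smul,
      mul_comm]
  have hfk : Module.Finite (ZMod p) k := Module.Finite.of_finite
  let b := Module.finBasis (ZMod p) k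
  have hcomp : ∀ i, ∃ a : Fin 3 → ZMod p, ∀ σ, b.coord i (e σ) = ∑ j, a j * f j σ := by
    intro i
    refine hf (fun σ => b.coord i (e σ)) (fun σ τ => ?_) ?_
    · rw [hecoc, ← Algebra.smul_def, map_add, map_smul, smul_eq_mul]
    · obtain ⟨L, hL, hl⟩ := hlev
      refine (FermatAgent.Duality.Local.isLev₁_iff_exists_field).2 ⟨L, hL, fun g s hs => ?_⟩
      show b.coord i (e (g * s)) = b.coord i (e g)
      rw [hinj _ _ ((he _).symm.trans ((hl g s hs).trans (he g)))]
  choose a ha using hcomp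
  refine (Submodule.mem_span_range_iff_exists_fun k).2
    ⟨fun j => ∑ i, a i j • b i, funext fun σ => ?_⟩
  rw [he σ, Finset.sum_apply]
  simp only [Pi.smul_apply, smul_smul, ← Finset.sum_smul]
  congr 1
  conv_rhs => rw [← b.sum_repr (e σ)]
  simp_rw [show ∀ i, b.repr (e σ) i = ∑ j, a i j * f j σ from fun i => ha i σ, Finset.sum_smul, Finset.sum_mul]
  rw [Finset.sum_comm]
  refine Finset.sum_congr rfl fun i _ => Finset.sum_congr rfl fun j _ => ?_
  rw [mul_smul, smul_mul_assoc, mul_comm (b i), ← Algebra.smul_def]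

theorem finrank_le_map_add_ker {V W : Type*} [AddCommGroup V] [Module k V] [AddCommGroup W]
    [Module k W] [FiniteDimensional k V] (f : V →ₗ[k] W) (U : Submodule k V) :
    finrank k U ≤ finrank k (U.map f) + finrank k (LinearMap.ker f) := by
  have h1 := (f.domRestrict U).finrank_range_add_finrank_ker
  rw [LinearMap.range_domRestrict] at h1
  have h2 : finrank k (LinearMap.ker (f.domRestrict U)) ≤ finrank k (LinearMap.ker f) := by
    refine LinearMap.finrank_le_finrank_of_injective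
      (f := ((U.subtype).comp (LinearMap.ker (f.domRestrict U)).subtype).codRestrict
        (LinearMap.ker f) fun x => x.2) fun x y h => ?_
    exact Subtype.ext (Subtype.ext ((congrArg Subtype.val h :)))
  omega

theorem rankLE_strict_of (hρ : TWHyp p ρ) (hA : A.LiesOverPrime p) (hv : StrictLine ρ p A v) :
    RankLE (strictConds ρ A v ⊔ adCoboundaries ρ (A.decompositionSubgroup ℚ)) 4 := by
  classical
  have h2 := two_ne_zero_of (k := k) hρ.ne_two
  set D := A.decompositionSubgroup ℚ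
  set δ := adDelta ρ D
  obtain ⟨F, hF⟩ := exists_span_strictConds hρ.ne_two hA hv h2
  have hfinF : Module.Finite k (Submodule.span k (Set.range F)) :=
    Module.Finite.span_of_finite k (Set.finite_range F)
  have hfinZ : Module.Finite k (strictConds ρ A v) :=
    Submodule.finiteDimensional_of_le hF
  have hZ3 : finrank k (strictConds ρ A v) ≤ 3 :=
    (Submodule.finrank_mono hF).trans ((finrank_range_le_card F).trans (by simp))
  have hfinB : Module.Finite k (adCoboundaries ρ D) := Module.Finite.range δ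
  let L : sl2 k →ₗ[k] k :=
    (lineForm v).comp
      ({ toFun := fun a => (a : Matrix (Fin 2) (Fin 2) k) *ᵥ v
         map_add' := fun a b => Matrix.add_mulVec _ _ _
         map_smul' := fun r a => by simp [Matrix.smul_mulVec] } : sl2 k →ₗ[k] (Fin 2 → k))
  have hU : 2 ≤ finrank k (LinearMap.ker L) := by
    have h1 := L.finrank_range_add_finrank_ker
    have h2' : finrank k (LinearMap.range L) ≤ 1 :=
      (Submodule.finrank_le _).trans (Module.finrank_self k).le
    rw [finrank_sl2] at h1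
    omega
  have hUle : (LinearMap.ker L).map δ ≤ strictConds ρ A v ⊓ adCoboundaries ρ D := by
    rintro _ ⟨a, ha, rfl⟩
    refine ⟨⟨adDelta_mem hρ.finiteLevel D a, fun σ => ?_⟩, ⟨a, rfl⟩⟩
    obtain ⟨t, ht⟩ := exists_eq_of_lineForm_eq_zero hv.ne_zero
      (u := (a : Matrix (Fin 2) (Fin 2) k) *ᵥ v) ha
    obtain ⟨x, hx⟩ := hv.stable σ σ.2
    have hx0 : x ≠ 0 := by
      rintro rfl
      exact (ρ (σ : GQ)).det_ne_zero
        ((Matrix.exists_mulVec_eq_zero_iff).1 ⟨v, hv.ne_zero, by rw [hx, zero_smul]⟩)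
    show (conjAct (ρ σ) (a : Matrix (Fin 2) (Fin 2) k) - (a : Matrix (Fin 2) (Fin 2) k)) *ᵥ v = 0
    have hgiv : ((ρ (σ : GQ))⁻¹ : GL (Fin 2) k).1 *ᵥ v = x⁻¹ • v := by
      conv_lhs => rw [show v = x⁻¹ • ((ρ (σ : GQ) : Matrix (Fin 2) (Fin 2) k) *ᵥ v) by
        rw [hx, inv_smul_smul₀ hx0]]
      rw [Matrix.mulVec_smul, Matrix.mulVec_mulVec, Units.inv_mul, Matrix.one_mulVec]
    rw [Matrix.sub_mulVec, conjAct, ← Matrix.mulVec_mulVec, hgiv, Matrix.mulVec_smul,
      ← Matrix.mulVec_mulVec, ht, Matrix.mulVec_smul, hx, smul_smul, smul_smul, sub_eq_zero]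
    congr 1
    field_simp
  have e1 : finrank k ↥(strictConds ρ A v ⊔ adCoboundaries ρ D) +
      finrank k ↥(strictConds ρ A v ⊓ adCoboundaries ρ D) =
      finrank k ↥(strictConds ρ A v) + finrank k ↥(adCoboundaries ρ D) :=
    Submodule.finrank_sup_add_finrank_inf_eq (strictConds ρ A v) (adCoboundaries ρ D)
  have hfinI : Module.Finite k ↥(strictConds ρ A v ⊓ adCoboundaries ρ D) :=
    Submodule.finiteDimensional_of_le inf_le_left
  have e2 : finrank k ↥((LinearMap.ker L).map δ) ≤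
      finrank k ↥(strictConds ρ A v ⊓ adCoboundaries ρ D) := Submodule.finrank_mono hUle
  have e3 : finrank k (adCoboundaries ρ D) + finrank k (LinearMap.ker δ) = 3 := by
    rw [← finrank_sl2 (k := k)]; exact δ.finrank_range_add_finrank_ker
  have e4 : finrank k (LinearMap.ker L) ≤
      finrank k ((LinearMap.ker L).map δ) + finrank k (LinearMap.ker δ) :=
    finrank_le_map_add_ker δ (LinearMap.ker L)
  refine ⟨Submodule.finiteDimensional_sup _ _, ?_⟩
  show finrank k ↥(strictConds ρ A v ⊔ adCoboundaries ρ D) ≤ 4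
  omega

end

end FermatAgent.TW
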