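import Fermat.Agent.TW.Detect

/-!
# Dual classes dying at the Taylor–Wiles places are unramified there
-/

set_option autoImplicit false

open scoped Pointwise
open Matrix Module groupCohomology

namespace FermatAgent.TW

open FermatAgent.RT FermatAgent.Local

noncomputable section

local notation "Qb" => AlgebraicClosure ℚ
local notation "GQ" => AlgebraicClosure ℚ ≃ₐ[ℚ] AlgebraicClosure ℚ

attribute [local instance] isGalois_algClosureRat

variable {k : Type} [Field k] {ρ : GQ →* GL (Fin 2) k} {y : GQ → Matrix (Fin 2) (Fin 2) k}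

/-- Dying at one place over `q` implies dying at every place over `q`. -/
theorem DiesAt.of_liesOverPrime (hy : IsDualCocycle ρ y) {q : ℕ} (hq : q.Prime)
    {A A' : ValuationSubring Qb} (hA : A.LiesOverPrime q) (hA' : A'.LiesOverPrime q)
    (h : DiesAt ρ y A) : DiesAt ρ y A' := by
  obtain ⟨g, rfl⟩ := exists_smul_eq hq hA hA'
  obtain ⟨b, hb, e⟩ := h
  refine ⟨twAd (ρ g) b - y g, by simp [Matrix.trace_sub, trace_twAd, hb, hy.1], fun σ hσ => ?_⟩
  have hmem : g⁻¹ * σ * g ∈ A.decompositionSubgroup ℚ := by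
    have := conj_mem_decomposition (g := g⁻¹) hσ
    rwa [inv_smul_smul, inv_inv] at this
  have e0 := e _ hmem
  have h1 : y (σ * g) = y g + twAd (ρ g) (y (g⁻¹ * σ * g)) := by
    rw [← hy.2, ← mul_assoc, mul_inv_cancel_left]
  rw [hy.2, e0] at h1
  rw [eq_sub_of_add_eq h1, twAd_sub, ← twAd_mul, ← map_mul, ← mul_assoc, mul_inv_cancel_left,
    twAd_sub, map_mul, twAd_mul]
  abel

/-- If `ρ` is unramified outside `T` and `y` dies at the places over `Q`, then `y` is unramified
outside `T`. -/
theorem isLevelConstantS_of_diesAt (hy : IsDualCocycle ρ y) {T Q : Finset Nat.Primes}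
    (hρL : ∃ L : IntermediateField ℚ Qb, FiniteDimensional ℚ L ∧
      ∀ σ ∈ L.fixingSubgroup, ρ σ = 1)
    (hunr : ∀ q : Nat.Primes, q ∉ T → ∀ A : ValuationSubring Qb, A.LiesOverPrime (q : ℕ) →
      ∀ g ∈ A.inertiaSubgroupIn ℚ, ρ g = 1)
    (hlev : IsLevelConstantS₁ (T ∪ Q) y)
    (hdies : ∀ q ∈ Q, ∀ A : ValuationSubring Qb, A.LiesOverPrime (q : ℕ) → DiesAt ρ y A) :
    IsLevelConstantS₁ T y := by
  obtain ⟨L, hL, hρL⟩ := hρL
  obtain ⟨F, hF, hyF⟩ := hlev
  let U : Subgroup GQ :=
    { carrier := {u | ρ u = 1 ∧ y u = 0}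
      one_mem' := ⟨map_one ρ, hy.one⟩
      mul_mem' := fun {a b} ha hb => ⟨by rw [map_mul, ha.1, hb.1, mul_one],
        by rw [hy.2, ha.2, hb.2]; simp [twAd]⟩
      inv_mem' := fun {a} ha => ⟨by rw [map_inv, ha.1, inv_one], by
        have h := hy.2 a⁻¹ a
        rw [inv_mul_cancel, hy.one, ha.2] at h
        simpa [twAd] using h.symm⟩ }
  have hFd := hF.1
  have hLF : FiniteDimensional ℚ ↥(L ⊔ F) := IntermediateField.finiteDimensional_sup L F
  have hle : (L ⊔ F).fixingSubgroup ≤ U := fun u hu => by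
    refine ⟨hρL u (IntermediateField.fixingSubgroup_antitone le_sup_left hu), ?_⟩
    have h := hyF 1 u (IntermediateField.fixingSubgroup_antitone le_sup_right hu)
    rwa [one_mul, hy.one] at h
  have hclosed : IsClosed (U : Set GQ) :=
    U.isClosed_of_isOpen (Subgroup.isOpen_mono hle (L ⊔ F).fixingSubgroup_isOpen)
  have hfix : (IntermediateField.fixedField U).fixingSubgroup = U :=
    InfiniteGalois.fixingSubgroup_fixedField ⟨U, hclosed⟩
  have hfd : FiniteDimensional ℚ (IntermediateField.fixedField U) := by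
    have hle' : IntermediateField.fixedField U ≤ L ⊔ F := by
      conv_rhs => rw [← InfiniteGalois.fixedField_fixingSubgroup (L ⊔ F)]
      intro x hx u
      exact hx ⟨u.1, hle u.2⟩
    exact FiniteDimensional.of_injective (IntermediateField.inclusion hle').toLinearMap
      (IntermediateField.inclusion_injective hle')
  refine ⟨IntermediateField.fixedField U, ⟨hfd, fun q hq A hA i hi => ?_⟩, fun g s hs => ?_⟩
  · rw [hfix]
    have hi1 := hunr q hq A hA i hi
    refine ⟨hi1, ?_⟩
    by_cases hQ : q ∈ Q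
    · obtain ⟨b, -, e⟩ := hdies q hQ A hA
      rw [e i (mem_decomposition_of_inertia hi), hi1]
      simp [twAd]
    · have h := hyF 1 i (hF.2 q (fun h => (Finset.mem_union.1 h).elim hq hQ) A hA hi)
      rwa [one_mul, hy.one] at h
  · rw [hfix] at hs
    rw [hy.2, hs.2]
    simp [twAd]

end

end FermatAgent.TW
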