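import Fermat.Agent.TW.DualModule
import Fermat.Agent.TW.GoodPrime
import Fermat.Agent.TW.Duality

/-!
# Taylor–Wiles sets: a fixed number of primes kills `H¹_T(Ad⁰(1))`
-/

set_option autoImplicit false
set_option linter.unusedSectionVars false

open Matrix Module CategoryTheory groupCohomology

namespace FermatAgent.TW

noncomputable section

local notation "Qb" => AlgebraicClosure ℚ
local notation "GQ" => AlgebraicClosure ℚ ≃ₐ[ℚ] AlgebraicClosure ℚ

variable {k : Type} [Field k] [Finite k] {p : ℕ} [Fact p.Prime] [Algebra (ZMod p) k]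
  {ρ : GQ →* GL (Fin 2) k}

theorem twRep_smooth (hρ : TWHyp p ρ) (m : twM p ρ) :
    ∃ F : IntermediateField ℚ Qb, FiniteDimensional ℚ F ∧
      ∀ s ∈ F.fixingSubgroup, (twM p ρ).ρ s m = m := by
  obtain ⟨L, hL, hρL⟩ := hρ.finiteLevel
  refine ⟨L, hL, fun s hs => ?_⟩
  show twRep p ρ s m = m
  exact Subtype.ext (by rw [coe_twRep ρ hρ.detCyclo, hρL s hs, twAd_one])

/-- Cocycles dying at every place over `q`. -/
def killCocycles (_hdet : DetCyclo p ρ) (q : Nat.Primes) :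
    Submodule (ZMod p) (cocycles₁ (twM p ρ)) where
  carrier := {c | ∀ A : ValuationSubring Qb, A.LiesOverPrime (q : ℕ) → DiesAt ρ (matFun c) A}
  add_mem' := by
    intro c d hc hd A hA
    obtain ⟨b, hb, e⟩ := hc A hA
    obtain ⟨b', hb', e'⟩ := hd A hA
    refine ⟨b + b', by simp [Matrix.trace_add, hb, hb'], fun σ hσ => ?_⟩
    rw [matFun_add, e σ hσ, e' σ hσ, twAd_add]; abel
  zero_mem' := fun A _ => ⟨0, by simp, fun σ _ => by simp [matFun, twAd]; rfl⟩
  smul_mem' := by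
    intro r c hc A hA
    obtain ⟨b, hb, e⟩ := hc A hA
    refine ⟨algebraMap (ZMod p) k r • b, by simp [Matrix.trace_smul, hb], fun σ hσ => ?_⟩
    rw [matFun_smul, e σ hσ, twAd_smul, ← smul_sub, algebraMap_smul]

/-- Classes dying at every place over `q`. -/
def killClasses (hdet : DetCyclo p ρ) (q : Nat.Primes) : Submodule (ZMod p) (H1 (twM p ρ)) :=
  (killCocycles hdet q).map (H1π (twM p ρ)).hom

theorem mem_killClasses_iff (hdet : DetCyclo p ρ) (q : Nat.Primes)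
    (c : cocycles₁ (twM p ρ)) :
    (H1π (twM p ρ)).hom c ∈ killClasses hdet q ↔ c ∈ killCocycles hdet q := by
  refine ⟨?_, fun h => ⟨c, h, rfl⟩⟩
  rintro ⟨d, hd, he⟩
  have h0 : (H1π (twM p ρ)).hom (c - d) = 0 :=
    (LinearMap.map_sub _ c d).trans (by rw [he]; exact sub_self _)
  obtain ⟨b, hb, e⟩ := (H1π_eq_zero_iff_matFun hdet _).1 h0
  intro A hA
  obtain ⟨b', hb', e'⟩ := hd A hA
  refine ⟨b + b', by simp [Matrix.trace_add, hb, hb'], fun σ hσ => ?_⟩
  have h1 : matFun c σ = matFun (c - d) σ + matFun d σ := by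
    rw [← matFun_add]; exact congrFun (congrArg matFun (sub_add_cancel c d)).symm σ
  rw [h1, e σ, e' σ hσ, twAd_add]; abel

/-- A prime usable in a Taylor–Wiles set. -/
def IsGoodPrime (p : ℕ) (ρ : GQ →* GL (Fin 2) k) (T : Finset Nat.Primes) (N : ℕ)
    (q : Nat.Primes) : Prop :=
  q ∉ T ∧ p ^ (N + 1) ∣ (q : ℕ) - 1 ∧
    ∀ A : ValuationSubring Qb, A.LiesOverPrime (q : ℕ) → ∀ φ : GQ,
      A.IsFrobeniusAt φ (q : ℕ) → ∃ α β : k, α ≠ β ∧
        (ρ φ : Matrix (Fin 2) (Fin 2) k).charpoly =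
          (Polynomial.X - Polynomial.C α) * (Polynomial.X - Polynomial.C β)

variable (hρ : TWHyp p ρ) {T : Finset Nat.Primes} (hpT : ExtCitation.pPrime p ∈ T)
  (hunr : ∀ q : Nat.Primes, q ∉ T → ∀ A : ValuationSubring Qb, A.LiesOverPrime (q : ℕ) →
    ∀ g ∈ A.inertiaSubgroupIn ℚ, ρ g = 1)

include hρ hpT hunr in
theorem exists_isGoodPrime_not_mem (N : ℕ) (avoid : Finset Nat.Primes)
    {x : H1 (twM p ρ)} (hx : x ∈ continuousH1S T (twM p ρ)) (hx0 : x ≠ 0) :
    ∃ q, q ∉ avoid ∧ IsGoodPrime p ρ T N q ∧ x ∉ killClasses hρ.detCyclo q := by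
  obtain ⟨c, hc, rfl⟩ := (mem_continuousH1S_iff T _ _).1 hx
  obtain ⟨q, hqa, hqT, hqd, hqe, A, hA, hdie⟩ := exists_good_prime hρ T hpT hunr N avoid
    (isDualCocycle_matFun hρ.detCyclo c) (matFun_levelS hc).isLevelConstant₁
    (fun h => hx0 ((H1π_eq_zero_iff_matFun hρ.detCyclo c).2 h))
  exact ⟨q, hqa, ⟨hqT, hqd, hqe⟩,
    fun hk => hdie ((mem_killClasses_iff hρ.detCyclo q c).1 hk A hA)⟩

include hρ hpT hunr in
/-- There is a good prime, whatever the classes. -/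
theorem exists_isGoodPrime (N : ℕ) (avoid : Finset Nat.Primes) :
    ∃ q, q ∉ avoid ∧ IsGoodPrime p ρ T N q := by
  classical
  obtain ⟨σ, hσ, hd⟩ := exists_disc_ne_zero hρ N
  obtain ⟨L, hL, hρL⟩ := hρ.finiteLevel
  obtain ⟨F, hF, hFμ⟩ := exists_field_le_fixMu p (N + 1)
  have hK : FiniteDimensional ℚ ↥(L ⊔ F) := IntermediateField.finiteDimensional_sup L F
  let S : Finset ℕ := (avoid ∪ T).image fun q : Nat.Primes => (q : ℕ)
  obtain ⟨q, hq, hqS, A, hA, τ, hτ, m, n, hm, hn⟩ :=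
    FermatAgent.GalRep.exists_isFrobeniusAt_pow_eq (L ⊔ F) σ (S := (S : Set ℕ)) S.finite_toSet
  have hu2 : τ⁻¹ * σ ^ n ∈ (L ⊔ F).fixingSubgroup := fun x => by
    show τ⁻¹ ((σ ^ n) (x : Qb)) = x
    rw [hn _ x.2, ← AlgEquiv.mul_apply, inv_mul_cancel, AlgEquiv.one_apply]
  have hu1 : σ⁻¹ * τ ^ m ∈ (L ⊔ F).fixingSubgroup := fun x => by
    show σ⁻¹ ((τ ^ m) (x : Qb)) = x
    rw [hm _ x.2, ← AlgEquiv.mul_apply, inv_mul_cancel, AlgEquiv.one_apply]
  have hτμ : τ ∈ fixMu p (N + 1) := by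
    rw [show τ = σ ^ n * (τ⁻¹ * σ ^ n)⁻¹ by group]
    exact mul_mem (pow_mem hσ n)
      (inv_mem (hFμ (IntermediateField.fixingSubgroup_antitone le_sup_right hu2)))
  have hρm : ρ (τ ^ m) = ρ σ := by
    rw [show τ ^ m = σ * (σ⁻¹ * τ ^ m) by group, map_mul,
      hρL _ (IntermediateField.fixingSubgroup_antitone le_sup_left hu1), mul_one]
  have hdτ : disc (ρ τ) ≠ 0 := fun h => hd (by
    rw [← hρm, map_pow]
    exact disc_pow_of_disc_eq_zero _ (two_ne_zero_of hρ.ne_two) h m)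
  have hqT : (⟨q, hq⟩ : Nat.Primes) ∉ avoid ∪ T := fun h =>
    hqS (Finset.mem_coe.2 (Finset.mem_image_of_mem (fun q : Nat.Primes => (q : ℕ)) h))
  have hqT' : (⟨q, hq⟩ : Nat.Primes) ∉ T := fun h => hqT (Finset.mem_union_right _ h)
  have hqp : q ≠ p := fun h => hqT' (by
    have : (⟨q, hq⟩ : Nat.Primes) = ExtCitation.pPrime p := Subtype.ext h
    rw [this]; exact hpT)
  refine ⟨⟨q, hq⟩, fun h => hqT (Finset.mem_union_left _ h), hqT',
    dvd_sub_one_of_frobenius_fixMu hq hA hqp hτ hτμ, fun B hB φ hφ => ?_⟩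
  obtain ⟨g, hg⟩ := exists_conj_map_frobenius ρ hq (hunr ⟨q, hq⟩ hqT') hA hB hτ hφ
  obtain ⟨α, β, hne', hchar⟩ := exists_eigen_charpoly hρ hdτ
  refine ⟨α, β, hne', ?_⟩
  rw [hg, Units.val_mul, Units.val_mul, Matrix.coe_units_inv, Matrix.charpoly_units_conj, hchar]

include hρ hpT hunr in
theorem exists_killing (N : ℕ) : ∀ (m : ℕ) (V : Submodule (ZMod p) (H1 (twM p ρ))),
    V ≤ continuousH1S T (twM p ρ) → Module.Finite (ZMod p) V → finrank (ZMod p) V ≤ m →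
    ∀ avoid : Finset Nat.Primes, ∃ Q : Finset Nat.Primes, Q.card = m ∧ Disjoint Q avoid ∧
      (∀ q ∈ Q, IsGoodPrime p ρ T N q) ∧
      ∀ x ∈ V, (∀ q ∈ Q, x ∈ killClasses hρ.detCyclo q) → x = 0 := by
  intro m
  induction m with
  | zero =>
    intro V _ hfin hV avoid
    refine ⟨∅, rfl, Finset.disjoint_empty_left _, fun q hq => absurd hq (Finset.notMem_empty _),
      fun x hx _ => ?_⟩
    rw [Submodule.finrank_eq_zero.1 (Nat.le_zero.1 hV)] at hx
    exact (Submodule.mem_bot _).1 hx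
  | succ m ih =>
    intro V hVH hfin hV avoid
    classical
    obtain ⟨q, hqa, hqg, hlt⟩ : ∃ q, q ∉ avoid ∧ IsGoodPrime p ρ T N q ∧
        finrank (ZMod p) ↥(V ⊓ killClasses hρ.detCyclo q) ≤ m := by
      by_cases hV0 : V = ⊥
      · obtain ⟨q, hqa, hqg⟩ := exists_isGoodPrime hρ hpT hunr N avoid
        refine ⟨q, hqa, hqg, ?_⟩
        rw [hV0, bot_inf_eq, finrank_bot]; exact Nat.zero_le _
      · obtain ⟨x, hx, hx0⟩ := Submodule.exists_mem_ne_zero_of_ne_bot hV0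
        obtain ⟨q, hqa, hqg, hqx⟩ := exists_isGoodPrime_not_mem hρ hpT hunr N avoid (hVH hx) hx0
        refine ⟨q, hqa, hqg, Nat.lt_succ_iff.1 (lt_of_lt_of_le
          (Submodule.finrank_lt_finrank_of_lt (lt_of_le_of_ne inf_le_left fun h => hqx ?_)) hV)⟩
        exact (inf_eq_left.1 h) hx
    obtain ⟨Q, hQc, hQd, hQg, hQk⟩ := ih _ (inf_le_left.trans hVH)
      (Submodule.finiteDimensional_of_le inf_le_left) hlt (insert q avoid)
    rw [Finset.disjoint_insert_right] at hQd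
    refine ⟨insert q Q, by rw [Finset.card_insert_of_notMem hQd.1, hQc],
      Finset.disjoint_insert_left.2 ⟨hqa, hQd.2⟩, fun q' hq' => ?_, fun x hx hk => ?_⟩
    · rcases Finset.mem_insert.1 hq' with rfl | h
      exacts [hqg, hQg _ h]
    · exact hQk x ⟨hx, hk q (Finset.mem_insert_self _ _)⟩ fun q' hq' =>
        hk q' (Finset.mem_insert_of_mem hq')

include hρ hpT hunr in
/-- Taylor–Wiles sets of a fixed size exist at every level, avoiding any finite set. -/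
theorem exists_twSets_of : ∃ r : ℕ, ∀ (N : ℕ) (avoid : Finset Nat.Primes),
    ∃ Q : Finset Nat.Primes, Q.card = r ∧ Disjoint Q avoid ∧ IsTWSet ρ p T (N + 1) Q := by
  have hfin : FiniteDimensional (ZMod p) (continuousH1S T (twM p ρ)) := by
    have : FiniteDimensional (ZMod p) (twM p ρ) := Module.Finite.of_finite
    exact finite_continuousH1S p T (twM p ρ) (twRep_smooth hρ)
  refine ⟨finrank (ZMod p) (continuousH1S T (twM p ρ)), fun N avoid => ?_⟩
  obtain ⟨Q, hQc, hQd, hQg, hQk⟩ :=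
    exists_killing hρ hpT hunr N _ _ le_rfl hfin le_rfl avoid
  refine ⟨Q, hQc, hQd, ⟨fun q hq => (hQg q hq).1, fun q hq => (hQg q hq).2.1,
    fun q hq => (hQg q hq).2.2, fun y hy hlev hdies => ?_⟩⟩
  have h0 := hQk ((H1π (twM p ρ)).hom (ofMatFun hρ.detCyclo hy))
    ((mem_continuousH1S_iff T _ _).2 ⟨_, ofMatFun_levelS hρ.detCyclo hy hlev, rfl⟩)
    (fun q hq => ⟨_, fun A hA => by
      rw [matFun_ofMatFun]; exact hdies q hq A hA, rfl⟩)
  simpa using (H1π_eq_zero_iff_matFun hρ.detCyclo _).1 h0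

end

end FermatAgent.TW
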