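import Fermat.Agent.TW.SelmerPrep
import Fermat.Agent.TW.LocalAway
import Fermat.Agent.TW.Descend
import Fermat.Agent.TW.TWSets

/-!
# The Selmer bound from the Greenberg–Wiles inequality
-/

set_option autoImplicit false
set_option linter.unusedSectionVars false

open Matrix Module CategoryTheory groupCohomology

namespace FermatAgent.TW

open FermatAgent.RT FermatAgent.Local

noncomputable section

local notation "Qb" => AlgebraicClosure ℚ
local notation "GQ" => AlgebraicClosure ℚ ≃ₐ[ℚ] AlgebraicClosure ℚ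

variable {k : Type} [Field k] [Finite k] {p : ℕ} [Fact p.Prime] [Algebra (ZMod p) k]
  {ρ : GQ →* GL (Fin 2) k}

theorem adM_smooth (hρ : TWHyp p ρ) (m : adM p ρ) :
    ∃ F : IntermediateField ℚ Qb, FiniteDimensional ℚ F ∧
      ∀ s ∈ F.fixingSubgroup, (adM p ρ).ρ s m = m := by
  obtain ⟨L, hL, hρL⟩ := hρ.finiteLevel
  refine ⟨L, hL, fun s hs => ?_⟩
  show adRep p ρ s m = m
  exact Subtype.ext (by rw [coe_adRep, hρL s hs, conjAct_one])

theorem adM_unramified {T : Finset Nat.Primes}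
    (hunr : ∀ q : Nat.Primes, q ∉ T → ∀ A : ValuationSubring Qb, A.LiesOverPrime (q : ℕ) →
      ∀ g ∈ A.inertiaSubgroupIn ℚ, ρ g = 1) :
    ∀ q : Nat.Primes, q ∉ T → ∀ A : ValuationSubring Qb, A.LiesOverPrime (q : ℕ) →
      ∀ g ∈ A.inertiaSubgroupIn ℚ, (adM p ρ).ρ g = 1 := fun q hq A hA g hg => by
  show adRep p ρ g = 1
  exact LinearMap.ext fun a => Subtype.ext (by rw [coe_adRep, hunr q hq A hA g hg, conjAct_one]; rfl)

theorem invariants_adM (hρ : TWHyp p ρ) : (adM p ρ).ρ.invariants = ⊥ := by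
  refine (Submodule.eq_bot_iff _).2 fun (a : sl2 k) ha => ?_
  by_contra h0
  obtain ⟨σ, hσ⟩ := hρ.noStableLine (a : Matrix (Fin 2) (Fin 2) k)
    (fun h => h0 (Subtype.ext h)) (mem_sl2.1 a.2)
  refine hσ 1 ?_
  rw [one_smul]
  exact congrArg (fun x : sl2 k => (x : Matrix (Fin 2) (Fin 2) k)) (ha σ)

/-- The trace pairing as an equivalence. -/
def trEquiv (hρ : TWHyp p ρ) : sl2 k ≃ₗ[ZMod p] Dual (ZMod p) (sl2 k) :=
  LinearEquiv.ofBijective (trPair p) (trPair_bijective hρ.ne_two)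

theorem trEquiv_symm_dual (hρ : TWHyp p ρ) (σ : GQ) (f : Dual (ZMod p) (sl2 k)) :
    (((trEquiv hρ).symm (((adM p ρ).dualTwist (ExtCitation.cycloChar p)).ρ σ f) : sl2 k) :
        Matrix (Fin 2) (Fin 2) k) =
      twAd (ρ σ) (((trEquiv hρ).symm f : sl2 k) : Matrix (Fin 2) (Fin 2) k) := by
  obtain ⟨a, rfl⟩ := (trEquiv hρ).surjective f
  rw [show ((adM p ρ).dualTwist (ExtCitation.cycloChar p)).ρ σ (trEquiv hρ a) =
      trEquiv hρ (twRep p ρ σ a) from (trPair_twRep ρ hρ.detCyclo σ a).symm,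
    LinearEquiv.symm_apply_apply, LinearEquiv.symm_apply_apply, coe_twRep ρ hρ.detCyclo]

theorem invariants_dual (hρ : TWHyp p ρ) :
    ((adM p ρ).dualTwist (ExtCitation.cycloChar p)).ρ.invariants = ⊥ := by
  refine (Submodule.eq_bot_iff _).2 fun (f : Dual (ZMod p) (sl2 k)) hf => ?_
  have h : ((trEquiv hρ).symm f : sl2 k) = 0 := Subtype.ext
    (eq_zero_of_twAd_fixed hρ (mem_sl2.1 ((trEquiv hρ).symm f).2) fun σ => by
      rw [← trEquiv_symm_dual hρ σ f, hf σ])
  simpa using congrArg (trEquiv hρ) h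

theorem isDualCocycle_of_dual (hρ : TWHyp p ρ)
    (c : cocycles₁ ((adM p ρ).dualTwist (ExtCitation.cycloChar p))) :
    IsDualCocycle ρ (fun σ => (((trEquiv hρ).symm (c.1 σ) : sl2 k) : Matrix (Fin 2) (Fin 2) k)) := by
  refine ⟨fun σ => mem_sl2.1 ((trEquiv hρ).symm (c.1 σ)).2, fun σ τ => ?_⟩
  have h := (mem_cocycles₁_iff (A := (adM p ρ).dualTwist (ExtCitation.cycloChar p)) c.1).1 c.2 σ τ
  simp only
  rw [h, map_add, Submodule.coe_add, trEquiv_symm_dual hρ, add_comm]

/-- Classes of the dual module dying at a Taylor–Wiles set vanish. -/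
theorem dual_eq_zero_of_local (hρ : TWHyp p ρ) {T Q : Finset Nat.Primes} {N : ℕ}
    (hunr : ∀ q : Nat.Primes, q ∉ T → ∀ A : ValuationSubring Qb, A.LiesOverPrime (q : ℕ) →
      ∀ g ∈ A.inertiaSubgroupIn ℚ, ρ g = 1)
    (hQ : IsTWSet ρ p T N Q) (Pl : Nat.Primes → ValuationSubring Qb)
    (hPl : ∀ q, (Pl q).LiesOverPrime (q : ℕ))
    (c : cocycles₁ ((adM p ρ).dualTwist (ExtCitation.cycloChar p)))
    (hc : IsLevelConstantS₁ (T ∪ Q) c.1)
    (hloc : ∀ q ∈ Q, ∃ f : Dual (ZMod p) (sl2 k), ∀ σ ∈ (Pl q).decompositionSubgroup ℚ,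
      c.1 σ = ((adM p ρ).dualTwist (ExtCitation.cycloChar p)).ρ σ f - f) :
    (H1π ((adM p ρ).dualTwist (ExtCitation.cycloChar p))).hom c = 0 := by
  set y : GQ → Matrix (Fin 2) (Fin 2) k :=
    fun σ => (((trEquiv hρ).symm (c.1 σ) : sl2 k) : Matrix (Fin 2) (Fin 2) k) with hy
  have hyc : IsDualCocycle ρ y := isDualCocycle_of_dual hρ c
  have hdies : ∀ q ∈ Q, ∀ A : ValuationSubring Qb, A.LiesOverPrime (q : ℕ) → DiesAt ρ y A := by
    intro q hq A hA
    refine DiesAt.of_liesOverPrime hyc q.2 (hPl q) hA ?_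
    obtain ⟨f, hf⟩ := hloc q hq
    refine ⟨((trEquiv hρ).symm f : sl2 k), mem_sl2.1 ((trEquiv hρ).symm f).2, fun σ hσ => ?_⟩
    show (((trEquiv hρ).symm (c.1 σ) : sl2 k) : Matrix (Fin 2) (Fin 2) k) = _
    rw [hf σ hσ, map_sub, AddSubgroupClass.coe_sub, trEquiv_symm_dual hρ]
  have hlev : IsLevelConstantS₁ (T ∪ Q) y :=
    hc.comp (fun f => (((trEquiv hρ).symm f : sl2 k) : Matrix (Fin 2) (Fin 2) k))
  obtain ⟨b, hb, hbeq⟩ := hQ.detects y hyc
    (isLevelConstantS_of_diesAt hyc hρ.finiteLevel hunr hlev hdies) hdies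
  rw [show (H1π ((adM p ρ).dualTwist (ExtCitation.cycloChar p))).hom c = 0 ↔ _ from
    H1π_eq_zero_iff c]
  refine LinearMap.mem_range.2 ⟨trEquiv hρ ⟨b, mem_sl2.2 hb⟩, funext fun σ => ?_⟩
  show ((adM p ρ).dualTwist (ExtCitation.cycloChar p)).ρ σ (trEquiv hρ ⟨b, _⟩) -
    trEquiv hρ ⟨b, _⟩ = c.1 σ
  apply (trEquiv hρ).symm.injective
  refine Subtype.ext ?_
  rw [map_sub, AddSubgroupClass.coe_sub, trEquiv_symm_dual hρ, LinearEquiv.symm_apply_apply]
  exact (hbeq σ).symm

/-- Restriction of a class to a subgroup, on cocycles. -/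
theorem map_H1π_apply (D : Subgroup GQ) (M : Rep (ZMod p) GQ) (c : cocycles₁ M) :
    (groupCohomology.map D.subtype (𝟙 (Rep.res D.subtype M)) 1).hom ((H1π M).hom c) =
      (H1π (Rep.res D.subtype M)).hom ((mapCocycles₁ D.subtype (𝟙 (Rep.res D.subtype M))).hom c) :=
  ConcreteCategory.congr_hom (H1π_comp_map _ _) c

/-- The global cocycle of a matrix valued function. -/
def toGlobCocycle {f : GQ → Matrix (Fin 2) (Fin 2) k} (hf : IsAdCocycle ρ f) :
    cocycles₁ (adM p ρ) :=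
  ⟨fun σ => (⟨f σ, mem_sl2.2 (hf.1 σ)⟩ : sl2 k),
    (mem_cocycles₁_iff (A := adM p ρ) _).2 fun σ τ => by
      show (⟨f (σ * τ), _⟩ : sl2 k) = adRep p ρ σ ⟨f τ, _⟩ + ⟨f σ, _⟩
      exact Subtype.ext (by
        rw [Submodule.coe_add, coe_adRep]
        show f (σ * τ) = conjAct (ρ σ) (f τ) + f σ
        rw [hf.2, add_comm])⟩

theorem finrank_selmer_le_of (hρ : TWHyp p ρ) (T : Finset Nat.Primes)
    (hpT : ExtCitation.pPrime p ∈ T)
    (hunr : ∀ q : Nat.Primes, q ∉ T → ∀ A : ValuationSubring Qb, A.LiesOverPrime (q : ℕ) →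
      ∀ g ∈ A.inertiaSubgroupIn ℚ, ρ g = 1)
    (Q : Finset Nat.Primes) (hQ : IsTWSet ρ p T 1 Q)
    (Pl : Nat.Primes → ValuationSubring Qb) (hPl : ∀ q, (Pl q).LiesOverPrime (q : ℕ))
    (Z : ∀ q : Nat.Primes, Submodule k ((Pl q).decompositionSubgroup ℚ → Matrix (Fin 2) (Fin 2) k))
    (hZ : ∀ q ∈ T, Z q ≤ adCocycles ρ ((Pl q).decompositionSubgroup ℚ))
    (e f : Nat.Primes → ℕ)
    (hbound : ∀ q ∈ T, RankLE (Z q ⊔ adCoboundaries ρ ((Pl q).decompositionSubgroup ℚ))
      (3 + e q - f q) ∧ f q ≤ 3)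
    (W : Submodule k (GQ → Matrix (Fin 2) (Fin 2) k))
    (hWc : ∀ c ∈ W, IsAdCocycle ρ c ∧ IsLevelConstantS₁ (T ∪ Q) c)
    (hWloc : ∀ c ∈ W, ∀ q ∈ T, resTo ((Pl q).decompositionSubgroup ℚ) c ∈
      Z q ⊔ adCoboundaries ρ ((Pl q).decompositionSubgroup ℚ))
    (hW0 : ∀ c ∈ W, ∀ a : Matrix (Fin 2) (Fin 2) k, Matrix.trace a = 0 →
      (∀ σ, c σ = conjAct (ρ σ) a - a) → c = 0) :
    Module.Finite k W ∧ finrank k W + ∑ q ∈ T, f q + 1 ≤ Q.card + ∑ q ∈ T, e q := by
  classical
  have h2 := two_ne_zero_of (k := k) hρ.ne_two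
  have : CharP k p := charP_of_injective_algebraMap (algebraMap (ZMod p) k).injective p
  have hfk : Module.Finite (ZMod p) k := Module.Finite.of_finite
  have hfinM : FiniteDimensional (ZMod p) (adM p ρ) := Module.Finite.of_finite
  set d := finrank (ZMod p) k with hd
  have hd0 : 0 < d := Module.finrank_pos
  set T' : Finset Nat.Primes := T ∪ Q with hT'
  have hdisj : Disjoint T Q := Finset.disjoint_right.2 fun q hq => hQ.notMem q hq
  -- all the conditions, including the full ones at `Q`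
  let Z' : ∀ q : Nat.Primes,
      Submodule k ((Pl q).decompositionSubgroup ℚ → Matrix (Fin 2) (Fin 2) k) := fun q =>
    (if q ∈ T then Z q else adCocycles ρ ((Pl q).decompositionSubgroup ℚ)) ⊔
      adCoboundaries ρ ((Pl q).decompositionSubgroup ℚ)
  have hZ' : ∀ q, Z' q ≤ adCocycles ρ ((Pl q).decompositionSubgroup ℚ) := fun q => by
    refine sup_le ?_ (adCoboundaries_le hρ.finiteLevel _)
    split_ifs with h
    exacts [hZ q h, le_rfl]
  let e' : Nat.Primes → ℕ := fun q => if q ∈ T then e q else 1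
  let f' : Nat.Primes → ℕ := fun q => if q ∈ T then f q else 0
  have hbound' : ∀ q ∈ T', RankLE (Z' q) (3 + e' q - f' q) ∧ f' q ≤ 3 := by
    intro q hq
    by_cases h : q ∈ T
    · simp only [Z', e', f', if_pos h]; exact hbound q h
    · simp only [Z', e', f', if_neg h, Nat.sub_zero]
      have hqQ : q ∈ Q := (Finset.mem_union.1 hq).resolve_left h
      refine ⟨?_, Nat.zero_le _⟩
      have hqp : p ≠ (q : ℕ) := fun h' => h (by
        have : q = ExtCitation.pPrime p := Subtype.ext h'.symm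
        rw [this]; exact hpT)
      obtain ⟨φ, hφ⟩ := exists_isFrobeniusAt q.2 (hPl q)
      obtain ⟨α, β, hαβ, hchar⟩ := hQ.distinct q hqQ (Pl q) (hPl q) φ hφ
      refine rankLE_twPlace (p := p) h2 hρ.finiteLevel q.2 hqp (hPl q) ?_
        (hunr q h (Pl q) (hPl q)) hφ ?_
      · obtain ⟨m, hm⟩ := hQ.dvd q hqQ
        have : ((q : ℕ) : k) = ((p ^ 1 * m + 1 : ℕ) : k) := by
          rw [← hm, Nat.sub_add_cancel q.2.one_le]
        rw [this, Nat.cast_add, Nat.cast_mul, pow_one, CharP.cast_eq_zero k p]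
        simp
      · intro h0
        rw [Matrix.charpoly_fin_two] at hchar
        have ha := congrArg (Polynomial.eval α) hchar
        have hb := congrArg (Polynomial.eval β) hchar
        simp at ha hb
        set t := Matrix.trace (ρ φ : Matrix (Fin 2) (Fin 2) k)
        set D := (ρ φ : Matrix (Fin 2) (Fin 2) k).det
        have hs : t = α + β := by
          have : (α - β) * (α + β - t) = 0 := by linear_combination ha - hb
          rcases mul_eq_zero.1 this with h' | h'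
          · exact absurd (sub_eq_zero.1 h') hαβ
          · linear_combination -h'
        have : (α - β) ^ 2 = 0 := by
          rw [disc] at h0
          linear_combination h0 + (-(t + α + β) + 4 * α) * hs + 4 * ha
        exact hαβ (sub_eq_zero.1 (pow_eq_zero_iff two_ne_zero |>.1 this))
  let Pl' : T' → ValuationSubring Qb := fun v => Pl v
  let L : ∀ v : T', Submodule (ZMod p)
      (H1 (Rep.res ((Pl' v).decompositionSubgroup ℚ).subtype (adM p ρ))) :=
    fun v => if v.1 ∈ Q then continuousH1 ((Pl' v).decompositionSubgroup ℚ).subtype _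
      else LinearMap.range (locClass (p := p) (Z' v) (hZ' v))
  have hfull : ∀ v : T', v.1 ∈ Q → L v =
      LinearMap.range (locClass (p := p) (Z' v) (hZ' v)) := fun v hv => by
    simp only [L, if_pos hv]
    refine le_antisymm (fun x hx => ?_) (locClass_range_le _ _)
    obtain ⟨c, hc, rfl⟩ := (mem_continuousH1_iff _ _ x).1 hx
    have hmem : locMat c ∈ Z' v.1 := by
      refine Submodule.mem_sup_left ?_
      rw [if_neg (Finset.disjoint_right.1 hdisj hv)]
      refine ⟨fun σ => mem_sl2.1 (c.1 σ : sl2 k).2, fun σ τ => ?_, ?_⟩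
      · have h := (mem_cocycles₁_iff
          (A := Rep.res ((Pl' v).decompositionSubgroup ℚ).subtype (adM p ρ)) c.1).1 c.2 σ τ
        show ((c.1 (σ * τ) : sl2 k) : Matrix (Fin 2) (Fin 2) k) = _
        rw [h]
        show ((adRep p ρ σ (c.1 τ) + c.1 σ : sl2 k) : Matrix (Fin 2) (Fin 2) k) = _
        rw [Submodule.coe_add, coe_adRep, add_comm]
        rfl
      · obtain ⟨F, hF, hl⟩ := hc
        exact ⟨F, hF, fun g s hs => congrArg (fun a : sl2 k => (a : Matrix (Fin 2) (Fin 2) k))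
          (hl g s hs)⟩
    exact ⟨⟨locMat c, hmem⟩, congrArg (H1π _).hom (Subtype.ext (funext fun σ => Subtype.ext rfl))⟩
  have hL' : ∀ v : T', L v = LinearMap.range (locClass (p := p) (Z' v) (hZ' v)) := fun v => by
    by_cases hv : v.1 ∈ Q
    · exact hfull v hv
    · simp only [L, if_neg hv]
  have hGW := greenbergWilesBound p hρ.ne_two T' (Finset.mem_union_left _ hpT) (adM p ρ)
    (adM_smooth hρ) (fun q hq => adM_unramified hunr q fun h => hq (Finset.mem_union_left _ h))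
    complexConjugation rfl Pl' (fun v => hPl v)
    L (fun v => by rw [hL' v]; exact locClass_range_le _ _)
    {v | v.1 ∈ Q} (fun v hv => if_pos hv) (by
      intro x hx hzero
      obtain ⟨c, hc, rfl⟩ := (mem_continuousH1S_iff T' _ _).1 hx
      refine dual_eq_zero_of_local hρ hunr hQ Pl hPl c hc fun q hq => ?_
      have h := hzero ⟨q, Finset.mem_union_right _ hq⟩ hq
      replace h := (map_H1π_apply _ _ c).symm.trans h
      obtain ⟨(f : Dual (ZMod p) (sl2 k)), hf⟩ := LinearMap.mem_range.1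
        ((H1π_eq_zero_iff _).1 h)
      exact ⟨f, fun σ hσ => (congrFun hf ⟨σ, hσ⟩).symm⟩)
  rw [invariants_dual hρ, invariants_adM hρ, finrank_bot, finrank_bot] at hGW
  -- the map from `W` to the Selmer group
  let Φ : W →ₗ[ZMod p] H1 (adM p ρ) := (H1π (adM p ρ)).hom ∘ₗ
    { toFun := fun c => toGlobCocycle (hWc c.1 c.2).1
      map_add' := fun c c' => Subtype.ext (funext fun σ => Subtype.ext rfl)
      map_smul' := fun r c => Subtype.ext (funext fun σ => Subtype.ext rfl) }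
  have hΦinj : Function.Injective Φ := by
    rw [← LinearMap.ker_eq_bot, LinearMap.ker_eq_bot']
    intro c hc
    have h0 : (H1π (adM p ρ)).hom (toGlobCocycle (hWc c.1 c.2).1) = 0 := hc
    obtain ⟨(a : sl2 k), ha⟩ := LinearMap.mem_range.1 ((H1π_eq_zero_iff _).1 h0)
    refine Subtype.ext (hW0 c.1 c.2 a (mem_sl2.1 a.2) fun σ => ?_)
    have := congrArg (fun x : sl2 k => (x : Matrix (Fin 2) (Fin 2) k)) (congrFun ha σ)
    exact this.symm
  have hΦle : LinearMap.range Φ ≤ selmerS Pl' (adM p ρ) L := by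
    rintro _ ⟨c, rfl⟩
    refine (mem_selmerAdm_iff _ _ _ _ _).2 ⟨fun v => ?_, ?_⟩
    · rw [hL' v]
      refine ⟨⟨resTo ((Pl v.1).decompositionSubgroup ℚ) c.1, ?_⟩, ?_⟩
      · show _ ∈ Z' v.1
        by_cases h : v.1 ∈ T
        · simp only [Z', if_pos h]; exact hWloc c.1 c.2 v.1 h
        · simp only [Z', if_neg h]
          refine Submodule.mem_sup_left ⟨fun σ => (hWc c.1 c.2).1.1 _,
            fun σ τ => (hWc c.1 c.2).1.2 _ _, ?_⟩
          obtain ⟨F, hF, hl⟩ := (hWc c.1 c.2).2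
          exact ⟨F, hF.1, fun g s hs => hl g s hs⟩
      · refine Eq.trans ?_ (map_H1π_apply _ _ (toGlobCocycle (hWc c.1 c.2).1)).symm
        exact congrArg (H1π _).hom (Subtype.ext (funext fun σ => Subtype.ext rfl))
    · refine (mem_continuousH1S_iff T' _ _).2 ⟨_, ?_, rfl⟩
      obtain ⟨F, hF, hl⟩ := (hWc c.1 c.2).2
      exact ⟨F, hF, fun g s hs => Subtype.ext (hl g s hs)⟩
  have hfinS : FiniteDimensional (ZMod p) (continuousH1S T' (adM p ρ)) :=
    finite_continuousH1S p T' (adM p ρ) (adM_smooth hρ)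
  have hfinSel : FiniteDimensional (ZMod p) (selmerS Pl' (adM p ρ) L) :=
    Submodule.finiteDimensional_of_le (selmerAdm_le_adm _ _ _ _)
  have hfinR : FiniteDimensional (ZMod p) (LinearMap.range Φ) :=
    Submodule.finiteDimensional_of_le hΦle
  have hfinW : Module.Finite (ZMod p) W :=
    Module.Finite.equiv (LinearEquiv.ofInjective Φ hΦinj).symm
  have hfinWk : Module.Finite k W := Module.Finite.of_restrictScalars_finite (ZMod p) k W
  refine ⟨hfinWk, ?_⟩
  have hW : d * finrank k W ≤ finrank (ZMod p) (selmerS Pl' (adM p ρ) L) := by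
    have e1 : finrank (ZMod p) W = d * finrank k W := finrank_restrict (V := W)
    rw [← e1, (LinearEquiv.ofInjective Φ hΦinj).finrank_eq]
    exact Submodule.finrank_mono hΦle
  have hLv : ∀ v : T', finrank (ZMod p) (L v) + d * f' v.1 ≤
      finrank (ZMod p) (Rep.res ((Pl' v).decompositionSubgroup ℚ).subtype (adM p ρ)).ρ.invariants
        + d * e' v.1 := by
    intro v
    obtain ⟨⟨hfin, hle⟩, hf3⟩ := hbound' v.1 v.2
    rw [hL' v]
    have h := finrank_locClass_le (p := p) (D := (Pl v.1).decompositionSubgroup ℚ)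
      (Z' v.1) (hZ' v.1) le_sup_right hfin
    rw [← hd] at h
    have : d * (finrank k (Z' v.1) + f' v.1) ≤ d * (3 + e' v.1) := Nat.mul_le_mul_left d (by omega)
    rw [mul_add, mul_add] at this
    show finrank (ZMod p) (LinearMap.range (locClass (p := p) (Z' v.1) (hZ' v.1))) + _ ≤
      finrank (ZMod p) (Rep.res ((Pl v.1).decompositionSubgroup ℚ).subtype (adM p ρ)).ρ.invariants
        + _
    omega
  have hc := finrank_le_ker_conj (p := p) hρ
  have hsum := Finset.sum_le_sum (s := (Finset.univ : Finset T')) fun v _ => hLv v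
  rw [Finset.sum_add_distrib, Finset.sum_add_distrib, ← Finset.mul_sum, ← Finset.mul_sum] at hsum
  have hsT : ∀ g : Nat.Primes → ℕ, ∑ v : T', g v.1 = ∑ q ∈ T, g q + ∑ q ∈ Q, g q := fun g => by
    rw [← Finset.sum_union hdisj]
    exact Finset.sum_coe_sort T' g
  rw [hsT f', hsT e'] at hsum
  have hQT : ∀ q ∈ Q, q ∉ T := fun q hq => hQ.notMem q hq
  have hf' : ∑ q ∈ T, f' q + ∑ q ∈ Q, f' q = ∑ q ∈ T, f q := by
    rw [Finset.sum_eq_zero (s := Q) fun q hq => if_neg (hQT q hq), add_zero]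
    exact Finset.sum_congr rfl fun q hq => if_pos hq
  have he' : ∑ q ∈ T, e' q + ∑ q ∈ Q, e' q = ∑ q ∈ T, e q + Q.card := by
    rw [Finset.sum_congr rfl fun q hq => show e' q = 1 from if_neg (hQT q hq),
      Finset.card_eq_sum_ones]
    congr 1
    exact Finset.sum_congr rfl fun q hq => if_pos hq
  rw [hf', he'] at hsum
  have hkey : d * (finrank k W + ∑ q ∈ T, f q + 1) ≤ d * (Q.card + ∑ q ∈ T, e q) := by
    rw [mul_add, mul_add, mul_one]
    rw [mul_add] at hsum ⊢
    omega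
  exact Nat.le_of_mul_le_mul_left hkey hd0

end

end FermatAgent.TW
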