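import Fermat.Agent.TW.Defs
import Fermat.Agent.TW.SelmerBound
import Fermat.Agent.TW.LocalStrict
import Fermat.Agent.TW.LocalCrude
import Fermat.Agent.TW.Flat.MainConst
import Fermat.Agent.TW.Flat.Main

/-!
# Interface of the Taylor–Wiles area: primes, local bounds and the Selmer bound
-/

set_option autoImplicit false
set_option linter.unusedSectionVars false

open Matrix Module groupCohomology

namespace FermatAgent.TW

noncomputable section

local notation "Qb" => AlgebraicClosure ℚ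
local notation "GQ" => AlgebraicClosure ℚ ≃ₐ[ℚ] AlgebraicClosure ℚ

variable {k : Type} [Field k] [Finite k] {p : ℕ} [Fact p.Prime] [Algebra (ZMod p) k]
  {ρ : GQ →* GL (Fin 2) k}

/-- Taylor–Wiles sets of a fixed size exist at every level, avoiding any finite set. -/
theorem exists_twSets (hρ : TWHyp p ρ) (T : Finset Nat.Primes) (hpT : ExtCitation.pPrime p ∈ T)
    (hunr : ∀ q : Nat.Primes, q ∉ T → ∀ A : ValuationSubring Qb, A.LiesOverPrime (q : ℕ) →
      ∀ g ∈ A.inertiaSubgroupIn ℚ, ρ g = 1) :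
    ∃ r : ℕ, ∀ (N : ℕ) (avoid : Finset Nat.Primes), ∃ Q : Finset Nat.Primes,
      Q.card = r ∧ Disjoint Q avoid ∧ IsTWSet ρ p T (N + 1) Q :=
  exists_twSets_of hρ hpT hunr

/-- The Selmer bound: for local conditions `Z_v` (at the places of `T`) with
`dim (Z_v + B_v) + f v ≤ 3 + e v`, a space of cocycles unramified outside `T ∪ Q` satisfying them
and meeting the coboundaries in zero has dimension `+ ∑ f + 1` at most `#Q + ∑ e`. -/
theorem finrank_selmer_le (hρ : TWHyp p ρ) (T : Finset Nat.Primes) (hpT : ExtCitation.pPrime p ∈ T)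
    (hunr : ∀ q : Nat.Primes, q ∉ T → ∀ A : ValuationSubring Qb, A.LiesOverPrime (q : ℕ) →
      ∀ g ∈ A.inertiaSubgroupIn ℚ, ρ g = 1)
    (Q : Finset Nat.Primes) (hQ : IsTWSet ρ p T 1 Q)
    (Pl : Nat.Primes → ValuationSubring Qb) (hPl : ∀ q, (Pl q).LiesOverPrime (q : ℕ))
    (Z : ∀ q : Nat.Primes, Submodule k ((Pl q).decompositionSubgroup ℚ → Matrix (Fin 2) (Fin 2) k))
    (hZ : ∀ q ∈ T, Z q ≤ adCocycles ρ ((Pl q).decompositionSubgroup ℚ))
    (e f : Nat.Primes → ℕ)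
    (hbound : ∀ q ∈ T, RankLE (Z q ⊔ adCoboundaries ρ ((Pl q).decompositionSubgroup ℚ))
      (3 + e q - f q) ∧ f q ≤ 3)
    (W : Submodule k (GQ → Matrix (Fin 2) (Fin 2) k))
    (hWc : ∀ c ∈ W, IsAdCocycle ρ c ∧ IsLevelConstantS₁ (T ∪ Q) c)
    (hWloc : ∀ c ∈ W, ∀ q ∈ T, resTo ((Pl q).decompositionSubgroup ℚ) c ∈
      Z q ⊔ adCoboundaries ρ ((Pl q).decompositionSubgroup ℚ))
    (hW0 : ∀ c ∈ W, ∀ a : Matrix (Fin 2) (Fin 2) k, Matrix.trace a = 0 →
      (∀ σ, c σ = conjAct (ρ σ) a - a) → c = 0) :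
    Module.Finite k W ∧ finrank k W + ∑ q ∈ T, f q + 1 ≤ Q.card + ∑ q ∈ T, e q :=
  finrank_selmer_le_of hρ T hpT hunr Q hQ Pl hPl Z hZ e f hbound W hWc hWloc hW0

/-- At `q ≠ p`, unipotent on inertia: `dim L - h⁰ ≤ 0`, if `ρ` is unipotent and ramified on
inertia. -/
theorem rankLE_unipotent (hρ : TWHyp p ρ) {q : ℕ} (hq : q.Prime) (hqp : q ≠ p)
    {A : ValuationSubring Qb} (hA : A.LiesOverPrime q)
    (huni : ∀ τ ∈ A.inertiaSubgroupIn ℚ, Matrix.trace (ρ τ : Matrix (Fin 2) (Fin 2) k) = 2)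
    (hram : ∃ τ ∈ A.inertiaSubgroupIn ℚ, ρ τ ≠ 1) :
    RankLE (unipotentConds ρ A ⊔ adCoboundaries ρ (A.decompositionSubgroup ℚ)) 3 :=
  by
  have : CharP k p := charP_of_injective_algebraMap (algebraMap (ZMod p) k).injective p
  exact rankLE_unipotent_of (p := p) hρ.detCyclo (two_ne_zero_of hρ.ne_two) hρ.finiteLevel hq
    hqp.symm hA huni hram

/-- The zero condition: `dim 0 - h⁰`. -/
theorem rankLE_zero (A : ValuationSubring Qb) :
    RankLE ((⊥ : Submodule k (A.decompositionSubgroup ℚ → Matrix (Fin 2) (Fin 2) k))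
        ⊔ adCoboundaries ρ (A.decompositionSubgroup ℚ))
      (3 - finrank k (LinearMap.ker (adDelta ρ (A.decompositionSubgroup ℚ)))) :=
  rankLE_zero_of A

/-- Strict ordinary at `p`: `dim L - h⁰ ≤ 1`. -/
theorem rankLE_strict (hρ : TWHyp p ρ) {A : ValuationSubring Qb} (hA : A.LiesOverPrime p)
    {v : Fin 2 → k} (hv : StrictLine ρ p A v) :
    RankLE (strictConds ρ A v ⊔ adCoboundaries ρ (A.decompositionSubgroup ℚ)) 4 :=
  rankLE_strict_of hρ hA hv

/-- Flat at `p`: `dim L - h⁰ ≤ 1`. -/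
theorem rankLE_flat (hρ : TWHyp p ρ) {A : ValuationSubring Qb} (hA : A.LiesOverPrime p) :
    RankLE (flatConds ρ p A ⊔ adCoboundaries ρ (A.decompositionSubgroup ℚ)) 4 :=
  rankLE_flat_of hρ hA

/-- Flat with constant unramified quotient: `dim L - h⁰ ≤ 0`. -/
theorem rankLE_flatConst (hρ : TWHyp p ρ) {A : ValuationSubring Qb} (hA : A.LiesOverPrime p)
    {v : Fin 2 → k} (hv : OrdLine ρ A v) :
    RankLE (flatConstConds ρ p A v ⊔ adCoboundaries ρ (A.decompositionSubgroup ℚ)) 3 :=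
  rankLE_flatConst_of hρ hA hv

/-- No condition at `p`: some bound. -/
theorem exists_rankLE_adCocycles (hρ : TWHyp p ρ) {A : ValuationSubring Qb}
    (hA : A.LiesOverPrime p) :
    ∃ n, RankLE (adCocycles ρ (A.decompositionSubgroup ℚ)) n :=
  exists_rankLE_adCocycles_of hρ hA

end

end FermatAgent.TW
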