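import Fermat.Agent.DefRing.PowerSeriesBase
import Mathlib

/-!
# Presentations of complete local algebras from their tangent functionals
-/

set_option autoImplicit false
set_option linter.unusedSectionVars false

open IsLocalRing Module

namespace FermatAgent.TW

noncomputable section

variable (O R k : Type) [CommRing O] [CommRing R] [Algebra O R] [Field k] [Algebra O k]

/-- The tangent functionals at a point `π`: `O`-derivations into the residue field. -/
def tanSpace (π : R →ₐ[O] k) : Submodule k (R → k) where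
  carrier := {f | (∀ x y, f (x + y) = f x + f y) ∧ (∀ x y, f (x * y) = π x * f y + π y * f x) ∧
    ∀ o : O, f (algebraMap O R o) = 0}
  add_mem' := by
    rintro f g ⟨a, m, c⟩ ⟨a', m', c'⟩
    refine ⟨fun x y => ?_, fun x y => ?_, fun o => ?_⟩
    · simp only [Pi.add_apply, a, a']; ring
    · simp only [Pi.add_apply, m, m']; ring
    · simp only [Pi.add_apply, c, c', add_zero]
  zero_mem' := ⟨fun x y => by simp, fun x y => by simp, fun o => rfl⟩
  smul_mem' := by
    rintro r f ⟨a, m, c⟩
    refine ⟨fun x y => ?_, fun x y => ?_, fun o => ?_⟩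
    · simp only [Pi.smul_apply, smul_eq_mul, a]; ring
    · simp only [Pi.smul_apply, smul_eq_mul, m]; ring
    · simp only [Pi.smul_apply, smul_eq_mul, c, mul_zero]


/-- Tangent functionals killing a family of elements. -/
def tanSpaceRel (π : R →ₐ[O] k) {σ : Type} (a : σ → R) : Submodule k (R → k) where
  carrier := {f | f ∈ tanSpace O R k π ∧ ∀ i, f (a i) = 0}
  add_mem' := fun hf hg => ⟨add_mem hf.1 hg.1, fun i => by simp [hf.2 i, hg.2 i]⟩
  zero_mem' := ⟨zero_mem _, fun i => rfl⟩
  smul_mem' := fun r f hf => ⟨Submodule.smul_mem _ r hf.1, fun i => by simp [hf.2 i]⟩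

end

noncomputable section

variable {O : Type} [CommRing O] [IsLocalRing O] [IsNoetherianRing O]
  [IsAdicComplete (maximalIdeal O) O]
  {R : Type} [CommRing R] [IsLocalRing R] [IsNoetherianRing R]
  [IsAdicComplete (maximalIdeal R) R] [Algebra O R] [IsLocalHom (algebraMap O R)]

/-- The residue map as an `O`-algebra map. -/
theorem exists_residueAlgHom (hres : Function.Surjective (residue R ∘ algebraMap O R)) :
    ∃ π : R →ₐ[O] ResidueField O, ∀ x, π x = 0 ↔ x ∈ maximalIdeal R := by
  have hb : Function.Bijective (ResidueField.map (algebraMap O R)) :=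
    ⟨RingHom.injective _, fun y => by
      obtain ⟨o, rfl⟩ := hres y; exact ⟨residue O o, rfl⟩⟩
  let e := RingEquiv.ofBijective _ hb
  have key : ∀ o, e.symm (residue R (algebraMap O R o)) = residue O o := fun o =>
    e.injective (by rw [RingEquiv.apply_symm_apply]; rfl)
  refine ⟨{ e.symm.toRingHom.comp (residue R) with commutes' := key }, fun x => ?_⟩
  show e.symm (residue R x) = 0 ↔ _
  rw [map_eq_zero_iff _ e.symm.injective, residue_eq_zero_iff]

/-- Generators of `m` modulo `m² + m_O` give a presentation. -/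
theorem exists_surjective_of_generators
    (hres : Function.Surjective (residue R ∘ algebraMap O R)) {ι : Type} [Finite ι] (x : ι → R)
    (hx : ∀ i, x i ∈ maximalIdeal R)
    (hgen : maximalIdeal R ≤ Ideal.span (Set.range x) ⊔
      (maximalIdeal O).map (algebraMap O R) ⊔ maximalIdeal R ^ 2) :
    ∃ γ : MvPowerSeries ι O →ₐ[O] R, (∀ i, γ (MvPowerSeries.X i) = x i) ∧
      Function.Surjective γ := by
  obtain ⟨γ, hγ⟩ := FermatAgent.DefRing.exists_eval (𝒪 := O) x hx
  refine ⟨γ, hγ, ?_⟩
  have hN : maximalIdeal R ≤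
      Ideal.span (Set.range x) ⊔ (maximalIdeal O).map (algebraMap O R) := by
    refine Submodule.le_of_le_smul_of_le_jacobson_bot (IsNoetherian.noetherian _)
      (maximalIdeal_le_jacobson ⊥) ?_
    rw [smul_eq_mul, ← sq]
    exact hgen
  have := FermatAgent.DefRing.isAdicComplete_mvPowerSeries (ι := ι) (𝒪 := O)
  let : Algebra (MvPowerSeries ι O) R := (γ : MvPowerSeries ι O →+* R).toAlgebra
  have hmap : maximalIdeal R ≤ (maximalIdeal (MvPowerSeries ι O)).map
      (algebraMap (MvPowerSeries ι O) R) := by
    refine hN.trans (sup_le ?_ ?_)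
    · rw [Ideal.span_le]
      rintro _ ⟨i, rfl⟩
      rw [← hγ i]
      exact Ideal.mem_map_of_mem _
        (FermatAgent.DefRing.varIdeal_le (Ideal.subset_span (Set.mem_range_self i)))
    · rw [Ideal.map_le_iff_le_comap]
      intro o ho
      rw [Ideal.mem_comap, ← γ.commutes o]
      refine Ideal.mem_map_of_mem _ ?_
      rw [FermatAgent.DefRing.maximalIdeal_eq]
      exact Ideal.mem_sup_left (Ideal.mem_map_of_mem _ ho)
  have hle : (maximalIdeal (MvPowerSeries ι O)).map
      (algebraMap (MvPowerSeries ι O) R) ≤ maximalIdeal R := by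
    rw [FermatAgent.DefRing.maximalIdeal_eq, Ideal.map_sup, sup_le_iff]
    refine ⟨?_, FermatAgent.DefRing.map_varIdeal_le γ fun i => (hγ i).symm ▸ hx i⟩
    rw [Ideal.map_map, Ideal.map_le_iff_le_comap]
    intro o ho
    show γ (algebraMap O _ o) ∈ maximalIdeal R
    rw [γ.commutes]
    exact map_nonunit (algebraMap O R) o ho
  have heq := le_antisymm hle hmap
  have hhaus : IsHausdorff (maximalIdeal (MvPowerSeries ι O)) R := ⟨fun z hz => by
    refine IsHausdorff.haus (I := maximalIdeal R) inferInstance z fun n => ?_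
    have h := hz n
    rw [SModEq.zero, Ideal.smul_top_eq_map, Submodule.restrictScalars_mem, Ideal.map_pow, heq] at h
    rw [SModEq.zero, smul_eq_mul, Ideal.mul_top]
    exact h⟩
  refine surjective_of_mkQ_comp_surjective (I := maximalIdeal (MvPowerSeries ι O))
    (f := Algebra.linearMap (MvPowerSeries ι O) R) fun y => ?_
  obtain ⟨y, rfl⟩ := Submodule.Quotient.mk_surjective _ y
  obtain ⟨o, ho⟩ := hres (residue R y)
  refine ⟨algebraMap O _ o, ?_⟩
  rw [LinearMap.comp_apply, Submodule.mkQ_apply, Submodule.Quotient.eq,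
    Ideal.smul_top_eq_map, Submodule.restrictScalars_mem, heq]
  show γ (algebraMap O _ o) - y ∈ maximalIdeal R
  rw [γ.commutes, ← residue_eq_zero_iff, map_sub, sub_eq_zero]
  exact ho

/-- If the tangent functionals killing `a` span at most `r` dimensions, there is a presentation on
`a` and `r` further variables. -/
theorem exists_surjective_of_tanSpace_rel {σ : Type} [Finite σ] (a : σ → R)
    (ha : ∀ i, a i ∈ maximalIdeal R) (π : R →ₐ[O] ResidueField O)
    (hπ : ∀ x, π x = 0 ↔ x ∈ maximalIdeal R) {r : ℕ}
    (hfin : Module.Finite (ResidueField O) (tanSpaceRel O R (ResidueField O) π a))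
    (hdim : finrank (ResidueField O) (tanSpaceRel O R (ResidueField O) π a) ≤ r) :
    ∃ γ : MvPowerSeries (σ ⊕ Fin r) O →ₐ[O] R,
      (∀ i, γ (MvPowerSeries.X (Sum.inl i)) = a i) ∧ Function.Surjective γ := by
  classical
  have hlift : ∀ y : R, ∃ o : O, y - algebraMap O R o ∈ maximalIdeal R := fun y => by
    obtain ⟨o, ho⟩ := residue_surjective (π y)
    refine ⟨o, (hπ _).1 ?_⟩
    rw [map_sub, AlgHom.commutes, ← ho]
    exact sub_self _
  have hres : Function.Surjective (residue R ∘ algebraMap O R) := fun y => by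
    obtain ⟨y, rfl⟩ := residue_surjective y
    obtain ⟨o, ho⟩ := hlift y
    refine ⟨o, ?_⟩
    rw [Function.comp_apply, eq_comm, ← sub_eq_zero, ← map_sub, residue_eq_zero_iff]
    exact ho
  set J : Ideal R := (maximalIdeal O).map (algebraMap O R) ⊔ maximalIdeal R ^ 2 ⊔
    Ideal.span (Set.range a) with hJ
  let ι : ResidueField O →+* R ⧸ J := Ideal.Quotient.lift (maximalIdeal O)
    ((Ideal.Quotient.mk J).comp (algebraMap O R)) fun o ho =>
      Ideal.Quotient.eq_zero_iff_mem.2
        (Ideal.mem_sup_left (Ideal.mem_sup_left (Ideal.mem_map_of_mem _ ho)))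
  let : Algebra (ResidueField O) (R ⧸ J) := ι.toAlgebra
  have hι : ∀ o : O, algebraMap (ResidueField O) (R ⧸ J) (residue O o) =
      Ideal.Quotient.mk J (algebraMap O R o) := fun o => rfl
  -- the image of the maximal ideal
  set M : Submodule (ResidueField O) (R ⧸ J) :=
    Submodule.span (ResidueField O) (Ideal.Quotient.mk J '' (maximalIdeal R : Set R)) with hM
  have hMmem : ∀ z ∈ M, ∃ y ∈ maximalIdeal R, Ideal.Quotient.mk J y = z := by
    intro z hz
    induction hz using Submodule.span_induction with
    | mem z hz => exact hz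
    | zero => exact ⟨0, zero_mem _, map_zero _⟩
    | add a b _ _ ha hb =>
      obtain ⟨a, ha, rfl⟩ := ha
      obtain ⟨b, hb, rfl⟩ := hb
      exact ⟨a + b, add_mem ha hb, map_add _ _ _⟩
    | smul c a _ ha =>
      obtain ⟨a, ha, rfl⟩ := ha
      obtain ⟨o, rfl⟩ := residue_surjective c
      exact ⟨algebraMap O R o * a, Ideal.mul_mem_left _ _ ha, by
        rw [map_mul, Algebra.smul_def, hι]⟩
  -- functionals on it are tangent functionals
  have hpart : ∀ y : R, Ideal.Quotient.mk J y - algebraMap (ResidueField O) (R ⧸ J) (π y) ∈ M := by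
    intro y
    obtain ⟨o, ho⟩ := hlift y
    have : π y = residue O o := by
      rw [← sub_eq_zero]
      have := (hπ _).2 ho
      rwa [map_sub, AlgHom.commutes] at this
    rw [this, hι, ← map_sub]
    exact Submodule.subset_span ⟨_, ho, rfl⟩
  let dd : R → M := fun y => ⟨_, hpart y⟩
  have hdd : ∀ x y, dd (x + y) = dd x + dd y := fun x y => Subtype.ext (by
    show _ - _ = (_ - _) + (_ - _)
    rw [map_add, map_add, map_add]
    ring)
  have hddm : ∀ x y, dd (x * y) = π x • dd y + π y • dd x := fun x y => Subtype.ext (by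
    show _ - _ = π x • (_ - _) + π y • (_ - _)
    obtain ⟨a, ha, ea⟩ := hMmem _ (hpart x)
    obtain ⟨b, hb, eb⟩ := hMmem _ (hpart y)
    have h0 : Ideal.Quotient.mk J a * Ideal.Quotient.mk J b = 0 := by
      rw [← map_mul, Ideal.Quotient.eq_zero_iff_mem]
      exact Ideal.mem_sup_left (Ideal.mem_sup_right (by rw [sq]; exact Ideal.mul_mem_mul ha hb))
    rw [ea, eb] at h0
    rw [map_mul, map_mul, map_mul, Algebra.smul_def, Algebra.smul_def]
    linear_combination h0)
  have hddo : ∀ o : O, dd (algebraMap O R o) = 0 := fun o => Subtype.ext (by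
    show _ - _ = (0 : R ⧸ J)
    rw [AlgHom.commutes]
    exact sub_self _)
  have hdda : ∀ i, dd (a i) = 0 := fun i => Subtype.ext (by
    show _ - _ = (0 : R ⧸ J)
    rw [(hπ _).2 (ha i), map_zero, sub_zero, Ideal.Quotient.eq_zero_iff_mem]
    exact Ideal.mem_sup_right (Ideal.subset_span (Set.mem_range_self i)))
  let Φ : Module.Dual (ResidueField O) M →ₗ[ResidueField O]
      tanSpaceRel O R (ResidueField O) π a :=
    { toFun := fun φ => ⟨fun y => φ (dd y), ⟨
        fun x y => by
          show φ (dd (x + y)) = φ (dd x) + φ (dd y)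
          rw [hdd, map_add],
        fun x y => by
          show φ (dd (x * y)) = π x * φ (dd y) + π y * φ (dd x)
          rw [hddm, map_add, map_smul, map_smul, smul_eq_mul, smul_eq_mul],
        fun o => by
          show φ (dd (algebraMap O R o)) = 0
          rw [hddo, map_zero]⟩, fun i => by
          show φ (dd (a i)) = 0
          rw [hdda, map_zero]⟩
      map_add' := fun φ ψ => rfl
      map_smul' := fun c φ => rfl }
  have hΦ : Function.Injective Φ := by
    refine (injective_iff_map_eq_zero Φ).2 fun φ hφ => LinearMap.ext fun m => ?_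
    obtain ⟨y, hy, hym⟩ := hMmem m m.2
    have h1 : φ (dd y) = 0 := congrFun (congrArg Subtype.val hφ) y
    have h2 : dd y = m := Subtype.ext (by
      show _ - _ = (m : R ⧸ J)
      rw [(hπ y).2 hy, map_zero, sub_zero, hym])
    rw [← h2, h1, LinearMap.zero_apply]
  -- finiteness and generators
  obtain ⟨s, hs⟩ := IsNoetherian.noetherian (maximalIdeal R)
  have hMfin : Module.Finite (ResidueField O) M := by
    refine Module.Finite.iff_fg.2 ⟨s.image (Ideal.Quotient.mk J), le_antisymm ?_ ?_⟩
    · rw [Submodule.span_le, Finset.coe_image]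
      rintro _ ⟨y, hy, rfl⟩
      exact Submodule.subset_span ⟨y, hs ▸ Submodule.subset_span hy, rfl⟩
    · rw [hM, Submodule.span_le]
      rintro _ ⟨y, hy, rfl⟩
      rw [SetLike.mem_coe, ← hs] at hy
      induction hy using Submodule.span_induction with
      | mem z hz =>
        exact Submodule.subset_span (by rw [Finset.coe_image]; exact ⟨z, hz, rfl⟩)
      | zero => rw [map_zero]; exact zero_mem _
      | add a b _ _ ha hb => rw [map_add]; exact add_mem ha hb
      | smul c a ha' ha =>
        obtain ⟨o, ho⟩ := hlift c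
        have ha2 : a ∈ maximalIdeal R := hs ▸ ha'
        have h0 : Ideal.Quotient.mk J ((c - algebraMap O R o) * a) = 0 :=
          Ideal.Quotient.eq_zero_iff_mem.2
            (Ideal.mem_sup_left (Ideal.mem_sup_right (by rw [sq]; exact Ideal.mul_mem_mul ho ha2)))
        rw [sub_mul, map_sub, sub_eq_zero] at h0
        rw [smul_eq_mul, h0, map_mul, ← hι, ← Algebra.smul_def]
        exact Submodule.smul_mem _ _ ha
  have hMr : finrank (ResidueField O) M ≤ r := by
    rw [← Subspace.dual_finrank_eq]
    exact (LinearMap.finrank_le_finrank_of_injective hΦ).trans hdim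
  let b := Module.finBasis (ResidueField O) M
  choose y hy hyb using fun i => hMmem _ (b i).2
  let x : Fin r → R := fun i => if h : (i : ℕ) < finrank (ResidueField O) M then y ⟨i, h⟩ else 0
  suffices h : (∀ i, Sum.elim a x i ∈ maximalIdeal R) ∧
      maximalIdeal R ≤ Ideal.span (Set.range (Sum.elim a x)) ⊔
        (maximalIdeal O).map (algebraMap O R) ⊔ maximalIdeal R ^ 2 by
    obtain ⟨γ, hγ, hs⟩ := exists_surjective_of_generators hres (Sum.elim a x) h.1 h.2
    exact ⟨γ, fun i => hγ (.inl i), hs⟩
  refine ⟨?_, ?_⟩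
  · rintro (i | i)
    · exact ha i
    show x i ∈ _
    by_cases h : (i : ℕ) < finrank (ResidueField O) M
    · simp only [x, dif_pos h]; exact hy _
    · simp only [x, dif_neg h]; exact zero_mem _
  · intro z hz
    have hzM : Ideal.Quotient.mk J z ∈ M := Submodule.subset_span ⟨z, hz, rfl⟩
    have hrep := congrArg Subtype.val (b.sum_repr ⟨_, hzM⟩)
    rw [Submodule.coe_sum] at hrep
    choose o ho using fun i => residue_surjective (R := O) (b.repr ⟨_, hzM⟩ i)
    have hin : ∑ i, algebraMap O R (o i) * y i ∈ Ideal.span (Set.range (Sum.elim a x)) := by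
      refine sum_mem fun i _ => Ideal.mul_mem_left _ _
        (Ideal.subset_span ⟨Sum.inr ⟨i, lt_of_lt_of_le i.2 hMr⟩, ?_⟩)
      simp only [Sum.elim_inr, x, dif_pos i.2]
    have hd : z - ∑ i, algebraMap O R (o i) * y i ∈ J := by
      rw [← Ideal.Quotient.eq_zero_iff_mem, map_sub, sub_eq_zero]
      refine hrep.symm.trans ?_
      rw [map_sum]
      refine Finset.sum_congr rfl fun i _ => ?_
      rw [Submodule.coe_smul, ← ho i, map_mul, hyb, Algebra.smul_def, hι]
    have hJle : J ≤ Ideal.span (Set.range (Sum.elim a x)) ⊔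
        (maximalIdeal O).map (algebraMap O R) ⊔ maximalIdeal R ^ 2 :=
      sup_le (sup_le (le_sup_right.trans le_sup_left) le_sup_right) ((Ideal.span_le.2 (by
        rintro _ ⟨i, rfl⟩
        exact Ideal.subset_span ⟨Sum.inl i, rfl⟩)).trans (le_sup_left.trans le_sup_left))
    rw [← sub_add_cancel z (∑ i, algebraMap O R (o i) * y i)]
    exact add_mem (hJle hd) (Ideal.mem_sup_left (Ideal.mem_sup_left hin))

/-- If the tangent space has dimension at most `r`, there is a presentation on `r` variables. -/
theorem exists_surjective_of_tanSpace (π : R →ₐ[O] ResidueField O)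
    (hπ : ∀ x, π x = 0 ↔ x ∈ maximalIdeal R) {r : ℕ}
    (hfin : Module.Finite (ResidueField O) (tanSpace O R (ResidueField O) π))
    (hdim : finrank (ResidueField O) (tanSpace O R (ResidueField O) π) ≤ r) :
    ∃ γ : MvPowerSeries (Fin r) O →ₐ[O] R, Function.Surjective γ := by
  let a : Empty → R := Empty.elim
  have he : tanSpaceRel O R (ResidueField O) π a = tanSpace O R (ResidueField O) π :=
    le_antisymm (fun f hf => hf.1) fun f hf => ⟨hf, fun i => i.elim⟩
  obtain ⟨γ, -, hγ⟩ := exists_surjective_of_tanSpace_rel a (fun i => i.elim) π hπ (r := r)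
    (by rw [he]; exact hfin) (by rw [he]; exact hdim)
  exact ⟨γ.comp (MvPowerSeries.renameEquiv O (Equiv.emptySum Empty (Fin r))).symm.toAlgHom,
    hγ.comp (AlgEquiv.surjective _)⟩

end

end FermatAgent.TW
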