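import Fermat.Agent.TW.Tangent
import Fermat.Agent.TW.SelmerBound
import Fermat.Agent.TW.Interface

/-!
# The dimension of a space of tangent functionals with local conditions
-/

set_option autoImplicit false
set_option linter.unusedSectionVars false

open IsLocalRing Matrix Module groupCohomology

namespace FermatAgent.TW

noncomputable section

local notation "Qb" => AlgebraicClosure ℚ
local notation "GQ" => AlgebraicClosure ℚ ≃ₐ[ℚ] AlgebraicClosure ℚ

variable {O R k : Type} [CommRing O] [CommRing R] [IsLocalRing R] [Algebra O R] [Field k]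
  [Algebra O k] [Finite k] {p : ℕ} [Fact p.Prime] [Algebra (ZMod p) k] {π : R →ₐ[O] k}
  {rho : GQ →* Matrix (Fin 2) (Fin 2) R} {ρ : GQ →* GL (Fin 2) k}

theorem resTo_tanCoc_mem (hres : ∀ σ, (rho σ).map π = (ρ σ : Matrix (Fin 2) (Fin 2) k))
    (hdet : ∀ (u : tanSpace O R k π) (σ : GQ), (u : R → k) (rho σ).det = 0)
    (hπm : ∀ x ∈ maximalIdeal R, π x = 0) (hc : DefRing.IsCont rho) (D : Subgroup GQ)
    (u : tanSpace O R k π) : resTo D (tanCoc rho ρ u) ∈ adCocycles ρ D := by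
  obtain ⟨ht, hcoc⟩ := isAdCocycle_tanCoc hres hdet u
  refine ⟨fun σ => ht σ, fun σ τ => hcoc σ τ, ?_⟩
  obtain ⟨L, hL, hl⟩ := exists_level_tan hπm hc u
  refine ⟨L, hL, fun g s hs => ?_⟩
  show tanCoc rho ρ u ((g : GQ) * (s : GQ)) = tanCoc rho ρ u (g : GQ)
  have h0 : tanCoc rho ρ u (s : GQ) = 0 := by
    have h1 : (rho (s : GQ)).map (u : R → k) = 0 := by
      ext a b
      have := congrArg TrivSqZeroExt.snd (congrFun (congrFun (hl (s : GQ) hs) a) b)
      rw [Matrix.map_apply, snd_tanHom, Matrix.one_apply] at this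
      rw [Matrix.map_apply, Matrix.zero_apply, this]
      split <;> simp
    rw [tanCoc_apply, h1, Matrix.zero_mul]
  rw [hcoc, h0]
  simp [conjAct]

/-- Tangent functionals with local conditions, none of which gives a coboundary, are bounded by
the Selmer bound. -/
theorem finrank_tan_le (hρ : TWHyp p ρ) (T : Finset Nat.Primes) (hpT : ExtCitation.pPrime p ∈ T)
    (hρunr : ∀ q : Nat.Primes, q ∉ T → ∀ A : ValuationSubring Qb, A.LiesOverPrime (q : ℕ) →
      ∀ g ∈ A.inertiaSubgroupIn ℚ, ρ g = 1)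
    (Q : Finset Nat.Primes) (hQ : IsTWSet ρ p T 1 Q)
    (hres : ∀ σ, (rho σ).map π = (ρ σ : Matrix (Fin 2) (Fin 2) k))
    (hdet : ∀ (u : tanSpace O R k π) (σ : GQ), (u : R → k) (rho σ).det = 0)
    (hπm : ∀ x ∈ maximalIdeal R, π x = 0) (hc : DefRing.IsCont rho)
    (hunr : ∀ q : Nat.Primes, q ∉ T ∪ Q → ∀ A : ValuationSubring Qb, A.LiesOverPrime (q : ℕ) →
      ∀ g ∈ A.inertiaSubgroupIn ℚ, rho g = 1)
    (Pl : Nat.Primes → ValuationSubring Qb) (hPl : ∀ q, (Pl q).LiesOverPrime (q : ℕ))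
    (Z : ∀ q : Nat.Primes, Submodule k ((Pl q).decompositionSubgroup ℚ → Matrix (Fin 2) (Fin 2) k))
    (hZ : ∀ q ∈ T, Z q ≤ adCocycles ρ ((Pl q).decompositionSubgroup ℚ))
    (e f : Nat.Primes → ℕ)
    (hbound : ∀ q ∈ T, RankLE (Z q ⊔ adCoboundaries ρ ((Pl q).decompositionSubgroup ℚ))
      (3 + e q - f q) ∧ f q ≤ 3)
    (U : Submodule k (tanSpace O R k π))
    (hUloc : ∀ u ∈ U, ∀ q ∈ T, resTo ((Pl q).decompositionSubgroup ℚ) (tanCoc rho ρ u) ∈
      Z q ⊔ adCoboundaries ρ ((Pl q).decompositionSubgroup ℚ))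
    (hU0 : ∀ u ∈ U, ∀ a : Matrix (Fin 2) (Fin 2) k, Matrix.trace a = 0 →
      (∀ σ, tanCoc rho ρ u σ = conjAct (ρ σ) a - a) → u = 0) :
    Module.Finite k U ∧ finrank k U + ∑ q ∈ T, f q + 1 ≤ Q.card + ∑ q ∈ T, e q := by
  set Φ : U →ₗ[k] (GQ → Matrix (Fin 2) (Fin 2) k) := (tanCoc rho ρ).domRestrict U
  have hinj : Function.Injective Φ := by
    intro u v huv
    have huv' : tanCoc rho ρ (u : tanSpace O R k π) = tanCoc rho ρ (v : tanSpace O R k π) := huv
    refine Subtype.ext (sub_eq_zero.1 ?_)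
    refine hU0 _ (Submodule.sub_mem U u.2 v.2) 0 (Matrix.trace_zero (Fin 2) k) fun σ => ?_
    rw [map_sub, huv', sub_self]
    simp [conjAct]
  have h := finrank_selmer_le hρ T hpT hρunr Q hQ Pl hPl Z hZ e f hbound (LinearMap.range Φ)
    (by
      rintro _ ⟨u, rfl⟩
      exact ⟨isAdCocycle_tanCoc hres hdet u.1,
        tanCoc_levelS hres hπm hc (T ∪ Q) hunr u.1⟩)
    (by
      rintro _ ⟨u, rfl⟩ q hq
      exact hUloc u.1 u.2 q hq)
    (by
      rintro _ ⟨u, rfl⟩ a ha ha'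
      show tanCoc rho ρ (u : tanSpace O R k π) = 0
      rw [hU0 u.1 u.2 a ha ha', map_zero])
  have := h.1
  refine ⟨Module.Finite.equiv (LinearEquiv.ofInjective Φ hinj).symm, ?_⟩
  rw [(LinearEquiv.ofInjective Φ hinj).finrank_eq]
  exact h.2

end

end FermatAgent.TW
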