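import Fermat.Agent.TW.Adjoint
import Fermat.Prelude.Def_GaloisRep_Flat

/-!
# Cocycles, local conditions and Taylor–Wiles sets

Everything is stated for functions with values in `2 × 2` matrices, linearly over the residue
field `k`; an `H¹` dimension `dim L_v - h⁰_v` is expressed as `finrank (Z_v ⊔ B_v) - 3`.
-/

set_option autoImplicit false

open Matrix Module groupCohomology

namespace FermatAgent.TW

noncomputable section

local notation "Qb" => AlgebraicClosure ℚ
local notation "GQ" => AlgebraicClosure ℚ ≃ₐ[ℚ] AlgebraicClosure ℚ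

variable {k : Type} [Field k] (ρ : GQ →* GL (Fin 2) k)

theorem conjAct_add (g : GL (Fin 2) k) (a b : Matrix (Fin 2) (Fin 2) k) :
    conjAct g (a + b) = conjAct g a + conjAct g b := by
  simp [conjAct, Matrix.mul_add, Matrix.add_mul]

theorem conjAct_smul (g : GL (Fin 2) k) (r : k) (a : Matrix (Fin 2) (Fin 2) k) :
    conjAct g (r • a) = r • conjAct g a := by
  simp [conjAct]

/-- Continuous cocycles of a subgroup `D` with values in `Ad⁰ ρ`, as a `k`-space. -/
def adCocycles (D : Subgroup GQ) : Submodule k (D → Matrix (Fin 2) (Fin 2) k) where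
  carrier := {c | (∀ σ, Matrix.trace (c σ) = 0) ∧
    (∀ σ τ : D, c (σ * τ) = c σ + conjAct (ρ σ) (c τ)) ∧ IsLevelConstant₁ D.subtype c}
  add_mem' := by
    rintro c c' ⟨t, e, l⟩ ⟨t', e', l'⟩
    refine ⟨fun σ => by simp [Matrix.trace_add, t, t'], fun σ τ => ?_, ?_⟩
    · simp only [Pi.add_apply, e, e', conjAct_add]; abel
    · obtain ⟨F, hF, hl⟩ := l
      obtain ⟨F', hF', hl'⟩ := l'
      refine ⟨F ⊔ F', IntermediateField.finiteDimensional_sup F F', fun g s hs => ?_⟩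
      simp only [Pi.add_apply]
      rw [hl g s (IntermediateField.fixingSubgroup_antitone le_sup_left hs),
        hl' g s (IntermediateField.fixingSubgroup_antitone le_sup_right hs)]
  zero_mem' := ⟨fun σ => by simp, fun σ τ => by simp [conjAct],
    ⟨⊥, inferInstance, fun _ _ _ => rfl⟩⟩
  smul_mem' := by
    rintro r c ⟨t, e, F, hF, hl⟩
    refine ⟨fun σ => by simp [Matrix.trace_smul, t], fun σ τ => ?_, F, hF, fun g s hs => ?_⟩
    · simp only [Pi.smul_apply, e, conjAct_smul, smul_add]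
    · simp [hl g s hs]

/-- `a ↦ (σ ↦ σ a σ⁻¹ - a)` -/
def adDelta (D : Subgroup GQ) : sl2 k →ₗ[k] (D → Matrix (Fin 2) (Fin 2) k) where
  toFun a σ := conjAct (ρ σ) (a : Matrix (Fin 2) (Fin 2) k) - a
  map_add' a b := funext fun σ => by
    simp only [Submodule.coe_add, conjAct_add, Pi.add_apply]; abel
  map_smul' r a := funext fun σ => by
    simp [conjAct_smul, smul_sub]

/-- Coboundaries on `D`. -/
def adCoboundaries (D : Subgroup GQ) : Submodule k (D → Matrix (Fin 2) (Fin 2) k) :=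
  LinearMap.range (adDelta ρ D)

/-- Restriction of functions on `G_ℚ` to a subgroup. -/
def resTo (D : Subgroup GQ) :
    (GQ → Matrix (Fin 2) (Fin 2) k) →ₗ[k] (D → Matrix (Fin 2) (Fin 2) k) :=
  LinearMap.funLeft k _ D.subtype

/-- Finite dimensional of dimension at most `n`. -/
def RankLE {X : Type} [AddCommGroup X] [Module k X] (Z : Submodule k X) (n : ℕ) : Prop :=
  Module.Finite k Z ∧ finrank k Z ≤ n

/-- A global continuous cocycle with values in `Ad⁰ ρ`. -/
def IsAdCocycle (c : GQ → Matrix (Fin 2) (Fin 2) k) : Prop :=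
  (∀ σ, Matrix.trace (c σ) = 0) ∧ ∀ σ τ, c (σ * τ) = c σ + conjAct (ρ σ) (c τ)

/-- A global cocycle with values in `Ad⁰ ρ ⊗ det`. -/
def IsDualCocycle (y : GQ → Matrix (Fin 2) (Fin 2) k) : Prop :=
  (∀ σ, Matrix.trace (y σ) = 0) ∧ ∀ σ τ, y (σ * τ) = y σ + twAd (ρ σ) (y τ)

/-- Unipotent on inertia: `tr ((1 + ε c) ρ) = 2`. -/
def unipotentConds (A : ValuationSubring Qb) :
    Submodule k (A.decompositionSubgroup ℚ → Matrix (Fin 2) (Fin 2) k) where
  carrier := {c | c ∈ adCocycles ρ (A.decompositionSubgroup ℚ) ∧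
    ∀ τ : A.decompositionSubgroup ℚ, (τ : GQ) ∈ A.inertiaSubgroupIn ℚ →
      Matrix.trace (c τ * (ρ τ : Matrix (Fin 2) (Fin 2) k)) = 0}
  add_mem' := fun {a b} ha hb => ⟨add_mem ha.1 hb.1, fun τ hτ => by
    rw [Pi.add_apply, Matrix.add_mul, Matrix.trace_add, ha.2 τ hτ, hb.2 τ hτ, add_zero]⟩
  zero_mem' := ⟨zero_mem _, fun τ _ => by simp⟩
  smul_mem' := fun r c hc => ⟨Submodule.smul_mem _ r hc.1, fun τ hτ => by
    rw [Pi.smul_apply, Matrix.smul_mul, Matrix.trace_smul, hc.2 τ hτ, smul_zero]⟩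

/-- Strict ordinary: the values kill the line through `v` (hence map into it). -/
def strictConds (A : ValuationSubring Qb) (v : Fin 2 → k) :
    Submodule k (A.decompositionSubgroup ℚ → Matrix (Fin 2) (Fin 2) k) where
  carrier := {c | c ∈ adCocycles ρ (A.decompositionSubgroup ℚ) ∧ ∀ τ, c τ *ᵥ v = 0}
  add_mem' := fun {a b} ha hb => ⟨add_mem ha.1 hb.1, fun τ => by
    rw [Pi.add_apply, Matrix.add_mulVec, ha.2, hb.2, add_zero]⟩
  zero_mem' := ⟨zero_mem _, fun τ => by simp⟩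
  smul_mem' := fun r c hc => ⟨Submodule.smul_mem _ r hc.1, fun τ => by
    rw [Pi.smul_apply, Matrix.smul_mulVec, hc.2, smul_zero]⟩

/-- `ρ|D` is ordinary with line `k v`: stable, inertia trivial on the quotient. -/
structure OrdLine (A : ValuationSubring Qb) (v : Fin 2 → k) : Prop where
  ne_zero : v ≠ 0
  stable : ∀ σ ∈ A.decompositionSubgroup ℚ, ∃ x : k,
    (ρ σ : Matrix (Fin 2) (Fin 2) k) *ᵥ v = x • v
  quotient : ∀ σ ∈ A.inertiaSubgroupIn ℚ, ∀ w : Fin 2 → k, ∃ r : k,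
    (ρ σ : Matrix (Fin 2) (Fin 2) k) *ᵥ w - w = r • v

/-- `ρ|D` is strictly ordinary with line `k v`: moreover (line) = (cyclotomic) · (quotient). -/
structure StrictLine (p : ℕ) [Fact p.Prime] [Algebra (ZMod p) k] (A : ValuationSubring Qb)
    (v : Fin 2 → k) : Prop extends OrdLine ρ A v where
  ratio : ∀ σ ∈ A.decompositionSubgroup ℚ, ∀ x z : k,
    (ρ σ : Matrix (Fin 2) (Fin 2) k) *ᵥ v = x • v →
    (∀ w : Fin 2 → k, ∃ r : k, (ρ σ : Matrix (Fin 2) (Fin 2) k) *ᵥ w - z • w = r • v) →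
      x = algebraMap (ZMod p) k (ExtCitation.cycloChar p σ : ZMod p) * z

/-- The points of the deformation `(1 + ε c) ρ` to the dual numbers form a finite flat group scheme
at `p`. -/
def IsFlatCocycle (p : ℕ) (c : GQ → Matrix (Fin 2) (Fin 2) k) : Prop :=
  ∃ (H : Type) (_ : CommRing H) (_ : HopfAlgebra (GaloisRep.ratLocalizedAt p) H),
    Module.Finite (GaloisRep.ratLocalizedAt p) H ∧
    Module.Flat (GaloisRep.ratLocalizedAt p) H ∧
    Coalgebra.IsCocomm (GaloisRep.ratLocalizedAt p) H ∧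
    ∃ e : WithConv (H →ₐ[GaloisRep.ratLocalizedAt p] Qb) ≃ ((Fin 2 → k) × (Fin 2 → k)),
      (∀ f g : WithConv (H →ₐ[GaloisRep.ratLocalizedAt p] Qb), e (f * g) = e f + e g) ∧
      ∀ (σ : GQ) (f g : WithConv (H →ₐ[GaloisRep.ratLocalizedAt p] Qb)),
        (∀ h : H, g h = σ (f h)) → e g =
          ((ρ σ : Matrix (Fin 2) (Fin 2) k) *ᵥ (e f).1,
            (ρ σ : Matrix (Fin 2) (Fin 2) k) *ᵥ (e f).2 +
              (c σ * (ρ σ : Matrix (Fin 2) (Fin 2) k)) *ᵥ (e f).1)

/-- The span of the restrictions of the flat global cocycles. -/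
def flatConds (p : ℕ) (A : ValuationSubring Qb) :
    Submodule k (A.decompositionSubgroup ℚ → Matrix (Fin 2) (Fin 2) k) :=
  Submodule.span k (resTo (A.decompositionSubgroup ℚ) ''
    {c | IsAdCocycle ρ c ∧ IsLevelConstant₁ (MonoidHom.id GQ) c ∧ IsFlatCocycle ρ p c})

/-- Flat with constant unramified quotient along the line `k v`: moreover the diagonal vanishes. -/
def flatConstConds (p : ℕ) (A : ValuationSubring Qb) (v : Fin 2 → k) :
    Submodule k (A.decompositionSubgroup ℚ → Matrix (Fin 2) (Fin 2) k) :=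
  flatConds ρ p A ⊓ (strictConds ρ A v ⊔ adCoboundaries ρ (A.decompositionSubgroup ℚ))

/-- `y` dies on the decomposition group of `A`. -/
def DiesAt (y : GQ → Matrix (Fin 2) (Fin 2) k) (A : ValuationSubring Qb) : Prop :=
  ∃ b : Matrix (Fin 2) (Fin 2) k, Matrix.trace b = 0 ∧
    ∀ σ ∈ A.decompositionSubgroup ℚ, y σ = twAd (ρ σ) b - b

/-- A Taylor–Wiles set of level `N` for `ρ` and the ramification set `T`. -/
structure IsTWSet (p : ℕ) [Fact p.Prime] (T : Finset Nat.Primes) (N : ℕ)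
    (Q : Finset Nat.Primes) : Prop where
  notMem : ∀ q ∈ Q, q ∉ T
  dvd : ∀ q ∈ Q, p ^ N ∣ (q : ℕ) - 1
  distinct : ∀ q ∈ Q, ∀ A : ValuationSubring Qb, A.LiesOverPrime (q : ℕ) →
    ∀ φ : GQ, A.IsFrobeniusAt φ (q : ℕ) →
      ∃ α β : k, α ≠ β ∧ (ρ φ : Matrix (Fin 2) (Fin 2) k).charpoly =
        (Polynomial.X - Polynomial.C α) * (Polynomial.X - Polynomial.C β)
  detects : ∀ y : GQ → Matrix (Fin 2) (Fin 2) k, IsDualCocycle ρ y → IsLevelConstantS₁ T y →
    (∀ q ∈ Q, ∀ A : ValuationSubring Qb, A.LiesOverPrime (q : ℕ) → DiesAt ρ y A) →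
      ∃ b : Matrix (Fin 2) (Fin 2) k, Matrix.trace b = 0 ∧ ∀ σ, y σ = twAd (ρ σ) b - b

end

end FermatAgent.TW
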