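import Fermat.Agent.TW.DQMain
import Fermat.Prelude.Def_GaloisRep_Flat

/-!
# Taylor–Wiles primes for the strict and flat deformation rings
-/

set_option autoImplicit false
set_option linter.unusedSectionVars false

open IsLocalRing Matrix Module Polynomial groupCohomology

namespace FermatAgent.TW

noncomputable section

local notation "Qb" => AlgebraicClosure ℚ
local notation "GQ" => AlgebraicClosure ℚ ≃ₐ[ℚ] AlgebraicClosure ℚ

variable {O : Type} [CommRing O] [IsDomain O] [IsDiscreteValuationRing O]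
  [IsAdicComplete (maximalIdeal O) O] [Finite (ResidueField O)]
  {p : ℕ} [Fact p.Prime] [Algebra (ZMod p) (ResidueField O)]
  {ρbar : ResidualGaloisRep (ResidueField O)}
  (b : Module.Basis (Fin 2) (ResidueField O) ρbar.V)
  (hρ : TWHyp p (matGL ρbar b)) (Smin : Finset ℕ) (hSm : ∀ q ∈ Smin, q.Prime) (hpSmin : p ∈ Smin)
  (hmin : ∀ q : ℕ, q.Prime → q ≠ p → (q ∈ Smin ↔ ¬ ρbar.IsUnramifiedAt q))

include hmin in
theorem matGL_eq_one_of_notMem (hpSmin : p ∈ Smin) (q : Nat.Primes)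
    (hq : q ∉ Smin.subtype Nat.Prime) {A : ValuationSubring Qb} (hA : A.LiesOverPrime (q : ℕ))
    {g : GQ} (hg : g ∈ A.inertiaSubgroupIn ℚ) : matGL ρbar b g = 1 := by
  have hq' : (q : ℕ) ∉ Smin := fun h => hq (Finset.mem_subtype.2 h)
  have hqp : (q : ℕ) ≠ p := fun h => hq' (h ▸ hpSmin)
  have hu : ρbar.IsUnramifiedAt q := by
    by_contra hu
    exact hq' ((hmin q q.2 hqp).2 hu)
  refine Units.ext ?_
  rw [coe_matGL, hu A hA g hg]
  exact LinearMap.toMatrix_one b

include hmin in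
theorem exists_inertia_matGL_ne_one (q : Nat.Primes) (hq : q ∈ Smin.subtype Nat.Prime)
    (hqp : (q : ℕ) ≠ p) {A : ValuationSubring Qb} (hA : A.LiesOverPrime (q : ℕ)) :
    ∃ τ ∈ A.inertiaSubgroupIn ℚ, matGL ρbar b τ ≠ 1 := by
  have hnu := (hmin q q.2 hqp).1 (Finset.mem_subtype.1 hq)
  by_contra hcon
  push Not at hcon
  refine hnu fun A' hA' g hg => ?_
  obtain ⟨s, rfl⟩ := exists_smul_eq q.2 hA' hA
  have h1 := hcon _ (conj_mem_inertia (g := s) hg)
  have h2 : matGL ρbar b g = 1 := by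
    rw [map_mul, map_mul, map_inv] at h1
    have : matGL ρbar b s * matGL ρbar b g * (matGL ρbar b s)⁻¹ = 1 := h1
    rwa [mul_inv_eq_one, mul_eq_left] at this
  have h3 := congrArg (Units.val) h2
  rw [coe_matGL, Units.val_one] at h3
  exact (LinearMap.toMatrix b b).injective (h3.trans (LinearMap.toMatrix_one b).symm)

include hρ hSm hpSmin hmin

theorem exists_twPrimes_strict (S : Finset ℕ) :
    ∃ r : ℕ, ∀ n : ℕ, ∃ qv : Fin r → ℕ, Function.Injective qv ∧
      (∀ i, (qv i).Prime ∧ qv i ∉ S ∧ p ^ (n + 1) ∣ qv i - 1) ∧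
      (∀ i, ∀ P : ValuationSubring Qb, P.LiesOverPrime (qv i) →
        ∀ φ : GQ, P.IsFrobeniusAt φ (qv i) →
          ∃ α β : ResidueField O, α ≠ β ∧
            LinearMap.charpoly (ρbar.ρ φ) = (X - C α) * (X - C β)) ∧
      (∀ DQ : GaloisRep.DeformationRingData O ρbar (fun _A _ _ _ ρ =>
          GaloisRep.strictOrdinaryCondition O p (Smin ∪ Finset.univ.image qv) ρ ∧
            ∀ q ∈ Smin, q.Prime → q ≠ p → ρ.IsUnipotentOnInertiaAt q),
        ∃ γ : MvPowerSeries (Fin r) O →ₐ[O] DQ.R, Function.Surjective γ) ∧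
      ∀ DQ : GaloisRep.DeformationRingData O ρbar (fun _A _ _ _ ρ =>
          GaloisRep.flatCondition O p (Smin ∪ Finset.univ.image qv) ρ ∧
            ∀ q ∈ Smin, q.Prime → q ≠ p → ρ.IsUnipotentOnInertiaAt q),
        ∃ γ : MvPowerSeries (Fin r) O →ₐ[O] DQ.R, Function.Surjective γ := by
  classical
  set T := Smin.subtype Nat.Prime
  have hpT : ExtCitation.pPrime p ∈ T := Finset.mem_subtype.2 hpSmin
  have hunr : ∀ q : Nat.Primes, q ∉ T → ∀ A : ValuationSubring Qb, A.LiesOverPrime (q : ℕ) →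
      ∀ g ∈ A.inertiaSubgroupIn ℚ, matGL ρbar b g = 1 :=
    fun q hq A hA g hg => matGL_eq_one_of_notMem b Smin hmin hpSmin q hq hA hg
  obtain ⟨r, hr⟩ := exists_twSets hρ T hpT hunr
  refine ⟨r, fun n => ?_⟩
  obtain ⟨Q, hQc, hQd, hQ⟩ := hr n (S.subtype Nat.Prime)
  have hQ1 : IsTWSet (matGL ρbar b) p T 1 Q := ⟨hQ.notMem,
    fun q hq => dvd_trans (pow_dvd_pow p (Nat.succ_le_succ (Nat.zero_le n))) (hQ.dvd q hq),
    hQ.distinct, hQ.detects⟩
  let e := Q.equivFinOfCardEq hQc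
  let qv : Fin r → ℕ := fun i => ((e.symm i : Nat.Primes) : ℕ)
  have hqvU : ∀ q : Nat.Primes, q ∉ T ∪ Q → (q : ℕ) ∉ Smin ∪ Finset.univ.image qv := by
    intro q hq hmem
    rcases Finset.mem_union.1 hmem with h | h
    · exact hq (Finset.mem_union_left Q (Finset.mem_subtype.2 h))
    refine hq (Finset.mem_union_right T ?_)
    obtain ⟨i, -, hi⟩ := Finset.mem_image.1 h
    rw [show q = (e.symm i : Nat.Primes) from Subtype.ext hi.symm]
    exact (e.symm i).2
  have hres : ∀ {R : Type} [CommRing R] [Algebra O R] {π : R →ₐ[O] ResidueField O}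
      {r : GQ →* Matrix (Fin 2) (Fin 2) R},
      (∀ σ, (r σ).map π = DefRing.rmat b ρbar.ρ σ) →
      ∀ σ, (r σ).map π = (matGL ρbar b σ : Matrix (Fin 2) (Fin 2) (ResidueField O)) :=
    fun h σ => h σ
  refine ⟨qv, fun i j h => e.symm.injective (Subtype.ext (Subtype.ext h)),
    fun i => ⟨(e.symm i).1.2,
      fun h => Finset.disjoint_left.1 hQd (e.symm i).2 (Finset.mem_subtype.2 h),
      hQ.dvd _ (e.symm i).2⟩, fun i P hP φ hφ => ?_, fun DQ => ?_, fun DQ => ?_⟩
  · obtain ⟨α, β, hne, h⟩ := hQ.distinct _ (e.symm i).2 P hP φ hφ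
    refine ⟨α, β, hne, ?_⟩
    rw [← LinearMap.charpoly_toMatrix _ b]
    exact h
  · obtain ⟨π, rR, hc, hπ, he, hres0⟩ := exists_matrix_model DQ.residue_surjective ρbar b DQ.ρ
      DQ.residual_isEquiv
    obtain ⟨⟨hdet, hst, hun⟩, huni⟩ := DQ.isOfType
    have hdet' := matDetCyclo_of he hdet
    have hst' := matStrict_of he hst
    refine exists_surjection_core hρ T Q hpT hunr
      (fun q hq hqp A hA => exists_inertia_matGL_ne_one b Smin hmin q hq hqp hA) hQ1 DQ hπ hc he
      hres0 hdet' (fun q hq => matUnr_of he (hun q q.2 (hqvU q hq)))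
      (fun q hq hqp => matUni_of he (huni q (Finset.mem_subtype.1 hq) q.2 hqp))
      (fun f hc' hs => ?_) (fun A hA => ?_) hQc
    · have hl : IsLocalHom (tanHom f : DQ.R →+* DefRing.DN O) := IsLocalHom.of_surjective _ hs
      refine ⟨⟨(hdet'.map (tanHom f : DQ.R →+* DefRing.DN O)).toAdic, (hst'.map (tanHom f : DQ.R →+* DefRing.DN O) hs).toAdic,
        fun q hq hqS => ((matUnr_of he (hun q hq hqS)).map _).toAdic⟩,
        fun q hq hqP hqp => ((matUni_of he (huni q hq hqP hqp)).map _).toAdic⟩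
    · obtain ⟨v, hv, hu⟩ := exists_strictLine hπ (hres hres0) (two_ne_zero_of hρ.ne_two) hdet' hst'
        hc hρ.finiteLevel hA
      exact ⟨strictConds (matGL ρbar b) A v, fun c hc => hc.1, rankLE_strict hρ hA hv, hu⟩
  · obtain ⟨π, rR, hc, hπ, he, hres0⟩ := exists_matrix_model DQ.residue_surjective ρbar b DQ.ρ
      DQ.residual_isEquiv
    obtain ⟨⟨hdet, hflat, hun⟩, huni⟩ := DQ.isOfType
    have hdet' := matDetCyclo_of he hdet
    have hflat' : (DefRing.toAdic rR hc).IsFlatAt p := isFlatAt_of_isEquiv he hflat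
    refine exists_surjection_core hρ T Q hpT hunr
      (fun q hq hqp A hA => exists_inertia_matGL_ne_one b Smin hmin q hq hqp hA) hQ1 DQ hπ hc he
      hres0 hdet' (fun q hq => matUnr_of he (hun q q.2 (hqvU q hq)))
      (fun q hq hqp => matUni_of he (huni q (Finset.mem_subtype.1 hq) q.2 hqp))
      (fun f hc' hs => ?_) (fun A hA => ?_) hQc
    · have hl : IsLocalHom (tanHom f : DQ.R →+* DefRing.DN O) := IsLocalHom.of_surjective _ hs
      refine ⟨⟨(hdet'.map (tanHom f : DQ.R →+* DefRing.DN O)).toAdic, isFlatAt_mapRep _ hs rR hc hc' hflat',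
        fun q hq hqS => ((matUnr_of he (hun q hq hqS)).map _).toAdic⟩,
        fun q hq hqP hqp => ((matUni_of he (huni q hq hqP hqp)).map _).toAdic⟩
    · refine ⟨flatConds (matGL ρbar b) p A, ?_, rankLE_flat hρ hA, fun u => ?_⟩
      · refine Submodule.span_le.2 ?_
        rintro _ ⟨c, ⟨⟨ht, hcc⟩, ⟨L, hL, hl⟩, -⟩, rfl⟩
        exact ⟨fun σ => ht σ, fun σ τ => hcc σ τ, L, hL, fun g s hs => hl g s hs⟩
      · rcases eq_or_ne u 0 with rfl | hu
        · rw [map_zero, map_zero]; exact zero_mem _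
        refine Submodule.mem_sup_left (Submodule.subset_span ⟨_, ⟨?_, ?_, ?_⟩, rfl⟩)
        · exact isAdCocycle_tanCoc (hres hres0) (fun u σ => tan_det_eq_zero hdet' u σ) u
        · exact (tanCoc_levelS (hres hres0) (fun x hx => (hπ x).2 hx) hc (T ∪ Q)
            (fun q hq A hA g hg => matUnr_of he (hun q q.2 (hqvU q hq)) A hA g hg)
            u).isLevelConstant₁
        · have hs := tanHom_surjective u hu
          have hc' := DefRing.isCont_map (tanHom u : DQ.R →+* DefRing.DN O)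
            (IsLocalHom.of_surjective _ hs) hc
          exact isFlatCocycle_tanCoc (hres hres0) u hc' (isFlatAt_mapRep _ hs rR hc hc' hflat')

end

end FermatAgent.TW
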