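import Fermat.Agent.TW.TwistedAdjoint
import Fermat.Prelude.Def_GroupCohomology_ContinuousUnramified
import Fermat.Prelude.Def_ExtCitation_KummerBridge

/-!
# The representations `Ad⁰ ρ` and `Ad⁰ ρ ⊗ det` of `G_ℚ` over `𝔽_p`

`sl2 k` is the module of trace zero matrices, viewed over `ZMod p`; the twisted adjoint
representation is identified with the twisted dual of the adjoint one by `a ↦ (b ↦ Tr(tr(a b)))`.
-/

set_option autoImplicit false
set_option linter.unusedSectionVars false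

open Matrix Module CategoryTheory groupCohomology

namespace FermatAgent.TW

noncomputable section

local notation "GQ" => AlgebraicClosure ℚ ≃ₐ[ℚ] AlgebraicClosure ℚ

variable {k : Type} [Field k] {p : ℕ} [Fact p.Prime] [Algebra (ZMod p) k]

/-- Trace zero matrices. -/
abbrev sl2 (k : Type) [Field k] : Submodule k (Matrix (Fin 2) (Fin 2) k) :=
  LinearMap.ker (Matrix.traceLinearMap (Fin 2) k k)

theorem mem_sl2 {a : Matrix (Fin 2) (Fin 2) k} : a ∈ sl2 k ↔ Matrix.trace a = 0 := by simp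

variable (ρ : GQ →* GL (Fin 2) k)

/-- The adjoint action `a ↦ g a g⁻¹`. -/
def conjAct (g : GL (Fin 2) k) (a : Matrix (Fin 2) (Fin 2) k) : Matrix (Fin 2) (Fin 2) k :=
  (g : Matrix (Fin 2) (Fin 2) k) * a * ((g⁻¹ : GL (Fin 2) k) : Matrix (Fin 2) (Fin 2) k)

theorem twAd_eq_smul (g : GL (Fin 2) k) (a : Matrix (Fin 2) (Fin 2) k) :
    twAd g a = (g : Matrix (Fin 2) (Fin 2) k).det • conjAct g a := rfl

theorem trace_conjAct (g : GL (Fin 2) k) (a : Matrix (Fin 2) (Fin 2) k) :
    Matrix.trace (conjAct g a) = Matrix.trace a := Matrix.trace_units_conj g a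

theorem conjAct_mul (g h : GL (Fin 2) k) (a : Matrix (Fin 2) (Fin 2) k) :
    conjAct (g * h) a = conjAct g (conjAct h a) := by
  simp only [conjAct, Units.val_mul, _root_.mul_inv_rev, mul_assoc]

@[simp] theorem conjAct_one (a : Matrix (Fin 2) (Fin 2) k) : conjAct 1 a = a := by simp [conjAct]

variable (p) in
/-- `a ↦ g a g⁻¹` on trace zero matrices, `ZMod p`-linearly. -/
def conjSl2 (g : GL (Fin 2) k) : sl2 k →ₗ[ZMod p] sl2 k where
  toFun a := ⟨conjAct g a, mem_sl2.2 ((trace_conjAct g _).trans (mem_sl2.1 a.2))⟩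
  map_add' a b := Subtype.ext (by simp [conjAct, Matrix.mul_add, Matrix.add_mul])
  map_smul' r a := Subtype.ext (by simp [conjAct])

@[simp] theorem coe_conjSl2 (g : GL (Fin 2) k) (a : sl2 k) :
    (conjSl2 p g a : Matrix (Fin 2) (Fin 2) k) = conjAct g a := rfl

variable (p) in
/-- `Ad⁰ ρ` over `ZMod p`. -/
def adRep : Representation (ZMod p) GQ (sl2 k) where
  toFun σ := conjSl2 p (ρ σ)
  map_one' := LinearMap.ext fun a => Subtype.ext (by simp)
  map_mul' σ τ := LinearMap.ext fun a => Subtype.ext (by simp [conjAct_mul])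

@[simp] theorem coe_adRep (σ : GQ) (a : sl2 k) :
    (adRep p ρ σ a : Matrix (Fin 2) (Fin 2) k) = conjAct (ρ σ) a := rfl

/-- The determinant of `ρ` is the mod `p` cyclotomic character. -/
def DetCyclo (p : ℕ) [Fact p.Prime] [Algebra (ZMod p) k] (ρ : GQ →* GL (Fin 2) k) : Prop :=
  ∀ σ, (ρ σ : Matrix (Fin 2) (Fin 2) k).det = algebraMap (ZMod p) k (ExtCitation.cycloChar p σ : ZMod p)

variable (p) in
/-- `Ad⁰ ρ ⊗ cyclotomic` over `ZMod p`. -/
def twRep : Representation (ZMod p) GQ (sl2 k) :=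
  (adRep p ρ).twist (ExtCitation.cycloChar p)

theorem coe_twRep (hdet : DetCyclo p ρ) (σ : GQ) (a : sl2 k) :
    (twRep p ρ σ a : Matrix (Fin 2) (Fin 2) k) = twAd (ρ σ) a := by
  rw [twAd_eq_smul, hdet σ, algebraMap_smul, twRep, Representation.twist_apply_apply,
    Submodule.coe_smul_of_tower, coe_adRep]

variable (p) in
/-- The `G_ℚ`-module `Ad⁰ ρ`. -/
abbrev adM : Rep (ZMod p) GQ := Rep.of (adRep p ρ)

variable (p) in
/-- The trace pairing. -/
def trPair : sl2 k →ₗ[ZMod p] Dual (ZMod p) (sl2 k) where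
  toFun a :=
    { toFun := fun b => Algebra.trace (ZMod p) k
        (Matrix.trace ((a : Matrix (Fin 2) (Fin 2) k) * (b : Matrix (Fin 2) (Fin 2) k)))
      map_add' := fun b c => by simp [Matrix.mul_add]
      map_smul' := fun r b => by simp [Matrix.trace_smul] }
  map_add' a b := LinearMap.ext fun c => by simp [Matrix.add_mul]
  map_smul' r a := LinearMap.ext fun c => by simp [Matrix.trace_smul]

@[simp] theorem trPair_apply (a b : sl2 k) : trPair p a b = Algebra.trace (ZMod p) k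
    (Matrix.trace ((a : Matrix (Fin 2) (Fin 2) k) * (b : Matrix (Fin 2) (Fin 2) k))) := rfl

theorem two_ne_zero_of (hp : p ≠ 2) : (2 : k) ≠ 0 := by
  have : CharP k p := charP_of_injective_algebraMap (algebraMap (ZMod p) k).injective p
  exact Ring.two_ne_zero (by rw [ringChar.eq k p]; exact hp)

theorem eq_zero_of_forall_trace_mul (h2 : (2 : k) ≠ 0) {a : Matrix (Fin 2) (Fin 2) k}
    (ha : Matrix.trace a = 0)
    (h : ∀ b : Matrix (Fin 2) (Fin 2) k, Matrix.trace b = 0 → Matrix.trace (a * b) = 0) : a = 0 := by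
  have h11 : a 1 1 = - a 0 0 := by rw [trace_fin_two] at ha; linear_combination ha
  have e1 := h !![0, 1; 0, 0] (by simp [trace_fin_two])
  have e2 := h !![0, 0; 1, 0] (by simp [trace_fin_two])
  have e3 := h !![1, 0; 0, -1] (by simp [trace_fin_two])
  simp [trace_fin_two, Matrix.mul_apply, Fin.sum_univ_two, h11] at e1 e2 e3
  have e00 : a 0 0 = 0 := by
    have : (2 : k) * a 0 0 = 0 := by linear_combination e3
    simpa [h2] using this
  ext i j
  fin_cases i <;> fin_cases j <;> simp [e00, e1, e2, h11]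

variable [Finite k]

theorem trPair_bijective (hp : p ≠ 2) : Function.Bijective (trPair p (k := k)) := by
  have h2 := two_ne_zero_of (k := k) hp
  have : FiniteDimensional (ZMod p) k := Module.Finite.of_finite
  have hinj : Function.Injective (trPair p (k := k)) := by
    rw [← LinearMap.ker_eq_bot, LinearMap.ker_eq_bot']
    intro a ha
    refine Subtype.ext (eq_zero_of_forall_trace_mul h2 (mem_sl2.1 a.2) fun b hb => ?_)
    refine (traceForm_nondegenerate (ZMod p) k).1 _ fun r => ?_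
    have := LinearMap.congr_fun ha (r • ⟨b, mem_sl2.2 hb⟩ : sl2 k)
    simpa [Algebra.traceForm_apply, Matrix.mul_smul, Matrix.trace_smul, mul_comm] using this
  exact ⟨hinj, (LinearMap.injective_iff_surjective_of_finrank_eq_finrank
    Subspace.dual_finrank_eq.symm).1 hinj⟩

theorem trPair_twRep (_hdet : DetCyclo p ρ) (σ : GQ) (a : sl2 k) :
    trPair p (twRep p ρ σ a) =
      ((adM p ρ).dualTwist (ExtCitation.cycloChar p)).ρ σ (trPair p a) := by
  refine LinearMap.ext fun b => ?_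
  rw [Rep.dualTwist_ρ_apply]
  simp only [twRep, Representation.twist_apply_apply, map_smul, LinearMap.smul_apply,
    LinearMap.comp_apply, trPair_apply, coe_adRep]
  congr 2
  show Matrix.trace (conjAct (ρ σ) a * (b : Matrix (Fin 2) (Fin 2) k)) = Matrix.trace ((a : Matrix (Fin 2) (Fin 2) k) * conjAct (ρ σ⁻¹) b)
  rw [conjAct, conjAct, map_inv, inv_inv, mul_assoc, mul_assoc, Matrix.trace_mul_comm]
  simp only [mul_assoc]

/-- The hypotheses on the residual representation needed to produce Taylor–Wiles primes. -/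
structure TWHyp (p : ℕ) [Fact p.Prime] [Algebra (ZMod p) k] (ρ : GQ →* GL (Fin 2) k) : Prop where
  ne_two : p ≠ 2
  finiteLevel : ∃ L : IntermediateField ℚ (AlgebraicClosure ℚ), FiniteDimensional ℚ L ∧
    ∀ σ ∈ L.fixingSubgroup, ρ σ = 1
  detCyclo : DetCyclo p ρ
  splitEigen : ∀ σ, ∃ v : Fin 2 → k, v ≠ 0 ∧
    ∃ r : k, (ρ σ : Matrix (Fin 2) (Fin 2) k) *ᵥ v = r • v
  noFixedPoint : ∀ v : Fin 2 → k, v ≠ 0 → ∃ σ,
    ∀ r : k, (ρ σ : Matrix (Fin 2) (Fin 2) k) *ᵥ v ≠ r • v
  noStableLine : ∀ a : Matrix (Fin 2) (Fin 2) k, a ≠ 0 → Matrix.trace a = 0 →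
    ∃ σ, ∀ r : k, conjAct (ρ σ) a ≠ r • a

end

end FermatAgent.TW
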