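import Fermat.Agent.TW.TwistedAdjoint

/-!
# Cocycles on the unipotent subgroup, invariant under its normaliser
-/

set_option autoImplicit false

open scoped Pointwise
open Matrix

namespace FermatAgent.TW

noncomputable section

variable {k : Type*} [Field k]

/-- `(1 b; 0 1)` as an element of `GL₂` -/
def uni (b : k) : GL (Fin 2) k :=
  ⟨!![1, b; 0, 1], !![1, -b; 0, 1], by simp [Matrix.one_fin_two], by simp [Matrix.one_fin_two]⟩

@[simp] theorem coe_uni (b : k) : (uni b : Matrix (Fin 2) (Fin 2) k) = !![1, b; 0, 1] := rfl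

theorem uni_add (a b : k) : uni (a + b) = uni a * uni b := by
  refine Units.ext ?_
  rw [Units.val_mul, coe_uni, coe_uni, coe_uni]
  simp [add_comm]

theorem uni_zero : uni (0 : k) = 1 := Units.ext (by simp [Matrix.one_fin_two])

theorem uni_neg (b : k) : uni (-b) = (uni b)⁻¹ := by
  rw [eq_inv_iff_mul_eq_one, ← uni_add, neg_add_cancel, uni_zero]

/-- The translations in `Δ`. -/
def transl (Δ : Subgroup (GL (Fin 2) k)) : AddSubgroup k where
  carrier := {b | uni b ∈ Δ}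
  zero_mem' := by show uni (0 : k) ∈ Δ; rw [uni_zero]; exact one_mem _
  add_mem' {a b} ha hb := by show uni (a + b) ∈ Δ; rw [uni_add]; exact mul_mem ha hb
  neg_mem' {a} ha := by show uni (-a) ∈ Δ; rw [uni_neg]; exact inv_mem ha

theorem mem_transl {Δ : Subgroup (GL (Fin 2) k)} {b : k} : b ∈ transl Δ ↔ uni b ∈ Δ := Iff.rfl

theorem mk_eq_uni {g : GL (Fin 2) k} (h10 : g 1 0 = 0) (h00 : g 0 0 = 1) (h11 : g 1 1 = 1) :
    g = uni (g 0 1) := by
  refine Units.ext ?_
  rw [coe_uni]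
  ext i j
  fin_cases i <;> fin_cases j <;> simp [h10, h00, h11]

-- `simp` closes some of the entries, so the `<;>` chains cannot be sequenced.
set_option linter.unnecessarySeqFocus false in
theorem twAd_uni (b : k) (a : Matrix (Fin 2) (Fin 2) k) :
    (twAd (uni b) a 0 0 = a 0 0 + b * a 1 0) ∧
    (twAd (uni b) a 0 1 = a 0 1 + b * (a 1 1 - a 0 0) - b ^ 2 * a 1 0) ∧
    (twAd (uni b) a 1 0 = a 1 0) := by
  have hinv : ((uni b)⁻¹ : GL (Fin 2) k) = uni (-b) := (uni_neg b).symm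
  simp only [twAd, hinv, coe_uni, det_fin_two_of]
  refine ⟨?_, ?_, ?_⟩ <;>
    simp [Matrix.mul_apply, Matrix.vecMul, dotProduct, Fin.sum_univ_two] <;> ring

-- `simp` closes some of the entries, so the `<;>` chains cannot be sequenced.
set_option linter.unnecessarySeqFocus false in
theorem twAd_upper {g : GL (Fin 2) k} (h10 : g 1 0 = 0) (a : Matrix (Fin 2) (Fin 2) k) :
    (twAd g a 0 0 = g 0 0 * g 1 1 * a 0 0 + g 0 1 * g 1 1 * a 1 0) ∧
    (twAd g a 0 1 = g 0 0 ^ 2 * a 0 1 + g 0 0 * g 0 1 * (a 1 1 - a 0 0) - g 0 1 ^ 2 * a 1 0) ∧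
    (twAd g a 1 0 = g 1 1 ^ 2 * a 1 0) := by
  have hd : (g : Matrix (Fin 2) (Fin 2) k).det = g 0 0 * g 1 1 := by simp [det_fin_two, h10]
  have hd0 : g 0 0 * g 1 1 ≠ 0 := hd ▸ g.det_ne_zero
  have h0 : g 0 0 ≠ 0 := left_ne_zero_of_mul hd0
  have h1 : g 1 1 ≠ 0 := right_ne_zero_of_mul hd0
  simp only [twAd, Matrix.coe_units_inv, Matrix.inv_def, hd, adjugate_fin_two, Ring.inverse_eq_inv']
  refine ⟨?_, ?_, ?_⟩ <;> simp [Matrix.mul_apply, Fin.sum_univ_two, h10] <;> field_simp <;> ring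

-- `simp` closes some of the entries, so the `<;>` chains cannot be sequenced.
set_option linter.unnecessarySeqFocus false in
theorem conj_uni {g : GL (Fin 2) k} (h10 : g 1 0 = 0) (b : k) :
    g * uni b * g⁻¹ = uni (g 0 0 / g 1 1 * b) := by
  have hd : (g : Matrix (Fin 2) (Fin 2) k).det = g 0 0 * g 1 1 := by simp [det_fin_two, h10]
  have hd0 : g 0 0 * g 1 1 ≠ 0 := hd ▸ g.det_ne_zero
  have h1 : g 1 1 ≠ 0 := right_ne_zero_of_mul hd0
  rw [mul_inv_eq_iff_eq_mul]
  refine Units.ext ?_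
  rw [Units.val_mul, Units.val_mul, coe_uni, coe_uni]
  ext i j
  fin_cases i <;> fin_cases j <;> simp [Matrix.mul_apply, Fin.sum_univ_two, h10] <;> field_simp <;>
    ring

variable {Δ : Subgroup (GL (Fin 2) k)} {c : Δ → Matrix (Fin 2) (Fin 2) k}

/-- the value of `c` at `(1 b; 0 1)` -/
def onTransl (c : Δ → Matrix (Fin 2) (Fin 2) k) (b : transl Δ) : Matrix (Fin 2) (Fin 2) k :=
  c ⟨uni b, b.2⟩

theorem IsTwCocycle.a11 (hc : IsTwCocycle Δ c) (g : Δ) : c g 1 1 = - c g 0 0 := by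
  have := hc.1 g
  rw [trace_fin_two] at this
  linear_combination this

theorem onTransl_add (hc : IsTwCocycle Δ c) (a b : transl Δ) :
    (onTransl c (a + b) 1 0 = onTransl c a 1 0 + onTransl c b 1 0) ∧
    (onTransl c (a + b) 0 0 =
      onTransl c a 0 0 + onTransl c b 0 0 + (a : k) * onTransl c b 1 0) ∧
    (onTransl c (a + b) 0 1 = onTransl c a 0 1 + onTransl c b 0 1
      - 2 * (a : k) * onTransl c b 0 0 - (a : k) ^ 2 * onTransl c b 1 0) := by
  have e : onTransl c (a + b) = onTransl c a + twAd (uni (a : k)) (onTransl c b) := by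
    rw [onTransl, show (⟨uni ((a + b : transl Δ) : k), (a + b).2⟩ : Δ) =
      ⟨uni a, a.2⟩ * ⟨uni b, b.2⟩ from Subtype.ext (uni_add _ _), hc.2]
    rfl
  obtain ⟨t0, t1, t2⟩ := twAd_uni (a : k) (onTransl c b)
  have h11 : onTransl c b 1 1 = - onTransl c b 0 0 := hc.a11 _
  rw [e]
  simp only [Matrix.add_apply, t0, t1, t2, h11]
  refine ⟨trivial, by ring, by ring⟩

theorem linear_lower (hc : IsTwCocycle Δ c) {x₀ : transl Δ} (hx₀ : (x₀ : k) ≠ 0) :
    ∃ lam : k, ∀ b : transl Δ, onTransl c b 1 0 = lam * b := by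
  refine ⟨onTransl c x₀ 1 0 / x₀, fun b => ?_⟩
  obtain ⟨-, h1, -⟩ := onTransl_add hc x₀ b
  obtain ⟨-, h2, -⟩ := onTransl_add hc b x₀
  rw [add_comm b x₀] at h2
  field_simp
  linear_combination h2 - h1

theorem middle_eq (hc : IsTwCocycle Δ c) (h2 : (2 : k) ≠ 0) {x₀ : transl Δ} (hx₀ : (x₀ : k) ≠ 0)
    {lam : k} (hlam : ∀ b : transl Δ, onTransl c b 1 0 = lam * b) :
    ∃ μ : k, ∀ b : transl Δ, onTransl c b 0 0 = μ * b + lam * (b : k) ^ 2 / 2 := by
  refine ⟨(onTransl c x₀ 0 0 - lam * (x₀ : k) ^ 2 / 2) / x₀, fun b => ?_⟩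
  obtain ⟨-, -, h1⟩ := onTransl_add hc x₀ b
  obtain ⟨-, -, h2'⟩ := onTransl_add hc b x₀
  rw [add_comm b x₀] at h2'
  rw [hlam] at h1 h2'
  field_simp
  field_simp at h1 h2'
  linear_combination h1 - h2'

theorem onTransl_conj (hc : IsTwCocycle Δ c) {g : GL (Fin 2) k} (hg : g ∈ Δ) (h10 : g 1 0 = 0)
    (b : transl Δ) :
    ∃ hb : g 0 0 / g 1 1 * b ∈ transl Δ,
      onTransl c ⟨_, hb⟩ = twAd g (onTransl c b) + c ⟨g, hg⟩ -
        twAd (uni (g 0 0 / g 1 1 * b)) (c ⟨g, hg⟩) := by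
  have hb : g 0 0 / g 1 1 * b ∈ transl Δ := by
    rw [mem_transl, ← conj_uni h10]
    exact mul_mem (mul_mem hg b.2) (inv_mem hg)
  refine ⟨hb, ?_⟩
  have e : (⟨uni (g 0 0 / g 1 1 * b), hb⟩ : Δ) * ⟨g, hg⟩ = ⟨g, hg⟩ * ⟨uni b, b.2⟩ := by
    refine Subtype.ext ?_
    show uni _ * g = g * uni _
    rw [← conj_uni h10, inv_mul_cancel_right]
  have h1 := hc.2 ⟨uni (g 0 0 / g 1 1 * b), hb⟩ ⟨g, hg⟩
  rw [e, hc.2] at h1
  show c ⟨uni (g 0 0 / g 1 1 * b), hb⟩ = twAd g (c ⟨uni b, b.2⟩) + _ - _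
  simp only at h1
  rw [eq_sub_iff_add_eq, ← h1, add_comm]

/-- transformation rules under an upper triangular element of `Δ` -/
theorem onTransl_upper (hc : IsTwCocycle Δ c) {g : GL (Fin 2) k} (hg : g ∈ Δ) (h10 : g 1 0 = 0)
    (b : transl Δ) :
    ∃ hb : g 0 0 / g 1 1 * b ∈ transl Δ,
      onTransl c ⟨_, hb⟩ 1 0 = g 1 1 ^ 2 * onTransl c b 1 0 ∧
      onTransl c ⟨_, hb⟩ 0 0 = g 0 0 * g 1 1 * onTransl c b 0 0 + g 0 1 * g 1 1 * onTransl c b 1 0
        - g 0 0 / g 1 1 * b * c ⟨g, hg⟩ 1 0 ∧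
      onTransl c ⟨_, hb⟩ 0 1 = g 0 0 ^ 2 * onTransl c b 0 1
        + g 0 0 * g 0 1 * (-2 * onTransl c b 0 0) - g 0 1 ^ 2 * onTransl c b 1 0
        + 2 * (g 0 0 / g 1 1 * b) * c ⟨g, hg⟩ 0 0
        + (g 0 0 / g 1 1 * b) ^ 2 * c ⟨g, hg⟩ 1 0 := by
  obtain ⟨hb, e⟩ := onTransl_conj hc hg h10 b
  refine ⟨hb, ?_⟩
  obtain ⟨s0, s1, s2⟩ := twAd_upper h10 (onTransl c b)
  obtain ⟨t0, t1, t2⟩ := twAd_uni (g 0 0 / g 1 1 * b) (c ⟨g, hg⟩)
  have h11 : onTransl c b 1 1 = - onTransl c b 0 0 := hc.a11 _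
  have h11' : c ⟨g, hg⟩ 1 1 = - c ⟨g, hg⟩ 0 0 := hc.a11 _
  rw [e]
  simp only [Matrix.sub_apply, Matrix.add_apply, s0, s1, s2, t0, t1, t2, h11, h11']
  exact ⟨by ring, by ring, by ring⟩

/-- characteristic three: the lower coordinate vanishes -/
theorem lower_eq_zero_of_three (hc : IsTwCocycle Δ c) (h3 : (3 : k) = 0) {x₀ : transl Δ}
    (hx₀ : (x₀ : k) ≠ 0) {lam : k} (hlam : ∀ b : transl Δ, onTransl c b 1 0 = lam * b) :
    lam = 0 := by
  have h1 : (x₀ + x₀) + x₀ = (0 : transl Δ) := by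
    apply Subtype.ext
    show (x₀ : k) + x₀ + x₀ = 0
    linear_combination (x₀ : k) * h3
  obtain ⟨-, -, a⟩ := onTransl_add hc x₀ x₀
  obtain ⟨-, -, b⟩ := onTransl_add hc (x₀ + x₀) x₀
  have h0 : onTransl c (0 : transl Δ) 0 1 = 0 := by
    have : onTransl c (0 : transl Δ) = 0 := by
      rw [onTransl, show (⟨uni ((0 : transl Δ) : k), (0 : transl Δ).2⟩ : Δ) = 1 from
        Subtype.ext uni_zero, hc.one]
    rw [this]; rfl
  rw [h1, h0, a, hlam] at b
  simp only [AddSubgroup.coe_add] at b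
  have : lam * (x₀ : k) ^ 3 = 0 := by
    linear_combination -b + (2 * lam * (x₀ : k) ^ 3 - onTransl c x₀ 0 1 +
      2 * (x₀ : k) * onTransl c x₀ 0 0) * h3
  rcases mul_eq_zero.1 this with h | h
  · exact h
  · exact absurd (pow_eq_zero_iff (three_ne_zero (α := ℕ)) |>.1 h) hx₀

/-- a semilinearity relation with nonzero multiplier is linearity -/
theorem linear_of_twisted {V : AddSubgroup k} {t K : k} {η : V → k}
    (hη : ∀ a b : V, η (a + b) = η a + η b) {n : ℕ} (hn : (n : k) ≠ 0) (htn : t ^ n = 1)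
    (ht : t ≠ 0) (hV : ∀ b : V, t * b ∈ V) (hrel : ∀ b : V, η ⟨t * b, hV b⟩ = t * η b + K * b)
    [Finite k] {p : ℕ} [Fact p.Prime] [CharP k p] (hbig : Nat.card V < p * (orderOf t + 1))
    {x₀ : V} (hx₀ : (x₀ : k) ≠ 0) : ∃ ν : k, ∀ b : V, η b = ν * b := by
  classical
  have hVi : ∀ (i : ℕ) (b : V), t ^ i * (b : k) ∈ V := by
    intro i
    induction i with
    | zero => intro b; simp
    | succ i ih => intro b; rw [pow_succ', mul_assoc]; exact hV ⟨_, ih b⟩
  have hiter : ∀ (i : ℕ) (b : V),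
      t * η ⟨t ^ i * b, hVi i b⟩ = t ^ (i + 1) * η b + i * t ^ i * K * b := by
    intro i
    induction i with
    | zero => intro b; simp
    | succ i ih =>
      intro b
      have h := hrel ⟨t ^ i * b, hVi i b⟩
      have e : (⟨t ^ (i + 1) * (b : k), hVi (i + 1) b⟩ : V) =
          ⟨t * (t ^ i * b), hV ⟨_, hVi i b⟩⟩ := Subtype.ext (show t ^ (i + 1) * (b : k) = t * (t ^ i * b) by ring)
      rw [e, h]
      have := ih b
      push_cast
      linear_combination t * this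
  have hK : K = 0 := by
    have h := hiter n x₀
    have e : (⟨t ^ n * (x₀ : k), hVi n x₀⟩ : V) = x₀ := Subtype.ext (by simp [htn])
    rw [e, pow_succ, htn, one_mul] at h
    have : (n : k) * K * x₀ = 0 := by linear_combination -h
    simpa [hn, hx₀] using this
  let R : Subring k :=
    { carrier := {a | ∀ b : V, ∃ h : a * b ∈ V, η ⟨a * b, h⟩ = a * η b}
      one_mem' := fun b => ⟨by simp, by simp⟩
      mul_mem' := by
        intro x y hx hy b
        obtain ⟨h1, e1⟩ := hy b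
        obtain ⟨h2, e2⟩ := hx ⟨y * b, h1⟩
        refine ⟨by simpa [mul_assoc] using h2, ?_⟩
        rw [mul_assoc x y (η b), ← e1, ← e2]
        exact congrArg η (Subtype.ext (by simp [mul_assoc]))
      zero_mem' := fun b => ⟨by simp, by
        have h0 : η 0 = 0 := by
          have := hη 0 0
          simp only [add_zero] at this
          exact left_eq_add.mp this
        exact ((congrArg η (Subtype.ext (zero_mul _))).trans h0).trans (zero_mul _).symm⟩
      add_mem' := by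
        intro x y hx hy b
        obtain ⟨h1, e1⟩ := hx b
        obtain ⟨h2, e2⟩ := hy b
        refine ⟨by rw [add_mul]; exact V.add_mem h1 h2, ?_⟩
        rw [add_mul x y (η b), ← e1, ← e2, ← hη]
        exact congrArg η (Subtype.ext (by simp [add_mul]))
      neg_mem' := by
        intro x hx b
        obtain ⟨h1, e1⟩ := hx b
        refine ⟨by rw [neg_mul]; exact V.neg_mem h1, ?_⟩
        rw [neg_mul x (η b), ← e1, eq_neg_iff_add_eq_zero, ← hη]
        have h0 : η 0 = 0 := by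
          have := hη 0 0
          simp only [add_zero] at this
          exact left_eq_add.mp this
        exact (congrArg η (Subtype.ext (by simp))).trans h0 }
  have htR : t ∈ R := fun b => ⟨hV b, by rw [hrel b, hK]; ring⟩
  let f : R → V := fun a => ⟨(a : k) * x₀, (a.2 x₀).1⟩
  have hf : Function.Injective f := fun a a' h =>
    Subtype.ext (mul_right_cancel₀ hx₀ (congrArg Subtype.val h))
  have hfin : IsOfFinOrder t := isOfFinOrder_iff_pow_eq_one.2 ⟨n, Nat.pos_of_ne_zero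
    (fun h => hn (by rw [h, Nat.cast_zero])), htn⟩
  have hlow : orderOf t + 1 ≤ Nat.card R := by
    let g : Option (Fin (orderOf t)) → R := fun o => o.elim 0 fun i => ⟨t, htR⟩ ^ (i : ℕ)
    refine le_of_eq_of_le ?_ (Nat.card_le_card_of_injective g ?_)
    · rw [Finite.card_option, Nat.card_eq_fintype_card, Fintype.card_fin]
    · rintro (_ | i) (_ | j) h
      · rfl
      · exact absurd (congrArg Subtype.val h).symm (by simp [g, ht])
      · exact absurd (congrArg Subtype.val h) (by simp [g, ht])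
      · have h' : t ^ (i : ℕ) = t ^ (j : ℕ) := by simpa [g] using congrArg Subtype.val h
        have := hfin.pow_inj_mod.1 h'
        rw [Nat.mod_eq_of_lt i.2, Nat.mod_eq_of_lt j.2] at this
        rw [Fin.ext this]
  have hpow : ∀ W : AddSubgroup k, ∃ a, Nat.card W = p ^ a := by
    intro W
    have : Fintype k := Fintype.ofFinite k
    obtain ⟨m, -, hm⟩ := FiniteField.card k p
    have h := W.card_addSubgroup_dvd_card
    rw [Nat.card_eq_fintype_card (α := k), hm] at h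
    obtain ⟨a, -, ha⟩ := (Nat.dvd_prime_pow Fact.out).1 h
    exact ⟨a, ha⟩
  obtain ⟨a, ha⟩ := hpow V
  obtain ⟨a', ha'⟩ := hpow R.toAddSubgroup
  have hle := Nat.card_le_card_of_injective f hf
  have hR : Nat.card R = Nat.card R.toAddSubgroup := rfl
  rw [hR, ha'] at hle hlow
  rw [ha] at hle hbig
  have haa : a = a' := by
    refine le_antisymm ?_ ((Nat.pow_le_pow_iff_right (Fact.out : p.Prime).one_lt).1 hle)
    by_contra hlt
    have h1 : p * p ^ a' ≤ p ^ a := by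
      rw [← pow_succ']
      exact Nat.pow_le_pow_right (Fact.out : p.Prime).pos (by omega)
    have h2 : p * (orderOf t + 1) ≤ p * p ^ a' := Nat.mul_le_mul_left _ hlow
    omega
  have hsurj : Function.Surjective f :=
    (hf.bijective_of_nat_card_le (by rw [hR, ha, ha', haa])).2
  refine ⟨η x₀ / x₀, fun b => ?_⟩
  obtain ⟨r, rfl⟩ := hsurj b
  obtain ⟨h, e⟩ := r.2 x₀
  show η ⟨(r : k) * x₀, h⟩ = _ * ((r : k) * x₀)
  rw [e]
  field_simp

end

end FermatAgent.TW
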