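import Fermat.Agent.DefRing.MatrixRep
import Fermat.Prelude.Def_GaloisRep_StrictOrdinary

/-!
# The deformation conditions in matrices
-/

set_option autoImplicit false
set_option linter.unusedSectionVars false

open IsLocalRing Matrix Module Polynomial

namespace FermatAgent.TW

noncomputable section

local notation "Qb" => AlgebraicClosure ℚ
local notation "GQ" => AlgebraicClosure ℚ ≃ₐ[ℚ] AlgebraicClosure ℚ

variable {R B : Type} [CommRing R] [IsLocalRing R] [CommRing B] [IsLocalRing B]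

/-- Cyclotomic determinant. -/
def MatDetCyclo (p : ℕ) (r : GQ →* Matrix (Fin 2) (Fin 2) R) : Prop :=
  (p : R) ∈ maximalIdeal R ∧ ∀ (n : ℕ) (σ : GQ) (a : ℕ),
    (∀ μ : Qb, μ ^ p ^ n = 1 → σ μ = μ ^ a) →
      (r σ).det - (a : R) ∈ Ideal.span {((p ^ n : ℕ) : R)}

/-- Strictly ordinary. -/
def MatStrict (p : ℕ) (r : GQ →* Matrix (Fin 2) (Fin 2) R) : Prop :=
  (p : R) ∈ maximalIdeal R ∧ ∀ P : ValuationSubring Qb, P.LiesOverPrime p →
    ∃ M : Matrix (Fin 2) (Fin 2) R, IsUnit M.det ∧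
      (∀ σ ∈ P.inertiaSubgroupIn ℚ, ∀ v : Fin 2 → R, ∃ t : R,
        r σ *ᵥ v - v = t • (fun i => M i 0)) ∧
      ∀ σ ∈ P.decompositionSubgroup ℚ, ∃ x z : R,
        r σ *ᵥ (fun i => M i 0) = x • (fun i => M i 0) ∧
        (∀ v : Fin 2 → R, ∃ t : R, r σ *ᵥ v - z • v = t • (fun i => M i 0)) ∧
        ∀ (n a : ℕ), (∀ μ : Qb, μ ^ p ^ n = 1 → σ μ = μ ^ a) →
          x - (a : R) * z ∈ Ideal.span {((p ^ n : ℕ) : R)}

/-- Unramified at `q`. -/
def MatUnr (q : ℕ) (r : GQ →* Matrix (Fin 2) (Fin 2) R) : Prop :=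
  ∀ P : ValuationSubring Qb, P.LiesOverPrime q → ∀ σ ∈ P.inertiaSubgroupIn ℚ, r σ = 1

/-- Unipotent on inertia at `q`. -/
def MatUni (q : ℕ) (r : GQ →* Matrix (Fin 2) (Fin 2) R) : Prop :=
  ∀ P : ValuationSubring Qb, P.LiesOverPrime q → ∀ σ ∈ P.inertiaSubgroupIn ℚ,
    (r σ).charpoly = (X - 1) ^ 2

section Transfer

variable {ρ : GaloisRepAdic R} {r : GQ →* Matrix (Fin 2) (Fin 2) R} {hr : DefRing.IsCont r}

theorem exists_linearEquiv (he : ρ.IsEquiv (DefRing.toAdic r hr)) :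
    ∃ E : ρ.V ≃ₗ[R] (Fin 2 → R), ∀ (σ : GQ) (x : ρ.V), E (ρ.ρ σ x) = r σ *ᵥ E x := by
  obtain ⟨e⟩ := he
  exact ⟨e.toLinearEquiv, fun σ x => e.map_apply σ x⟩

theorem conj_eq_of_equiv {E : ρ.V ≃ₗ[R] (Fin 2 → R)}
    (hE : ∀ (σ : GQ) (x : ρ.V), E (ρ.ρ σ x) = r σ *ᵥ E x) (σ : GQ) :
    Matrix.toLin' (r σ) = (E : ρ.V →ₗ[R] (Fin 2 → R)) ∘ₗ ρ.ρ σ ∘ₗ
      (E.symm : (Fin 2 → R) →ₗ[R] ρ.V) := by
  refine LinearMap.ext fun y => ?_
  show r σ *ᵥ y = E (ρ.ρ σ (E.symm y))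
  rw [hE, LinearEquiv.apply_symm_apply]

theorem matDetCyclo_of (he : ρ.IsEquiv (DefRing.toAdic r hr)) {p : ℕ}
    (h : ρ.DetIsCyclotomic p) : MatDetCyclo p r := by
  obtain ⟨E, hE⟩ := exists_linearEquiv he
  refine ⟨h.1, fun n σ a ha => ?_⟩
  rw [← LinearMap.det_toLin', conj_eq_of_equiv hE σ, LinearMap.det_conj]
  exact h.2 n σ a ha

theorem matUnr_of (he : ρ.IsEquiv (DefRing.toAdic r hr)) {q : ℕ} (h : ρ.IsUnramifiedAt q) :
    MatUnr q r := by
  obtain ⟨E, hE⟩ := exists_linearEquiv he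
  intro P hP σ hσ
  apply Matrix.toLin'.injective
  rw [conj_eq_of_equiv hE σ, h P hP σ hσ, Matrix.toLin'_one]
  exact LinearMap.ext fun y => E.apply_symm_apply y

theorem matUni_of (he : ρ.IsEquiv (DefRing.toAdic r hr)) {q : ℕ}
    (h : ρ.IsUnipotentOnInertiaAt q) : MatUni q r := by
  obtain ⟨E, hE⟩ := exists_linearEquiv he
  intro P hP σ hσ
  rw [← Matrix.charpoly_toLin', conj_eq_of_equiv hE σ, ← h P hP σ hσ]
  exact LinearEquiv.charpoly_conj E (ρ.ρ σ)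

theorem matStrict_of (he : ρ.IsEquiv (DefRing.toAdic r hr)) {p : ℕ}
    (h : ρ.IsStrictOrdinaryAt p) : MatStrict p r := by
  obtain ⟨E, hE⟩ := exists_linearEquiv he
  refine ⟨h.1, fun P hP => ?_⟩
  obtain ⟨Ln, ⟨b, rfl⟩, -, hI, hD⟩ := h.2 P hP
  let b' := b.map E
  let M : Matrix (Fin 2) (Fin 2) R := (Pi.basisFun R (Fin 2)).toMatrix b'
  have hMunit : IsUnit M := by
    have := (Pi.basisFun R (Fin 2)).invertibleToMatrix b'
    exact isUnit_of_invertible ((Pi.basisFun R (Fin 2)).toMatrix b')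
  have hM0 : (fun i => M i 0) = E (b 0) := by
    funext i
    simp [M, b', Module.Basis.toMatrix_apply]
  have hmem : ∀ u : ρ.V, u ∈ R ∙ b 0 → ∃ t : R, E u = t • (fun i => M i 0) := by
    intro u hu
    obtain ⟨t, rfl⟩ := Submodule.mem_span_singleton.1 hu
    exact ⟨t, by rw [map_smul, hM0]⟩
  have hact : ∀ σ (v : Fin 2 → R), r σ *ᵥ v = E (ρ.ρ σ (E.symm v)) :=
    fun σ v => by rw [hE, LinearEquiv.apply_symm_apply]
  refine ⟨M, (Matrix.isUnit_iff_isUnit_det M).1 hMunit, fun σ hσ v => ?_, fun σ hσ => ?_⟩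
  · obtain ⟨t, ht⟩ := hmem _ (hI σ hσ (E.symm v))
    refine ⟨t, ?_⟩
    rw [← ht, map_sub, ← hact, LinearEquiv.apply_symm_apply]
  · obtain ⟨x, z, hx, hz, hn⟩ := hD σ hσ
    refine ⟨x, z, ?_, fun v => ?_, hn⟩
    · rw [hM0, hact, LinearEquiv.symm_apply_apply, hx _ (Submodule.mem_span_singleton_self _),
        map_smul]
    · obtain ⟨t, ht⟩ := hmem _ (hz (E.symm v))
      refine ⟨t, ?_⟩
      rw [← ht, map_sub, map_smul, ← hact, LinearEquiv.apply_symm_apply]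

end Transfer

section Map

variable {r : GQ →* Matrix (Fin 2) (Fin 2) R} (φ : R →+* B)

theorem MatDetCyclo.map [IsLocalHom φ] {p : ℕ} (h : MatDetCyclo p r) :
    MatDetCyclo p (DefRing.mapRep φ r) := by
  refine ⟨by rw [← map_natCast φ]; exact map_nonunit φ _ h.1, fun n σ a ha => ?_⟩
  have := Ideal.mem_map_of_mem φ (h.2 n σ a ha)
  rw [Ideal.map_span, Set.image_singleton, map_natCast, map_sub, map_natCast,
    RingHom.map_det] at this
  exact this

theorem MatUnr.map {q : ℕ} (h : MatUnr q r) : MatUnr q (DefRing.mapRep φ r) := fun P hP σ hσ => by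
  rw [DefRing.mapRep_apply, h P hP σ hσ, Matrix.map_one _ (map_zero _) (map_one _)]

theorem MatUni.map {q : ℕ} (h : MatUni q r) : MatUni q (DefRing.mapRep φ r) := fun P hP σ hσ => by
  rw [DefRing.mapRep_apply, Matrix.charpoly_map, h P hP σ hσ]
  simp

theorem MatStrict.map [IsLocalHom φ] (hφ : Function.Surjective φ) {p : ℕ} (h : MatStrict p r) :
    MatStrict p (DefRing.mapRep φ r) := by
  refine ⟨by rw [← map_natCast φ]; exact map_nonunit φ _ h.1, fun P hP => ?_⟩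
  obtain ⟨M, hM, hI, hD⟩ := h.2 P hP
  have hmv : ∀ (A : Matrix (Fin 2) (Fin 2) R) (u : Fin 2 → R),
      A.map φ *ᵥ (φ ∘ u) = φ ∘ (A *ᵥ u) := fun A u =>
    funext fun i => (RingHom.map_mulVec φ A u i).symm
  have hcol : (fun i => (M.map φ) i 0) = φ ∘ (fun i => M i 0) := rfl
  refine ⟨M.map φ, ?_, fun σ hσ v => ?_, fun σ hσ => ?_⟩
  · rw [← RingHom.mapMatrix_apply, ← RingHom.map_det]
    exact hM.map φ
  · choose u hu using fun i => hφ (v i)
    obtain rfl : φ ∘ u = v := funext hu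
    obtain ⟨t, ht⟩ := hI σ hσ u
    refine ⟨φ t, ?_⟩
    rw [hcol, DefRing.mapRep_apply, hmv]
    funext i
    have := congrArg φ (congrFun ht i)
    simpa using this
  · obtain ⟨x, z, hx, hz, hn⟩ := hD σ hσ
    refine ⟨φ x, φ z, ?_, fun v => ?_, fun n a ha => ?_⟩
    · rw [hcol, DefRing.mapRep_apply, hmv, hx]
      funext i
      simp
    · choose u hu using fun i => hφ (v i)
      obtain rfl : φ ∘ u = v := funext hu
      obtain ⟨t, ht⟩ := hz u
      refine ⟨φ t, ?_⟩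
      rw [hcol, DefRing.mapRep_apply, hmv]
      funext i
      have := congrArg φ (congrFun ht i)
      simpa using this
    · have := Ideal.mem_map_of_mem φ (hn n a ha)
      rw [Ideal.map_span, Set.image_singleton, map_natCast, map_sub, map_mul, map_natCast] at this
      exact this

end Map

section Back

variable {r : GQ →* Matrix (Fin 2) (Fin 2) R} {hr : DefRing.IsCont r}

theorem MatDetCyclo.toAdic {p : ℕ} (h : MatDetCyclo p r) :
    (DefRing.toAdic r hr).DetIsCyclotomic p :=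
  ⟨h.1, fun n σ a ha => by
    show LinearMap.det (Matrix.toLin' (r σ)) - _ ∈ _
    rw [LinearMap.det_toLin']
    exact h.2 n σ a ha⟩

theorem MatUnr.toAdic {q : ℕ} (h : MatUnr q r) : (DefRing.toAdic r hr).IsUnramifiedAt q :=
  fun P hP σ hσ => by
    show Matrix.toLin' (r σ) = 1
    rw [h P hP σ hσ, Matrix.toLin'_one]
    rfl

theorem MatUni.toAdic {q : ℕ} (h : MatUni q r) :
    (DefRing.toAdic r hr).IsUnipotentOnInertiaAt q :=
  fun P hP σ hσ => (Matrix.charpoly_toLin' (r σ)).trans (h P hP σ hσ)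

theorem MatStrict.toAdic {p : ℕ} (h : MatStrict p r) :
    (DefRing.toAdic r hr).IsStrictOrdinaryAt p := by
  refine ⟨h.1, fun P hP => ?_⟩
  obtain ⟨M, hM, hI, hD⟩ := h.2 P hP
  let b : Module.Basis (Fin 2) R (Fin 2 → R) :=
    (Pi.basisFun R (Fin 2)).map (DefRing.matEquiv M hM)
  have hb : b 0 = fun i => M i 0 := by
    funext i
    show (M *ᵥ (Pi.basisFun R (Fin 2) 0)) i = M i 0
    simp [Matrix.mulVec, dotProduct, Fin.sum_univ_two]
  refine ⟨R ∙ (fun i => M i 0), ⟨b, (congrArg (fun w : Fin 2 → R => R ∙ w) hb).symm⟩, fun σ hσ v hv => ?_, fun σ hσ v => ?_,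
    fun σ hσ => ?_⟩
  · obtain ⟨c, rfl⟩ := Submodule.mem_span_singleton.1 hv
    obtain ⟨x, z, hx, -, -⟩ := hD σ hσ
    refine Submodule.mem_span_singleton.2 ⟨c * x, ?_⟩
    show (c * x) • _ = r σ *ᵥ (c • _)
    rw [Matrix.mulVec_smul, hx, smul_smul]
  · obtain ⟨t, ht⟩ := hI σ hσ v
    exact Submodule.mem_span_singleton.2 ⟨t, ht.symm⟩
  · obtain ⟨x, z, hx, hz, hn⟩ := hD σ hσ
    refine ⟨x, z, fun w hw => ?_, fun v => ?_, hn⟩
    · obtain ⟨c, rfl⟩ := Submodule.mem_span_singleton.1 hw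
      show r σ *ᵥ (c • _) = x • (c • _)
      rw [Matrix.mulVec_smul, hx, smul_comm]
    · obtain ⟨t, ht⟩ := hz v
      exact Submodule.mem_span_singleton.2 ⟨t, ht.symm⟩

end Back

end

end FermatAgent.TW
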