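import Fermat.Agent.TW.LocalStrict
import Fermat.Agent.DefRing.MatrixRep
import Fermat.Prelude.Def_GaloisRep_LocalConditions

/-!
# The hypotheses on the residual representation in matrices
-/

set_option autoImplicit false

open IsLocalRing Matrix Module Polynomial

namespace FermatAgent.TW

noncomputable section

local notation "Qb" => AlgebraicClosure ℚ
local notation "GQ" => AlgebraicClosure ℚ ≃ₐ[ℚ] AlgebraicClosure ℚ

theorem exists_smul_of_kills {K : Type} [Field K] {a : Matrix (Fin 2) (Fin 2) K} (ha : a ≠ 0)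
    {v u : Fin 2 → K} (hv : v ≠ 0) (hav : a *ᵥ v = 0) (hau : a *ᵥ u = 0) :
    ∃ t : K, u = t • v := by
  refine exists_eq_of_lineForm_eq_zero hv ?_
  by_contra hD
  refine ha (Matrix.ext fun i j => ?_)
  have e1 := congrFun hav i
  have e2 := congrFun hau i
  simp [Matrix.mulVec, dotProduct, Fin.sum_univ_two] at e1 e2
  have h0 : a i 0 * lineForm v u = 0 := by
    rw [lineForm_apply]; linear_combination u 1 * e1 - v 1 * e2
  have h1 : a i 1 * lineForm v u = 0 := by
    rw [lineForm_apply]; linear_combination v 0 * e2 - u 0 * e1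
  fin_cases j
  · exact (mul_eq_zero.1 h0).resolve_right hD
  · exact (mul_eq_zero.1 h1).resolve_right hD

variable {k : Type} [Field k] (ρbar : ResidualGaloisRep k) (b : Module.Basis (Fin 2) k ρbar.V)

/-- The matrices of a residual representation, in `GL₂`. -/
def matGL : GQ →* GL (Fin 2) k := (DefRing.rmat b ρbar.ρ).toHomUnits

theorem coe_matGL (σ : GQ) :
    (matGL ρbar b σ : Matrix (Fin 2) (Fin 2) k) = LinearMap.toMatrix b b (ρbar.ρ σ) := rfl

theorem exists_not_eigen {K : Type} [Field K] [Algebra k K] (G : Subgroup GQ)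
    (h : ∀ V : Submodule K (ρbar.baseChange K).V,
      (∀ σ ∈ G, ∀ x ∈ V, (ρbar.baseChange K).ρ σ x ∈ V) → V = ⊥ ∨ V = ⊤)
    (u : Fin 2 → K) (hu : u ≠ 0) :
    ∃ σ ∈ G, ∀ r : K,
      (matGL ρbar b σ : Matrix (Fin 2) (Fin 2) k).map (algebraMap k K) *ᵥ u ≠ r • u := by
  by_contra hcon
  push Not at hcon
  let bK : Module.Basis (Fin 2) K (ρbar.baseChange K).V := Algebra.TensorProduct.basis K b
  set x := bK.equivFun.symm u with hx
  have hbx : bK.equivFun x = u := LinearEquiv.apply_symm_apply _ _
  have hV : ∀ σ ∈ G, ∀ y ∈ K ∙ x, (ρbar.baseChange K).ρ σ y ∈ K ∙ x := by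
    intro σ hσ y hy
    obtain ⟨c, rfl⟩ := Submodule.mem_span_singleton.1 hy
    obtain ⟨r, hr⟩ := hcon σ hσ
    have key : (ρbar.baseChange K).ρ σ x = r • x := by
      apply bK.equivFun.injective
      rw [DefRing.equivFun_apply_matrixOf bK _ σ x, map_smul, hbx, ← hr]
      congr 1
      exact DefRing.baseChange_toMatrix b (ρbar.ρ σ)
    rw [map_smul, key]
    exact Submodule.smul_mem _ _ (Submodule.smul_mem _ _ (Submodule.mem_span_singleton_self x))
  rcases h (K ∙ x) hV with h0 | h1
  · rw [Submodule.span_singleton_eq_bot] at h0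
    exact hu (by rw [← hbx, h0, map_zero])
  · have e1 := (ρbar.baseChange K).finrank_eq
    have e2 : finrank K (ρbar.baseChange K).V ≤ 1 := by
      rw [← finrank_top K (ρbar.baseChange K).V, ← h1]
      exact (finrank_span_le_card ({x} : Set _)).trans (by simp)
    omega

variable {p : ℕ} [Fact p.Prime] [Algebra (ZMod p) k]

theorem detCyclo_matGL (hdet : (GaloisRepAdic.ofResidualGaloisRep ρbar).DetIsCyclotomic p) :
    DetCyclo p (matGL ρbar b) := by
  intro σ
  have hp : p.Prime := Fact.out
  have : NeZero p := ⟨hp.ne_zero⟩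
  have : CharP k p := charP_of_injective_algebraMap (algebraMap (ZMod p) k).injective p
  set a : ℕ := (ExtCitation.cycloChar p σ : ZMod p).val
  obtain ⟨ζ, hζ⟩ := exists_primitiveRoot_qbar p
  have h := hdet.2 1 σ a fun μ hμ => by
    rw [pow_one] at hμ
    obtain ⟨i, -, rfl⟩ := hζ.eq_pow_of_pow_eq_one hμ
    rw [map_pow, apply_root_eq_pow hζ σ, ← pow_mul, ← pow_mul, mul_comm]
  rw [pow_one, CharP.cast_eq_zero k p, Ideal.span_singleton_eq_bot.2 rfl, Ideal.mem_bot,
    sub_eq_zero] at h
  rw [coe_matGL, LinearMap.det_toMatrix]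
  refine h.trans ?_
  rw [← map_natCast (algebraMap (ZMod p) k) a, ZMod.natCast_zmod_val]

/-- The standing hypotheses from absolute irreducibility on every index two subgroup. -/
theorem twHyp_matGL (hp2 : p ≠ 2) (habs : ρbar.IsAbsolutelyIrreducible)
    (hdet : (GaloisRepAdic.ofResidualGaloisRep ρbar).DetIsCyclotomic p)
    (hsplit : ∀ σ, ∃ α β : k, LinearMap.charpoly (ρbar.ρ σ) = (X - C α) * (X - C β))
    (hTW : ∀ (K : Type) [Field K] [Algebra k K] (G : Subgroup GQ), G.index = 2 →
      ∀ V : Submodule K (ρbar.baseChange K).V,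
        (∀ σ ∈ G, ∀ x ∈ V, (ρbar.baseChange K).ρ σ x ∈ V) → V = ⊥ ∨ V = ⊤) :
    TWHyp p (matGL ρbar b) := by
  have h2 := two_ne_zero_of (k := k) hp2
  let K := AlgebraicClosure k
  have habs' : ∀ u : Fin 2 → K, u ≠ 0 → ∃ σ, ∀ r : K,
      (matGL ρbar b σ : Matrix (Fin 2) (Fin 2) k).map (algebraMap k K) *ᵥ u ≠ r • u := by
    intro u hu
    obtain ⟨σ, -, hσ⟩ := exists_not_eigen ρbar b ⊤
      (fun V hV => habs V fun σ => hV σ (Subgroup.mem_top σ)) u hu
    exact ⟨σ, hσ⟩
  have hfix : ∀ v : Fin 2 → k, v ≠ 0 → ∃ σ, ∀ r : k,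
      (matGL ρbar b σ : Matrix (Fin 2) (Fin 2) k) *ᵥ v ≠ r • v := by
    intro v hv
    obtain ⟨σ, hσ⟩ := habs' (fun i => algebraMap k K (v i)) fun h => hv (funext fun i =>
      (algebraMap k K).injective (by rw [Pi.zero_apply, map_zero]; exact congrFun h i))
    refine ⟨σ, fun r hr => hσ (algebraMap k K r) (funext fun i => ?_)⟩
    have e := congrArg (algebraMap k K) (congrFun hr i)
    rw [RingHom.map_mulVec] at e
    simpa using e
  refine ⟨hp2, ?_, detCyclo_matGL ρbar b hdet, fun σ => ?_, hfix, fun a ha0 hat => ?_⟩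
  · obtain ⟨L, hL, h1⟩ := ρbar.factorsThroughFiniteLevel
    refine ⟨L, hL, fun σ hσ => Units.ext ?_⟩
    rw [coe_matGL, h1 σ fun x hx => hσ ⟨x, hx⟩]
    exact LinearMap.toMatrix_one b
  · obtain ⟨α, β, hαβ⟩ := hsplit σ
    set M : Matrix (Fin 2) (Fin 2) k := (matGL ρbar b σ : Matrix (Fin 2) (Fin 2) k)
    have hd : (Matrix.scalar (Fin 2) α - M).det = 0 := by
      rw [← Matrix.eval_charpoly, show M.charpoly = LinearMap.charpoly (ρbar.ρ σ) from
        LinearMap.charpoly_toMatrix _ b, hαβ]
      simp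
    obtain ⟨v, hv, hv0⟩ := (Matrix.exists_mulVec_eq_zero_iff).2 hd
    refine ⟨v, hv, α, ?_⟩
    rw [Matrix.sub_mulVec, sub_eq_zero] at hv0
    rw [← hv0]
    funext i
    simp [Matrix.mulVec, dotProduct, Matrix.scalar_apply, Matrix.diagonal_apply]
  · by_contra hcon
    push Not at hcon
    choose r hr using hcon
    by_cases hdet0 : a.det = 0
    · obtain ⟨v, hv, hav⟩ := (Matrix.exists_mulVec_eq_zero_iff).2 hdet0
      obtain ⟨σ, hσ⟩ := hfix v hv
      set g := matGL ρbar b σ
      have hgig : ((g⁻¹ : GL (Fin 2) k) : Matrix (Fin 2) (Fin 2) k) *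
          (g : Matrix (Fin 2) (Fin 2) k) = 1 := Units.inv_mul g
      have e : conjAct g a *ᵥ ((g : Matrix (Fin 2) (Fin 2) k) *ᵥ v) = 0 := by
        rw [conjAct, Matrix.mulVec_mulVec, mul_assoc, hgig, mul_one, ← Matrix.mulVec_mulVec, hav,
          Matrix.mulVec_zero]
      rw [hr, Matrix.smul_mulVec] at e
      have hr0 : r σ ≠ 0 := fun h0 => ha0 (by
        have := congrArg (conjAct g⁻¹) (hr σ)
        rw [← conjAct_mul, inv_mul_cancel, conjAct_one, h0, zero_smul] at this
        rw [this]
        simp [conjAct])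
      obtain ⟨t, ht⟩ := exists_smul_of_kills ha0 hv hav ((smul_eq_zero.1 e).resolve_left hr0)
      exact hσ t ht
    · have hsq : ∀ σ, r σ = 1 ∨ r σ = -1 := fun σ => by
        have hd : (conjAct (matGL ρbar b σ) a).det = a.det := Matrix.det_units_conj _ a
        rw [hr, Matrix.det_smul, Fintype.card_fin] at hd
        exact sq_eq_one_iff.1 (mul_right_cancel₀ hdet0 (hd.trans (one_mul _).symm))
      let G : Subgroup GQ :=
        { carrier := {σ | conjAct (matGL ρbar b σ) a = a}
          one_mem' := by simp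
          mul_mem' := fun {x y} hx hy => by
            show conjAct (matGL ρbar b (x * y)) a = a
            rw [map_mul, conjAct_mul, hy, hx]
          inv_mem' := fun {x} hx => by
            show conjAct (matGL ρbar b x⁻¹) a = a
            conv_lhs => rw [← (show conjAct (matGL ρbar b x) a = a from hx)]
            rw [← conjAct_mul, ← map_mul, inv_mul_cancel, map_one, conjAct_one] }
      have hmemG : ∀ σ, σ ∈ G ↔ conjAct (matGL ρbar b σ) a = a := fun σ => Iff.rfl
      set aK : Matrix (Fin 2) (Fin 2) K := a.map (algebraMap k K)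
      obtain ⟨μ, hμ⟩ := IsAlgClosed.exists_pow_nat_eq (-(algebraMap k K a.det)) two_pos
      have hd : (Matrix.scalar (Fin 2) μ - aK).det = 0 := by
        have h11 := apply_one_one_of_trace hat
        rw [det_fin_two] at hμ ⊢
        simp [aK, Matrix.scalar_apply, h11] at hμ ⊢
        linear_combination hμ
      obtain ⟨u, hu, hu0⟩ := (Matrix.exists_mulVec_eq_zero_iff).2 hd
      have hne : Matrix.scalar (Fin 2) μ - aK ≠ 0 := by
        intro h
        have h00 := congrFun (congrFun h 0) 0
        have h11 := congrFun (congrFun h 1) 1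
        simp [aK, Matrix.scalar_apply, apply_one_one_of_trace hat] at h00 h11
        have h2K : (2 : K) ≠ 0 := by
          rw [← map_ofNat (algebraMap k K)]
          exact (map_ne_zero_iff _ (algebraMap k K).injective).2 h2
        have : (2 : K) * μ = 0 := by linear_combination h00 + h11
        have hμ0 : μ = 0 := (mul_eq_zero.1 this).resolve_left h2K
        rw [hμ0, zero_pow two_ne_zero, eq_comm, neg_eq_zero] at hμ
        exact hdet0 ((algebraMap k K).injective (by rw [hμ, map_zero]))
      have heig : ∀ σ ∈ G, ∃ t : K,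
          (matGL ρbar b σ : Matrix (Fin 2) (Fin 2) k).map (algebraMap k K) *ᵥ u = t • u := by
        intro σ hσ
        set g := matGL ρbar b σ
        have hcomm : (g : Matrix (Fin 2) (Fin 2) k) * a = a * (g : Matrix (Fin 2) (Fin 2) k) := by
          conv_rhs => rw [← (hmemG σ).1 hσ, conjAct, mul_assoc, Units.inv_mul, mul_one]
        set gK := (g : Matrix (Fin 2) (Fin 2) k).map (algebraMap k K)
        have hcommK : gK * aK = aK * gK := by rw [← Matrix.map_mul, hcomm, Matrix.map_mul]
        refine exists_smul_of_kills hne hu hu0 ?_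
        rw [Matrix.mulVec_mulVec, Matrix.sub_mul, ← hcommK,
          (Matrix.scalar_commute μ (fun x => Commute.all μ x) gK).eq, ← Matrix.mul_sub,
          ← Matrix.mulVec_mulVec, hu0, Matrix.mulVec_zero]
      by_cases htop : ∀ σ, σ ∈ G
      · obtain ⟨σ, hσ⟩ := habs' u hu
        obtain ⟨t, ht⟩ := heig σ (htop σ)
        exact hσ t ht
      · push Not at htop
        obtain ⟨σ₀, hσ₀⟩ := htop
        have hneg : ∀ σ, σ ∉ G → conjAct (matGL ρbar b σ) a = -a := fun σ hσ => by
          rcases hsq σ with h | h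
          · exact absurd ((hr σ).trans (by rw [h, one_smul])) hσ
          · rw [hr, h, neg_one_smul]
        have hane : -a ≠ a := fun h => ha0 (by
          have : (2 : k) • a = 0 := by rw [two_smul]; nth_rw 1 [← h]; exact neg_add_cancel a
          exact (smul_eq_zero.1 this).resolve_left h2)
        have hindex : G.index = 2 := by
          refine Subgroup.index_eq_two_iff.2 ⟨σ₀, fun c => ?_⟩
          have hc : conjAct (matGL ρbar b (c * σ₀)) a = -conjAct (matGL ρbar b c) a := by
            rw [map_mul, conjAct_mul, hneg σ₀ hσ₀]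
            simp [conjAct]
          by_cases hcG : c ∈ G
          · refine Or.inr ⟨hcG, fun h => ?_⟩
            have e := hc
            rw [(hmemG _).1 h, (hmemG c).1 hcG] at e
            exact hane e.symm
          · exact Or.inl ⟨(hmemG _).2 (by rw [hc, hneg c hcG, neg_neg]), hcG⟩
        obtain ⟨σ, hσ, hno⟩ := exists_not_eigen ρbar b G (hTW K G hindex) u hu
        obtain ⟨t, ht⟩ := heig σ hσ
        exact hno t ht

end

end FermatAgent.TW
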