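import Fermat.Agent.TW.DefTangent
import Fermat.Agent.TW.MatrixConds
import Fermat.Agent.TW.Residual
import Fermat.Agent.TW.TangentBound
import Fermat.Agent.TW.FlatPush

/-!
# Presentations of deformation rings at Taylor–Wiles level
-/

set_option autoImplicit false
set_option linter.unusedSectionVars false

open IsLocalRing Matrix Module Polynomial groupCohomology

namespace FermatAgent.TW

noncomputable section

local notation "Qb" => AlgebraicClosure ℚ
local notation "GQ" => AlgebraicClosure ℚ ≃ₐ[ℚ] AlgebraicClosure ℚ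

theorem trace_eq_two_of_charpoly {S : Type} [CommRing S] [Nontrivial S]
    {M : Matrix (Fin 2) (Fin 2) S} (h : M.charpoly = (X - 1) ^ 2) : Matrix.trace M = 2 := by
  have h1 := congrArg (fun P : Polynomial S => P.coeff 1) h
  have h2 := Matrix.trace_eq_neg_charpoly_coeff M
  simp [sub_sq, Polynomial.coeff_X, Polynomial.coeff_one] at h1
  rw [h2]
  simp [h1]

theorem exists_placeFamily : ∃ Pl : Nat.Primes → ValuationSubring Qb,
    ∀ q : Nat.Primes, (Pl q).LiesOverPrime (q : ℕ) :=
  ⟨ExtCitation.primeLocalPlace, fun q => (FermatAgent.Duality.primeLocalToGlobal_bijOn q).2.2⟩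

variable {O : Type} [CommRing O] [IsDomain O] [IsDiscreteValuationRing O]
  [IsAdicComplete (maximalIdeal O) O] [Finite (ResidueField O)]
  {p : ℕ} [Fact p.Prime] [Algebra (ZMod p) (ResidueField O)]
  {ρbar : ResidualGaloisRep (ResidueField O)}
  {b : Module.Basis (Fin 2) (ResidueField O) ρbar.V}

theorem algebraMap_natCast_self : algebraMap O (ResidueField O) (p : O) = 0 := by
  have : CharP (ResidueField O) p :=
    charP_of_injective_algebraMap (algebraMap (ZMod p) (ResidueField O)).injective p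
  rw [map_natCast, CharP.cast_eq_zero]

theorem algebraMap_cycloVal (σ : GQ) :
    algebraMap O (ResidueField O) ((ExtCitation.cycloChar p σ : ZMod p).val : O) =
      algebraMap (ZMod p) (ResidueField O) (ExtCitation.cycloChar p σ : ZMod p) := by
  have : NeZero p := ⟨(Fact.out : p.Prime).ne_zero⟩
  rw [map_natCast, ← map_natCast (algebraMap (ZMod p) (ResidueField O)), ZMod.natCast_zmod_val]

theorem apply_root_cycloVal (σ : GQ) (μ : Qb) (hμ : μ ^ p ^ 1 = 1) :
    σ μ = μ ^ (ExtCitation.cycloChar p σ : ZMod p).val := by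
  have : NeZero p := ⟨(Fact.out : p.Prime).ne_zero⟩
  rw [pow_one] at hμ
  obtain ⟨ζ, hζ⟩ := exists_primitiveRoot_qbar p
  obtain ⟨i, -, rfl⟩ := hζ.eq_pow_of_pow_eq_one hμ
  rw [map_pow, apply_root_eq_pow hζ σ, ← pow_mul, ← pow_mul, mul_comm]

section

variable {R : Type} [CommRing R] [IsLocalRing R] [Algebra O R]
  {π : R →ₐ[O] ResidueField O} {r : GQ →* Matrix (Fin 2) (Fin 2) R}

theorem span_natCast_le : Ideal.span {((p ^ 1 : ℕ) : R)} ≤ Ideal.span {algebraMap O R (p : O)} := by
  rw [pow_one, map_natCast]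

theorem tan_det_eq_zero (h : MatDetCyclo p r) (u : tanSpace O R (ResidueField O) π) (σ : GQ) :
    (u : R → ResidueField O) (r σ).det = 0 := by
  have h1 := span_natCast_le (O := O) (h.2 1 σ _ (apply_root_cycloVal σ))
  have := tan_eq_zero_of_mem_span u.2 (algebraMap_natCast_self (p := p)) h1
  rwa [tan_sub u.2, tan_natCast u.2, sub_zero] at this

variable (hπm : ∀ x, π x = 0 ↔ x ∈ maximalIdeal R)
  (hres : ∀ σ, (r σ).map π = (matGL ρbar b σ : Matrix (Fin 2) (Fin 2) (ResidueField O)))
include hπm hres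

/-- Strictness: the residual line and the strict classes. -/
theorem exists_strictLine (h2 : (2 : ResidueField O) ≠ 0) (hdet : MatDetCyclo p r)
    (hstr : MatStrict p r) (hc : DefRing.IsCont r)
    (hlev : ∃ L : IntermediateField ℚ Qb, FiniteDimensional ℚ L ∧
      ∀ σ ∈ L.fixingSubgroup, matGL ρbar b σ = 1)
    {A : ValuationSubring Qb} (hA : A.LiesOverPrime p) :
    ∃ v, StrictLine (matGL ρbar b) p A v ∧ ∀ u : tanSpace O R (ResidueField O) π,
      resTo (A.decompositionSubgroup ℚ) (tanCoc r (matGL ρbar b) u) ∈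
        strictConds (matGL ρbar b) A v ⊔
          adCoboundaries (matGL ρbar b) (A.decompositionSubgroup ℚ) := by
  obtain ⟨M, hM, hI, hD⟩ := hstr.2 A hA
  set w : Fin 2 → R := fun i => M i 0
  set v : Fin 2 → ResidueField O := fun i => π (w i)
  have hdetM : π M.det ≠ 0 := (hM.map π).ne_zero
  rw [Matrix.det_fin_two, map_sub, map_mul, map_mul] at hdetM
  have hv : v ≠ 0 := fun h => hdetM (by
    rw [show π (M 0 0) = 0 from congrFun h 0, show π (M 1 0) = 0 from congrFun h 1]; ring)
  have hlift : ∀ y : Fin 2 → ResidueField O, ∃ u : Fin 2 → R, (fun i => π (u i)) = y := fun y => by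
    choose o ho using fun i => residue_surjective (y i)
    exact ⟨fun i => algebraMap O R (o i), funext fun i => by rw [π.commutes]; exact ho i⟩
  have hpush : ∀ σ (u : Fin 2 → R), (fun i => π ((r σ *ᵥ u) i)) =
      (matGL ρbar b σ : Matrix (Fin 2) (Fin 2) (ResidueField O)) *ᵥ (fun i => π (u i)) := by
    intro σ u
    rw [← hres]
    funext i
    exact RingHom.map_mulVec π.toRingHom _ _ i
  have hstable : ∀ σ ∈ A.decompositionSubgroup ℚ, ∀ x : R, r σ *ᵥ w = x • w →
      (matGL ρbar b σ : Matrix (Fin 2) (Fin 2) (ResidueField O)) *ᵥ v = π x • v := by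
    intro σ _ x hx
    rw [← hpush, hx]
    funext i
    simp [v]
  have hxz : ∀ σ, ∀ x z : R, r σ *ᵥ w = x • w →
      (∀ u : Fin 2 → R, ∃ t : R, r σ *ᵥ u - z • u = t • w) → (r σ).det = x * z := by
    intro σ x z hx hz
    obtain ⟨t, ht⟩ := hz fun i => M i 1
    have e : r σ * M = M * !![x, t; 0, z] := by
      ext i j
      have e0 := congrFun hx i
      have e1 := congrFun ht i
      simp only [Matrix.mulVec, dotProduct, Fin.sum_univ_two, Pi.smul_apply, Pi.sub_apply,
        smul_eq_mul, w] at e0 e1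
      fin_cases j <;> simp [Matrix.mul_apply, Fin.sum_univ_two]
      · linear_combination e0
      · linear_combination e1
    have e' := congrArg Matrix.det e
    rw [Matrix.det_mul, Matrix.det_mul, Matrix.det_fin_two !![x, t; 0, z], mul_comm] at e'
    simp at e'
    exact hM.mul_left_cancel e'
  refine ⟨v, ⟨⟨hv, fun σ hσ => ?_, fun σ hσ y => ?_⟩, fun σ hσ x' z' hx' hz' => ?_⟩, fun u => ?_⟩
  · obtain ⟨x, z, hx, -, -⟩ := hD σ hσ
    exact ⟨π x, hstable σ hσ x hx⟩
  · obtain ⟨y', rfl⟩ := hlift y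
    obtain ⟨t, ht⟩ := hI σ hσ y'
    refine ⟨π t, ?_⟩
    rw [← hpush]
    funext i
    have := congrArg π (congrFun ht i)
    simpa [v] using this
  · obtain ⟨x, z, hx, hz, hn⟩ := hD σ hσ
    have e1 : x' = π x :=
      smul_left_injective _ hv (hx'.symm.trans (hstable σ hσ x hx))
    have e2 : z' = π z := by
      by_contra hne
      obtain ⟨y, hy⟩ := exists_lineForm_eq_one hv
      obtain ⟨y', rfl⟩ := hlift y
      obtain ⟨t, ht⟩ := hz y'
      obtain ⟨t', ht'⟩ := hz' fun i => π (y' i)
      have hdiff : (π z - z') • (fun i => π (y' i)) = (t' - π t) • v := by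
        rw [sub_smul, sub_smul, ← ht', ← hpush]
        funext i
        have := congrArg π (congrFun ht i)
        simp only [v, Pi.sub_apply, Pi.smul_apply, smul_eq_mul, map_sub, map_mul] at this ⊢
        linear_combination -this
      have := congrArg (lineForm v) hdiff
      rw [map_smul, map_smul, hy, show lineForm v v = 0 by simp; ring] at this
      exact hne (sub_eq_zero.1 (by simpa using this)).symm
    have h1 := span_natCast_le (O := O) (hn 1 _ (apply_root_cycloVal σ))
    obtain ⟨y, hy⟩ := Ideal.mem_span_singleton'.1 h1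
    have h := congrArg π hy
    rw [map_mul, π.commutes, algebraMap_natCast_self, mul_zero, map_sub, map_mul, map_natCast,
      eq_comm, sub_eq_zero] at h
    rw [e1, e2, ← algebraMap_cycloVal (O := O) σ, map_natCast, h]
  · have hmem : resTo (A.decompositionSubgroup ℚ) (tanCoc r (matGL ρbar b) u) ∈
        adCocycles (matGL ρbar b) (A.decompositionSubgroup ℚ) :=
      resTo_tanCoc_mem hres (fun u σ => tan_det_eq_zero hdet u σ) (fun x hx => (hπm x).2 hx) hc
        (A.decompositionSubgroup ℚ) u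
    refine resTo_tanCoc_strict hres u hmem hlev hv fun σ hσ => ?_
    obtain ⟨x, z, hx, hz, hn⟩ := hD σ hσ
    refine ⟨x, hx, ?_⟩
    set c : ℕ := (ExtCitation.cycloChar p σ : ZMod p).val
    have hd : algebraMap O (ResidueField O) (c : O) ≠ 0 := by
      rw [algebraMap_cycloVal]
      exact (map_ne_zero_iff _ (algebraMap (ZMod p) (ResidueField O)).injective).2
        (ExtCitation.cycloChar p σ).ne_zero
    have hcR : algebraMap O R (c : O) = (c : R) := map_natCast (algebraMap O R) c
    have h1 : x * z - algebraMap O R (c : O) ∈ Ideal.span {algebraMap O R (p : O)} := by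
      rw [hcR, ← hxz σ x z hx hz]
      exact span_natCast_le (O := O) (hdet.2 1 σ c (apply_root_cycloVal σ))
    have h2' : x - algebraMap O R (c : O) * z ∈ Ideal.span {algebraMap O R (p : O)} := by
      rw [hcR]
      exact span_natCast_le (O := O) (hn 1 c (apply_root_cycloVal σ))
    exact (tan_eq_zero_of_strict u.2 h2 hd (algebraMap_natCast_self (p := p)) h1 h2').1

end

section Core

variable {𝒟 : ∀ ⦃A : Type⦄ [CommRing A] [IsLocalRing A] [Algebra O A], GaloisRepAdic A → Prop}

/-- The presentation from the local data. -/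
theorem exists_surjection_core (hρ : TWHyp p (matGL ρbar b)) (T Q : Finset Nat.Primes)
    (hpT : ExtCitation.pPrime p ∈ T)
    (hρunr : ∀ q : Nat.Primes, q ∉ T → ∀ A : ValuationSubring Qb, A.LiesOverPrime (q : ℕ) →
      ∀ g ∈ A.inertiaSubgroupIn ℚ, matGL ρbar b g = 1)
    (hram : ∀ q : Nat.Primes, q ∈ T → (q : ℕ) ≠ p → ∀ A : ValuationSubring Qb,
      A.LiesOverPrime (q : ℕ) → ∃ τ ∈ A.inertiaSubgroupIn ℚ, matGL ρbar b τ ≠ 1)
    (hQ : IsTWSet (matGL ρbar b) p T 1 Q)
    (DQ : GaloisRep.DeformationRingData O ρbar 𝒟)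
    {π : DQ.R →ₐ[O] ResidueField O} (hπ : ∀ x, π x = 0 ↔ x ∈ maximalIdeal DQ.R)
    {r : GQ →* Matrix (Fin 2) (Fin 2) DQ.R} (hc : DefRing.IsCont r)
    (he : DQ.ρ.IsEquiv (DefRing.toAdic r hc))
    (hres : ∀ σ, (r σ).map π = DefRing.rmat b ρbar.ρ σ)
    (hdet : MatDetCyclo p r)
    (hunr : ∀ q : Nat.Primes, q ∉ T ∪ Q → MatUnr (q : ℕ) r)
    (huni : ∀ q : Nat.Primes, q ∈ T → (q : ℕ) ≠ p → MatUni (q : ℕ) r)
    (hD : ∀ (f : tanSpace O DQ.R (ResidueField O) π)
      (hc' : DefRing.IsCont (DefRing.mapRep (tanHom f : DQ.R →+* DefRing.DN O) r)),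
      Function.Surjective (tanHom f) → 𝒟 (DefRing.toAdic _ hc'))
    (hp : ∀ A : ValuationSubring Qb, A.LiesOverPrime p →
      ∃ Zp : Submodule (ResidueField O)
          (A.decompositionSubgroup ℚ → Matrix (Fin 2) (Fin 2) (ResidueField O)),
        Zp ≤ adCocycles (matGL ρbar b) (A.decompositionSubgroup ℚ) ∧
        RankLE (Zp ⊔ adCoboundaries (matGL ρbar b) (A.decompositionSubgroup ℚ)) 4 ∧
        ∀ u : tanSpace O DQ.R (ResidueField O) π,
          resTo (A.decompositionSubgroup ℚ) (tanCoc r (matGL ρbar b) u) ∈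
            Zp ⊔ adCoboundaries (matGL ρbar b) (A.decompositionSubgroup ℚ))
    {n : ℕ} (hn : Q.card = n) :
    ∃ γ : MvPowerSeries (Fin n) O →ₐ[O] DQ.R, Function.Surjective γ := by
  classical
  set ρ := matGL ρbar b
  have hres' : ∀ σ, (r σ).map π = (ρ σ : Matrix (Fin 2) (Fin 2) (ResidueField O)) := hres
  have hπm : ∀ x ∈ maximalIdeal DQ.R, π x = 0 := fun x hx => (hπ x).2 hx
  have hdetf := fun (u : tanSpace O DQ.R (ResidueField O) π) σ => tan_det_eq_zero hdet u σ
  obtain ⟨Pl, hPl⟩ := exists_placeFamily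
  set q₀ := ExtCitation.pPrime p
  obtain ⟨Zp, hZp, hZpr, hZpu⟩ := hp (Pl q₀) (hPl q₀)
  let Z := Function.update (fun q : Nat.Primes => unipotentConds ρ (Pl q)) q₀ Zp
  have hne : ∀ q : Nat.Primes, q ≠ q₀ → (q : ℕ) ≠ p := fun q hq h => hq (Subtype.ext h)
  have hunir : ∀ q : Nat.Primes, q ∈ T → q ≠ q₀ →
      ∀ τ ∈ (Pl q).inertiaSubgroupIn ℚ,
        Matrix.trace (ρ τ : Matrix (Fin 2) (Fin 2) (ResidueField O)) = 2 := by
    intro q hq hq0 τ hτ
    have := congrArg π (trace_eq_two_of_charpoly (huni q hq (hne q hq0) (Pl q) (hPl q) τ hτ))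
    rw [← hres' τ, Matrix.trace_fin_two]
    rw [Matrix.trace_fin_two, map_add, map_ofNat] at this
    exact this
  have h := finrank_tan_le (O := O) (R := DQ.R) (π := π) (rho := r) hρ T hpT hρunr Q hQ hres'
    hdetf hπm hc (fun q hq A hA g hg => hunr q hq A hA g hg) Pl hPl Z
    (fun q hq => by
      rcases eq_or_ne q q₀ with rfl | hq0
      · simp only [Z, Function.update_self]; exact hZp
      · simp only [Z, Function.update_of_ne hq0]; exact fun c hc => hc.1)
    (fun q => if q = q₀ then 1 else 0) (fun _ => 0)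
    (fun q hq => by
      refine ⟨?_, Nat.zero_le _⟩
      rcases eq_or_ne q q₀ with rfl | hq0
      · simp only [Z, Function.update_self]; exact hZpr
      · simp only [Z, Function.update_of_ne hq0, if_neg hq0]
        exact rankLE_unipotent hρ q.2 (hne q hq0) (hPl q) (hunir q hq hq0)
          (hram q hq (hne q hq0) (Pl q) (hPl q)))
    ⊤
    (fun u _ q hq => by
      rcases eq_or_ne q q₀ with rfl | hq0
      · simp only [Z, Function.update_self]; exact hZpu u
      · simp only [Z, Function.update_of_ne hq0]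
        refine Submodule.mem_sup_left (resTo_tanCoc_unipotent hres' u
          (resTo_tanCoc_mem hres' hdetf hπm hc ((Pl q).decompositionSubgroup ℚ) u) fun τ hτ => ?_)
        exact trace_eq_two_of_charpoly (huni q hq (hne q hq0) (Pl q) (hPl q) τ hτ))
    (fun u _ a _ ha =>
      tan_eq_zero_of_universal DQ b hπ hc he (ρ := ρ) (fun σ => rfl) hres u (hD u) a ha)
  obtain ⟨hfin, hle⟩ := h
  rw [Finset.sum_const_zero, Finset.sum_ite_eq' T q₀, if_pos hpT, finrank_top] at hle
  refine exists_surjective_of_tanSpace π hπ (r := n)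
    (Module.Finite.equiv (Submodule.topEquiv (R := ResidueField O))) ?_
  omega

end Core

end

end FermatAgent.TW
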