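import Mathlib

/-!
# A counting lemma in the style of Dickson

A finite subgroup of `SL₂(k)` with an element of order `p` and no fixed line contains a torus element
acting on the unipotent group `P` with order at least `(|P| - 1) / 2`.
-/

set_option autoImplicit false

open scoped Pointwise
open Matrix OnePoint

namespace FermatAgent.TW

noncomputable section

theorem dickson_arith {s q c j : ℕ} (hc : 1 ≤ c) (hq : 9 ≤ q) (hj : 1 ≤ j) (hs : s = 1 + j * q)
    (hcq : c ≤ q - 1)
    (h : s * q * c = 2 + (q - 2) * s ∨ ∃ m n, 2 ≤ n ∧ m * n = s * q * c ∧ m = 2 + (q - 2) * s) :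
    q - 1 ≤ 2 * c := by
  obtain ⟨r, rfl⟩ : ∃ r, q = r + 2 := ⟨q - 2, by omega⟩
  simp only [Nat.add_sub_cancel] at h
  rcases h with h | ⟨m, n, hn, hmn, hm⟩
  · exfalso
    have h2 : s * (r + 2) * 1 ≤ s * (r + 2) * c := Nat.mul_le_mul_left _ hc
    have h3 : 1 * (r + 2) ≤ j * (r + 2) := Nat.mul_le_mul_right _ hj
    nlinarith [h2, h3]
  · -- `m = (r + 2) e` with `e = 1 + j r`
    have hme : m = (r + 2) * (1 + j * r) := by subst hs; rw [hm]; ring
    have hen : (1 + j * r) * n = s * c := by
      apply Nat.eq_of_mul_eq_mul_left (show 0 < r + 2 by omega)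
      rw [← mul_assoc, ← hme, hmn]; ring
    have hse : s = (1 + j * r) + 2 * j := by subst hs; ring
    have hdvd : (1 + j * r) ∣ 2 * c := by
      have h1 : (1 + j * r) ∣ 2 * j * c := by
        have h2 : (1 + j * r) ∣ s * c := ⟨n, hen.symm⟩
        rw [hse, add_mul] at h2
        exact (Nat.dvd_add_right (dvd_mul_right _ c)).mp h2
      have hcop : Nat.Coprime (1 + j * r) j := by
        rw [Nat.add_comm, Nat.coprime_mul_left_add_left]; exact Nat.coprime_one_left j
      rw [show 2 * j * c = j * (2 * c) by ring] at h1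
      exact hcop.dvd_of_dvd_mul_left h1
    have hle := Nat.le_of_dvd (by omega) hdvd
    rcases Nat.lt_or_ge j 2 with hj2 | hj2
    · obtain rfl : j = 1 := by omega
      omega
    · rcases Nat.lt_or_ge j 3 with hj3 | hj3
      · obtain rfl : j = 2 := by omega
        -- `2 r + 1` is odd, so divides `c`
        have hodd : Nat.Coprime (1 + 2 * r) 2 := by
          rw [Nat.coprime_comm, Nat.prime_two.coprime_iff_not_dvd]; omega
        have := Nat.le_of_dvd (by omega) (hodd.dvd_of_dvd_mul_left hdvd)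
        omega
      · have h3 : 3 * r ≤ j * r := Nat.mul_le_mul_right r hj3
        omega

set_option linter.unusedSectionVars false

variable {k : Type*} [Field k] [Finite k] [DecidableEq k] {p : ℕ} [Fact p.Prime] [CharP k p]

local notation "GL2" => GL (Fin 2) k

theorem apply_one_zero_mul (g h : GL2) (hg : g 1 0 = 0) (hh : h 1 0 = 0) :
    (g * h) 1 0 = 0 ∧ (g * h) 0 0 = g 0 0 * h 0 0 ∧ (g * h) 1 1 = g 1 1 * h 1 1 := by
  simp [Matrix.mul_apply, Fin.sum_univ_two, hg, hh]

theorem det_eq_mul_of_upper {g : GL2} (hg : g 1 0 = 0) :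
    (g : Matrix (Fin 2) (Fin 2) k).det = g 0 0 * g 1 1 := by
  simp [det_fin_two, hg]

theorem smul_eq_self_scalar {g : GL2} {a : k}
    (hg : (g : Matrix (Fin 2) (Fin 2) k) = Matrix.scalar (Fin 2) a) (x : OnePoint k) :
    g • x = x := by
  have ha : a ≠ 0 := by
    intro h
    have := g.det_ne_zero
    simp [hg, h] at this
  cases x with
  | infty => rw [smul_infty_eq_self_iff, hg]; simp
  | coe x => rw [smul_some_eq_ite]; simp [hg, ha]

/-- Number of fixed points of a non-scalar matrix with a fixed point. -/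
theorem card_fixed {g : GL2} (hns : (g : Matrix (Fin 2) (Fin 2) k) ∉ Set.range (Matrix.scalar (Fin 2)))
    {x : OnePoint k} (hx : g • x = x) :
    Nat.card {y : OnePoint k // g • y = y} =
      if Matrix.trace (g : Matrix (Fin 2) (Fin 2) k) ^ 2
        = 4 * (g : Matrix (Fin 2) (Fin 2) k).det then 1 else 2 := by
  obtain ⟨h, hh⟩ : ∃ h : GL2, h • x = ∞ := by
    cases x with
    | infty => exact ⟨1, one_smul _ _⟩
    | coe x =>
      refine ⟨GeneralLinearGroup.mkOfDetNeZero !![0, 1; 1, -x] (by simp [det_fin_two_of]), ?_⟩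
      rw [smul_some_eq_ite]
      simp
  set g' := h * g * h⁻¹ with hg'
  have hns' : (g' : Matrix (Fin 2) (Fin 2) k) ∉ Set.range (Matrix.scalar (Fin 2)) := by
    rintro ⟨a, ha⟩
    refine hns ⟨a, ?_⟩
    have e : g = h⁻¹ * g' * h := by rw [hg']; group
    rw [e, Units.val_mul, Units.val_mul, ← ha, mul_assoc,
      (Matrix.scalar_commute a (fun r => Commute.all _ _) (h : Matrix (Fin 2) (Fin 2) k)).eq,
      ← mul_assoc, ← Units.val_mul, inv_mul_cancel, Units.val_one, one_mul]
  have hupper : g' 1 0 = 0 := by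
    rw [← smul_infty_eq_self_iff, hg', mul_smul, mul_smul, ← hh, inv_smul_smul, hx]
  have e : {y : OnePoint k // g • y = y} ≃ {y : OnePoint k // g' • y = y} :=
    (MulAction.toPerm h).subtypeEquiv fun y => by
      rw [MulAction.toPerm_apply, hg', mul_smul, mul_smul, inv_smul_smul, smul_left_cancel_iff]
  have hdet : (g' : Matrix (Fin 2) (Fin 2) k).det = (g : Matrix (Fin 2) (Fin 2) k).det := by
    rw [hg', Units.val_mul, Units.val_mul, Matrix.det_units_conj]
  have htr : Matrix.trace (g' : Matrix (Fin 2) (Fin 2) k) =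
      Matrix.trace (g : Matrix (Fin 2) (Fin 2) k) := by
    rw [hg', Units.val_mul, Units.val_mul, Matrix.trace_units_conj]
  have hd1 : g' 1 1 ≠ 0 := by
    intro h0
    exact g'.det_ne_zero (by rw [det_eq_mul_of_upper hupper, h0, mul_zero])
  have hiff : (Matrix.trace (g : Matrix (Fin 2) (Fin 2) k) ^ 2
      = 4 * (g : Matrix (Fin 2) (Fin 2) k).det) ↔ g' 0 0 = g' 1 1 := by
    rw [← htr, ← hdet, trace_fin_two, det_eq_mul_of_upper hupper]
    constructor
    · intro h
      have : (g' 0 0 - g' 1 1) ^ 2 = 0 := by linear_combination h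
      exact sub_eq_zero.1 (pow_eq_zero_iff two_ne_zero |>.1 this)
    · intro h; rw [h]; ring
  rw [Nat.card_congr e]
  by_cases had : g' 0 0 = g' 1 1
  · rw [if_pos (hiff.2 had)]
    have hb : g' 0 1 ≠ 0 := by
      intro hb
      refine hns' ⟨g' 0 0, ?_⟩
      ext i j
      fin_cases i <;> fin_cases j <;> simp [hb, hupper, had]
    have : Unique {y : OnePoint k // g' • y = y} :=
      { default := ⟨∞, smul_infty_eq_self_iff.2 hupper⟩
        uniq := fun ⟨y, hy⟩ => Subtype.ext <| by
          cases y with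
          | infty => rfl
          | coe y =>
            exfalso
            rw [smul_some_eq_ite] at hy
            simp only [hupper, zero_mul, zero_add, hd1, if_false, coe_eq_coe] at hy
            rw [div_eq_iff hd1, had] at hy
            exact hb (by linear_combination hy) }
    exact Nat.card_unique
  · rw [if_neg (mt hiff.1 had)]
    let r : k := g' 0 1 / (g' 1 1 - g' 0 0)
    have hsub : g' 1 1 - g' 0 0 ≠ 0 := sub_ne_zero.2 (Ne.symm had)
    rw [Nat.card_eq_two_iff]
    refine ⟨⟨∞, smul_infty_eq_self_iff.2 hupper⟩, ⟨(r : k), ?_⟩, by simp [Subtype.ext_iff], ?_⟩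
    · rw [smul_some_eq_ite]
      simp only [hupper, zero_mul, zero_add, hd1, if_false, coe_eq_coe]
      simp only [r]
      field_simp
      ring
    · refine Set.eq_univ_iff_forall.2 fun ⟨y, hy⟩ => ?_
      cases y with
      | infty => exact Or.inl rfl
      | coe y =>
        right
        rw [smul_some_eq_ite] at hy
        simp only [hupper, zero_mul, zero_add, hd1, if_false, coe_eq_coe] at hy
        rw [div_eq_iff hd1] at hy
        refine Subtype.ext (congrArg OnePoint.some ?_)
        simp only [r]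
        rw [eq_div_iff hsub]
        linear_combination -hy

/-- The unipotent upper triangular elements of `G`. -/
def unipotents (G : Subgroup GL2) : Subgroup GL2 where
  carrier := {g | g ∈ G ∧ g 1 0 = 0 ∧ g 0 0 = 1 ∧ g 1 1 = 1}
  one_mem' := ⟨one_mem _, by simp⟩
  mul_mem' := by
    rintro g h ⟨hg, g1, g2, g3⟩ ⟨hh, h1, h2, h3⟩
    obtain ⟨e1, e2, e3⟩ := apply_one_zero_mul g h g1 h1
    exact ⟨mul_mem hg hh, e1, by rw [e2, g2, h2, mul_one], by rw [e3, g3, h3, mul_one]⟩
  inv_mem' := by
    rintro g ⟨hg, g1, g2, g3⟩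
    refine ⟨inv_mem hg, ?_⟩
    have hd : (g : Matrix (Fin 2) (Fin 2) k).det = 1 := by
      rw [det_eq_mul_of_upper g1, g2, g3, mul_one]
    simp [Matrix.coe_units_inv, Matrix.inv_def, hd, adjugate_fin_two, g1, g2, g3]

theorem pow_char_eq_one {G : Subgroup GL2} {g : GL2} (hg : g ∈ unipotents G) : g ^ p = 1 := by
  obtain ⟨-, g1, g2, g3⟩ := hg
  refine Units.ext ?_
  rw [Units.val_pow_eq_pow_val, Units.val_one]
  have hN : ((g : Matrix (Fin 2) (Fin 2) k) - 1) ^ 2 = 0 := by
    ext i j
    fin_cases i <;> fin_cases j <;> simp [pow_two, Matrix.mul_apply, Fin.sum_univ_two, g1, g2, g3]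
  calc (g : Matrix (Fin 2) (Fin 2) k) ^ p
      = (((g : Matrix (Fin 2) (Fin 2) k) - 1) + 1) ^ p := by rw [sub_add_cancel]
    _ = ((g : Matrix (Fin 2) (Fin 2) k) - 1) ^ p + 1 ^ p :=
        add_pow_char_of_commute p (Commute.one_right _)
    _ = 1 := by rw [pow_eq_zero_of_le (Fact.out : p.Prime).two_le hN, zero_add, one_pow]

end

end FermatAgent.TW
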