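import Fermat.Agent.TW.DicksonTorus

/-!
# Dickson: the torus in the normaliser of `P` is large
-/

set_option autoImplicit false
set_option linter.unusedSectionVars false

open scoped Pointwise
open Matrix OnePoint

namespace FermatAgent.TW

noncomputable section

variable {k : Type*} [Field k] [Finite k] [DecidableEq k] {p : ℕ} [Fact p.Prime] [CharP k p]
variable {G : Subgroup (GL (Fin 2) k)}

local notation "GL2" => GL (Fin 2) k
local notation "M2" => Matrix (Fin 2) (Fin 2) k

@[local simp] theorem diagonal_neg_one : (Matrix.diagonal fun _ : Fin 2 => (-1 : k)) = -1 := by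
  rw [← Matrix.diagonal_neg, Matrix.diagonal_one]

/-- the character `g ↦ (g₀₀)²` of the Borel subgroup -/
def torusChar (G : Subgroup (GL (Fin 2) k)) : borel G →* kˣ where
  toFun g := Units.mk0 ((g : GL2) 0 0 ^ 2) (pow_ne_zero 2 fun h => by
    have hd := (g : GL2).det_ne_zero
    rw [det_eq_mul_of_upper ((mem_borel_iff G).1 g.2), h, zero_mul] at hd
    exact hd rfl)
  map_one' := Units.ext (by simp)
  map_mul' g h := Units.ext (by
    obtain ⟨-, e, -⟩ := apply_one_zero_mul (g : GL2) (h : GL2) ((mem_borel_iff G).1 g.2)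
      ((mem_borel_iff G).1 h.2)
    simp only [Units.val_mk0, Units.val_mul, ← mul_pow]
    rw [← e]
    rfl)

theorem card_ker_torusChar (hp : p ≠ 2) (hdet : ∀ g ∈ G, (g : M2).det = 1) (hneg : -1 ∈ G) :
    Nat.card (torusChar G).ker = 2 * Nat.card (unipotents G) := by
  have hmem : ∀ u : unipotents G, (u : GL2) ∈ G := fun u => u.2.1
  have hB : ∀ u : unipotents G, (⟨(u : GL2), hmem u⟩ : G) ∈ borel G := fun u =>
    (mem_borel_iff G).2 u.2.2.1
  have hnegB : (⟨-1, hneg⟩ : G) ∈ borel G := (mem_borel_iff G).2 (by simp)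
  let f₀ : unipotents G → (torusChar G).ker := fun u =>
    ⟨⟨⟨u, hmem u⟩, hB u⟩, Units.ext (by
      show (u : GL2) 0 0 ^ 2 = 1
      rw [u.2.2.2.1, one_pow])⟩
  let ng : (torusChar G).ker := ⟨⟨⟨-1, hneg⟩, hnegB⟩, Units.ext (by
    show (-1 : GL2) 0 0 ^ 2 = 1
    simp)⟩
  let f : Bool × unipotents G → (torusChar G).ker := fun bu =>
    cond bu.1 (ng * f₀ bu.2) (f₀ bu.2)
  have hne := neg_one_ne_one (k := k) hp
  have hk1 : (-1 : k) ≠ 1 := Ring.neg_one_ne_one_of_char_ne_two (by rw [ringChar.eq k p]; exact hp)
  have hbij : Function.Bijective f := by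
    constructor
    · rintro ⟨a, u⟩ ⟨b, v⟩ h
      have h' := congrArg (fun g : (torusChar G).ker => (((g : borel G) : G) : GL2)) h
      cases a <;> cases b <;>
        simp only [f, f₀, ng, cond_true, cond_false, Subgroup.coe_mul] at h'
      · exact Prod.ext rfl (Subtype.ext h')
      · have := congrArg (fun g : GL2 => g 0 0) h'
        simp [u.2.2.2.1, v.2.2.2.1] at this
        exact absurd this.symm hk1
      · have := congrArg (fun g : GL2 => g 0 0) h'
        simp [u.2.2.2.1, v.2.2.2.1] at this
        exact absurd this hk1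
      · exact Prod.ext rfl (Subtype.ext (mul_left_cancel h'))
    · rintro ⟨⟨⟨g, hgG⟩, hgB⟩, hg⟩
      have h10 : g 1 0 = 0 := (mem_borel_iff G).1 hgB
      have h2 : g 0 0 ^ 2 = 1 := congrArg Units.val hg
      have hd := hdet g hgG
      rw [det_eq_mul_of_upper h10] at hd
      rcases sq_eq_one_iff.1 h2 with h | h <;> rw [h] at hd
      · refine ⟨(false, ⟨g, hgG, h10, h, by simpa using hd⟩), rfl⟩
      · refine ⟨(true, ⟨-1 * g, mul_mem hneg hgG, by simp [h10], by simp [h],
          by simpa using hd⟩), ?_⟩
        refine Subtype.ext (Subtype.ext (Subtype.ext ?_))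
        show (-1 : GL2) * (-1 * g) = g
        rw [← mul_assoc]; simp
  rw [← Nat.card_eq_of_bijective f hbij, Nat.card_prod, Nat.card_eq_fintype_card,
    Fintype.card_bool]

theorem card_range_torusChar_le (p : ℕ) [Fact p.Prime] [CharP k p] (hdet : ∀ g ∈ G, (g : M2).det = 1) (hP : unipotents G ≠ ⊥) :
    Nat.card (torusChar G).range ≤ Nat.card (unipotents G) - 1 := by
  classical
  obtain ⟨w, hw, hw1⟩ := (Subgroup.bot_or_exists_ne_one _).resolve_left hP
  obtain ⟨hwG, w10, w00, w11⟩ := hw
  have hx0 : w 0 1 ≠ 0 := by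
    intro h
    refine hw1 (Units.ext ?_)
    ext i j
    fin_cases i <;> fin_cases j <;> simp [w10, w00, w11, h]
  let f : (torusChar G).range → {v : unipotents G // v ≠ 1} := fun t =>
    let g : GL2 := (((t.2.choose : borel G) : G) : GL2)
    ⟨⟨g * w * g⁻¹, by
      have hg10 : g 1 0 = 0 := (mem_borel_iff G).1 t.2.choose.2
      have hgG : g ∈ G := ((t.2.choose : borel G) : G).2
      refine mem_unipotents_of_pow (p := p) hdet (mul_mem (mul_mem hgG hwG) (inv_mem hgG)) ?_
        (n := 1) ?_
      · rw [← smul_infty_eq_self_iff, mul_smul, mul_smul,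
          show g⁻¹ • (∞ : OnePoint k) = ∞ from inv_smul_eq_iff.2 (smul_infty_eq_self_iff.2 hg10).symm,
          smul_infty_eq_self_iff.2 w10, smul_infty_eq_self_iff.2 hg10]
      · rw [pow_one, conj_pow, pow_char_eq_one (G := G) ⟨hwG, w10, w00, w11⟩, mul_one,
          mul_inv_cancel]⟩,
      fun h => hw1 (conj_eq_one_iff.1 (congrArg Subtype.val h))⟩
  have hinj : Function.Injective f := by
    intro t t' h
    have key : ∀ t : (torusChar G).range,
        (((f t).1 : unipotents G) : GL2) 0 1 = ((t : kˣ) : k) * w 0 1 := by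
      intro t
      set g : GL2 := (((t.2.choose : borel G) : G) : GL2) with hg
      have ht : g 0 0 ^ 2 = ((t : kˣ) : k) := congrArg Units.val t.2.choose_spec
      have hg10 : g 1 0 = 0 := (mem_borel_iff G).1 t.2.choose.2
      have hd := hdet g ((t.2.choose : borel G) : G).2
      show (g * w * g⁻¹) 0 1 = _
      rw [← ht]
      rw [det_eq_mul_of_upper hg10] at hd
      simp [Matrix.mul_apply, Fin.sum_univ_two, Matrix.coe_units_inv, Matrix.inv_def,
        adjugate_fin_two, det_eq_mul_of_upper hg10, hd, hg10, w10, w00, w11]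
      ring
    have h1 := key t
    rw [h, key t'] at h1
    exact Subtype.ext (Units.ext (mul_right_cancel₀ hx0 h1.symm))
  refine (Nat.card_le_card_of_injective f hinj).trans_eq ?_
  have : Fintype (unipotents G) := Fintype.ofFinite _
  rw [Nat.card_eq_fintype_card, Nat.card_eq_fintype_card, Fintype.card_subtype_compl,
    Fintype.card_subtype_eq]

theorem exists_card_orbit_eq (_hP : unipotents G ≠ ⊥) (hnB : ∃ g ∈ G, g 1 0 ≠ 0) :
    ∃ j, 1 ≤ j ∧
      Nat.card (MulAction.orbit G (∞ : OnePoint k)) = 1 + j * Nat.card (unipotents G) := by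
  classical
  let V : AddSubgroup k :=
    { carrier := {b | ∃ u ∈ unipotents G, u 0 1 = b}
      zero_mem' := ⟨1, one_mem _, by simp⟩
      add_mem' := by
        rintro a b ⟨u, hu, rfl⟩ ⟨v, hv, rfl⟩
        refine ⟨u * v, mul_mem hu hv, ?_⟩
        simp [Matrix.mul_apply, Fin.sum_univ_two, hu.2.2.1, hv.2.2.2]
        ring
      neg_mem' := by
        rintro a ⟨u, hu, rfl⟩
        refine ⟨u⁻¹, inv_mem hu, ?_⟩
        simp [Matrix.coe_units_inv, Matrix.inv_def, adjugate_fin_two,
          det_eq_mul_of_upper hu.2.1, hu.2.2.1, hu.2.2.2] }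
  have hVcard : Nat.card V = Nat.card (unipotents G) := by
    refine (Nat.card_eq_of_bijective
      (fun u : unipotents G => (⟨(u : GL2) 0 1, u, u.2, rfl⟩ : V)) ⟨fun u v h => ?_, ?_⟩).symm
    · refine Subtype.ext (Units.ext ?_)
      ext i j
      fin_cases i <;> fin_cases j <;>
        simp [u.2.2.1, v.2.2.1, u.2.2.2.1, v.2.2.2.1, u.2.2.2.2, v.2.2.2.2,
          show (u : GL2) 0 1 = (v : GL2) 0 1 from congrArg Subtype.val h]
    · rintro ⟨b, u, hu, rfl⟩; exact ⟨⟨u, hu⟩, rfl⟩
  let O := MulAction.orbit G (∞ : OnePoint k)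
  let A : Set k := {a | (a : OnePoint k) ∈ O}
  have hA : A = (QuotientAddGroup.mk (s := V)) ⁻¹' ((QuotientAddGroup.mk (s := V)) '' A) := by
    ext a
    refine ⟨fun h => ⟨a, h, rfl⟩, ?_⟩
    rintro ⟨a', ha', e⟩
    obtain ⟨u, hu, hb⟩ := QuotientAddGroup.eq.1 e
    obtain ⟨g, hg : g • ∞ = (a' : OnePoint k)⟩ := ha'
    refine ⟨⟨u, hu.1⟩ * g, ?_⟩
    show (⟨u, hu.1⟩ * g : G) • (∞ : OnePoint k) = (a : OnePoint k)
    rw [mul_smul, hg]
    show u • (a' : OnePoint k) = _
    rw [smul_some_eq_ite]
    simp [hu.2.1, hu.2.2.1, hu.2.2.2, hb]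
  have hcard : Nat.card A = Nat.card V * Nat.card ((QuotientAddGroup.mk (s := V)) '' A) := by
    conv_lhs => rw [hA]
    rw [Nat.card_congr (QuotientAddGroup.preimageMkEquivAddSubgroupProdSet V _), Nat.card_prod]
  refine ⟨Nat.card ((QuotientAddGroup.mk (s := V)) '' A), ?_, ?_⟩
  · have : Nonempty ((QuotientAddGroup.mk (s := V)) '' A) := by
      obtain ⟨g, hg, h10⟩ := hnB
      refine ⟨⟨_, g 0 0 / g 1 0, ⟨⟨g, hg⟩, ?_⟩, rfl⟩⟩
      show g • (∞ : OnePoint k) = _
      rw [smul_infty_eq_ite, if_neg h10]
    exact Nat.card_pos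
  · rw [← hVcard, mul_comm, ← hcard]
    have e : O ≃ Option A :=
      { toFun := fun y => match y with
          | ⟨(∞ : OnePoint k), _⟩ => Option.none
          | ⟨(a : k), h⟩ => Option.some ⟨a, h⟩
        invFun := fun o => match o with
          | Option.none => ⟨∞, MulAction.mem_orbit_self _⟩
          | Option.some a => ⟨(a.1 : OnePoint k), a.2⟩
        left_inv := by
          rintro ⟨y, hy⟩
          cases y <;> rfl
        right_inv := by
          rintro (_ | a) <;> rfl }
    rw [show Nat.card O = Nat.card A + 1 from (Nat.card_congr e).trans Finite.card_option]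
    ring

open Classical in
theorem sum_over_stabilizer (hp : p ≠ 2) (hdet : ∀ g ∈ G, (g : M2).det = 1) (hneg : -1 ∈ G)
    [Fintype G] [Fintype k] (x : OnePoint k) :
    ((Finset.univ : Finset G).filter fun g : G =>
      (((g : GL2) : M2) ∉ Set.range (Matrix.scalar (Fin 2))) ∧ g • x = x).card + 2
      = Nat.card (MulAction.stabilizer G x) := by
  classical
  rw [Nat.card_eq_fintype_card, Fintype.card_subtype]
  have h2 : ({1, ⟨-1, hneg⟩} : Finset G).card = 2 := by
    rw [Finset.card_insert_of_notMem, Finset.card_singleton]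
    rw [Finset.mem_singleton]
    exact fun h => neg_one_ne_one (k := k) hp (congrArg Subtype.val h).symm
  refine (congrArg (_ + ·) h2.symm).trans ?_
  rw [← Finset.card_union_of_disjoint]
  · refine congrArg Finset.card ?_
    ext g
    simp only [Finset.mem_union, Finset.mem_filter, Finset.mem_univ, true_and, Finset.mem_insert,
      Finset.mem_singleton, MulAction.mem_stabilizer_iff]
    refine ⟨?_, fun h => ?_⟩
    · rintro (⟨-, h⟩ | rfl | rfl)
      · exact h
      · exact one_smul _ _
      · exact smul_eq_self_scalar (a := -1) (by simp) x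
    · by_cases hs : ((g : GL2) : M2) ∈ Set.range (Matrix.scalar (Fin 2))
      · rcases scalar_iff_of_det_one hdet hs with h' | h'
        · exact Or.inr (Or.inl (Subtype.ext h'))
        · exact Or.inr (Or.inr (Subtype.ext h'))
      · exact Or.inl ⟨hs, h⟩
  · rw [Finset.disjoint_left]
    intro g hg hg'
    simp only [Finset.mem_filter, Finset.mem_univ, true_and] at hg
    simp only [Finset.mem_insert, Finset.mem_singleton] at hg'
    rcases hg' with rfl | rfl
    · exact hg.1 ⟨1, by simp⟩
    · exact hg.1 ⟨-1, by simp⟩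

set_option maxHeartbeats 800000 in
/-- Dickson's counting argument. -/
theorem exists_large_torus (hp : p ≠ 2) (hdet : ∀ g ∈ G, (g : M2).det = 1) (hneg : -1 ∈ G)
    (hfix : ∀ g ∈ G, ∃ x : OnePoint k, g • x = x) (hnB : ∃ g ∈ G, g 1 0 ≠ 0)
    (hq : 9 ≤ Nat.card (unipotents G)) :
    ∃ τ ∈ G, τ 1 0 = 0 ∧ Nat.card (unipotents G) ≤ 2 * orderOf (τ 0 0 ^ 2) + 1 := by
  classical
  have : Fintype k := Fintype.ofFinite k
  have : Fintype G := Fintype.ofFinite G
  have hP : unipotents G ≠ ⊥ := fun h => by
    rw [h, Subgroup.card_bot] at hq; omega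
  set q := Nat.card (unipotents G) with hqdef
  set K := Nat.card (borel G) with hKdef
  set c := Nat.card (torusChar G).range with hcdef
  have hK : K = 2 * q * c := by
    rw [hKdef, Subgroup.card_eq_card_quotient_mul_card_subgroup (torusChar G).ker,
      card_ker_torusChar hp hdet hneg,
      Nat.card_congr (QuotientGroup.quotientKerEquivRange (torusChar G)).toEquiv]
    ring
  have hc1 : 1 ≤ c := Nat.card_pos
  have hcq : c ≤ q - 1 := card_range_torusChar_le p hdet hP
  obtain ⟨j, hj, hs⟩ := exists_card_orbit_eq hP hnB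
  set O := MulAction.orbit G (∞ : OnePoint k)
  set s := Nat.card O with hsdef
  have horb : ∀ x : OnePoint k, Nat.card (MulAction.orbit G x) *
      Nat.card (MulAction.stabilizer G x) = Nat.card G := fun x => by
    rw [← Nat.card_prod, Nat.card_congr (MulAction.orbitProdStabilizerEquivGroup G x)]
  have hG : Nat.card G = s * K := (horb ∞).symm
  let NS : Finset G := (Finset.univ : Finset G).filter fun g : G =>
    ((g : GL2) : M2) ∉ Set.range (Matrix.scalar (Fin 2))
  let U : Finset G := NS.filter fun g : G => Matrix.trace ((g : GL2) : M2) ^ 2 = 4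
  let fixers : OnePoint k → Finset G := fun x => NS.filter fun g : G => g • x = x
  have hfx : ∀ x, (fixers x).card + 2 = Nat.card (MulAction.stabilizer G x) := fun x => by
    rw [← sum_over_stabilizer hp hdet hneg x]
    simp only [fixers, NS, Finset.filter_filter]
  have hNS : NS.card + 2 = Nat.card G := by
    have hall : NS = (Finset.univ : Finset G) \ {1, ⟨-1, hneg⟩} := by
      ext g
      simp only [NS, Finset.mem_filter, Finset.mem_univ, true_and, Finset.mem_sdiff,
        Finset.mem_insert, Finset.mem_singleton]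
      refine ⟨?_, fun h hsc => h ?_⟩
      · rintro h (rfl | rfl)
        · exact h ⟨1, by simp⟩
        · exact h ⟨-1, by simp⟩
      · rcases scalar_iff_of_det_one hdet hsc with h' | h'
        · exact Or.inl (Subtype.ext h')
        · exact Or.inr (Subtype.ext h')
    have h2 : ({1, ⟨-1, hneg⟩} : Finset G).card = 2 := by
      rw [Finset.card_insert_of_notMem, Finset.card_singleton]
      rw [Finset.mem_singleton]
      exact fun h => neg_one_ne_one (k := k) hp (congrArg Subtype.val h).symm
    rw [hall, Finset.card_sdiff_of_subset (Finset.subset_univ _), h2, Finset.card_univ,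
      Nat.card_eq_fintype_card]
    have : 2 ≤ Fintype.card G := h2.symm.le.trans (Finset.card_le_univ _)
    omega
  have hfixg : ∀ g ∈ NS, ((Finset.univ : Finset (OnePoint k)).filter fun x => g • x = x).card =
      if Matrix.trace ((g : GL2) : M2) ^ 2 = 4 then 1 else 2 := fun g hg => by
    rw [← card_fixed' hdet hfix g (Finset.mem_filter.1 hg).2, Nat.card_eq_fintype_card,
      Fintype.card_subtype]
  -- double counting
  have hswap : ∀ S : Finset (OnePoint k), ∀ T : Finset G, T ⊆ NS →
      ∑ x ∈ S, (T.filter fun g : G => g • x = x).card =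
        ∑ g ∈ T, (S.filter fun x => g • x = x).card := fun S T _ => by
    simp only [Finset.card_filter]
    exact Finset.sum_comm
  have hsplit : ∑ g ∈ NS, ((Finset.univ : Finset (OnePoint k)).filter fun x => g • x = x).card
      + U.card = 2 * NS.card := by
    rw [Finset.sum_congr rfl hfixg, Finset.card_filter, ← Finset.sum_add_distrib,
      mul_comm, ← smul_eq_mul, ← Finset.sum_const]
    refine Finset.sum_congr rfl fun g _ => ?_
    split_ifs <;> rfl
  -- elements with a double eigenvalue
  let OF : Finset (OnePoint k) := Finset.univ.filter fun x => x ∈ O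
  have hOF : OF.card = s := by
    rw [hsdef, Nat.card_eq_fintype_card, Fintype.card_subtype]
  have hUB : ∀ x ∈ OF, (U.filter fun g : G => g • x = x).card + 2 = 2 * q := by
    intro x hx
    obtain ⟨h, rfl⟩ := (Finset.mem_filter.1 hx).2
    rw [hqdef, ← card_ker_torusChar hp hdet hneg, Nat.card_eq_fintype_card]
    have hrw : (U.filter fun g : G => g • h • (∞ : OnePoint k) = h • ∞).card =
        (U.filter fun g : G => g • (∞ : OnePoint k) = ∞).card := by
      refine Finset.card_equiv (MulAut.conj h⁻¹).toEquiv fun g => ?_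
      have htr : Matrix.trace (((h⁻¹ * g * h : G) : GL2) : M2) =
          Matrix.trace ((g : GL2) : M2) := by
        simp only [Subgroup.coe_mul, InvMemClass.coe_inv, Units.val_mul]
        rw [Matrix.trace_units_conj']
      have hsc : (((h⁻¹ * g * h : G) : GL2) : M2) ∈ Set.range (Matrix.scalar (Fin 2)) ↔
          ((g : GL2) : M2) ∈ Set.range (Matrix.scalar (Fin 2)) := by
        constructor
        · intro hh
          rcases scalar_iff_of_det_one hdet hh with e | e
          · have : h⁻¹ * g * h = 1 := Subtype.ext e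
            have : g = 1 := by
              rw [show g = h * (h⁻¹ * g * h) * h⁻¹ by group, this, mul_one, mul_inv_cancel]
            subst this
            exact ⟨1, by simp⟩
          · have : h⁻¹ * g * h = ⟨-1, hneg⟩ := Subtype.ext e
            have hg : g = h * ⟨-1, hneg⟩ * h⁻¹ := by rw [← this]; group
            refine ⟨-1, ?_⟩
            rw [hg]
            simp
        · intro hh
          rcases scalar_iff_of_det_one hdet hh with e | e
          · exact ⟨1, by simp [e]⟩
          · exact ⟨-1, by simp [e]⟩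
      show g ∈ U.filter _ ↔ MulAut.conj h⁻¹ g ∈ U.filter _
      rw [MulAut.conj_apply, inv_inv]
      simp only [U, NS, Finset.mem_filter, Finset.mem_univ, true_and, hsc, htr, mul_smul,
        inv_smul_eq_iff]
    have h2 : ({1, ⟨-1, hneg⟩} : Finset G).card = 2 := by
      rw [Finset.card_insert_of_notMem, Finset.card_singleton]
      rw [Finset.mem_singleton]
      exact fun e => neg_one_ne_one (k := k) hp (congrArg Subtype.val e).symm
    rw [hrw]
    refine (congrArg (_ + ·) h2.symm).trans ?_
    rw [← Finset.card_union_of_disjoint]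
    · rw [← Finset.card_univ, ← Finset.card_map ⟨fun g : (torusChar G).ker => ((g : borel G) : G),
        fun a b e => Subtype.ext (Subtype.ext e)⟩]
      refine congrArg Finset.card ?_
      ext g
      simp only [U, NS, Finset.mem_union, Finset.mem_filter, Finset.mem_univ, true_and,
        Finset.mem_insert, Finset.mem_singleton, Finset.mem_map, Function.Embedding.coeFn_mk]
      have hiff : ∀ hB : g ∈ borel G, (torusChar G ⟨g, hB⟩ = 1 ↔
          Matrix.trace ((g : GL2) : M2) ^ 2 = 4) := by
        intro hB
        have hd := hdet g g.2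
        have h10 := (mem_borel_iff G).1 hB
        rw [det_eq_mul_of_upper h10] at hd
        rw [trace_fin_two]
        refine ⟨fun e => ?_, fun e => Units.ext ?_⟩
        · have e' : (g : GL2) 0 0 ^ 2 = 1 := congrArg Units.val e
          linear_combination e' + 2 * hd + ((g : GL2) 1 1 ^ 2) * (-e') + ((g : GL2) 0 0 * (g : GL2) 1 1 + 1) * hd
        · show (g : GL2) 0 0 ^ 2 = 1
          have e2 : ((g : GL2) 0 0 - (g : GL2) 1 1) ^ 2 = 0 := by linear_combination e - 4 * hd
          have e3 := sub_eq_zero.1 ((pow_eq_zero_iff two_ne_zero).1 e2)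
          rw [← e3] at hd
          rw [pow_two]; exact hd
      constructor
      · rintro (⟨⟨-, htr⟩, hB⟩ | rfl | rfl)
        · exact ⟨⟨⟨g, hB⟩, (hiff hB).2 htr⟩, rfl⟩
        · exact ⟨1, rfl⟩
        · exact ⟨⟨⟨⟨-1, hneg⟩, (mem_borel_iff G).2 (by simp)⟩,
            Units.ext (show ((-1 : GL2) 0 0 : k) ^ 2 = 1 by simp)⟩, rfl⟩
      · rintro ⟨⟨⟨g', hB⟩, hker⟩, rfl⟩
        by_cases hsc : ((g' : GL2) : M2) ∈ Set.range (Matrix.scalar (Fin 2))
        · rcases scalar_iff_of_det_one hdet hsc with e | e
          · exact Or.inr (Or.inl (Subtype.ext e))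
          · exact Or.inr (Or.inr (Subtype.ext e))
        · exact Or.inl ⟨⟨hsc, (hiff hB).1 hker⟩, hB⟩
    · rw [Finset.disjoint_left]
      intro g hg hg'
      simp only [U, NS, Finset.mem_filter, Finset.mem_univ, true_and] at hg
      simp only [Finset.mem_insert, Finset.mem_singleton] at hg'
      rcases hg' with rfl | rfl
      · exact hg.1.1 ⟨1, by simp⟩
      · exact hg.1.1 ⟨-1, by simp⟩
  have hU : U.card + 2 * s = 2 * q * s := by
    have h1 : ∀ g ∈ U, (OF.filter fun x => g • x = x).card = 1 := by
      intro g hg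
      obtain ⟨hgNS, htr⟩ := Finset.mem_filter.1 hg
      have := hfixg g hgNS
      rw [if_pos htr] at this
      rw [← this]
      refine congrArg Finset.card ?_
      ext x
      simp only [OF, Finset.mem_filter, Finset.mem_univ, true_and]
      exact ⟨fun h => h.2, fun h => ⟨fixed_mem_orbit (p := p) hp hdet hfix hP
        (Finset.mem_filter.1 hgNS).2 htr h, h⟩⟩
    rw [Finset.card_eq_sum_ones, ← Finset.sum_congr rfl h1,
      ← hswap OF U (Finset.filter_subset _ _), mul_comm 2 s, mul_comm (2 * q) s, ← hOF,
      ← smul_eq_mul, ← smul_eq_mul, ← Finset.sum_const, ← Finset.sum_const,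
      ← Finset.sum_add_distrib]
    exact Finset.sum_congr rfl hUB
  have hO : ∑ x ∈ OF, (fixers x).card + 2 * s = Nat.card G := by
    rw [hG, ← hOF, mul_comm 2, ← smul_eq_mul, ← smul_eq_mul, ← Finset.sum_const,
      ← Finset.sum_const, ← Finset.sum_add_distrib]
    refine Finset.sum_congr rfl fun x hx => ?_
    obtain ⟨h, rfl⟩ := (Finset.mem_filter.1 hx).2
    rw [hfx, hKdef]
    exact (MulAction.stabilizerEquivStabilizer (G := G) (a := ∞) rfl).toEquiv.symm
      |> Nat.card_congr
  set R := ∑ x ∈ OFᶜ, (fixers x).card with hR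
  have htotal : R + Nat.card G + 2 * q * s + 4 = 2 * Nat.card G + 4 * s := by
    have h1 : ∑ x, (fixers x).card = ∑ x ∈ OF, (fixers x).card + R := by
      rw [hR, Finset.sum_add_sum_compl]
    have h2 := hswap Finset.univ NS subset_rfl
    have h3 : ∀ x, (fixers x) = NS.filter fun g : G => g • x = x := fun x => rfl
    simp only [← h3] at h2
    omega
  have hGpos : 0 < Nat.card G := Nat.card_pos
  have hs1 : 1 ≤ s := by omega
  have hRlt : R < Nat.card G := by
    have := Nat.mul_le_mul (show 9 ≤ q from hq) hs1
    nlinarith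
  have hcase : s * q * c = 2 + (q - 2) * s ∨
      ∃ m n, 2 ≤ n ∧ m * n = s * q * c ∧ m = 2 + (q - 2) * s := by
    have hGsqc : Nat.card G = 2 * (s * q * c) := by rw [hG, hK]; ring
    have hq2 : (q - 2) * s + 2 * s = q * s := by
      rw [← add_mul]; congr 1; omega
    by_cases hR0 : R = 0
    · left
      nlinarith
    · right
      obtain ⟨y, hy, hy0⟩ : ∃ y ∈ OFᶜ, (fixers y).card ≠ 0 := by
        by_contra! h
        exact hR0 (Finset.sum_eq_zero h)
      obtain ⟨n, hn⟩ : 2 ∣ Nat.card (MulAction.stabilizer G y) := by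
        have hmem : (⟨-1, hneg⟩ : G) ∈ MulAction.stabilizer G y :=
          smul_eq_self_scalar (a := -1) (by simp) y
        have : orderOf (⟨⟨-1, hneg⟩, hmem⟩ : MulAction.stabilizer G y) = 2 :=
          orderOf_eq_prime (Subtype.ext (Subtype.ext (by simp)))
            (fun h => neg_one_ne_one (k := k) hp
              (congrArg (fun z : MulAction.stabilizer G y => ((z : G) : GL2)) h))
        have h' := orderOf_dvd_natCard (G := MulAction.stabilizer G _) ⟨⟨-1, hneg⟩, hmem⟩
        rwa [this] at h'
      let O1 : Finset (OnePoint k) := Finset.univ.filter fun x => x ∈ MulAction.orbit G y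
      have hO1 : ∀ x ∈ O1, (fixers x).card + 2 = 2 * n := fun x hx => by
        obtain ⟨h, rfl⟩ := (Finset.mem_filter.1 hx).2
        rw [hfx, ← hn]
        exact Nat.card_congr
          (MulAction.stabilizerEquivStabilizer (G := G) (a := y) rfl).toEquiv.symm
      set m := O1.card with hm
      have hmn : m * (2 * n) = Nat.card G := by
        rw [← hn, ← horb y, hm, Nat.card_eq_fintype_card (α := MulAction.orbit G y),
          Fintype.card_subtype]
      have hn2 : 2 ≤ n := by
        have := hfx y
        omega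
      have hsum1 : ∑ x ∈ O1, (fixers x).card + 2 * m = Nat.card G := by
        rw [← hmn, mul_comm 2 m, hm, ← smul_eq_mul, ← smul_eq_mul, ← Finset.sum_const,
          ← Finset.sum_const, ← Finset.sum_add_distrib]
        exact Finset.sum_congr rfl hO1
      have hsub : O1 ⊆ OFᶜ := by
        intro x hx
        simp only [OF, Finset.mem_compl, Finset.mem_filter, Finset.mem_univ, true_and]
        intro hxO
        simp only [O1, Finset.mem_filter, Finset.mem_univ, true_and] at hx
        simp only [OF, Finset.mem_compl, Finset.mem_filter, Finset.mem_univ, true_and] at hy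
        apply hy
        show y ∈ MulAction.orbit G (∞ : OnePoint k)
        rw [← MulAction.orbit_eq_iff] at hx hxO ⊢
        rw [← hx, hxO]
      have hrest : ∑ x ∈ OFᶜ \ O1, (fixers x).card = 0 := by
        by_contra hne
        obtain ⟨z, hz, hz0⟩ : ∃ z ∈ OFᶜ \ O1, (fixers z).card ≠ 0 := by
          by_contra! h
          exact hne (Finset.sum_eq_zero h)
        obtain ⟨hzO, hz1⟩ := Finset.mem_sdiff.1 hz
        let O2 : Finset (OnePoint k) := Finset.univ.filter fun x => x ∈ MulAction.orbit G z
        set K2 := Nat.card (MulAction.stabilizer G z) with hK2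
        have hO2 : ∀ x ∈ O2, (fixers x).card + 2 = K2 := fun x hx => by
          obtain ⟨h, rfl⟩ := (Finset.mem_filter.1 hx).2
          rw [hfx, hK2]
          exact Nat.card_congr
            (MulAction.stabilizerEquivStabilizer (G := G) (a := z) rfl).toEquiv.symm
        have hm2 : O2.card * K2 = Nat.card G := by
          rw [hK2, ← horb z, Nat.card_eq_fintype_card (α := MulAction.orbit G z),
            Fintype.card_subtype]
        have hsum2 : ∑ x ∈ O2, (fixers x).card + 2 * O2.card = Nat.card G := by
          rw [← hm2, mul_comm 2 O2.card, ← smul_eq_mul, ← smul_eq_mul, ← Finset.sum_const,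
            ← Finset.sum_const, ← Finset.sum_add_distrib]
          exact Finset.sum_congr rfl hO2
        have hsub2 : O2 ⊆ OFᶜ \ O1 := by
          intro x hx
          simp only [O2, Finset.mem_filter, Finset.mem_univ, true_and] at hx
          simp only [OF, Finset.mem_compl, Finset.mem_filter, Finset.mem_univ, true_and] at hzO
          simp only [O1, Finset.mem_filter, Finset.mem_univ, true_and] at hz1
          simp only [OF, O1, Finset.mem_sdiff, Finset.mem_compl, Finset.mem_filter, Finset.mem_univ,
            true_and]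
          have e := MulAction.orbit_eq_iff.2 hx
          refine ⟨fun h => hzO ?_, fun h => hz1 ?_⟩
          · show z ∈ MulAction.orbit G (∞ : OnePoint k)
            rw [← MulAction.orbit_eq_iff, ← e]
            exact MulAction.orbit_eq_iff.2 h
          · rw [← MulAction.orbit_eq_iff, ← e]
            exact MulAction.orbit_eq_iff.2 h
        have h1 := Finset.sum_sdiff (f := fun x => (fixers x).card) hsub
        have h2 := Finset.sum_le_sum_of_subset (f := fun x => (fixers x).card) hsub2
        have h3 := hfx z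
        have h4 : 2 ∣ K2 := by
          have hmem : (⟨-1, hneg⟩ : G) ∈ MulAction.stabilizer G z :=
            smul_eq_self_scalar (a := -1) (by simp) z
          have : orderOf (⟨⟨-1, hneg⟩, hmem⟩ : MulAction.stabilizer G z) = 2 :=
            orderOf_eq_prime (Subtype.ext (Subtype.ext (by simp)))
              (fun h => neg_one_ne_one (k := k) hp
                (congrArg (fun z' : MulAction.stabilizer G z => ((z' : G) : GL2)) h))
          have h' := orderOf_dvd_natCard (G := MulAction.stabilizer G _) ⟨⟨-1, hneg⟩, hmem⟩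
          rwa [this] at h'
        have h5 : O2.card * 4 ≤ O2.card * K2 := Nat.mul_le_mul_left _ (by omega)
        have h6 : m * 4 ≤ m * (2 * n) := Nat.mul_le_mul_left _ (by omega)
        omega
      have h1 := Finset.sum_sdiff (f := fun x => (fixers x).card) hsub
      rw [hrest, zero_add, ← hR] at h1
      refine ⟨m, n, hn2, ?_, ?_⟩
      · apply Nat.eq_of_mul_eq_mul_left (show 0 < 2 by omega)
        rw [← hGsqc, ← hmn]; ring
      · nlinarith
  have hfin := dickson_arith hc1 hq hj hs hcq hcase
  obtain ⟨t, ht⟩ := IsCyclic.exists_generator (α := (torusChar G).range)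
  obtain ⟨τ, hτ⟩ := t.2
  refine ⟨((τ : G) : GL2), (τ : G).2, (mem_borel_iff G).1 τ.2, ?_⟩
  have hord : orderOf (((τ : G) : GL2) 0 0 ^ 2) = c := by
    rw [hcdef, ← orderOf_eq_card_of_forall_mem_zpowers ht, ← Subgroup.orderOf_coe, ← hτ,
      ← orderOf_units]
    rfl
  rw [hord]
  omega

end

end FermatAgent.TW
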