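import Fermat.Agent.TW.DicksonCount

/-!
# Existence of a large torus element (Dickson)
-/

set_option autoImplicit false
set_option linter.unusedSectionVars false

open scoped Pointwise
open Matrix OnePoint

namespace FermatAgent.TW

noncomputable section

variable {k : Type*} [Field k] [Finite k] [DecidableEq k] {p : ℕ} [Fact p.Prime] [CharP k p]

local notation "GL2" => GL (Fin 2) k
local notation "M2" => Matrix (Fin 2) (Fin 2) k

variable (G : Subgroup (GL (Fin 2) k))

/-- elements fixing `∞` -/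
abbrev borel : Subgroup G := MulAction.stabilizer G (∞ : OnePoint k)

theorem mem_borel_iff {g : G} : g ∈ borel G ↔ (g : GL2) 1 0 = 0 := by
  rw [MulAction.mem_stabilizer_iff]
  exact smul_infty_eq_self_iff

variable {G}

theorem scalar_iff_of_det_one (hdet : ∀ g ∈ G, ((g : GL2) : M2).det = 1) {g : G}
    (h : ((g : GL2) : M2) ∈ Set.range (Matrix.scalar (Fin 2))) :
    (g : GL2) = 1 ∨ (g : GL2) = -1 := by
  obtain ⟨a, ha⟩ := h
  have h1 := hdet g g.2
  rw [← ha] at h1
  simp at h1
  rcases h1 with rfl | rfl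
  · left; ext1; rw [← ha, map_one]; rfl
  · right; ext1; rw [← ha, map_neg, map_one]; rfl

theorem neg_one_ne_one (hp : p ≠ 2) : (-1 : GL2) ≠ 1 := by
  intro h
  have h1 : (-1 : k) = 1 := by
    have := congrArg (fun g : GL2 => g 0 0) h
    simpa using this
  exact Ring.neg_one_ne_one_of_char_ne_two (by rw [ringChar.eq k p]; exact hp) h1

theorem mem_unipotents_of_pow (hdet : ∀ g ∈ G, ((g : GL2) : M2).det = 1) {g : GL2} (hg : g ∈ G)
    (hup : g 1 0 = 0) {n : ℕ} (hn : g ^ p ^ n = 1) : g ∈ unipotents G := by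
  have key : ∀ m : ℕ, (g ^ m) 1 0 = 0 ∧ (g ^ m) 0 0 = g 0 0 ^ m := by
    intro m
    induction m with
    | zero => simp
    | succ m ih =>
      obtain ⟨e1, e2, -⟩ := apply_one_zero_mul (g ^ m) g ih.1 hup
      rw [pow_succ]
      exact ⟨e1, by rw [e2, ih.2, pow_succ]⟩
  have h00 : g 0 0 ^ p ^ n = 1 := by
    rw [← (key (p ^ n)).2, hn]; simp
  have : g 0 0 = 1 := iterateFrobenius_inj k p n (by rw [iterateFrobenius_def, iterateFrobenius_def,
    h00, one_pow])
  have hd := hdet g hg
  rw [det_eq_mul_of_upper hup, this, one_mul] at hd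
  exact ⟨hg, hup, this, hd⟩

theorem card_fixed' (hdet : ∀ g ∈ G, ((g : GL2) : M2).det = 1)
    (hfix : ∀ g ∈ G, ∃ x : OnePoint k, g • x = x) (g : G)
    (hns : ((g : GL2) : M2) ∉ Set.range (Matrix.scalar (Fin 2))) :
    Nat.card {y : OnePoint k // g • y = y} =
      if Matrix.trace ((g : GL2) : M2) ^ 2 = 4 then 1 else 2 := by
  obtain ⟨x, hx⟩ := hfix g g.2
  have := card_fixed hns hx
  rw [hdet g g.2, mul_one] at this
  exact this

/-- An element with a double eigenvalue fixes only a conjugate of `∞`. -/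
theorem fixed_mem_orbit (hp : p ≠ 2) (hdet : ∀ g ∈ G, ((g : GL2) : M2).det = 1)
    (hfix : ∀ g ∈ G, ∃ x : OnePoint k, g • x = x) (hP : unipotents G ≠ ⊥) {g : G}
    (hns : ((g : GL2) : M2) ∉ Set.range (Matrix.scalar (Fin 2)))
    (htr : Matrix.trace ((g : GL2) : M2) ^ 2 = 4) {x : OnePoint k} (hx : g • x = x) :
    x ∈ MulAction.orbit G (∞ : OnePoint k) := by
  have h2 : (2 : k) ≠ 0 := Ring.two_ne_zero (by rw [ringChar.eq k p]; exact hp)
  set s : k := Matrix.trace ((g : GL2) : M2) / 2 with hs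
  have hs2 : s ^ 2 = 1 := by
    rw [hs, div_pow, htr]; field_simp; ring
  set N : M2 := ((g : GL2) : M2) - Matrix.scalar (Fin 2) s with hN
  have hN2 : N ^ 2 = 0 := by
    have hCH : ((g : GL2) : M2) ^ 2 = Matrix.trace ((g : GL2) : M2) • ((g : GL2) : M2) - 1 := by
      have hd := hdet g g.2
      rw [det_fin_two] at hd
      ext i j
      fin_cases i <;> fin_cases j <;>
        simp [pow_two, Matrix.mul_apply, Fin.sum_univ_two, trace_fin_two] <;>
        first | linear_combination -hd | linear_combination hd | ring1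
    rw [hN, pow_two, sub_mul, mul_sub, mul_sub, ← pow_two, hCH,
      (Matrix.scalar_commute s (fun r => Commute.all _ _) ((g : GL2) : M2)).eq,
      show Matrix.trace ((g : GL2) : M2) = s + s by rw [hs]; field_simp; ring, ← map_mul, ← pow_two, hs2,
      map_one, add_smul]
    rw [Matrix.scalar_apply, ← Matrix.smul_one_eq_diagonal, mul_smul_comm, mul_one]
    abel
  have hpodd : ((g : GL2) : M2) ^ (2 * p) = 1 := by
    have e : ((g : GL2) : M2) = N + Matrix.scalar (Fin 2) s := by rw [hN, sub_add_cancel]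
    rw [pow_mul', e, add_pow_char_of_commute p
      (Matrix.scalar_commute s (fun r => Commute.all _ _) N).symm,
      pow_eq_zero_of_le (Fact.out : p.Prime).two_le hN2, zero_add, ← pow_mul', ← map_pow,
      pow_mul, hs2, one_pow, map_one]
  set u := g ^ 2 with hu
  have hup : u ^ p = 1 := by
    rw [hu, ← pow_mul]; exact Subtype.ext (Units.ext (by simpa using hpodd))
  have huns : ((u : GL2) : M2) ∉ Set.range (Matrix.scalar (Fin 2)) := by
    rintro ⟨a, ha⟩
    have e : ((u : GL2) : M2) = Matrix.scalar (Fin 2) 1 + (2 * s) • N := by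
      rw [hu, SubgroupClass.coe_pow, Units.val_pow_eq_pow_val,
        show ((g : GL2) : M2) = Matrix.scalar (Fin 2) s + N by rw [hN, add_sub_cancel],
        (Matrix.scalar_commute s (fun r => Commute.all _ _) N).add_sq, hN2, add_zero, ← map_pow,
        hs2]
      rw [mul_assoc, map_one, Matrix.scalar_apply, ← Matrix.smul_one_eq_diagonal, smul_mul_assoc,
        one_mul, two_mul, mul_smul, two_smul]
    rw [e, ← sub_eq_iff_eq_add', ← map_sub] at ha
    have hs0 : 2 * s ≠ 0 := mul_ne_zero h2 (by rintro h; rw [h] at hs2; simp at hs2)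
    apply hns
    refine ⟨(a - 1) / (2 * s) + s, ?_⟩
    rw [map_add, eq_comm, ← sub_eq_iff_eq_add]
    rw [← hN, ← inv_smul_smul₀ hs0 N, ← ha, Matrix.scalar_apply, Matrix.scalar_apply,
      ← Matrix.smul_one_eq_diagonal, ← Matrix.smul_one_eq_diagonal, smul_smul, div_eq_inv_mul]
  have hux : u • x = x := by rw [hu, pow_two, mul_smul, hx, hx]
  have : IsPGroup p (Subgroup.zpowers u) := by
    rintro ⟨v, m, rfl⟩
    refine ⟨1, Subtype.ext ?_⟩
    show ((u ^ m) : G) ^ p ^ 1 = 1
    rw [pow_one, ← zpow_natCast, ← _root_.zpow_mul, mul_comm, _root_.zpow_mul, zpow_natCast, hup, _root_.one_zpow]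
  obtain ⟨Q, hQ⟩ := this.exists_le_sylow
  let P' : Subgroup G := (unipotents G).subgroupOf G
  have hP' : IsPGroup p P' := fun v => ⟨1, Subtype.ext (Subtype.ext (by
    rw [pow_one, SubgroupClass.coe_pow, SubgroupClass.coe_pow]
    exact pow_char_eq_one v.2))⟩
  obtain ⟨Q₀, hQ₀⟩ := hP'.exists_le_sylow
  -- `Q₀` fixes `∞`
  have hcard : ¬ p ∣ Nat.card (OnePoint k) := by
    have : Fintype k := Fintype.ofFinite k
    rw [show Nat.card (OnePoint k) = Nat.card k + 1 from Finite.card_option]
    obtain ⟨n, -, hn⟩ := FiniteField.card k p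
    rw [Nat.card_eq_fintype_card, hn]
    intro h
    exact (Fact.out : p.Prime).one_lt.ne' (Nat.dvd_one.mp
      ((Nat.dvd_add_right (dvd_pow_self p n.ne_zero)).mp h))
  have hQ₀fix : ∀ v ∈ (Q₀ : Subgroup G), v • (∞ : OnePoint k) = ∞ := by
    obtain ⟨y, hy⟩ := Q₀.2.nonempty_fixed_point_of_prime_not_dvd_card (OnePoint k) hcard
    obtain ⟨w, hw, hw1⟩ := (Subgroup.bot_or_exists_ne_one _).resolve_left hP
    obtain ⟨hwG, w10, w00, w11⟩ := hw
    have hwy : w • y = y := hy ⟨⟨w, hwG⟩, hQ₀ (show w ∈ unipotents G from ⟨hwG, w10, w00, w11⟩)⟩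
    have hy' : y = ∞ := by
      cases y with
      | infty => rfl
      | coe y =>
        exfalso
        rw [smul_some_eq_ite] at hwy
        simp only [w10, w11, zero_mul, zero_add, one_ne_zero, if_false, w00, one_mul, div_one,
          coe_eq_coe, add_eq_left] at hwy
        refine hw1 (Units.ext ?_)
        ext i j
        fin_cases i <;> fin_cases j <;> simp [w10, w00, w11, hwy]
    intro v hv
    have := hy ⟨v, hv⟩
    rwa [hy'] at this
  obtain ⟨h, hh⟩ := MulAction.exists_smul_eq G Q₀ Q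
  refine ⟨h, ?_⟩
  have huQ : h⁻¹ * u * h ∈ (Q₀ : Subgroup G) := by
    have h1 : u ∈ (Q : Subgroup G) := hQ (Subgroup.mem_zpowers u)
    rw [← hh, Sylow.coe_subgroup_smul, Subgroup.mem_pointwise_smul_iff_inv_smul_mem,
      MulAut.smul_def, ← map_inv, MulAut.conj_apply, inv_inv] at h1
    exact h1
  have hfixu : u • (h • (∞ : OnePoint k)) = h • ∞ := by
    have := hQ₀fix _ huQ
    rw [mul_smul, mul_smul, inv_smul_eq_iff] at this
    exact this
  -- `u` fixes exactly one point
  have hc := card_fixed' hdet hfix u huns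
  rw [if_pos] at hc
  · have : Subsingleton {y : OnePoint k // u • y = y} := (Nat.card_eq_one_iff_unique.mp hc).1
    exact congrArg Subtype.val
      (Subsingleton.elim (⟨_, hfixu⟩ : {y : OnePoint k // u • y = y}) ⟨x, hux⟩)
  · have h1 : Matrix.trace ((u : GL2) : M2) = Matrix.trace ((g : GL2) : M2) ^ 2 - 2 := by
      have hd := hdet g g.2
      rw [det_fin_two] at hd
      rw [hu, SubgroupClass.coe_pow, Units.val_pow_eq_pow_val, trace_fin_two, trace_fin_two]
      simp [pow_two, Matrix.mul_apply, Fin.sum_univ_two]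
      linear_combination -2 * hd
    rw [h1, htr]; ring

end

end FermatAgent.TW
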