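import Fermat.Agent.TW.Defs

/-!
# The twisted adjoint module as a `Rep`: cocycles as matrix valued functions
-/

set_option autoImplicit false

open Matrix Module CategoryTheory groupCohomology

namespace FermatAgent.TW

noncomputable section

local notation "Qb" => AlgebraicClosure ℚ
local notation "GQ" => AlgebraicClosure ℚ ≃ₐ[ℚ] AlgebraicClosure ℚ

variable {k : Type} [Field k] {p : ℕ} [Fact p.Prime] [Algebra (ZMod p) k]
  (ρ : GQ →* GL (Fin 2) k)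

/-- `Ad⁰ ρ ⊗ χ` as an object of `Rep`. -/
abbrev twM (p : ℕ) [Fact p.Prime] [Algebra (ZMod p) k] (ρ : GQ →* GL (Fin 2) k) :
    Rep (ZMod p) GQ :=
  Rep.of (twRep p ρ)

variable {ρ}

/-- The matrix valued function of a cocycle. -/
def matFun (c : cocycles₁ (twM p ρ)) : GQ → Matrix (Fin 2) (Fin 2) k :=
  fun σ => ((c.1 σ : sl2 k) : Matrix (Fin 2) (Fin 2) k)

theorem matFun_add (c d : cocycles₁ (twM p ρ)) (σ : GQ) :
    matFun (c + d) σ = matFun c σ + matFun d σ := rfl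

theorem matFun_smul (r : ZMod p) (c : cocycles₁ (twM p ρ)) (σ : GQ) :
    matFun (r • c) σ = r • matFun c σ := rfl

theorem isDualCocycle_matFun (hdet : DetCyclo p ρ) (c : cocycles₁ (twM p ρ)) :
    IsDualCocycle ρ (matFun c) := by
  refine ⟨fun σ => mem_sl2.1 (c.1 σ : sl2 k).2, fun σ τ => ?_⟩
  have h := (mem_cocycles₁_iff (A := twM p ρ) c.1).1 c.2 σ τ
  show ((c.1 (σ * τ) : sl2 k) : Matrix (Fin 2) (Fin 2) k) = _
  rw [h]
  show ((twRep p ρ σ (c.1 τ) + c.1 σ : sl2 k) : Matrix (Fin 2) (Fin 2) k) = _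
  rw [Submodule.coe_add, coe_twRep ρ hdet, add_comm]
  rfl

/-- The cocycle of a matrix valued function. -/
def ofMatFun (hdet : DetCyclo p ρ) {y : GQ → Matrix (Fin 2) (Fin 2) k}
    (hy : IsDualCocycle ρ y) : cocycles₁ (twM p ρ) :=
  ⟨fun σ => (⟨y σ, mem_sl2.2 (hy.1 σ)⟩ : sl2 k),
    (mem_cocycles₁_iff (A := twM p ρ) _).2 fun σ τ => by
      show (⟨y (σ * τ), _⟩ : sl2 k) = twRep p ρ σ ⟨y τ, _⟩ + ⟨y σ, _⟩
      exact Subtype.ext (by
        rw [Submodule.coe_add, coe_twRep ρ hdet]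
        show y (σ * τ) = twAd (ρ σ) (y τ) + y σ
        rw [hy.2, add_comm])⟩

@[simp] theorem matFun_ofMatFun (hdet : DetCyclo p ρ) {y : GQ → Matrix (Fin 2) (Fin 2) k}
    (hy : IsDualCocycle ρ y) : matFun (ofMatFun hdet hy) = y := rfl

theorem H1π_eq_zero_iff_matFun (hdet : DetCyclo p ρ) (c : cocycles₁ (twM p ρ)) :
    (H1π (twM p ρ)).hom c = 0 ↔
      ∃ b : Matrix (Fin 2) (Fin 2) k, Matrix.trace b = 0 ∧
        ∀ σ, matFun c σ = twAd (ρ σ) b - b := by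
  rw [show (H1π (twM p ρ)).hom c = 0 ↔ _ from H1π_eq_zero_iff c]
  constructor
  · intro h
    obtain ⟨(x : sl2 k), hx⟩ : ∃ x : (twM p ρ), (d₀₁ (twM p ρ)).hom x = c.1 :=
      LinearMap.mem_range.1 h
    refine ⟨x, mem_sl2.1 x.2, fun σ => ?_⟩
    have := congrArg (fun f : GQ → (twM p ρ) => ((f σ : sl2 k) : Matrix (Fin 2) (Fin 2) k)) hx
    simp only at this
    rw [matFun, ← this]
    show ((twRep p ρ σ x - x : sl2 k) : Matrix (Fin 2) (Fin 2) k) = _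
    rw [AddSubgroupClass.coe_sub, coe_twRep ρ hdet]
  · rintro ⟨b, hb, hσ⟩
    refine LinearMap.mem_range.2 ⟨(⟨b, mem_sl2.2 hb⟩ : sl2 k), funext fun σ => ?_⟩
    show twRep p ρ σ ⟨b, mem_sl2.2 hb⟩ - ⟨b, mem_sl2.2 hb⟩ = c.1 σ
    exact Subtype.ext (by
      rw [AddSubgroupClass.coe_sub, coe_twRep ρ hdet]
      exact (hσ σ).symm)

theorem matFun_levelS {T : Finset Nat.Primes} {c : cocycles₁ (twM p ρ)}
    (h : IsLevelConstantS₁ T c.1) : IsLevelConstantS₁ T (matFun c) :=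
  h.comp (fun a : (twM p ρ) => ((a : sl2 k) : Matrix (Fin 2) (Fin 2) k))

theorem ofMatFun_levelS (hdet : DetCyclo p ρ) {T : Finset Nat.Primes}
    {y : GQ → Matrix (Fin 2) (Fin 2) k} (hy : IsDualCocycle ρ y) (h : IsLevelConstantS₁ T y) :
    IsLevelConstantS₁ T (ofMatFun hdet hy).1 := by
  obtain ⟨F, hF, hl⟩ := h
  exact ⟨F, hF, fun g s hs => Subtype.ext (hl g s hs)⟩

end

end FermatAgent.TW
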