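import Fermat.Agent.TW.BorelCocycle

/-!
# `H¹(Δ, Ad⁰ ⊗ det) = 0` for an irreducible `Δ ≤ GL₂(k)` with determinant the whole of `𝔽_pˣ`
-/

set_option autoImplicit false
set_option linter.unusedSectionVars false

open scoped Pointwise
open Matrix OnePoint

namespace FermatAgent.TW

noncomputable section

variable {k : Type*} [Field k] [Finite k] [DecidableEq k] {p : ℕ} [Fact p.Prime] [CharP k p]

local notation "GL2" => GL (Fin 2) k
local notation "M2" => Matrix (Fin 2) (Fin 2) k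

theorem mem_unipotents_of_pow' {Δ : Subgroup (GL (Fin 2) k)} {g : GL2} (hg : g ∈ Δ)
    (hup : g 1 0 = 0) {n : ℕ} (hn : g ^ p ^ n = 1) : g ∈ unipotents Δ := by
  have key : ∀ m : ℕ,
      (g ^ m) 1 0 = 0 ∧ (g ^ m) 0 0 = g 0 0 ^ m ∧ (g ^ m) 1 1 = g 1 1 ^ m := by
    intro m
    induction m with
    | zero => simp
    | succ m ih =>
      obtain ⟨e1, e2, e3⟩ := apply_one_zero_mul (g ^ m) g ih.1 hup
      rw [pow_succ]
      exact ⟨e1, by rw [e2, ih.2.1, pow_succ], by rw [e3, ih.2.2, pow_succ]⟩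
  have h00 : g 0 0 ^ p ^ n = 1 := by rw [← (key (p ^ n)).2.1, hn]; simp
  have h11 : g 1 1 ^ p ^ n = 1 := by rw [← (key (p ^ n)).2.2, hn]; simp
  refine ⟨hg, hup, iterateFrobenius_inj k p n ?_, iterateFrobenius_inj k p n ?_⟩
  · rw [iterateFrobenius_def, iterateFrobenius_def, h00, one_pow]
  · rw [iterateFrobenius_def, iterateFrobenius_def, h11, one_pow]

theorem index_unipotents_ne_zero (p : ℕ) [Fact p.Prime] [CharP k p]
    {Δ : Subgroup (GL (Fin 2) k)} (hP : unipotents Δ ≠ ⊥) :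
    ((((unipotents Δ).subgroupOf Δ).index : ℕ) : k) ≠ 0 := by
  classical
  let P' : Subgroup Δ := (unipotents Δ).subgroupOf Δ
  have hP' : IsPGroup p P' := fun v => ⟨1, Subtype.ext (Subtype.ext (by
    rw [pow_one, SubgroupClass.coe_pow, SubgroupClass.coe_pow]
    exact pow_char_eq_one v.2))⟩
  obtain ⟨Q, hQ⟩ := hP'.exists_le_sylow
  have hcard : ¬ p ∣ Nat.card (OnePoint k) := by
    have : Fintype k := Fintype.ofFinite k
    rw [show Nat.card (OnePoint k) = Nat.card k + 1 from Finite.card_option]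
    obtain ⟨n, -, hn⟩ := FiniteField.card k p
    rw [Nat.card_eq_fintype_card, hn]
    intro h
    exact (Fact.out : p.Prime).one_lt.ne' (Nat.dvd_one.mp
      ((Nat.dvd_add_right (dvd_pow_self p n.ne_zero)).mp h))
  obtain ⟨y, hy⟩ := Q.2.nonempty_fixed_point_of_prime_not_dvd_card (OnePoint k) hcard
  obtain ⟨w, hw, hw1⟩ := (Subgroup.bot_or_exists_ne_one _).resolve_left hP
  obtain ⟨hwG, w10, w00, w11⟩ := hw
  have hwy : w • y = y := hy ⟨⟨w, hwG⟩, hQ (show w ∈ unipotents Δ from ⟨hwG, w10, w00, w11⟩)⟩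
  have hy' : y = ∞ := by
    cases y with
    | infty => rfl
    | coe y =>
      exfalso
      rw [smul_some_eq_ite] at hwy
      simp only [w10, w11, zero_mul, zero_add, one_ne_zero, if_false, w00, one_mul, div_one,
        coe_eq_coe, add_eq_left] at hwy
      refine hw1 (Units.ext ?_)
      ext i j
      fin_cases i <;> fin_cases j <;> simp [w10, w00, w11, hwy]
  subst hy'
  have hle : (Q : Subgroup Δ) = P' := by
    refine le_antisymm (fun v hv => ?_) hQ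
    obtain ⟨n, hn⟩ := Q.2 ⟨v, hv⟩
    exact mem_unipotents_of_pow' (p := p) v.2 (smul_infty_eq_self_iff.1 (hy ⟨v, hv⟩))
      (n := n) (by simpa using congrArg (fun z : (Q : Subgroup Δ) => ((z : Δ) : GL2)) hn)
  rw [Ne, CharP.cast_eq_zero_iff k p, show ((unipotents Δ).subgroupOf Δ) = (Q : Subgroup Δ) from
    hle.symm]
  exact Q.not_dvd_index

/-- elements of `SL₂ ∩ Δ` up to sign -/
def signed (Δ : Subgroup (GL (Fin 2) k)) : Subgroup (GL (Fin 2) k) where
  carrier := {g | (g ∈ Δ ∨ -g ∈ Δ) ∧ (g : M2).det = 1}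
  one_mem' := ⟨Or.inl (one_mem _), by simp⟩
  mul_mem' := by
    rintro a b ⟨ha, da⟩ ⟨hb, db⟩
    refine ⟨?_, by simp [da, db]⟩
    rcases ha with ha | ha <;> rcases hb with hb | hb
    · exact Or.inl (mul_mem ha hb)
    · exact Or.inr (by rw [← mul_neg]; exact mul_mem ha hb)
    · exact Or.inr (by rw [← neg_mul]; exact mul_mem ha hb)
    · exact Or.inl (by rw [← neg_mul_neg]; exact mul_mem ha hb)
  inv_mem' := by
    rintro a ⟨ha, da⟩
    refine ⟨?_, by simp [Matrix.coe_units_inv, Matrix.det_nonsing_inv, da]⟩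
    rcases ha with ha | ha
    · exact Or.inl (inv_mem ha)
    · exact Or.inr (by rw [show -a⁻¹ = (-a)⁻¹ from (inv_neg (a := a)).symm]; exact inv_mem ha)

theorem unipotents_signed (hp : p ≠ 2) (Δ : Subgroup (GL (Fin 2) k)) :
    unipotents (signed Δ) = unipotents Δ := by
  ext g
  constructor
  · rintro ⟨⟨hg | hg, hd⟩, h⟩
    · exact ⟨hg, h⟩
    · refine ⟨?_, h⟩
      have hgp : g ^ p = 1 := pow_char_eq_one (G := (⊤ : Subgroup GL2)) ⟨trivial, h⟩
      have hm : (-g) ^ p = -1 := by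
        rw [(Fact.out : p.Prime).odd_of_ne_two hp |>.neg_pow, hgp]
      have h1 : (-1 : GL2) ∈ Δ := hm ▸ pow_mem hg p
      simpa using mul_mem h1 hg
  · rintro ⟨hg, h10, h00, h11⟩
    refine ⟨⟨Or.inl hg, ?_⟩, h10, h00, h11⟩
    rw [det_eq_mul_of_upper h10, h00, h11, mul_one]

theorem card_transl (Δ : Subgroup (GL (Fin 2) k)) :
    Nat.card (transl Δ) = Nat.card (unipotents Δ) := by
  refine Nat.card_eq_of_bijective (fun b : transl Δ =>
    (⟨uni b, b.2, by simp, by simp, by simp⟩ : unipotents Δ)) ⟨fun a b h => ?_, ?_⟩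
  · exact Subtype.ext (by
      simpa using congrArg (fun u : unipotents Δ => (u : GL2) 0 1) h)
  · rintro ⟨u, hu, h10, h00, h11⟩
    exact ⟨⟨u 0 1, by rw [mem_transl, ← mk_eq_uni h10 h00 h11]; exact hu⟩,
      Subtype.ext (mk_eq_uni h10 h00 h11).symm⟩

theorem exists_upper_generator (hp : p ≠ 2) {Δ : Subgroup (GL (Fin 2) k)}
    (hfix : ∀ g ∈ Δ, ∃ x : OnePoint k, g • x = x) (hP : unipotents Δ ≠ ⊥) {g₀ : GL2}
    (hg₀ : g₀ ∈ Δ) :
    ∃ g ∈ Δ, g 1 0 = 0 ∧ (g : M2).det = (g₀ : M2).det := by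
  classical
  obtain ⟨w, hw, hw1⟩ := (Subgroup.bot_or_exists_ne_one _).resolve_left hP
  obtain ⟨hwG, w10, w00, w11⟩ := hw
  set v := g₀ * w * g₀⁻¹ with hv
  have hwdet : (w : M2).det = 1 := by rw [det_eq_mul_of_upper w10, w00, w11, mul_one]
  have hvS : v ∈ signed Δ := ⟨Or.inl (mul_mem (mul_mem hg₀ hwG) (inv_mem hg₀)), by
    rw [hv, Units.val_mul, Units.val_mul, Matrix.det_units_conj, hwdet]⟩
  have htr : Matrix.trace (v : M2) ^ 2 = 4 := by
    rw [hv, Units.val_mul, Units.val_mul, Matrix.trace_units_conj, trace_fin_two, w00, w11]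
    ring
  have hns : (v : M2) ∉ Set.range (Matrix.scalar (Fin 2)) := by
    rintro ⟨a, ha⟩
    apply hw1
    have hvs : (w : M2) = Matrix.scalar (Fin 2) a := by
      have : w = g₀⁻¹ * v * g₀ := by rw [hv]; group
      rw [this, Units.val_mul, Units.val_mul, ← ha, mul_assoc,
        (Matrix.scalar_commute a (fun r => Commute.all _ _) (g₀ : M2)).eq, ← mul_assoc,
        ← Units.val_mul, inv_mul_cancel, Units.val_one, one_mul]
    have h00 := congrArg (fun m : M2 => m 0 0) hvs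
    simp [w00] at h00
    refine Units.ext ?_
    rw [hvs, ← h00, map_one]
    rfl
  have hfixS : ∀ g ∈ signed Δ, ∃ x : OnePoint k, g • x = x := by
    rintro g ⟨hg | hg, -⟩
    · exact hfix g hg
    · obtain ⟨x, hx⟩ := hfix _ hg
      refine ⟨x, ?_⟩
      have h : (-g) • x = g • x := by
        rw [← neg_one_mul g, mul_smul, smul_eq_self_scalar (a := (-1 : k)) (by ext i j; fin_cases i <;> fin_cases j <;> simp)]
      rwa [h] at hx
  have hx : (⟨v, hvS⟩ : signed Δ) • (g₀ • (∞ : OnePoint k)) = g₀ • ∞ := by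
    show v • g₀ • (∞ : OnePoint k) = _
    rw [hv, mul_smul, mul_smul, inv_smul_smul, smul_infty_eq_self_iff.2 w10]
  obtain ⟨⟨u, huS⟩, hu⟩ := fixed_mem_orbit (p := p) (G := signed Δ) hp (fun g hg => hg.2) hfixS
    (by rw [unipotents_signed (p := p) hp]; exact hP) (g := ⟨v, hvS⟩) hns htr hx
  have hu' : u • (∞ : OnePoint k) = g₀ • ∞ := hu
  have hfixinf : u⁻¹ • g₀ • (∞ : OnePoint k) = ∞ := by rw [inv_smul_eq_iff, hu']
  rcases huS with ⟨hu1 | hu1, hdu⟩
  · refine ⟨u⁻¹ * g₀, mul_mem (inv_mem hu1) hg₀, ?_, ?_⟩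
    · rw [← smul_infty_eq_self_iff, mul_smul, hfixinf]
    · rw [Units.val_mul, Matrix.det_mul, Matrix.coe_units_inv, Matrix.det_nonsing_inv, hdu]
      simp
  · refine ⟨(-u)⁻¹ * g₀, mul_mem (inv_mem hu1) hg₀, ?_, ?_⟩
    · rw [← smul_infty_eq_self_iff, mul_smul, inv_neg, ← neg_one_mul u⁻¹, mul_smul, hfixinf,
        smul_eq_self_scalar (a := (-1 : k)) (by ext i j; fin_cases i <;> fin_cases j <;> simp)]
    · rw [Units.val_mul, Matrix.det_mul, Matrix.coe_units_inv, Matrix.det_nonsing_inv,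
        Units.val_neg, Matrix.det_neg, hdu]
      simp

/-- The big torus, for `|P| ≥ p²`. -/
theorem exists_torus (hp : p ≠ 2) {Δ : Subgroup (GL (Fin 2) k)}
    (hfix : ∀ g ∈ Δ, ∃ x : OnePoint k, g • x = x) (hirr : ∀ x : OnePoint k, ∃ g ∈ Δ, g • x ≠ x)
    (hP : unipotents Δ ≠ ⊥)
    (hq : p ^ 2 ≤ Nat.card (transl Δ)) :
    ∃ τ ∈ Δ, τ 1 0 = 0 ∧ (τ : M2).det = 1 ∧
      Nat.card (transl Δ) ≤ 2 * orderOf (τ 0 0 ^ 2) + 1 := by
  classical
  have h3 : 3 ≤ p := by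
    have := (Fact.out : p.Prime).two_le
    omega
  have h9 : 9 ≤ Nat.card (unipotents (signed Δ)) := by
    rw [unipotents_signed (p := p) hp, ← card_transl]
    nlinarith
  have hneg : (-1 : GL2) ∈ signed Δ :=
    ⟨Or.inr (by rw [neg_neg]; exact one_mem _), by simp [Matrix.det_neg]⟩
  have hfixS : ∀ g ∈ signed Δ, ∃ x : OnePoint k, g • x = x := by
    rintro g ⟨hg | hg, -⟩
    · exact hfix g hg
    · obtain ⟨x, hx⟩ := hfix _ hg
      refine ⟨x, ?_⟩
      have h : (-g) • x = g • x := by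
        rw [← neg_one_mul g, mul_smul, smul_eq_self_scalar (a := (-1 : k)) (by ext i j; fin_cases i <;> fin_cases j <;> simp)]
      rwa [h] at hx
  -- some element of `Δ ∩ SL₂` moves `∞`
  have hnB : ∃ g ∈ signed Δ, g 1 0 ≠ 0 := by
    by_contra! hall
    obtain ⟨w, hw, hw1⟩ := (Subgroup.bot_or_exists_ne_one _).resolve_left hP
    obtain ⟨g, hg, hgx⟩ := hirr ∞
    have hv : g⁻¹ * w * g ∈ signed Δ := ⟨Or.inl (mul_mem (mul_mem (inv_mem hg) hw.1) hg), by
      rw [Units.val_mul, Units.val_mul, Matrix.det_units_conj', det_eq_mul_of_upper hw.2.1,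
        hw.2.2.1, hw.2.2.2, mul_one]⟩
    have h := smul_infty_eq_self_iff.2 (hall _ hv)
    rw [mul_smul, mul_smul, inv_smul_eq_iff] at h
    -- `w` fixes only `∞`
    generalize hy : g • (∞ : OnePoint k) = y at h hgx
    cases y with
    | infty => exact hgx rfl
    | coe y =>
      rw [smul_some_eq_ite] at h
      simp only [hw.2.1, hw.2.2.2, zero_mul, zero_add, one_ne_zero, if_false, hw.2.2.1, one_mul,
        div_one, coe_eq_coe, add_eq_left] at h
      refine hw1 (Units.ext ?_)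
      ext i j
      fin_cases i <;> fin_cases j <;> simp [hw.2.1, hw.2.2.1, hw.2.2.2, h]
  obtain ⟨τ, hτ, h10, hord⟩ :=
    exists_large_torus (p := p) (G := signed Δ) hp (fun g hg => hg.2) hneg hfixS hnB h9
  rw [unipotents_signed (p := p) hp, ← card_transl] at hord
  rcases hτ with ⟨hτ | hτ, hd⟩
  · exact ⟨τ, hτ, h10, hd, hord⟩
  · exact ⟨-τ, hτ, by simp [h10], by simp [Matrix.det_neg, hd], by simpa using hord⟩

theorem eq_one_or_pos_pow {N : AddSubgroup k} : ∃ a, Nat.card N = p ^ a := by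
  have : Fintype k := Fintype.ofFinite k
  obtain ⟨m, -, hm⟩ := FiniteField.card k p
  have h := N.card_addSubgroup_dvd_card
  rw [Nat.card_eq_fintype_card (α := k), hm] at h
  obtain ⟨a, -, ha⟩ := (Nat.dvd_prime_pow Fact.out).1 h
  exact ⟨a, ha⟩

theorem exists_nonzero_transl {Δ : Subgroup (GL (Fin 2) k)} (hP : unipotents Δ ≠ ⊥) :
    ∃ x₀ : transl Δ, (x₀ : k) ≠ 0 := by
  obtain ⟨w, hw, hw1⟩ := (Subgroup.bot_or_exists_ne_one _).resolve_left hP
  refine ⟨⟨w 0 1, by rw [mem_transl, ← mk_eq_uni hw.2.1 hw.2.2.1 hw.2.2.2]; exact hw.1⟩,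
    fun h => hw1 ?_⟩
  rw [mk_eq_uni hw.2.1 hw.2.2.1 hw.2.2.2, show w 0 1 = 0 from h, uni_zero]

/-- either the translations form a line over `𝔽_p`, or there is a big torus -/
theorem prime_card_or_torus (hp : p ≠ 2) {Δ : Subgroup (GL (Fin 2) k)}
    (hfix : ∀ g ∈ Δ, ∃ x : OnePoint k, g • x = x) (hirr : ∀ x : OnePoint k, ∃ g ∈ Δ, g • x ≠ x)
    (hP : unipotents Δ ≠ ⊥) :
    Nat.card (transl Δ) = p ∨ ∃ τ ∈ Δ, τ 1 0 = 0 ∧ τ 0 0 * τ 1 1 = 1 ∧
      p ^ 2 ≤ Nat.card (transl Δ) ∧ Nat.card (transl Δ) ≤ 2 * orderOf (τ 0 0 ^ 2) + 1 := by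
  obtain ⟨a, ha⟩ := eq_one_or_pos_pow (p := p) (N := transl Δ)
  obtain ⟨x₀, hx₀⟩ := exists_nonzero_transl hP
  rcases a with _ | _ | a
  · exfalso
    have : Subsingleton (transl Δ) := by
      rw [← Finite.card_le_one_iff_subsingleton, ha, pow_zero]
    exact hx₀ (congrArg Subtype.val (Subsingleton.elim x₀ 0))
  · exact Or.inl (by rw [ha, zero_add, pow_one])
  · right
    have hq : p ^ 2 ≤ Nat.card (transl Δ) := by
      rw [ha]; exact Nat.pow_le_pow_right (Fact.out : p.Prime).pos (by omega)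
    obtain ⟨τ, hτ, τ10, τdet, hτo⟩ := exists_torus (p := p) hp hfix hirr hP hq
    rw [det_eq_mul_of_upper τ10] at τdet
    exact ⟨τ, hτ, τ10, τdet, hq, hτo⟩

theorem exists_zsmul_eq {V : AddSubgroup k} (hV : Nat.card V = p) {x₀ : V} (hx₀ : (x₀ : k) ≠ 0)
    (b : V) : ∃ n : ℤ, n • x₀ = b :=
  AddSubgroup.mem_zmultiples_iff.1
    (mem_zmultiples_of_prime_card hV fun h => hx₀ (congrArg Subtype.val h))

/-- Main lemma, with `∞` fixed by an element of order `p`. -/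
theorem isTwCoboundary_of_unipotent (hp : p ≠ 2) {Δ : Subgroup (GL (Fin 2) k)}
    (hfix : ∀ g ∈ Δ, ∃ x : OnePoint k, g • x = x) (hirr : ∀ x : OnePoint k, ∃ g ∈ Δ, g • x ≠ x)
    (hgen : ∃ g ∈ Δ, orderOf (g : M2).det = p - 1) (hP : unipotents Δ ≠ ⊥)
    {c : Δ → Matrix (Fin 2) (Fin 2) k} (hc : IsTwCocycle Δ c) : IsTwCoboundary Δ c := by
  classical
  have hpr : p.Prime := Fact.out
  have hp3 : 3 ≤ p := by have := hpr.two_le; omega
  have h2 : (2 : k) ≠ 0 := Ring.two_ne_zero (by rw [ringChar.eq k p]; exact hp)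
  obtain ⟨x₀, hx₀⟩ := exists_nonzero_transl hP
  obtain ⟨g₀, hg₀, hord₀⟩ := hgen
  obtain ⟨g, hgΔ, g10, hgdet⟩ := exists_upper_generator (p := p) hp hfix hP hg₀
  rw [← hgdet, det_eq_mul_of_upper g10] at hord₀
  have hgd0 : g 0 0 * g 1 1 ≠ 0 := det_eq_mul_of_upper g10 ▸ g.det_ne_zero
  have hdich := prime_card_or_torus (p := p) hp hfix hirr hP
  obtain ⟨lam, hlam⟩ := linear_lower hc hx₀
  -- the lower coordinate vanishes
  have hlam0 : lam = 0 := by
    by_contra hne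
    rcases eq_or_ne p 3 with rfl | hp5
    · exact hne (lower_eq_zero_of_three hc (by exact_mod_cast CharP.cast_eq_zero k 3) hx₀ hlam)
    have hweight : ∀ σ ∈ Δ, σ 1 0 = 0 → σ 0 0 / σ 1 1 = σ 1 1 ^ 2 := by
      intro σ hσ h10
      obtain ⟨hb, e, -, -⟩ := onTransl_upper hc hσ h10 x₀
      rw [hlam, hlam] at e
      have : lam * (x₀ : k) * (σ 0 0 / σ 1 1 - σ 1 1 ^ 2) = 0 := by linear_combination e
      simpa [hne, hx₀, sub_eq_zero] using this
    rcases hdich with hcard | ⟨τ, hτ, τ10, τdet, hq, hτo⟩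
    · -- `t` lies in the prime field and `det g = t²`
      have ht := hweight g hgΔ g10
      obtain ⟨hb, -⟩ := onTransl_upper hc hgΔ g10 x₀
      set t := g 0 0 / g 1 1
      obtain ⟨n, hn⟩ := exists_zsmul_eq hcard hx₀ (⟨t * x₀, hb⟩ : transl Δ)
      have htn : t = (n : k) := by
        have := congrArg Subtype.val hn
        simp only [AddSubgroupClass.coe_zsmul, zsmul_eq_mul] at this
        exact (mul_right_cancel₀ hx₀ this).symm
      have ht0 : t ≠ 0 := by rw [ht]; exact pow_ne_zero 2 (right_ne_zero_of_mul hgd0)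
      have hfer : t ^ (p - 1) = 1 := by
        have hz : (n : ZMod p) ≠ 0 := fun h =>
          ht0 (by rw [htn, ← map_intCast (ZMod.castHom dvd_rfl k), h, map_zero])
        rw [htn, ← map_intCast (ZMod.castHom (dvd_refl p) k), ← map_pow,
          ZMod.pow_card_sub_one_eq_one hz, map_one]
      have hd : g 0 0 * g 1 1 = t ^ 2 := by
        have h00 : g 0 0 = t * g 1 1 := (div_mul_cancel₀ _ (right_ne_zero_of_mul hgd0)).symm
        rw [h00, ht]; ring
      obtain ⟨m, hm⟩ := hpr.even_sub_one hp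
      have : (g 0 0 * g 1 1) ^ m = 1 := by rw [hd, ← pow_mul, two_mul, ← hm, hfer]
      have := orderOf_dvd_of_pow_eq_one this
      rw [hord₀] at this
      have := Nat.le_of_dvd (by omega) this
      omega
    · have ht := hweight τ hτ τ10
      have hτ0 : τ 0 0 ≠ 0 := left_ne_zero_of_mul (τdet.symm ▸ one_ne_zero)
      rw [eq_inv_of_mul_eq_one_right τdet, div_inv_eq_mul, ← pow_two] at ht
      have h4 : (τ 0 0 ^ 2) ^ 2 = 1 := by
        rw [pow_two (τ 0 0 ^ 2)]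
        nth_rw 1 [ht]
        rw [inv_pow, inv_mul_cancel₀ (pow_ne_zero 2 hτ0)]
      have hle := Nat.le_of_dvd (by norm_num) (orderOf_dvd_of_pow_eq_one h4)
      nlinarith
  -- subtract a lower coboundary
  obtain ⟨μ, hμ⟩ := middle_eq hc h2 hx₀ hlam
  simp only [hlam0, zero_mul, zero_div, add_zero] at hμ hlam
  set C₀ : M2 := !![0, 0; μ, 0] with hC₀
  have htrC : Matrix.trace C₀ = 0 := by simp [hC₀, trace_fin_two]
  set c₁ := fun x : Δ => c x - (twAd (x : GL2) C₀ - C₀) with hc₁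
  have hc1 : IsTwCocycle Δ c₁ := hc.sub_coboundary htrC
  have h00 : ∀ b : transl Δ, onTransl c₁ b 0 0 = 0 := fun b => by
    show (c _ - (twAd (uni (b : k)) C₀ - C₀)) 0 0 = 0
    have hb : c ⟨uni b, b.2⟩ 0 0 = μ * b := hμ b
    rw [Matrix.sub_apply, Matrix.sub_apply, (twAd_uni _ _).1, hb]
    simp [hC₀]; ring
  have h10 : ∀ b : transl Δ, onTransl c₁ b 1 0 = 0 := fun b => by
    show (c _ - (twAd (uni (b : k)) C₀ - C₀)) 1 0 = 0
    have hb : c ⟨uni b, b.2⟩ 1 0 = 0 := hlam b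
    rw [Matrix.sub_apply, Matrix.sub_apply, (twAd_uni _ _).2.2, hb]
    simp
  set η : transl Δ → k := fun b => onTransl c₁ b 0 1 with hη'
  have hη : ∀ a b, η (a + b) = η a + η b := fun a b => by
    obtain ⟨-, -, h⟩ := onTransl_add hc1 a b
    simp only [hη', h, h00, h10]; ring
  have hνex : ∃ ν : k, ∀ b, η b = ν * b := by
    rcases hdich with hcard | ⟨τ, hτ, τ10, τdet, hq, hτo⟩
    · refine ⟨η x₀ / x₀, fun b => ?_⟩
      obtain ⟨n, rfl⟩ := exists_zsmul_eq hcard hx₀ b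
      have : η (n • x₀) = n • η x₀ := map_zsmul (AddMonoidHom.mk' η hη) n x₀
      rw [this, zsmul_eq_mul, AddSubgroupClass.coe_zsmul, zsmul_eq_mul]
      field_simp
    · have hτ0 : τ 0 0 ≠ 0 := left_ne_zero_of_mul (τdet.symm ▸ one_ne_zero)
      have hkey := fun b => onTransl_upper hc1 hτ τ10 b
      have ht : τ 0 0 / τ 1 1 = τ 0 0 ^ 2 := by
        rw [eq_inv_of_mul_eq_one_right τdet, div_inv_eq_mul, pow_two]
      simp only [ht] at hkey
      have hC : c₁ ⟨τ, hτ⟩ 1 0 = 0 := by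
        obtain ⟨hb, -, e, -⟩ := hkey x₀
        rw [h00, h00, h10] at e
        have : τ 0 0 ^ 2 * (x₀ : k) * c₁ ⟨τ, hτ⟩ 1 0 = 0 := by linear_combination e
        simpa [hτ0, hx₀] using this
      have : Fintype k := Fintype.ofFinite k
      have hu : IsUnit (τ 0 0 ^ 2) := isUnit_iff_ne_zero.2 (pow_ne_zero 2 hτ0)
      have hfer : (τ 0 0 ^ 2) ^ (Fintype.card k - 1) = 1 :=
        FiniteField.pow_card_sub_one_eq_one _ hu.ne_zero
      have hn : ((orderOf (τ 0 0 ^ 2) : ℕ) : k) ≠ 0 := by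
        intro h0
        have h1 := (CharP.cast_eq_zero_iff k p _).1 h0
        obtain ⟨m, -, hm⟩ := FiniteField.card k p
        have h2' := h1.trans (orderOf_dvd_of_pow_eq_one hfer)
        rw [hm] at h2'
        have h3' := Nat.dvd_sub (dvd_pow_self p m.ne_zero) h2'
        rw [Nat.sub_sub_self (Nat.one_le_pow _ _ hpr.pos)] at h3'
        exact hpr.one_lt.ne' (Nat.dvd_one.1 h3')
      refine linear_of_twisted (p := p) (K := 2 * τ 0 0 ^ 2 * c₁ ⟨τ, hτ⟩ 0 0) hη hn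
        (pow_orderOf_eq_one _) hu.ne_zero (fun b => (hkey b).1) (fun b => ?_) ?_ hx₀
      · obtain ⟨hb, -, -, e⟩ := hkey b
        simp only [hη']
        rw [e, h00, h10, hC]; ring
      · calc Nat.card (transl Δ) ≤ 2 * orderOf (τ 0 0 ^ 2) + 1 := hτo
          _ < p * (orderOf (τ 0 0 ^ 2) + 1) := by nlinarith
  obtain ⟨ν, hν⟩ := hνex
  set B₀ : M2 := !![-ν / 2, 0; 0, ν / 2] with hB₀
  have htrB : Matrix.trace B₀ = 0 := by simp [hB₀, trace_fin_two, neg_div]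
  have hc2 := hc1.sub_coboundary htrB
  have hvan : ∀ u ∈ (unipotents Δ).subgroupOf Δ, c₁ u - (twAd (u : GL2) B₀ - B₀) = 0 := by
    rintro ⟨u, huΔ⟩ ⟨-, u10, u00, u11⟩
    have hu : u = uni (u 0 1) := mk_eq_uni u10 u00 u11
    have hmem : u 0 1 ∈ transl Δ := by rw [mem_transl, ← hu]; exact huΔ
    have hcu : c₁ ⟨u, huΔ⟩ = onTransl c₁ ⟨u 0 1, hmem⟩ :=
      congrArg c₁ (Subtype.ext hu)
    obtain ⟨t0, t1, t2⟩ := twAd_uni (u 0 1) B₀
    rw [← hu] at t0 t1 t2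
    have e01 : onTransl c₁ ⟨u 0 1, hmem⟩ 0 1 = ν * u 0 1 := hν ⟨u 0 1, hmem⟩
    have he : ∀ i j, (c₁ ⟨u, huΔ⟩ - (twAd u B₀ - B₀)) i j =
        onTransl c₁ ⟨u 0 1, hmem⟩ i j - (twAd u B₀ i j - B₀ i j) := fun i j => by
      simp [hcu]
    have hz00 : (c₁ ⟨u, huΔ⟩ - (twAd u B₀ - B₀)) 0 0 = 0 := by
      rw [he, h00, t0]; simp [hB₀]
    ext i j
    fin_cases i <;> fin_cases j
    · exact hz00
    · show (c₁ ⟨u, huΔ⟩ - (twAd u B₀ - B₀)) 0 1 = 0
      rw [he, e01, t1]; simp [hB₀]; field_simp; ring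
    · show (c₁ ⟨u, huΔ⟩ - (twAd u B₀ - B₀)) 1 0 = 0
      rw [he, h10, t2]; simp
    · show (c₁ ⟨u, huΔ⟩ - (twAd u B₀ - B₀)) 1 1 = 0
      rw [hc2.a11 ⟨u, huΔ⟩, neg_eq_zero]; exact hz00
  obtain ⟨b, hb, hbeq⟩ := isTwCoboundary_of_vanish hc2 _ (index_unipotents_ne_zero p hP) hvan
  refine ⟨b + B₀ + C₀, by simp [hb, htrB, htrC], fun x => ?_⟩
  have := hbeq x
  rw [sub_eq_iff_eq_add] at this
  simp only [hc₁, sub_eq_iff_eq_add] at this
  rw [this]
  simp only [twAd_add]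
  abel

/-- `H¹(Δ, Ad⁰ ⊗ det) = 0` -/
theorem isTwCoboundary_of_irreducible (hp : p ≠ 2) {Δ : Subgroup (GL (Fin 2) k)}
    (hfix : ∀ g ∈ Δ, ∃ x : OnePoint k, g • x = x) (hirr : ∀ x : OnePoint k, ∃ g ∈ Δ, g • x ≠ x)
    (hgen : ∃ g ∈ Δ, orderOf (g : M2).det = p - 1)
    {c : Δ → Matrix (Fin 2) (Fin 2) k} (hc : IsTwCocycle Δ c) : IsTwCoboundary Δ c := by
  classical
  have hpr : p.Prime := Fact.out
  by_cases hpd : p ∣ Nat.card Δ
  swap
  · refine isTwCoboundary_of_vanish hc ⊥ ?_ ?_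
    · rwa [Subgroup.index_bot, Ne, CharP.cast_eq_zero_iff k p]
    · intro u hu
      rw [Subgroup.mem_bot] at hu
      rw [hu, hc.one]
  obtain ⟨⟨w, hwΔ⟩, hw⟩ := exists_prime_orderOf_dvd_card' p hpd
  obtain ⟨x, hx⟩ := hfix w hwΔ
  obtain ⟨h, hhx⟩ : ∃ h : GL2, h • x = ∞ := by
    cases x with
    | infty => exact ⟨1, one_smul _ _⟩
    | coe a =>
      refine ⟨Matrix.GeneralLinearGroup.mkOfDetNeZero !![0, 1; 1, -a] (by simp [det_fin_two]), ?_⟩
      rw [smul_some_eq_ite]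
      simp
  set e : GL2 →* GL2 := (MulAut.conj h).toMonoidHom with he
  set Δ' := Δ.map e with hΔ'
  have hfix' : ∀ g ∈ Δ', ∃ y : OnePoint k, g • y = y := by
    rintro _ ⟨g, hg, rfl⟩
    obtain ⟨y, hy⟩ := hfix g hg
    exact ⟨h • y, by simp [he, mul_smul, hy]⟩
  have hirr' : ∀ y : OnePoint k, ∃ g ∈ Δ', g • y ≠ y := by
    intro y
    obtain ⟨g, hg, hgy⟩ := hirr (h⁻¹ • y)
    refine ⟨e g, ⟨g, hg, rfl⟩, fun hc' => hgy ?_⟩
    simp only [he, MulEquiv.toMonoidHom_eq_coe, MonoidHom.coe_coe, MulAut.conj_apply,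
      mul_smul] at hc'
    exact (eq_inv_smul_iff.2 hc')
  have hgen' : ∃ g ∈ Δ', orderOf (g : M2).det = p - 1 := by
    obtain ⟨g, hg, ho⟩ := hgen
    refine ⟨e g, ⟨g, hg, rfl⟩, ?_⟩
    rw [show ((e g : GL2) : M2).det = (g : M2).det from by
      simp only [he, MulEquiv.toMonoidHom_eq_coe, MonoidHom.coe_coe, MulAut.conj_apply,
        Units.val_mul]
      exact Matrix.det_units_conj h _]
    exact ho
  have hP' : unipotents Δ' ≠ ⊥ := by
    have hwp : w ^ p = 1 := by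
      have := pow_orderOf_eq_one (⟨w, hwΔ⟩ : Δ)
      rw [hw] at this
      exact congrArg Subtype.val this
    have hw'p : e w ^ p = 1 := by rw [← map_pow, hwp, map_one]
    have hw'x : e w • (∞ : OnePoint k) = ∞ := by
      rw [← hhx]
      simp [he, mul_smul, hx]
    intro hbot
    have hmem : e w ∈ unipotents Δ' := mem_unipotents_of_pow' (p := p) (n := 1) ⟨w, hwΔ, rfl⟩
      (smul_infty_eq_self_iff.1 hw'x) (by rwa [pow_one])
    rw [hbot, Subgroup.mem_bot, ← map_one e] at hmem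
    have hw1 : w = 1 := (MulAut.conj h).injective hmem
    have : orderOf (⟨w, hwΔ⟩ : Δ) = 1 := orderOf_eq_one_iff.2 (Subtype.ext hw1)
    rw [hw] at this
    exact hpr.one_lt.ne' this
  have hback : ∀ g : Δ', h⁻¹ * (g : GL2) * h ∈ Δ := by
    rintro ⟨_, g, hg, rfl⟩
    simpa [he, mul_assoc] using hg
  let c' : Δ' → M2 := fun g => twAd h (c ⟨h⁻¹ * (g : GL2) * h, hback g⟩)
  have hc' : IsTwCocycle Δ' c' := by
    refine ⟨fun g => by simp [c', trace_twAd, hc.1], fun a b => ?_⟩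
    have e1 : (⟨h⁻¹ * ((a * b : Δ') : GL2) * h, hback (a * b)⟩ : Δ) =
        ⟨h⁻¹ * (a : GL2) * h, hback a⟩ * ⟨h⁻¹ * (b : GL2) * h, hback b⟩ :=
      Subtype.ext (by simp [mul_assoc])
    simp only [c', e1, hc.2, twAd_add, ← twAd_mul]
    congr 2
    group
  obtain ⟨b, hb, hbeq⟩ := isTwCoboundary_of_unipotent (p := p) hp hfix' hirr' hgen' hP' hc'
  refine ⟨twAd h⁻¹ b, by simp [trace_twAd, hb], fun g => ?_⟩
  have h1 := congrArg (twAd h⁻¹) (hbeq ⟨e g, g, g.2, rfl⟩)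
  have e2 : (⟨h⁻¹ * e g * h, hback ⟨e g, g, g.2, rfl⟩⟩ : Δ) = g :=
    Subtype.ext (by simp [he, mul_assoc])
  simp only [c', e2, twAd_sub, ← twAd_mul, inv_mul_cancel, twAd_one] at h1
  rw [h1, ← twAd_mul]
  congr 2
  simp [he, mul_assoc]

end

end FermatAgent.TW
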