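import Fermat.Agent.TW.Lines
import Fermat.Agent.TW.Cyclo
import Fermat.Agent.TW.GroupH1

/-!
# An element of `G_ℚ(μ_{p^N})` with distinct eigenvalues which detects a given dual class
-/

set_option autoImplicit false
set_option linter.unusedSectionVars false

open Matrix Module OnePoint

namespace FermatAgent.TW

noncomputable section

local notation "GQ" => AlgebraicClosure ℚ ≃ₐ[ℚ] AlgebraicClosure ℚ

variable {k : Type} [Field k] [Finite k] {p : ℕ} [Fact p.Prime] [Algebra (ZMod p) k]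
  {ρ : GQ →* GL (Fin 2) k}

/-- The discriminant of the characteristic polynomial. -/
def disc (g : GL (Fin 2) k) : k :=
  Matrix.trace (g : Matrix (Fin 2) (Fin 2) k) ^ 2 - 4 * (g : Matrix (Fin 2) (Fin 2) k).det

/-- The trace zero part. -/
def trFree (g : GL (Fin 2) k) : Matrix (Fin 2) (Fin 2) k :=
  (g : Matrix (Fin 2) (Fin 2) k) - (Matrix.trace (g : Matrix (Fin 2) (Fin 2) k) / 2) • 1

theorem trace_trFree (h2 : (2 : k) ≠ 0) (g : GL (Fin 2) k) : Matrix.trace (trFree g) = 0 := by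
  simp [trFree, Matrix.trace_sub, Matrix.trace_smul, Matrix.trace_one]
  field_simp
  ring

theorem det_trFree (h2 : (2 : k) ≠ 0) (g : GL (Fin 2) k) : (trFree g).det = - disc g / 4 := by
  have h4 : (4 : k) ≠ 0 := by
    rw [show (4 : k) = 2 * 2 by norm_num]; exact mul_ne_zero h2 h2
  simp [trFree, disc, det_fin_two, trace_fin_two]
  field_simp
  ring

theorem trace_conjAct_mul (g : GL (Fin 2) k) (a b : Matrix (Fin 2) (Fin 2) k) :
    Matrix.trace (conjAct g a * b) = Matrix.trace (a * conjAct g⁻¹ b) := by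
  rw [conjAct, conjAct, inv_inv, mul_assoc, mul_assoc, Matrix.trace_mul_comm]
  simp only [mul_assoc]

theorem conjAct_trFree (g h : GL (Fin 2) k) :
    conjAct h (trFree g) = trFree (h * g * h⁻¹) := by
  simp only [trFree, conjAct, Units.val_mul, Matrix.trace_units_conj, Matrix.mul_sub,
    Matrix.sub_mul, Matrix.mul_smul, Matrix.smul_mul, mul_one, Units.mul_inv]

theorem trFree_commute (g : GL (Fin 2) k) : conjAct g (trFree g) = trFree g := by
  rw [conjAct_trFree, mul_inv_cancel_right]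

theorem det_of_mem_fixMu (hρ : TWHyp p ρ) {N : ℕ} {σ : GQ} (hσ : σ ∈ fixMu p (N + 1)) :
    (ρ σ : Matrix (Fin 2) (Fin 2) k).det = 1 := by
  rw [hρ.detCyclo σ, cycloChar_of_mem_fixMu hσ, Units.val_one, map_one]

/-- All elements being scalar contradicts irreducibility. -/
theorem exists_trFree_ne_zero (hρ : TWHyp p ρ) : ∃ σ : GQ, trFree (ρ σ) ≠ 0 := by
  by_contra! h
  obtain ⟨σ, hσ⟩ := hρ.noFixedPoint ![1, 0] (fun h => one_ne_zero (congrFun h 0))
  refine hσ (Matrix.trace (ρ σ : Matrix (Fin 2) (Fin 2) k) / 2) ?_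
  have e := sub_eq_zero.1 (h σ)
  generalize Matrix.trace (ρ σ : Matrix (Fin 2) (Fin 2) k) / 2 = r at e ⊢
  rw [e]
  simp [Matrix.smul_mulVec]

theorem exists_disc_ne_zero (hρ : TWHyp p ρ) (N : ℕ) :
    ∃ σ ∈ fixMu p (N + 1), disc (ρ σ) ≠ 0 := by
  by_contra! hall
  have h2 := two_ne_zero_of (k := k) hρ.ne_two
  set G := fixMu p (N + 1)
  have htr : ∀ σ ∈ G, Matrix.trace (ρ σ : Matrix (Fin 2) (Fin 2) k) ^ 2 = 4 := fun σ hσ => by
    have := hall σ hσ
    rw [disc, det_of_mem_fixMu hρ hσ] at this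
    linear_combination this
  by_cases hsc : ∀ σ ∈ G, trFree (ρ σ) = 0
  · -- commutators are `± 1`
    obtain ⟨g, hg⟩ := exists_trFree_ne_zero hρ
    obtain ⟨h, hh⟩ := hρ.noStableLine _ hg (trace_trFree h2 _)
    have hc : (h * g * h⁻¹ * g⁻¹) ∈ G := commutator_mem_fixMu (N + 1) h g
    have hs := sub_eq_zero.1 (hsc _ hc)
    set r := Matrix.trace (ρ (h * g * h⁻¹ * g⁻¹) : Matrix (Fin 2) (Fin 2) k) / 2
    have e : ρ h * ρ g * (ρ h)⁻¹ = ρ (h * g * h⁻¹ * g⁻¹) * ρ g := by
      rw [← map_inv, ← map_mul, ← map_mul, ← map_mul]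
      simp
    have e2 : ((ρ h * ρ g * (ρ h)⁻¹ : GL (Fin 2) k) : Matrix (Fin 2) (Fin 2) k) =
        r • (ρ g : Matrix (Fin 2) (Fin 2) k) := by
      rw [e, Units.val_mul, hs]
      simp
    refine hh r ?_
    rw [conjAct_trFree, trFree, trFree, e2, Matrix.trace_smul, smul_sub, smul_smul, smul_eq_mul,
      mul_div_assoc]
  · push Not at hsc
    obtain ⟨g, hgG, hg⟩ := hsc
    have hn : ∀ σ ∈ G, (trFree (ρ σ)).det = 0 := fun σ hσ => by
      rw [det_trFree h2, hall σ hσ]; simp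
    obtain ⟨h, hh⟩ := hρ.noStableLine _ hg (trace_trFree h2 _)
    have hhg : h * g * h⁻¹ ∈ G := conj_mem_fixMu h hgG
    have hx : conjAct (ρ h) (trFree (ρ g)) = trFree (ρ (h * g * h⁻¹)) := by
      rw [conjAct_trFree, map_mul, map_mul, map_inv]
    suffices horth : Matrix.trace (trFree (ρ g) * conjAct (ρ h) (trFree (ρ g))) = 0 by
      obtain ⟨r, hr⟩ := exists_smul_of_nilpotent h2 (trace_trFree h2 _)
        (by rw [trace_conjAct]; exact trace_trFree h2 _) hg (hn g hgG)
        (by rw [hx]; exact hn _ hhg) horth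
      exact hh r hr
    rw [hx]
    set a := ρ g
    set b := ρ (h * g * h⁻¹)
    have hA : Matrix.trace (a : Matrix (Fin 2) (Fin 2) k) ^ 2 = 4 := htr g hgG
    have hB : Matrix.trace (b : Matrix (Fin 2) (Fin 2) k) ^ 2 = 4 := htr _ hhg
    have hAB : Matrix.trace ((a * b : GL (Fin 2) k) : Matrix (Fin 2) (Fin 2) k) ^ 2 = 4 := by
      rw [← map_mul]; exact htr _ (mul_mem hgG hhg)
    have hAAB : Matrix.trace ((a * (a * b) : GL (Fin 2) k) : Matrix (Fin 2) (Fin 2) k) ^ 2 = 4 := by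
      rw [← map_mul, ← map_mul]; exact htr _ (mul_mem hgG (mul_mem hgG hhg))
    have hdetA : (a : Matrix (Fin 2) (Fin 2) k).det = 1 := det_of_mem_fixMu hρ hgG
    rw [Units.val_mul] at hAB
    rw [Units.val_mul, Units.val_mul] at hAAB
    simp only [trFree, Matrix.mul_sub, Matrix.sub_mul, Matrix.mul_smul, Matrix.smul_mul, mul_one,
      one_mul, Matrix.trace_sub, Matrix.trace_smul, Matrix.trace_one, smul_eq_mul,
      Fintype.card_fin, Nat.cast_ofNat]
    have hrec : Matrix.trace ((a : Matrix (Fin 2) (Fin 2) k) * ((a : Matrix (Fin 2) (Fin 2) k) *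
        (b : Matrix (Fin 2) (Fin 2) k))) =
        Matrix.trace (a : Matrix (Fin 2) (Fin 2) k) * Matrix.trace ((a : Matrix (Fin 2) (Fin 2) k) *
          (b : Matrix (Fin 2) (Fin 2) k))
        - (a : Matrix (Fin 2) (Fin 2) k).det * Matrix.trace (b : Matrix (Fin 2) (Fin 2) k) := by
      simp [trace_fin_two, det_fin_two, Matrix.mul_apply, Fin.sum_univ_two]; ring
    rw [hrec, hdetA] at hAAB
    set s := Matrix.trace (a : Matrix (Fin 2) (Fin 2) k)
    set t := Matrix.trace (b : Matrix (Fin 2) (Fin 2) k)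
    set u := Matrix.trace ((a : Matrix (Fin 2) (Fin 2) k) * (b : Matrix (Fin 2) (Fin 2) k))
    have hsq : (2 * u - s * t) ^ 2 = 0 := by
      linear_combination 2 * hAAB + (4 - 2 * s ^ 2) * hAB + (t ^ 2 - 8) * hA + 2 * hB
    have hzero : 2 * u - s * t = 0 := eq_zero_of_pow_eq_zero hsq
    field_simp
    linear_combination hzero

theorem exists_eigen_charpoly (hρ : TWHyp p ρ) {σ : GQ} (hd : disc (ρ σ) ≠ 0) :
    ∃ α β : k, α ≠ β ∧ (ρ σ : Matrix (Fin 2) (Fin 2) k).charpoly =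
      (Polynomial.X - Polynomial.C α) * (Polynomial.X - Polynomial.C β) := by
  obtain ⟨v, hv, r, hr⟩ := hρ.splitEigen σ
  set g : Matrix (Fin 2) (Fin 2) k := (ρ σ : Matrix (Fin 2) (Fin 2) k) with hg
  have hker : (g - r • 1).det = 0 := by
    rw [← Matrix.exists_mulVec_eq_zero_iff]
    exact ⟨v, hv, by rw [Matrix.sub_mulVec, hr]; simp [Matrix.smul_mulVec]⟩
  simp [det_fin_two] at hker
  refine ⟨r, Matrix.trace g - r, fun h => hd ?_, ?_⟩
  · rw [disc, ← hg, det_fin_two, trace_fin_two]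
    rw [trace_fin_two] at h
    linear_combination (2 * r - (g 0 0 + g 1 1)) * h - 4 * hker
  · rw [Matrix.charpoly_fin_two]
    have : g.det = r * (Matrix.trace g - r) := by
      rw [det_fin_two, trace_fin_two]; linear_combination hker
    rw [this, map_mul]
    ring_nf
    simp only [map_sub]
    ring

end

end FermatAgent.TW
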