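import Fermat.Agent.TW.PthRoots

/-!
# `F^× / F^{×p}` is generated by `p` and `1 + p` for the henselian field `F = ℚ_p^h`
-/

set_option autoImplicit false
set_option linter.unusedSectionVars false

open Matrix Module

namespace FermatAgent.TW

open FermatAgent.RT FermatAgent.Local FermatAgent.Duality FermatAgent.Duality.Local

noncomputable section

local notation "Qb" => AlgebraicClosure ℚ
local notation "GQ" => AlgebraicClosure ℚ ≃ₐ[ℚ] AlgebraicClosure ℚ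

variable {p : ℕ} [Fact p.Prime] {A : ValuationSubring (AlgebraicClosure ℚ)}

theorem val_intCast_le_sq {m : ℤ} (h : ((p : ℤ) ^ 2) ∣ m) :
    A.valuation (m : Qb) ≤ A.valuation (p : Qb) ^ 2 := by
  obtain ⟨c, rfl⟩ := h
  push_cast
  rw [map_mul, map_pow]
  exact mul_le_of_le_one_right' (val_le_one_of_mem (intCast_mem A c))

/-- A unit of `ℤ` is `W ^ p (1+p) ^ j` modulo `p²`. -/
theorem exists_congr_sq (a b : ℤ) (ha : ¬ (p : ℤ) ∣ a) (hb : ¬ (p : ℤ) ∣ b) :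
    ∃ W j : ℕ, ¬ p ∣ W ∧ ((p : ℤ) ^ 2) ∣ a - b * ((W : ℤ) ^ p * (1 + (p : ℤ)) ^ j) := by
  have hp : p.Prime := Fact.out
  have : NeZero (p ^ 2) := ⟨pow_ne_zero _ hp.ne_zero⟩
  have hpi : Prime (p : ℤ) := Nat.prime_iff_prime_int.1 hp
  -- inverse of `b` modulo `p²`
  obtain ⟨u, w, huw⟩ := (((hpi.coprime_iff_not_dvd).2 hb).pow_left (m := 2)).symm
  set U : ℕ := ((a * u : ℤ) : ZMod (p ^ 2)).val with hU
  have hUeq : ((p : ℤ) ^ 2) ∣ (a * u - (U : ℤ)) := by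
    have : (((U : ℤ)) : ZMod (p ^ 2)) = ((a * u : ℤ) : ZMod (p ^ 2)) := by
      rw [hU]; push_cast; exact ZMod.natCast_zmod_val _
    rw [ZMod.intCast_eq_intCast_iff_dvd_sub] at this
    push_cast at this
    exact this
  have hUp : ¬ p ∣ U := by
    intro h
    obtain ⟨c, hc⟩ := hUeq
    have h1 : (p : ℤ) ∣ a * u := by
      rw [show a * u = (U : ℤ) + (p : ℤ) ^ 2 * c by rw [← hc]; ring]
      exact dvd_add (Int.natCast_dvd_natCast.2 h) (dvd_mul_of_dvd_left (dvd_pow_self _ two_ne_zero) _)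
    rcases hpi.dvd_or_dvd h1 with h2 | h2
    · exact ha h2
    · apply hpi.not_isUnit
      rw [isUnit_iff_dvd_one, ← huw]
      exact dvd_add (dvd_mul_of_dvd_left h2 _) (dvd_mul_of_dvd_right (dvd_pow_self _ two_ne_zero) _)
  have hfer : (p : ℤ) ∣ (U : ℤ) ^ (p - 1) - 1 :=
    Int.prime_dvd_pow_sub_one hp (isCoprime_comm.1 ((hpi.coprime_iff_not_dvd).2
      (by exact_mod_cast hUp)))
  obtain ⟨t, ht⟩ := hfer
  set j : ℕ := ((-t : ℤ) : ZMod p).val with hj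
  obtain ⟨s, hs⟩ : (p : ℤ) ∣ -t - (j : ℤ) := by
    have : (((j : ℤ)) : ZMod p) = ((-t : ℤ) : ZMod p) := by
      rw [hj]; push_cast; exact ZMod.natCast_zmod_val _
    rwa [ZMod.intCast_eq_intCast_iff_dvd_sub] at this
  obtain ⟨r, hr⟩ : (p : ℤ) ^ 2 ∣ (1 + (p : ℤ)) ^ j - (1 + j * p) := by
    clear hs hj
    induction j with
    | zero => simp
    | succ j ih =>
      obtain ⟨r, hr⟩ := ih
      refine ⟨r * (1 + p) + j, ?_⟩
      rw [pow_succ]
      push_cast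
      linear_combination (1 + (p : ℤ)) * hr
  refine ⟨U, j, hUp, ?_⟩
  obtain ⟨c, hc⟩ := hUeq
  have hUpow : (U : ℤ) ^ p = (U : ℤ) * (1 + (p : ℤ) * t) := by
    rw [show (p : ℤ) * t = (U : ℤ) ^ (p - 1) - 1 from ht.symm, add_sub_cancel, ← pow_succ',
      Nat.sub_add_cancel hp.pos]
  rw [hUpow]
  refine ⟨a * w + b * c - b * U * (r * (1 + p * t) + j * t - s), ?_⟩
  linear_combination (-a) * huw + b * hc - b * (U : ℤ) * (1 + (p : ℤ) * t) * hr
    + b * (U : ℤ) * (p : ℤ) * hs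

theorem pow_classes (hp2 : p ≠ 2) (hA : A.LiesOverPrime p) {x : Qb} (hx0 : x ≠ 0)
    (hx : ∀ σ ∈ A.decompositionSubgroup ℚ, σ x = x) :
    ∃ (i : ℤ) (j : ℕ) (w : Qb), w ≠ 0 ∧ (∀ σ ∈ A.decompositionSubgroup ℚ, σ w = w) ∧
      x = (p : Qb) ^ i * (1 + (p : Qb)) ^ j * w ^ p := by
  have hp : p.Prime := Fact.out
  have hpq : (p : Qb) ≠ 0 := by exact_mod_cast hp.ne_zero
  have hmem : x ∈ localField ⊥ A := mem_localField_iff.2 fun σ hσ => hx σ hσ.2
  have hxv : A.valuation x ≠ 0 := (_root_.map_ne_zero _).2 hx0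
  obtain ⟨y, hy, hclose⟩ := exists_approx hp hA (K := ⊥) hmem
    (γ := A.valuation x * A.valuation (p : Qb) ^ 2)
    (mul_ne_zero hxv (pow_ne_zero _ val_p_pos.ne'))
  obtain ⟨q, rfl⟩ := IntermediateField.mem_bot.1 hy
  have hsq : A.valuation (p : Qb) ^ 2 < 1 := pow_lt_one₀ zero_le hA two_ne_zero
  have hv : A.valuation (algebraMap ℚ Qb q) = A.valuation x := by
    refine A.valuation.map_eq_of_sub_lt ?_
    rw [Valuation.map_sub_swap]
    exact hclose.trans_le (mul_le_of_le_one_right' hsq.le)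
  have hq0 : algebraMap ℚ Qb q ≠ 0 := fun h => hxv (by rw [← hv, h, map_zero])
  rw [eq_ratCast] at hclose hv hq0
  have hqne : q ≠ 0 := fun h => hq0 (by simp [h])
  -- write `q = p ^ i * a / b`
  obtain ⟨i, a, b, ha, hb, hqab⟩ : ∃ (i : ℤ) (a b : ℤ), ¬ (p : ℤ) ∣ a ∧ ¬ (p : ℤ) ∣ b ∧
      q = (p : ℚ) ^ i * a / b := by
    have key : ∀ N : ℤ, N ≠ 0 → ∃ (m : ℕ) (c : ℤ), ¬ (p : ℤ) ∣ c ∧ N = (p : ℤ) ^ m * c := by
      intro N hN
      obtain ⟨m, c, hc, e⟩ := Nat.exists_eq_pow_mul_and_not_dvd (Int.natAbs_ne_zero.2 hN) p hp.ne_one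
      refine ⟨m, N.sign * c, fun h => hc ?_, ?_⟩
      · have h' := Int.natAbs_dvd_natAbs.2 h
        rwa [Int.natAbs_natCast, Int.natAbs_mul, Int.natAbs_sign_of_ne_zero hN, one_mul,
          Int.natAbs_natCast] at h'
      · conv_lhs => rw [← Int.sign_mul_natAbs N, e]
        push_cast; ring
    obtain ⟨m, a, ha, hnum⟩ := key q.num (Rat.num_ne_zero.2 hqne)
    obtain ⟨n, b, hb, hden⟩ := key q.den (by exact_mod_cast q.den_ne_zero)
    refine ⟨(m : ℤ) - n, a, b, ha, hb, ?_⟩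
    have hpQ : (p : ℚ) ≠ 0 := by exact_mod_cast hp.ne_zero
    conv_lhs => rw [← Rat.num_div_den q]
    rw [show (q.num : ℚ) = (p : ℚ) ^ m * a by exact_mod_cast hnum,
      show ((q.den : ℕ) : ℚ) = (p : ℚ) ^ n * b by exact_mod_cast hden, zpow_sub₀ hpQ,
      zpow_natCast, zpow_natCast]
    field_simp
  obtain ⟨W, j, hW, hcong⟩ := exists_congr_sq a b ha hb
  set u : Qb := (1 + (p : Qb)) ^ j * (W : Qb) ^ p with hu
  have hWv : A.valuation (W : Qb) = 1 := val_natCast_eq_one hp hA hW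
  have h1pv : A.valuation (1 + (p : Qb)) = 1 := A.valuation.map_one_add_of_lt hA
  have huv : A.valuation u = 1 := by
    rw [hu, map_mul, map_pow, map_pow, hWv, h1pv, one_pow, one_pow, one_mul]
  have hbv : A.valuation (b : Qb) = 1 := val_intCast_eq_one hp hA hb
  have hu0 : u ≠ 0 := fun h => by simp [h] at huv
  have hb0 : (b : Qb) ≠ 0 := fun h => by simp [h] at hbv
  set z₀ : Qb := (p : Qb) ^ i * u with hz₀
  have hz0 : z₀ ≠ 0 := mul_ne_zero (zpow_ne_zero _ hpq) hu0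
  have hqQ : ((q : ℚ) : Qb) = (p : Qb) ^ i * a / b := by rw [hqab]; push_cast; rfl
  have hz₀v : A.valuation z₀ = A.valuation x := by
    rw [← hv, hqQ, hz₀, map_mul, huv, map_div₀, map_mul, val_intCast_eq_one hp hA ha, hbv, div_one]
  have hfix : ∀ σ ∈ A.decompositionSubgroup ℚ, σ (x / z₀) = x / z₀ := fun σ hσ => by
    rw [map_div₀, hx σ hσ, hz₀, hu, map_mul, map_mul, map_pow, map_pow, map_zpow₀, map_natCast,
      map_add, map_one, map_natCast, map_natCast]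
  obtain ⟨z, hz, hzfix⟩ := exists_root_of_close hp2 hA (D := A.decompositionSubgroup ℚ)
    (fun σ hσ => hσ) hfix (by
    rw [show x / z₀ - 1 = (x - z₀) / z₀ by field_simp, map_div₀, div_le_iff₀
      (zero_lt_iff.2 ((_root_.map_ne_zero _).2 hz0)), hz₀v, mul_comm]
    rw [show x - z₀ = (x - (q : Qb)) + (p : Qb) ^ i / (b : Qb) *
        (((a - b * ((W : ℤ) ^ p * (1 + (p : ℤ)) ^ j) : ℤ)) : Qb) by
      rw [hqQ, hz₀, hu]; push_cast; field_simp; ring]
    refine A.valuation.map_add_le hclose.le ?_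
    rw [map_mul]
    refine mul_le_mul' (le_of_eq ?_) (val_intCast_le_sq hcong)
    rw [← hv, hqQ, map_div₀, map_div₀, map_mul, val_intCast_eq_one hp hA ha, mul_one])
  refine ⟨i, j, z * W, mul_ne_zero (fun h => ?_) ?_, fun σ hσ => ?_, ?_⟩
  · rw [h, zero_pow hp.ne_zero] at hz
    exact (div_ne_zero hx0 hz0) hz.symm
  · exact_mod_cast fun h0 : W = 0 => hW (h0 ▸ dvd_zero p)
  · rw [map_mul, hzfix σ hσ, map_natCast]
  · rw [mul_pow, hz, hz₀, hu]
    have h1 : (1 + (p : Qb)) ≠ 0 := fun h => by simp [h] at h1pv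
    have h2 : (W : Qb) ≠ 0 := fun h => by simp [h] at hWv
    field_simp

end

end FermatAgent.TW
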