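import Fermat.Agent.TW.GoodPrime
import Fermat.Agent.Duality.Local.Dense
import Fermat.Agent.Duality.Local.Kummer

/-!
# `p`-th powers in the henselian field `ℚ_p^h`: units congruent to `1` modulo `p²` are `p`-th powers
-/

set_option autoImplicit false

open Matrix Module

namespace FermatAgent.TW

open FermatAgent.RT FermatAgent.Local

noncomputable section

local notation "Qb" => AlgebraicClosure ℚ
local notation "GQ" => AlgebraicClosure ℚ ≃ₐ[ℚ] AlgebraicClosure ℚ

variable {p : ℕ} [Fact p.Prime] {A : ValuationSubring (AlgebraicClosure ℚ)}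

theorem val_one_sub_pow_le {ξ : Qb} (hξ : A.valuation ξ = 1) (m : ℕ) :
    A.valuation (1 - ξ ^ m) ≤ A.valuation (1 - ξ) := by
  induction m with
  | zero => simp
  | succ m ih =>
    rw [show 1 - ξ ^ (m + 1) = (1 - ξ) + ξ * (1 - ξ ^ m) by ring]
    refine A.valuation.map_add_le le_rfl ?_
    rw [map_mul, hξ, one_mul]; exact ih

theorem val_root_eq_one {ζ : Qb} {n : ℕ} (hn : n ≠ 0) (hζ : ζ ^ n = 1) : A.valuation ζ = 1 :=
  eq_one_of_pow_eq_one hn (by rw [← map_pow, hζ, map_one])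

theorem val_one_sub_zpow_root {ζ : Qb} (hζ : IsPrimitiveRoot ζ p) {i : ℕ} (hi : ¬ p ∣ i) :
    A.valuation (1 - ζ ^ i) = A.valuation (1 - ζ) := by
  have hp : p.Prime := Fact.out
  refine le_antisymm (val_one_sub_pow_le (val_root_eq_one hp.ne_zero hζ.pow_eq_one) i) ?_
  have hcop : Nat.Coprime i p := ((hp.coprime_iff_not_dvd).2 hi).symm
  have hη : IsPrimitiveRoot (ζ ^ i) p := hζ.pow_of_coprime i hcop
  obtain ⟨j, -, hj⟩ := hη.eq_pow_of_pow_eq_one hζ.pow_eq_one
  have h := val_one_sub_pow_le (A := A) (val_root_eq_one hp.ne_zero hη.pow_eq_one) j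
  rwa [hj] at h

theorem val_one_sub_root_pow {ζ : Qb} (hζ : IsPrimitiveRoot ζ p) :
    A.valuation (1 - ζ) ^ (p - 1) = A.valuation (p : Qb) := by
  have hp : p.Prime := Fact.out
  obtain ⟨n, hn⟩ := Nat.exists_eq_succ_of_ne_zero hp.ne_zero
  have h := IsPrimitiveRoot.prod_one_sub_pow_eq_order (n := n)
    (show IsPrimitiveRoot ζ (n + 1) by rw [← Nat.succ_eq_add_one, ← hn]; exact hζ)
  have h' := congrArg A.valuation h
  rw [map_prod] at h'
  rw [show ((n : Qb) + 1) = ((p : ℕ) : Qb) by rw [hn]; push_cast; rfl] at h'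
  rw [← h', Finset.prod_congr rfl fun x hx => val_one_sub_zpow_root hζ (fun hd => by
    have := Nat.le_of_dvd (by omega) hd
    have := Finset.mem_range.1 hx
    omega), Finset.prod_const, Finset.card_range, show p - 1 = n by omega]

theorem val_p_pos : (0 : A.ValueGroup) < A.valuation (p : Qb) :=
  zero_lt_iff.2 ((_root_.map_ne_zero _).2 (by exact_mod_cast (Fact.out : p.Prime).ne_zero))

/-- `v(1-ζ) · p < v (p²)` (additively), written multiplicatively. -/
theorem val_sq_lt_root_pow (hp2 : p ≠ 2) (hA : A.LiesOverPrime p) {ζ : Qb}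
    (hζ : IsPrimitiveRoot ζ p) :
    A.valuation (p : Qb) ^ 2 < A.valuation (1 - ζ) ^ p := by
  have hp : p.Prime := Fact.out
  have hp3 : 3 ≤ p := by have := hp.two_le; omega
  by_contra hle
  have h1 : A.valuation (p : Qb) ^ p ≤ A.valuation (p : Qb) ^ (2 * (p - 1)) := by
    calc A.valuation (p : Qb) ^ p = (A.valuation (1 - ζ) ^ p) ^ (p - 1) := by
          rw [← val_one_sub_root_pow hζ, ← pow_mul, ← pow_mul, mul_comm]
      _ ≤ (A.valuation (p : Qb) ^ 2) ^ (p - 1) := pow_le_pow_left₀ zero_le (not_lt.1 hle) _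
      _ = _ := by rw [← pow_mul]
  have hlt : A.valuation (p : Qb) ^ (2 * (p - 1)) < A.valuation (p : Qb) ^ p :=
    pow_lt_pow_right_of_lt_one₀ val_p_pos hA (by omega)
  exact absurd h1 (not_le.2 hlt)

/-- The root near `1`. -/
theorem exists_root_of_close (hp2 : p ≠ 2) (hA : A.LiesOverPrime p) {D : Subgroup GQ}
    (hD : ∀ σ ∈ D, σ ∈ A.decompositionSubgroup ℚ) {x : Qb} (hx : ∀ σ ∈ D, σ x = x)
    (hclose : A.valuation (x - 1) ≤ A.valuation (p : Qb) ^ 2) :
    ∃ z : Qb, z ^ p = x ∧ ∀ σ ∈ D, σ z = z := by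
  classical
  have hp : p.Prime := Fact.out
  have : NeZero p := ⟨hp.ne_zero⟩
  obtain ⟨ζ, hζ⟩ := exists_primitiveRoot_qbar p
  obtain ⟨z₀, hz₀⟩ := IsAlgClosed.exists_pow_nat_eq x hp.pos
  have hx0 : x ≠ 0 := by
    rintro rfl
    rw [zero_sub, Valuation.map_neg, map_one] at hclose
    exact absurd hclose (not_le.2 (pow_lt_one₀ zero_le hA two_ne_zero))
  have hprod : 1 - x = ∏ i ∈ Finset.range p, (1 - ζ ^ i * z₀) := by
    have h := congrArg (Polynomial.eval 1) (X_pow_sub_C_eq_prod hζ hp.pos hz₀)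
    simpa [Polynomial.eval_prod] using h
  obtain ⟨i, -, hi⟩ : ∃ i ∈ Finset.range p,
      A.valuation (1 - ζ ^ i * z₀) < A.valuation (1 - ζ) := by
    by_contra! hall
    have h1 : A.valuation (1 - ζ) ^ p ≤ A.valuation (1 - x) := by
      rw [hprod, map_prod]
      calc A.valuation (1 - ζ) ^ p = ∏ _i ∈ Finset.range p, A.valuation (1 - ζ) := by simp
        _ ≤ _ := Finset.prod_le_prod' hall
    rw [Valuation.map_sub_swap A.valuation 1 x] at h1
    exact absurd (h1.trans hclose) (not_le.2 (val_sq_lt_root_pow hp2 hA hζ))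
  refine ⟨ζ ^ i * z₀, by rw [mul_pow, ← pow_mul, mul_comm i, pow_mul, hζ.pow_eq_one, one_pow,
    one_mul, hz₀], fun σ hσ => ?_⟩
  set z := ζ ^ i * z₀ with hz
  have hzp : z ^ p = x := by
    rw [hz, mul_pow, ← pow_mul, mul_comm i, pow_mul, hζ.pow_eq_one, one_pow, one_mul, hz₀]
  have hz0 : z ≠ 0 := fun h => hx0 (by rw [← hzp, h, zero_pow hp.ne_zero])
  have hσz : (σ z / z) ^ p = 1 := by rw [div_pow, ← map_pow, hzp, hx σ hσ, div_self hx0]
  obtain ⟨j, hj, hjeq⟩ := hζ.eq_pow_of_pow_eq_one hσz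
  rcases Nat.eq_zero_or_pos j with rfl | hjpos
  · rw [pow_zero] at hjeq
    exact eq_of_div_eq_one hjeq.symm
  exfalso
  have hσv : A.valuation (1 - σ z) < A.valuation (1 - ζ) := by
    have e := val_galois_eq (hD σ hσ) (1 - z)
    rw [map_sub, map_one] at e
    rw [e]; exact hi
  have hzv : A.valuation z = 1 := by
    refine eq_one_of_pow_eq_one hp.ne_zero ?_
    rw [← map_pow, hzp]
    have h := A.valuation.map_one_add_of_lt
      (hclose.trans_lt (pow_lt_one₀ zero_le hA two_ne_zero))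
    rwa [add_sub_cancel] at h
  have h3 : A.valuation (z * (1 - ζ ^ j)) < A.valuation (1 - ζ) := by
    have e : z * (1 - ζ ^ j) = (1 - σ z) - (1 - z) := by
      rw [hjeq]; field_simp; ring
    rw [e]
    exact (A.valuation.map_sub _ _).trans_lt (max_lt hσv hi)
  rw [map_mul, hzv, one_mul,
    val_one_sub_zpow_root hζ (fun hd => absurd (Nat.le_of_dvd hjpos hd) (not_le.2 hj))] at h3
  exact lt_irrefl _ h3

end

end FermatAgent.TW
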