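import Fermat.Agent.TW.DicksonMain

/-!
# Cocycles with values in trace-zero matrices for the twisted adjoint action `a ↦ det g • g a g⁻¹`
-/

set_option autoImplicit false

open scoped Pointwise
open Matrix

namespace FermatAgent.TW

noncomputable section

variable {k : Type*} [Field k]

local notation "M2" => Matrix (Fin 2) (Fin 2) k

/-- `a ↦ det g • g a g⁻¹` -/
def twAd (g : GL (Fin 2) k) (a : Matrix (Fin 2) (Fin 2) k) : Matrix (Fin 2) (Fin 2) k :=
  (g : M2).det • ((g : M2) * a * ((g⁻¹ : GL (Fin 2) k) : M2))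

theorem twAd_mul (g h : GL (Fin 2) k) (a : M2) : twAd (g * h) a = twAd g (twAd h a) := by
  simp only [twAd, Units.val_mul, Matrix.det_mul, _root_.mul_inv_rev, Matrix.mul_smul, Matrix.smul_mul,
    smul_smul, mul_assoc]

@[simp] theorem twAd_one (a : M2) : twAd 1 a = a := by simp [twAd]

theorem twAd_add (g : GL (Fin 2) k) (a b : M2) : twAd g (a + b) = twAd g a + twAd g b := by
  simp [twAd, Matrix.mul_add, Matrix.add_mul, smul_add]

theorem twAd_sub (g : GL (Fin 2) k) (a b : M2) : twAd g (a - b) = twAd g a - twAd g b := by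
  simp [twAd, Matrix.mul_sub, Matrix.sub_mul, smul_sub]

theorem twAd_smul (g : GL (Fin 2) k) (r : k) (a : M2) : twAd g (r • a) = r • twAd g a := by
  rw [twAd, twAd, Matrix.mul_smul, Matrix.smul_mul, smul_comm]

theorem twAd_sum {ι : Type*} (s : Finset ι) (g : GL (Fin 2) k) (a : ι → M2) :
    twAd g (∑ i ∈ s, a i) = ∑ i ∈ s, twAd g (a i) :=
  map_sum (AddMonoidHom.mk' (twAd g) (twAd_add g)) a s

theorem trace_twAd (g : GL (Fin 2) k) (a : M2) :
    Matrix.trace (twAd g a) = (g : M2).det * Matrix.trace a := by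
  rw [twAd, Matrix.trace_smul, Matrix.trace_units_conj, smul_eq_mul]

/-- cocycle condition on a subgroup -/
def IsTwCocycle (Δ : Subgroup (GL (Fin 2) k)) (c : Δ → M2) : Prop :=
  (∀ g, Matrix.trace (c g) = 0) ∧ ∀ g h, c (g * h) = c g + twAd (g : GL (Fin 2) k) (c h)

/-- coboundary condition -/
def IsTwCoboundary (Δ : Subgroup (GL (Fin 2) k)) (c : Δ → M2) : Prop :=
  ∃ b : M2, Matrix.trace b = 0 ∧ ∀ g, c g = twAd (g : GL (Fin 2) k) b - b

variable {Δ : Subgroup (GL (Fin 2) k)} {c : Δ → Matrix (Fin 2) (Fin 2) k}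

theorem IsTwCocycle.one (hc : IsTwCocycle Δ c) : c 1 = 0 := by
  have := hc.2 1 1
  simpa using this

theorem IsTwCocycle.sub_coboundary (hc : IsTwCocycle Δ c)
    {b : M2} (hb : Matrix.trace b = 0) :
    IsTwCocycle Δ fun g => c g - (twAd (g : GL (Fin 2) k) b - b) := by
  refine ⟨fun g => ?_, fun g h => ?_⟩
  · rw [Matrix.trace_sub, Matrix.trace_sub, hc.1, trace_twAd, hb]; ring
  · simp only [hc.2 g h, Subgroup.coe_mul, twAd_mul, twAd_sub]
    abel

/-- A cocycle which vanishes on a subgroup of index invertible in `k` is a coboundary. -/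
theorem isTwCoboundary_of_vanish [Finite Δ] (hc : IsTwCocycle Δ c) (P : Subgroup Δ)
    (hidx : (P.index : k) ≠ 0) (hP : ∀ u ∈ P, c u = 0) : IsTwCoboundary Δ c := by
  classical
  have : Fintype (Δ ⧸ P) := Fintype.ofFinite _
  have hcl : ∀ g, ∀ u ∈ P, c (g * u) = c g := fun g u hu => by
    rw [hc.2, hP u hu]; simp [twAd]
  let v : Δ ⧸ P → M2 := fun x => c x.out
  have hv : ∀ g : Δ, v (g : Δ ⧸ P) = c g := fun g => by
    obtain ⟨u, hu⟩ := QuotientGroup.mk_out_eq_mul P g
    show c _ = _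
    rw [hu, hcl g u u.2]
  set B := ∑ x : Δ ⧸ P, v x with hB
  have hn : (P.index : k) = (Fintype.card (Δ ⧸ P) : k) := by
    rw [Subgroup.index_eq_card, Nat.card_eq_fintype_card]
  have key : ∀ g : Δ, B = (P.index : k) • c g + twAd (g : GL (Fin 2) k) B := by
    intro g
    calc B = ∑ x : Δ ⧸ P, v (g • x) :=
          (Fintype.sum_equiv (MulAction.toPerm g) _ _ fun x => rfl).symm
      _ = ∑ x : Δ ⧸ P, (c g + twAd (g : GL (Fin 2) k) (v x)) := by
          refine Finset.sum_congr rfl fun x _ => ?_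
          obtain ⟨h, rfl⟩ := QuotientGroup.mk_surjective x
          rw [hv, MulAction.Quotient.smul_mk, hv, smul_eq_mul, hc.2]
      _ = _ := by
          rw [Finset.sum_add_distrib, Finset.sum_const, Finset.card_univ, twAd_sum, hn,
            Nat.cast_smul_eq_nsmul]
  refine ⟨-((P.index : k)⁻¹ • B), ?_, fun g => ?_⟩
  · rw [Matrix.trace_neg, Matrix.trace_smul, hB, Matrix.trace_sum]
    simp [v, hc.1]
  · have h1 := key g
    rw [eq_comm, ← eq_sub_iff_add_eq] at h1
    rw [show (-((P.index : k)⁻¹ • B)) = (-(P.index : k)⁻¹) • B by rw [neg_smul], twAd_smul]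
    calc c g = (P.index : k)⁻¹ • ((P.index : k) • c g) := by rw [inv_smul_smul₀ hidx]
      _ = _ := by rw [h1]; module

end

end FermatAgent.TW
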